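import Fermat.Agent.LT.H.WhitEigen
import Fermat.Agent.LT.H.Unfold
import Fermat.Agent.LT.B.BoxMean
import Fermat.Agent.LT.B.Cusp

/-!
# Fourier coefficients `cW` and Hecke operators

* `cW_eq_boxMean` : the Fourier coefficient as a mean over any box whose sides are periods;
* `sum_cW` : linear relations between the values of `φ` pass to the Fourier coefficients;
* `TY_cW` : the Hecke operator on the Fourier coefficients;
* `exists_cW_ne_zero` : a nonzero cusp form has a nonzero Fourier coefficient.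
-/

set_option autoImplicit false
set_option linter.unusedSectionVars false

open NumberField IsDedekindDomain Matrix MeasureTheory Module Set
open scoped ComplexConjugate ENNReal Real

namespace Fermat.Agent.LT.J.CH

open Fermat.LT Fermat.Agent.LT.H Fermat.Agent.LT.I Fermat.Agent.LT.CTree
open Fermat.Agent.LT.B (boxMean boxMean_indep boxMean_eq_zero_point TX TY upd)

variable {F : Type} [Field F] [NumberField F]

theorem eC_embI_ne_one (A : Arch F) {ν b : F} (h : ¬ ∃ m : ℤ, trC A (embI A (ν * b)) = m) :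
    eC A (-ν) (embI A b) ≠ 1 := by
  intro h1
  apply h
  unfold eC at h1
  rw [Complex.exp_eq_one_iff] at h1
  obtain ⟨n, hn⟩ := h1
  refine ⟨-n, ?_⟩
  have h2 : (2 * π * Complex.I : ℂ) ≠ 0 := Complex.two_pi_I_ne_zero
  have h3 : ((trC A (embI A (-ν) * embI A b) : ℝ) : ℂ) = (n : ℂ) := by
    apply mul_left_cancel₀ h2
    rw [hn]; ring
  have h4 : trC A (embI A (-ν) * embI A b) = (n : ℝ) := by exact_mod_cast h3
  have h5 : embI A (-ν) * embI A b = -embI A (ν * b) := by
    rw [map_neg, map_mul, neg_mul]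
  rw [h5, trC_neg] at h4
  push_cast
  linarith

theorem eC_embI_eq_one (A : Arch F) {ν b : F} (h : ∃ m : ℤ, trC A (embI A (ν * b)) = m) :
    eC A (-ν) (embI A b) = 1 := by
  obtain ⟨m, hm⟩ := h
  refine eC_eq_one_of_int A (m := -m) ?_
  rw [map_neg, neg_mul, trC_neg, ← map_mul, hm]
  push_cast; rfl

/-- a common basis -/
theorem exists_common_basis (A : Arch F) {ι : Type*} [Finite ι] (L : ι → AddSubgroup F)
    (hL : ∀ i, IsLat (L i)) (ν : F) : ∃ (n : ℕ) (b : Basis (Fin n) ℝ (A.I → ℂ)) (β : Fin n → F),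
      (∀ l, b l = embI A (β l)) ∧ (∀ i l, β l ∈ L i) ∧ ∀ l, eC A (-ν) (b l) = 1 := by
  classical
  have := Fintype.ofFinite ι
  choose c hc hcL using fun i => (hL i).low
  obtain ⟨d, hd, hdν⟩ : ∃ d : 𝓞 F, d ≠ 0 ∧ ∃ o : 𝓞 F, (o : F) = (d : F) * ν := by
    obtain ⟨⟨x, s⟩, h⟩ := IsLocalization.surj (nonZeroDivisors (𝓞 F)) ν
    refine ⟨s, nonZeroDivisors.ne_zero s.2, x, ?_⟩
    rw [mul_comm]; exact h.symm
  set e : 𝓞 F := d * ∏ i, c i with he
  have he0 : e ≠ 0 := mul_ne_zero hd (Finset.prod_ne_zero_iff.mpr fun i _ => hc i)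
  let L0 : AddSubgroup F := smulL (e : F) (algebraMap (𝓞 F) F).range.toAddSubgroup
  have heF : (e : F) ≠ 0 := by simpa using he0
  have hmemL0 : ∀ x, x ∈ L0 ↔ ∃ o : 𝓞 F, x = ((e * o : 𝓞 F) : F) := by
    intro x
    rw [mem_smulL heF]
    constructor
    · rintro ⟨o, ho⟩
      refine ⟨o, ?_⟩
      have ho' : (o : F) = (e : F)⁻¹ * x := ho
      change x = (e : F) * (o : F)
      rw [ho', mul_inv_cancel_left₀ heF]
    · rintro ⟨o, rfl⟩
      refine ⟨o, ?_⟩
      change (o : F) = (e : F)⁻¹ * ((e : F) * (o : F))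
      rw [inv_mul_cancel_left₀ heF]
  have hL0 : IsLat L0 := by
    refine ⟨⟨e, he0, fun b => (hmemL0 _).mpr ⟨b, rfl⟩⟩, ⟨1, one_ne_zero, fun b hb => ?_⟩⟩
    obtain ⟨o, rfl⟩ := (hmemL0 _).mp hb
    exact ⟨e * o, by simp⟩
  obtain ⟨m, β, b, hb, hmem⟩ := exists_latBasis A hL0
  have hβ : ∀ i, β i ∈ L0 := fun i => (hmem _).mpr ⟨Pi.single i 1, by
    rw [Finset.sum_eq_single i]
    · simp
    · intro j _ hj; simp [hj]
    · intro h; exact absurd (Finset.mem_univ i) h⟩
  refine ⟨m, b, β, hb, fun i l => ?_, fun l => ?_⟩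
  · obtain ⟨o, ho⟩ := (hmemL0 _).mp (hβ l)
    rw [ho, he, ← Finset.mul_prod_erase Finset.univ c (Finset.mem_univ i)]
    have := hcL i (d * (∏ j ∈ Finset.univ.erase i, c j) * o)
    convert this using 2
    ring
  · obtain ⟨o, ho⟩ := (hmemL0 _).mp (hβ l)
    rw [hb]
    apply eC_embI_eq_one
    obtain ⟨o', ho'⟩ := hdν
    have h1 : ν * β l = ((o' * (∏ i, c i) * o : 𝓞 F) : F) := by
      rw [ho, he]
      change _ = (o' : F) * _ * _
      rw [ho']
      change ν * ((d : F) * _ * _) = _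
      ring
    rw [h1, trC_embI]
    refine ⟨Algebra.trace ℤ (𝓞 F) (o' * (∏ i, c i) * o), ?_⟩
    have h2 := Algebra.trace_localization ℤ (nonZeroDivisors ℤ) (Rₘ := ℚ) (Sₘ := F) (o' * (∏ i, c i) * o)
    have h3 : Algebra.trace ℚ F ((o' * (∏ i, c i) * o : 𝓞 F) : F) =
      algebraMap ℤ ℚ (Algebra.trace ℤ (𝓞 F) (o' * (∏ i, c i) * o)) := h2
    rw [h3]
    simp

section

variable {D : Datum F} {φ : X D → ℂ}

/-- The Fourier coefficient is the mean over any box whose sides are periods. -/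
theorem cW_eq_boxMean (hc : Continuous φ) (hinv : ∀ (g : G2 F) x, φ (g • x) = φ x) (ν : F)
    (x : D.I → ℝ) (y : Y D.toLevel) {n : ℕ} (b : Basis (Fin n) ℝ (D.I → ℂ)) {β : Fin n → F}
    (hb : ∀ l, b l = embI D.toArch (β l)) (hβ : ∀ l, β l ∈ bY y)
    (hν : ∀ l, eC D.toArch (-ν) (b l) = 1) :
    cW φ ν x y = boxMean b (fun z => eC D.toArch (-ν) z * φ (pt z x y)) 0 := by
  have hcont : Continuous fun z : D.I → ℂ => eC D.toArch (-ν) z * φ (pt z x y) :=
    (continuous_eC D.toArch (-ν)).mul (hc.comp (continuous_pt_z x y))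
  have hper : ∀ l v, (fun z => eC D.toArch (-ν) z * φ (pt z x y)) (v + b l) =
      (fun z => eC D.toArch (-ν) z * φ (pt z x y)) v := by
    intro l v
    simp only
    rw [eC_add, hν l, mul_one, add_comm v, periodic_pt hinv x y (b l)
      ((mem_latOf _).mpr ⟨β l, hβ l, (hb l).symm⟩)]
  by_cases hν' : ν ∈ dualOf D.toArch (bY y)
  · obtain ⟨m, β', b', hb', hmem⟩ := exists_latBasis D.toArch (isLat_bY y)
    have hβ' : ∀ i, β' i ∈ bY y := fun i => (hmem _).mpr ⟨Pi.single i 1, by
      classical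
      rw [Finset.sum_eq_single i]
      · simp
      · intro j _ hj; simp [hj]
      · intro h; exact absurd (Finset.mem_univ i) h⟩
    have hlat : ∀ v, v ∈ latOf D.toArch (bY y) ↔ ∃ k : Fin m → ℤ, v = ∑ i, (k i : ℝ) • b' i := by
      intro v
      rw [mem_latOf]
      have key : ∀ k : Fin m → ℤ, embI D.toArch (∑ i, (k i : F) * β' i) = ∑ i, (k i : ℝ) • b' i := by
        intro k
        rw [map_sum]
        refine Finset.sum_congr rfl fun i _ => ?_
        rw [map_mul, map_intCast, hb']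
        funext j
        simp
      constructor
      · rintro ⟨x, hx, rfl⟩
        obtain ⟨k, rfl⟩ := (hmem x).mp hx
        exact ⟨k, key k⟩
      · rintro ⟨k, rfl⟩
        exact ⟨_, (hmem _).mpr ⟨k, rfl⟩, key k⟩
    have hs : IsBox volume (latOf D.toArch (bY y)) (lbox b') := isBox_lbox b' hlat
    rw [cW_eq_of_box hinv x hν' hs, fcoef, integral_lbox, smul_smul,
      inv_mul_cancel₀ (ENNReal.toReal_pos hs.pos hs.fin).ne', one_smul]
    have hbox : (box (0 : Fin m → ℤ)) =
        Set.univ.pi fun i => Ioc ((0 : Fin m → ℝ) i) ((1 : Fin m → ℝ) i) := by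
      ext u
      simp [box, Set.mem_pi]
    have hae : (box (0 : Fin m → ℤ)) =ᵐ[volume] Icc (0 : Fin m → ℝ) 1 := by
      rw [hbox]
      exact Measure.univ_pi_Ioc_ae_eq_Icc
    have h1 : ∫ u in box (0 : Fin m → ℤ), eC D.toArch (-ν) (b'.equivFunL.symm u) *
        φ (pt (b'.equivFunL.symm u) x y) =
        boxMean b' (fun z => eC D.toArch (-ν) z * φ (pt z x y)) 0 := by
      unfold boxMean
      rw [setIntegral_congr_set hae]
      refine integral_congr_ae (Filter.Eventually.of_forall fun u => ?_)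
      simp only
      have h2 : b'.equivFunL.symm u = ∑ i, u i • b' i := b'.equivFun_symm_apply u
      rw [h2, zero_add]
    rw [h1]
    refine boxMean_indep b' b hcont ?_ hper
    intro l v
    have hmm : b' l ∈ latOf D.toArch (bY y) := (mem_latOf _).mpr ⟨β' l, hβ' l, (hb' l).symm⟩
    rw [add_comm v, periodic_pt hinv x y (b' l) hmm, eC_neg_periodic D.toArch hν' hmm]
  · rw [cW, if_neg hν']
    have hex : ∃ b0 ∈ bY y, ¬ ∃ m : ℤ, trC D.toArch (embI D.toArch (ν * b0)) = m := by
      by_contra hcon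
      push Not at hcon
      apply hν'
      intro b0 hb0
      exact hcon b0 hb0
    obtain ⟨b0, hb0, hne⟩ := hex
    have h1 := boxMean_eq_zero_point b hcont hper (embI D.toArch b0)
    have h2 : boxMean b (fun z => eC D.toArch (-ν) z * φ (pt z x y)) (embI D.toArch b0) =
        eC D.toArch (-ν) (embI D.toArch b0) *
          boxMean b (fun z => eC D.toArch (-ν) z * φ (pt z x y)) 0 := by
      unfold boxMean
      rw [← integral_const_mul]
      refine integral_congr_ae (Filter.Eventually.of_forall fun u => ?_)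
      simp only
      rw [eC_add, zero_add, mul_assoc, periodic_pt hinv x y (embI D.toArch b0)
        ((mem_latOf _).mpr ⟨b0, hb0, rfl⟩)]
    rw [h2] at h1
    have h3 := eC_embI_ne_one D.toArch hne
    have h4 : (eC D.toArch (-ν) (embI D.toArch b0) - 1) *
        boxMean b (fun z => eC D.toArch (-ν) z * φ (pt z x y)) 0 = 0 := by
      rw [sub_mul, one_mul, h1, sub_self]
    rcases mul_eq_zero.mp h4 with h5 | h5
    · exact absurd (sub_eq_zero.mp h5) h3
    · exact h5.symm

/-- Linear relations between the values of `φ` pass to the Fourier coefficients. -/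
theorem sum_cW (hc : Continuous φ) (hinv : ∀ (g : G2 F) x, φ (g • x) = φ x) (ν : F)
    (x : D.I → ℝ) {ι : Type*} [Fintype ι] (y : ι → Y D.toLevel) (a : ι → ℂ)
    (h : ∀ z, ∑ i, a i * φ (pt z x (y i)) = 0) : ∑ i, a i * cW φ ν x (y i) = 0 := by
  obtain ⟨n, b, β, hb, hβ, hν⟩ := exists_common_basis D.toArch (fun i => bY (y i))
    (fun i => isLat_bY (y i)) ν
  have h1 : ∀ i, a i * cW φ ν x (y i) =
      boxMean b (fun z => a i * (eC D.toArch (-ν) z * φ (pt z x (y i)))) 0 := by
    intro i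
    rw [cW_eq_boxMean hc hinv ν x (y i) b hb (fun l => hβ i l) hν]
    unfold boxMean
    rw [← integral_const_mul]
  have h2 : ∑ i, a i * cW φ ν x (y i) =
      boxMean b (fun z => ∑ i, a i * (eC D.toArch (-ν) z * φ (pt z x (y i)))) 0 := by
    rw [Finset.sum_congr rfl fun i _ => h1 i]
    unfold boxMean
    rw [integral_finsetSum]
    intro i _
    refine ContinuousOn.integrableOn_compact isCompact_Icc ?_
    apply Continuous.continuousOn
    have hcont : Continuous fun z : D.I → ℂ => eC D.toArch (-ν) z * φ (pt z x (y i)) :=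
      (continuous_eC D.toArch (-ν)).mul (hc.comp (continuous_pt_z x (y i)))
    exact continuous_const.mul (hcont.comp (by fun_prop))
  rw [h2]
  have h3 : (fun z : D.I → ℂ => ∑ i, a i * (eC D.toArch (-ν) z * φ (pt z x (y i)))) = fun _ => 0 := by
    funext z
    have : ∀ i, a i * (eC D.toArch (-ν) z * φ (pt z x (y i))) =
        eC D.toArch (-ν) z * (a i * φ (pt z x (y i))) := fun i => by ring
    rw [Finset.sum_congr rfl fun i _ => this i, ← Finset.mul_sum, h z, mul_zero]
  rw [h3]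
  unfold boxMean
  simp

theorem cW_sum_zero (hc : Continuous φ) (hinv : ∀ (g : G2 F) x, φ (g • x) = φ x) {ι : Type*}
    (s : Finset ι) (c : ι → ℂ) (y : ι → Y D.toLevel) (ν : F)
    (h : ∀ z x, ∑ i ∈ s, c i * φ (pt z x (y i)) = 0) (x : D.I → ℝ) :
    ∑ i ∈ s, c i * cW φ ν x (y i) = 0 := by
  rw [← Finset.sum_coe_sort]
  refine sum_cW hc hinv ν x (fun i : s => y i) (fun i : s => c i) fun z => ?_
  rw [Finset.sum_coe_sort s fun i => c i * φ (pt z x (y i))]
  exact h z x

/-- `TY` as a sum over the neighbours -/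
theorem TY_eq_sum {w : Pl F} (hw : D.n w = 0) (a : Y D.toLevel → ℂ) (y : Y D.toLevel) {g : G2 F}
    (hg : y w = ((g : G2 F) : Yl D.toLevel w)) :
    TY w a y = ∑ o, a (upd y w (nb w g o)) := by
  unfold TY
  rw [hg, Tl_one hw]

/-- **The Hecke operator on the Fourier coefficients.** -/
theorem TY_cW (hc : Continuous φ) (hinv : ∀ (g : G2 F) x, φ (g • x) = φ x) {w : Pl F}
    (hw : D.n w = 0) {μ : ℂ} (h : ∀ p, TX w φ p = μ * φ p) (ν : F) (x : D.I → ℝ)
    (y : Y D.toLevel) : TY w (fun y => cW φ ν x y) y = μ * cW φ ν x y := by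
  obtain ⟨g, hg⟩ := QuotientGroup.mk_surjective (y w)
  rw [TY_eq_sum hw _ y hg.symm]
  have h1 := sum_cW hc hinv ν x (ι := Option (Option (𝓞 F ⧸ w.asIdeal)))
    (fun o => o.elim y fun o => upd y w (nb w g o)) (fun o => o.elim (-μ) fun _ => 1) (by
      intro z
      rw [Fintype.sum_option]
      simp only [Option.elim_none, Option.elim_some, one_mul]
      have h2 := h (pt z x y)
      have h3 : TX w φ (pt z x y) = ∑ o, φ (pt z x (upd y w (nb w g o))) :=
        TY_eq_sum hw (fun y' => φ ((pt z x y : X D).1, y')) y hg.symm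
      rw [← h3, h2]; ring)
  rw [Fintype.sum_option] at h1
  simp only [Option.elim_none, Option.elim_some, one_mul] at h1
  linear_combination h1

/-- If all Fourier coefficients vanish, the function vanishes. -/
theorem eq_zero_of_cW (hc : Continuous φ) (hinv : ∀ (g : G2 F) x, φ (g • x) = φ x)
    (x : D.I → ℝ) (y : Y D.toLevel) (h : ∀ ν : F, cW φ ν x y = 0) (z : D.I → ℂ) :
    φ (pt z x y) = 0 := by
  classical
  have hc' : Continuous fun z : D.I → ℂ => φ (pt z x y) := hc.comp (continuous_pt_z x y)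
  have hs := isBox_bx D.toArch (isLat_bY y)
  have h1 := parseval (isLat_bY y) hs hc' (periodic_pt hinv x y)
  have h2 : ∀ ν : F, (if ν ∈ dualOf D.toArch (bY y) then
      ‖fcoef D.toArch (bx D.toArch (bY y)) ν (fun z => φ (pt z x y))‖ₑ ^ 2 else 0) = 0 := by
    intro ν
    by_cases hν : ν ∈ dualOf D.toArch (bY y)
    · have h3 := h ν
      rw [cW, if_pos hν] at h3
      rw [if_pos hν, h3]
      simp
    · rw [if_neg hν]
  rw [tsum_congr h2, tsum_zero, mul_zero] at h1
  set t : Set (D.I → ℂ) := {z | φ (pt z x y) ≠ 0} with ht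
  have hto : IsOpen t := isOpen_ne_fun hc' continuous_const
  have h3 : volume (t ∩ bx D.toArch (bY y)) = 0 := by
    have hm : Measurable fun z : D.I → ℂ => ‖φ (pt z x y)‖ₑ ^ 2 :=
      hc'.measurable.enorm.pow_const 2
    rw [lintegral_eq_zero_iff hm] at h1
    have h4 := (ae_iff.mp h1)
    rw [Measure.restrict_apply' hs.meas] at h4
    refine measure_mono_null ?_ h4
    rintro z ⟨hz, hz2⟩
    refine ⟨?_, hz2⟩
    simp only [Pi.zero_apply, mem_ofPred_eq]
    intro h5
    apply hz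
    simpa using h5
  have h5 : volume t = 0 := by
    have := countable_latOf (A := D.toArch) (L := bY y)
    refine hs.isAddFundamentalDomain.measure_zero_of_invariant t ?_ h3
    intro g
    ext z
    constructor
    · rintro ⟨z', hz', rfl⟩
      change φ (pt ((g : D.I → ℂ) + z') x y) ≠ 0
      rw [periodic_pt hinv x y g g.2]
      exact hz'
    · intro hz
      refine ⟨-(g : D.I → ℂ) + z, ?_, ?_⟩
      · change φ (pt (-(g : D.I → ℂ) + z) x y) ≠ 0
        rw [periodic_pt hinv x y (-g) (neg_mem g.2)]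
        exact hz
      · change (g : D.I → ℂ) + (-(g : D.I → ℂ) + z) = z
        rw [add_neg_cancel_left]
  rw [hto.measure_eq_zero_iff (μ := volume)] at h5
  by_contra hne
  have : z ∈ t := hne
  rw [h5] at this
  exact this

/-- A nonzero cusp form has a nonzero Fourier coefficient. -/
theorem exists_cW_ne_zero (hφ : B.IsCusp φ) (h0 : φ ≠ 0) :
    ∃ (ν : Fˣ) (x : D.I → ℝ) (y : Y D.toLevel), cW φ (ν : F) x y ≠ 0 := by
  have hinv : ∀ (g : G2 F) x, φ (g • x) = φ x := fun g x => hφ.inv (pmk g) x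
  by_contra hcon
  push Not at hcon
  apply h0
  funext p
  obtain ⟨z, x, y, rfl⟩ := exists_pt p
  refine eq_zero_of_cW hφ.cont hinv x y (fun ν => ?_) z
  by_cases hν : ν = 0
  · subst hν
    exact cW_zero_eq_zero hφ.mean hinv x y
  · exact hcon (Units.mk0 ν hν) x y

/-- ... and even a nonzero `ν₀`-th coefficient for given `ν₀ ≠ 0`. -/
theorem exists_cW_ne_zero' (hφ : B.IsCusp φ) (h0 : φ ≠ 0) (ν₀ : Fˣ) :
    ∃ (x : D.I → ℝ) (y : Y D.toLevel), cW φ (ν₀ : F) x y ≠ 0 := by
  have hinv : ∀ (g : G2 F) x, φ (g • x) = φ x := fun g x => hφ.inv (pmk g) x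
  obtain ⟨ν, x, y, h⟩ := exists_cW_ne_zero hφ h0
  refine ⟨la D.toArch (ν₀⁻¹ * ν) + x, dg (ν₀⁻¹ * ν) • y, ?_⟩
  rw [cW_dg hinv]
  have : (ν₀ : F) * ((ν₀⁻¹ * ν : Fˣ) : F) = ν := by
    rw [← Units.val_mul, mul_inv_cancel_left]
  rwa [this]

end

end Fermat.Agent.LT.J.CH
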