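import Fermat.Agent.LT.J.Lat

/-!
# Algebra for Hecke operators at split primes (LT, piece J3)
-/

set_option autoImplicit false
set_option linter.unusedSimpArgs false

open Matrix

noncomputable section

namespace Fermat.Agent.LT.J.HK

open Fermat.LT Fermat.Agent.LT.J QE

/-- the data of a split prime -/
structure SplitPrime (p : ℕ) where
  /-- the prime element -/
  pi : EO
  ne : p ≠ 3
  nm_pi : nm pi = (p : ℤ)

variable {p : ℕ} [hp : Fact p.Prime] (D : SplitPrime p)

namespace SplitPrime

theorem pi_ne_zero : D.pi ≠ 0 := by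
  intro h
  have := D.nm_pi
  rw [h, nm_zero] at this
  have := hp.out.pos
  omega

theorem im_ne_zero : (D.pi.im : ZMod p) ≠ 0 := by
  intro h
  have h1 : ((nm D.pi : ℤ) : ZMod p) = 0 := by rw [D.nm_pi]; simp
  unfold nm at h1
  push_cast at h1
  rw [h] at h1
  have h2 : (D.pi.re : ZMod p) = 0 := by
    have : (D.pi.re : ZMod p) ^ 2 = 0 := by linear_combination h1
    exact pow_eq_zero_iff (two_ne_zero) |>.1 this
  rw [ZMod.intCast_zmod_eq_zero_iff_dvd] at h h2
  obtain ⟨x, hx⟩ := h2
  obtain ⟨y, hy⟩ := h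
  have h3 := D.nm_pi
  unfold nm at h3
  rw [hx, hy] at h3
  have hp0 : (p : ℤ) ≠ 0 := by exact_mod_cast hp.out.ne_zero
  have h4 : (p : ℤ) * (x ^ 2 - x * y + y ^ 2) = 1 := by
    apply mul_left_cancel₀ hp0
    linear_combination h3
  have h5 := Int.isUnit_iff.1 (IsUnit.of_mul_eq_one _ h4)
  have := hp.out.one_lt
  omega

/-- the image of `ω` -/
def t : ZMod p := -(D.pi.re : ZMod p) / (D.pi.im : ZMod p)

theorem t_rel : D.t ^ 2 + D.t + 1 = 0 := by
  have h := D.im_ne_zero
  have h1 : ((nm D.pi : ℤ) : ZMod p) = 0 := by rw [D.nm_pi]; simp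
  unfold nm at h1
  push_cast at h1
  unfold t
  field_simp
  linear_combination h1

/-- reduction modulo `π` -/
def red : EO →+* ZMod p where
  toFun x := x.re + x.im * D.t
  map_one' := by simp
  map_mul' x y := by
    rw [QE.mul_re, QE.mul_im]
    push_cast
    linear_combination (-(x.im : ZMod p) * y.im) * D.t_rel
  map_zero' := by simp
  map_add' x y := by
    rw [QuadraticAlgebra.re_add, QuadraticAlgebra.im_add]
    push_cast
    ring

theorem red_apply (x : EO) : D.red x = x.re + x.im * D.t := rfl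

theorem red_int (n : ℤ) : D.red (n : EO) = n := map_intCast D.red n

theorem red_pi : D.red D.pi = 0 := by
  have h := D.im_ne_zero
  rw [red_apply, t]
  field_simp
  ring

theorem red_star_pi : D.red (star D.pi) ≠ 0 := by
  have h := D.im_ne_zero
  have h3 : (3 : ZMod p) ≠ 0 := by
    intro h0
    have h1 : ((3 : ℕ) : ZMod p) = 0 := by exact_mod_cast h0
    rw [ZMod.natCast_eq_zero_iff] at h1
    exact D.ne ((Nat.prime_dvd_prime_iff_eq hp.out Nat.prime_three).1 h1)
  intro h1
  have h2 := D.red_pi
  rw [red_apply] at h1 h2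
  rw [QE.star_re, QE.star_im] at h1
  push_cast at h1
  have h4 : (D.pi.im : ZMod p) * (1 + 2 * D.t) = 0 := by linear_combination h2 - h1
  rcases mul_eq_zero.1 h4 with h5 | h5
  · exact h h5
  · apply h3
    linear_combination 4 * D.t_rel - (1 + 2 * D.t) * h5

/-- the image of `√-3` -/
def ta : ZMod p := 1 + 2 * D.t

theorem red_th : D.red th = D.ta := by
  rw [red_apply, th_re, th_im, ta]; push_cast; ring

theorem ta_sq : D.ta ^ 2 = -3 := by
  unfold ta
  linear_combination 4 * D.t_rel

theorem ta_ne_zero : D.ta ≠ 0 := by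
  have h3 : (3 : ZMod p) ≠ 0 := by
    intro h0
    have h1 : ((3 : ℕ) : ZMod p) = 0 := by exact_mod_cast h0
    rw [ZMod.natCast_eq_zero_iff] at h1
    exact D.ne ((Nat.prime_dvd_prime_iff_eq hp.out Nat.prime_three).1 h1)
  intro h
  have := D.ta_sq
  rw [h] at this
  apply h3
  linear_combination this

/-- divisibility by `p` -/
theorem dvd_iff (z : EO) : ((p : ℤ) ∣ z.re ∧ (p : ℤ) ∣ z.im) ↔
    D.red z = 0 ∧ D.red (star z) = 0 := by
  rw [← ZMod.intCast_zmod_eq_zero_iff_dvd, ← ZMod.intCast_zmod_eq_zero_iff_dvd, red_apply,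
    red_apply, QE.star_re, QE.star_im]
  constructor
  · rintro ⟨h1, h2⟩
    push_cast
    rw [h1, h2]
    simp
  · rintro ⟨h1, h2⟩
    push_cast at h2
    have h3 : (z.im : ZMod p) * D.ta = 0 := by unfold ta; linear_combination h1 - h2
    have h4 : (z.im : ZMod p) = 0 := (mul_eq_zero.1 h3).resolve_right D.ta_ne_zero
    rw [h4] at h1
    exact ⟨by linear_combination h1, h4⟩

theorem dvd_star_pi_mul (y : EO) :
    ((p : ℤ) ∣ (star D.pi * y).re ∧ (p : ℤ) ∣ (star D.pi * y).im) ↔ D.red y = 0 := by
  rw [D.dvd_iff, star_mul, star_star, map_mul, map_mul, D.red_pi, mul_zero]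
  simp [D.red_star_pi]

theorem dvd_pi_mul (y : EO) :
    ((p : ℤ) ∣ (D.pi * y).re ∧ (p : ℤ) ∣ (D.pi * y).im) ↔ D.red (star y) = 0 := by
  rw [D.dvd_iff, star_mul, map_mul, map_mul, D.red_pi, zero_mul]
  simp [D.red_star_pi]

theorem pi_dvd {x : EO} (h : D.red x = 0) : ∃ y, x = D.pi * y := by
  obtain ⟨⟨u, hu⟩, ⟨v, hv⟩⟩ := (D.dvd_star_pi_mul x).2 h
  refine ⟨⟨u, v⟩, ?_⟩
  have h1 : star D.pi * x = star D.pi * (D.pi * ⟨u, v⟩) := by
    rw [← mul_assoc, mul_comm (star D.pi) D.pi, mul_star_eq, D.nm_pi,
      QuadraticAlgebra.C_mul_eq_smul]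
    apply QuadraticAlgebra.ext
    · rw [hu, QuadraticAlgebra.re_smul, smul_eq_mul]
    · rw [hv, QuadraticAlgebra.im_smul, smul_eq_mul]
  have h2 : star D.pi ≠ 0 := fun h3 => D.pi_ne_zero (star_eq_zero.1 h3)
  exact mul_left_cancel₀ h2 h1

/-! ### The matrices of determinant `π` -/

/-- representatives -/
def hr : Option (ZMod p) → Matrix (Fin 2) (Fin 2) EO
  | none => !![D.pi, 0; 0, 1]
  | some b => !![1, (b.val : EO); 0, D.pi]

theorem det_hr (i : Option (ZMod p)) : (D.hr i).det = D.pi := by
  cases i with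
  | none => simp [hr]
  | some b => simp [hr]

/-- the set of matrices with determinant `π` up to units -/
abbrev MP : Type := {g : Matrix (Fin 2) (Fin 2) EO // ∃ u : EOˣ, g.det = u * D.pi}

theorem MP.det_ne {D : SplitPrime p} (g : D.MP) : g.1.det ≠ 0 := by
  obtain ⟨u, hu⟩ := g.2
  rw [hu]
  exact mul_ne_zero u.ne_zero D.pi_ne_zero

theorem red_natCast_val (b : ZMod p) : D.red (b.val : EO) = b := by
  rw [map_natCast, ZMod.natCast_zmod_val]

/-- the left decomposition map -/
def fL (x : GL (Fin 2) EO × Option (ZMod p)) : D.MP :=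
  ⟨x.1.1 * D.hr x.2, ⟨Matrix.GeneralLinearGroup.det x.1, by
    rw [Matrix.det_mul, D.det_hr]; rfl⟩⟩

theorem red_det_ne (a : GL (Fin 2) EO) :
    D.red (a.1 0 0) * D.red (a.1 1 1) - D.red (a.1 0 1) * D.red (a.1 1 0) ≠ 0 := by
  have h1 : IsUnit (D.red a.1.det) := a.det.isUnit.map D.red
  rw [Matrix.det_fin_two, map_sub, map_mul, map_mul] at h1
  exact h1.ne_zero

theorem fL_injective : Function.Injective D.fL := by
  rintro ⟨a, i⟩ ⟨a', j⟩ h
  have h1 : a.1 * D.hr i = a'.1 * D.hr j := congrArg Subtype.val h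
  have e : ∀ x y, D.red ((a.1 * D.hr i) x y) = D.red ((a'.1 * D.hr j) x y) := fun x y => by rw [h1]
  have d1 := D.red_det_ne a
  have d2 := D.red_det_ne a'
  have hij : i = j := by
    have e00 := e 0 0
    have e01 := e 0 1
    have e10 := e 1 0
    have e11 := e 1 1
    cases i with
    | none =>
      cases j with
      | none => rfl
      | some b' =>
        exfalso
        simp only [Matrix.mul_apply, Fin.sum_univ_two, hr, Matrix.of_apply, Matrix.cons_val',
          Matrix.cons_val_zero, Matrix.cons_val_one, Matrix.cons_val_fin_one, mul_zero, mul_one,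
          add_zero, zero_add, map_mul, map_add, D.red_pi, D.red_natCast_val] at e00 e01 e10 e11
        apply d2
        rw [← e00, ← e10]
        ring
    | some b =>
      cases j with
      | none =>
        exfalso
        simp only [Matrix.mul_apply, Fin.sum_univ_two, hr, Matrix.of_apply, Matrix.cons_val',
          Matrix.cons_val_zero, Matrix.cons_val_one, Matrix.cons_val_fin_one, mul_zero, mul_one,
          add_zero, zero_add, map_mul, map_add, D.red_pi, D.red_natCast_val] at e00 e01 e10 e11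
        apply d1
        rw [e00, e10]
        ring
      | some b' =>
        congr 1
        simp only [Matrix.mul_apply, Fin.sum_univ_two, hr, Matrix.of_apply, Matrix.cons_val',
          Matrix.cons_val_zero, Matrix.cons_val_one, Matrix.cons_val_fin_one, mul_zero, mul_one,
          add_zero, zero_add, map_mul, map_add, D.red_pi, D.red_natCast_val] at e00 e01 e10 e11
        by_contra hb
        have hb' : b - b' ≠ 0 := sub_ne_zero.2 hb
        have f0 : D.red (a.1 0 0) = 0 := by
          have : (b - b') * D.red (a.1 0 0) = 0 := by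
            rw [← e00] at e01
            linear_combination e01
          exact (mul_eq_zero.1 this).resolve_left hb'
        have f1 : D.red (a.1 1 0) = 0 := by
          have : (b - b') * D.red (a.1 1 0) = 0 := by
            rw [← e10] at e11
            linear_combination e11
          exact (mul_eq_zero.1 this).resolve_left hb'
        apply d1
        rw [f0, f1]
        ring
  subst hij
  have h2 : a.1 * D.hr i * (D.hr i).adjugate = a'.1 * D.hr i * (D.hr i).adjugate := by rw [h1]
  rw [mul_assoc, mul_assoc, Matrix.mul_adjugate, D.det_hr, Matrix.mul_smul, Matrix.mul_smul,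
    mul_one, mul_one] at h2
  have h3 : a = a' := by
    apply Units.ext
    refine Matrix.ext fun x y => ?_
    have h4 := congrFun (congrFun h2 x) y
    rw [Matrix.smul_apply, Matrix.smul_apply, smul_eq_mul, smul_eq_mul] at h4
    exact mul_left_cancel₀ D.pi_ne_zero h4
  rw [h3]

theorem fL_surjective : Function.Surjective D.fL := by
  rintro ⟨g, u, hu⟩
  have hdet := hu
  rw [Matrix.det_fin_two] at hdet
  have hred : D.red (g 0 0) * D.red (g 1 1) - D.red (g 0 1) * D.red (g 1 0) = 0 := by
    have := congrArg D.red hdet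
    rw [map_sub, map_mul, map_mul, map_mul, D.red_pi, mul_zero] at this
    exact this
  by_cases h0 : D.red (g 0 0) = 0 ∧ D.red (g 1 0) = 0
  · obtain ⟨x, hx⟩ := D.pi_dvd h0.1
    obtain ⟨y, hy⟩ := D.pi_dvd h0.2
    have hd : (!![x, g 0 1; y, g 1 1] : Matrix (Fin 2) (Fin 2) EO).det = u := by
      rw [Matrix.det_fin_two_of]
      apply mul_left_cancel₀ D.pi_ne_zero
      rw [hx, hy] at hdet
      linear_combination hdet
    refine ⟨(Matrix.GeneralLinearGroup.mk'' (!![x, g 0 1; y, g 1 1])
      (by rw [hd]; exact u.isUnit), none), ?_⟩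
    apply Subtype.ext
    change !![x, g 0 1; y, g 1 1] * D.hr none = g
    refine Matrix.ext fun i j => ?_
    fin_cases i <;> fin_cases j <;>
      simp [hr, Matrix.mul_apply, Fin.sum_univ_two, hx, hy, mul_comm]
  · have : ∃ b : ZMod p, D.red (g 0 1) = b * D.red (g 0 0) ∧ D.red (g 1 1) = b * D.red (g 1 0) := by
      by_cases h1 : D.red (g 0 0) = 0
      · have h2 : D.red (g 1 0) ≠ 0 := fun h2 => h0 ⟨h1, h2⟩
        refine ⟨D.red (g 1 1) / D.red (g 1 0), ?_, ?_⟩
        · rw [h1] at hred ⊢
          have : D.red (g 0 1) * D.red (g 1 0) = 0 := by linear_combination -hred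
          rw [(mul_eq_zero.1 this).resolve_right h2, mul_zero]
        · field_simp
      · refine ⟨D.red (g 0 1) / D.red (g 0 0), ?_, ?_⟩
        · field_simp
        · field_simp
          linear_combination hred
    obtain ⟨b, hb0, hb1⟩ := this
    have k0 : D.red (g 0 1 - (b.val : EO) * g 0 0) = 0 := by
      rw [map_sub, map_mul, D.red_natCast_val, hb0, sub_self]
    have k1 : D.red (g 1 1 - (b.val : EO) * g 1 0) = 0 := by
      rw [map_sub, map_mul, D.red_natCast_val, hb1, sub_self]
    obtain ⟨x, hx⟩ := D.pi_dvd k0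
    obtain ⟨y, hy⟩ := D.pi_dvd k1
    have hd : (!![g 0 0, x; g 1 0, y] : Matrix (Fin 2) (Fin 2) EO).det = u := by
      rw [Matrix.det_fin_two_of]
      apply mul_left_cancel₀ D.pi_ne_zero
      linear_combination hdet + g 1 0 * hx - g 0 0 * hy
    refine ⟨(Matrix.GeneralLinearGroup.mk'' (!![g 0 0, x; g 1 0, y])
      (by rw [hd]; exact u.isUnit), some b), ?_⟩
    apply Subtype.ext
    change !![g 0 0, x; g 1 0, y] * D.hr (some b) = g
    refine Matrix.ext fun i j => ?_
    fin_cases i <;> fin_cases j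
    · simp [hr, Matrix.mul_apply, Fin.sum_univ_two]
    · simp only [hr, Matrix.mul_apply, Fin.sum_univ_two]
      simp [-ZMod.natCast_val]
      linear_combination -hx
    · simp [hr, Matrix.mul_apply, Fin.sum_univ_two]
    · simp only [hr, Matrix.mul_apply, Fin.sum_univ_two]
      simp [-ZMod.natCast_val]
      linear_combination -hy

/-- left decomposition -/
def eL : GL (Fin 2) EO × Option (ZMod p) ≃ D.MP :=
  Equiv.ofBijective D.fL ⟨D.fL_injective, D.fL_surjective⟩

/-- the adjugate as a bijection of `GL₂` -/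
def adjG : GL (Fin 2) EO ≃ GL (Fin 2) EO where
  toFun a := ⟨a.1.adjugate, a⁻¹.1.adjugate, by
      rw [← Matrix.adjugate_mul_distrib, Units.inv_mul, Matrix.adjugate_one], by
      rw [← Matrix.adjugate_mul_distrib, Units.mul_inv, Matrix.adjugate_one]⟩
  invFun a := ⟨a.1.adjugate, a⁻¹.1.adjugate, by
      rw [← Matrix.adjugate_mul_distrib, Units.inv_mul, Matrix.adjugate_one], by
      rw [← Matrix.adjugate_mul_distrib, Units.mul_inv, Matrix.adjugate_one]⟩
  left_inv a := Units.ext (by
    change a.1.adjugate.adjugate = a.1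
    rw [Matrix.adjugate_fin_two, Matrix.adjugate_fin_two]
    refine Matrix.ext fun i j => ?_
    fin_cases i <;> fin_cases j <;> simp)
  right_inv a := Units.ext (by
    change a.1.adjugate.adjugate = a.1
    rw [Matrix.adjugate_fin_two, Matrix.adjugate_fin_two]
    refine Matrix.ext fun i j => ?_
    fin_cases i <;> fin_cases j <;> simp)

theorem adj_adj (g : Matrix (Fin 2) (Fin 2) EO) : g.adjugate.adjugate = g := by
  rw [Matrix.adjugate_fin_two, Matrix.adjugate_fin_two]
  refine Matrix.ext fun i j => ?_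
  fin_cases i <;> fin_cases j <;> simp

theorem det_adj (g : Matrix (Fin 2) (Fin 2) EO) : g.adjugate.det = g.det := by
  rw [Matrix.det_adjugate]; simp

/-- the adjugate as a bijection of `MP` -/
def adjM : D.MP ≃ D.MP where
  toFun g := ⟨g.1.adjugate, by rw [det_adj]; exact g.2⟩
  invFun g := ⟨g.1.adjugate, by rw [det_adj]; exact g.2⟩
  left_inv g := Subtype.ext (adj_adj g.1)
  right_inv g := Subtype.ext (adj_adj g.1)

/-- right decomposition -/
def eR : GL (Fin 2) EO × Option (ZMod p) ≃ D.MP :=
  ((Equiv.prodCongr adjG (Equiv.refl _)).trans D.eL).trans D.adjM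

theorem eL_val (a : GL (Fin 2) EO) (i : Option (ZMod p)) : (D.eL (a, i)).1 = a.1 * D.hr i := rfl

theorem eR_val (a : GL (Fin 2) EO) (i : Option (ZMod p)) :
    (D.eR (a, i)).1 = (D.hr i).adjugate * a.1 := by
  change (a.1.adjugate * D.hr i).adjugate = _
  rw [Matrix.adjugate_mul_distrib, adj_adj]

end SplitPrime

end Fermat.Agent.LT.J.HK
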