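import Fermat.Agent.LT.J.Sys

/-!
# Reduction theory for `GL₂(ℤ[ω])` on `H3` (LT, piece J5)

* `sieg`: the Siegel set `|z|² ≤ 3/4`, `t ≥ 1/2`; `exists_smul_mem_sieg`, `finite_smul_mem_sieg`.
* `rho`: an explicit weight supported in `sieg`.
-/

set_option autoImplicit false

open Complex Matrix MeasureTheory Set

open scoped ComplexConjugate ENNReal

noncomputable section

namespace Fermat.Agent.LT.J

open Fermat.LT QE

/-! ### instances -/

instance : Countable EO := by
  have : Function.Injective (fun x : EO => (x.re, x.im)) := by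
    intro x y h
    have h1 := congrArg Prod.fst h
    have h2 := congrArg Prod.snd h
    exact QuadraticAlgebra.ext h1 h2
  exact this.countable

instance : Countable (GL (Fin 2) EO) := by
  have : Function.Injective (fun g : GL (Fin 2) EO => (fun i j => g.1 i j : Fin 2 → Fin 2 → EO)) := by
    intro g h e
    exact Units.ext e
  exact this.countable

instance : ContinuousConstSMul (GL (Fin 2) EO) H3 where
  continuous_const_smul g := by
    change Continuous fun w : H3 => glC g • w
    exact continuous_const_smul (glC g)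

instance : MeasurableConstSMul (GL (Fin 2) EO) H3 where
  measurable_const_smul g := (continuous_const_smul g).measurable

instance : SMulInvariantMeasure (GL (Fin 2) EO) H3 volume where
  measure_preimage_smul g s hs := by
    change volume ((fun w : H3 => glC g • w) ⁻¹' s) = volume s
    exact measure_preimage_smul volume (glC g) s

/-! ### finiteness -/

theorem finite_normSq_le (R : ℝ) : {x : EO | normSq (toC x) ≤ R}.Finite := by
  have hinj : Function.Injective (fun x : EO => (x.re, x.im)) := by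
    intro x y h
    have h1 := congrArg Prod.fst h
    have h2 := congrArg Prod.snd h
    exact QuadraticAlgebra.ext h1 h2
  set n : ℤ := ⌈2 * R⌉ with hn
  have hfin : ((Icc (-n) n) ×ˢ (Icc (-n) n) : Set (ℤ × ℤ)).Finite :=
    (finite_Icc _ _).prod (finite_Icc _ _)
  refine (hfin.preimage hinj.injOn).subset ?_
  intro x hx
  simp only [mem_ofPred_eq] at hx
  rw [normSq_toC] at hx
  have h1 : ((nm x : ℤ) : ℝ) ≤ R := hx
  have h2 : (2 * (nm x : ℤ) : ℤ) ≤ n := by
    have : ((2 * nm x : ℤ) : ℝ) ≤ (n : ℝ) := by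
      push_cast
      calc 2 * ((nm x : ℤ) : ℝ) ≤ 2 * R := by linarith
        _ ≤ _ := Int.le_ceil _
    exact_mod_cast this
  have h3 : x.re ^ 2 + x.im ^ 2 ≤ n := by
    have : 2 * nm x = x.re ^ 2 + x.im ^ 2 + (x.re - x.im) ^ 2 := by
      unfold nm; ring
    nlinarith [sq_nonneg (x.re - x.im)]
  have hab : ∀ m : ℤ, |m| ≤ m ^ 2 := by
    intro m
    rcases lt_trichotomy m 0 with h | h | h
    · rw [abs_of_neg h]; nlinarith
    · rw [h]; simp
    · rw [abs_of_pos h]; nlinarith
  have h4 : |x.re| ≤ n := (hab _).trans (by nlinarith [sq_nonneg x.im])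
  have h5 : |x.im| ≤ n := (hab _).trans (by nlinarith [sq_nonneg x.re])
  simp only [mem_preimage, mem_prod, mem_Icc]
  exact ⟨abs_le.1 h4, abs_le.1 h5⟩

theorem one_le_normSq_toC {x : EO} (hx : x ≠ 0) : 1 ≤ normSq (toC x) := by
  rw [normSq_toC]
  have h1 := nm_nonneg x
  have h2 : nm x ≠ 0 := fun h => hx ((nm_eq_zero_iff x).1 h)
  have : (1 : ℤ) ≤ nm x := by omega
  exact_mod_cast this

/-- rounding -/
theorem exists_round (z : ℂ) : ∃ b : EO, normSq (z - toC b) ≤ 3 / 4 := by
  set y : ℝ := z.im / (Real.sqrt 3 / 2) with hy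
  set x : ℝ := z.re + y / 2 with hx
  refine ⟨⟨round x, round y⟩, ?_⟩
  have hs := sqrt3_pos
  have hzi : z.im = y * (Real.sqrt 3 / 2) := by rw [hy]; field_simp
  have hzr : z.re = x - y / 2 := by rw [hx]; ring
  rw [normSq_apply, sub_re, sub_im, toC_re, toC_im, hzi, hzr]
  simp only
  have h1 := abs_le.1 (abs_sub_round x)
  have h2 := abs_le.1 (abs_sub_round y)
  set X := x - round x
  set Y := y - round y
  have e : (x - y / 2 - ((round x : ℤ) - (round y : ℤ) / 2)) * (x - y / 2 - ((round x : ℤ) - (round y : ℤ) / 2))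
      + (y * (Real.sqrt 3 / 2) - (round y : ℤ) * (Real.sqrt 3 / 2)) * (y * (Real.sqrt 3 / 2) - (round y : ℤ) * (Real.sqrt 3 / 2))
      = X ^ 2 - X * Y + Y ^ 2 := by
    have := sqrt3_sq
    linear_combination ((y - round y) ^ 2 / 4) * this
  rw [e]
  nlinarith [mul_nonneg (sub_nonneg.2 h1.2) (sub_nonneg.2 h2.2), mul_nonneg (sub_nonneg.2 h1.1) (sub_nonneg.2 h2.1),
    mul_nonneg (sub_nonneg.2 h1.2) (sub_nonneg.2 h2.1), mul_nonneg (sub_nonneg.2 h1.1) (sub_nonneg.2 h2.2),
    mul_nonneg (sub_nonneg.2 h1.2) (sub_nonneg.2 h1.1), mul_nonneg (sub_nonneg.2 h2.2) (sub_nonneg.2 h2.1)]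

/-- the denominator of an integral matrix -/
def dn (p : EO × EO) (w : H3) : ℝ :=
  normSq (toC p.1 * w.z + toC p.2) + normSq (toC p.1) * w.t ^ 2

theorem den_glC (g : GL (Fin 2) EO) (w : H3) : H3.den (glC g) w = dn (g.1 1 0, g.1 1 1) w := rfl

theorem smul_t (g : GL (Fin 2) EO) (w : H3) : (g • w).t = w.t / dn (g.1 1 0, g.1 1 1) w := by
  rw [glEO_smul, H3.smul_t, norm_det_glC, one_mul, den_glC]

theorem dn_nonneg (p : EO × EO) (w : H3) : 0 ≤ dn p w :=
  add_nonneg (normSq_nonneg _) (mul_nonneg (normSq_nonneg _) (sq_nonneg _))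

theorem dn_pos (g : GL (Fin 2) EO) (w : H3) : 0 < dn (g.1 1 0, g.1 1 1) w := by
  rw [← den_glC]; exact H3.den_pos _ _

theorem finite_dn_le (w : H3) (R : ℝ) : {p : EO × EO | dn p w ≤ R}.Finite := by
  have ht := w.t_pos
  set R1 : ℝ := R / w.t ^ 2 with hR1
  set R2 : ℝ := 2 * R + 2 * (R1 * normSq w.z) with hR2
  refine ((finite_normSq_le R1).prod (finite_normSq_le R2)).subset ?_
  rintro ⟨c, d⟩ h
  simp only [mem_ofPred_eq, dn] at h
  have h1 : normSq (toC c) * w.t ^ 2 ≤ R := by
    have := normSq_nonneg (toC c * w.z + toC d); linarith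
  have h2 : normSq (toC c) ≤ R1 := by
    rw [hR1, le_div_iff₀ (by positivity)]; exact h1
  have h3 : normSq (toC c * w.z + toC d) ≤ R := by
    have : 0 ≤ normSq (toC c) * w.t ^ 2 := mul_nonneg (normSq_nonneg _) (sq_nonneg _)
    linarith
  have h4 : normSq (toC d) ≤ 2 * normSq (toC c * w.z + toC d) + 2 * normSq (toC c * w.z) := by
    rw [normSq_apply, normSq_apply (toC c * w.z + toC d), normSq_apply (toC c * w.z), add_re,
      add_im]
    nlinarith [sq_nonneg ((toC d).re + 2 * (toC c * w.z).re),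
      sq_nonneg ((toC d).im + 2 * (toC c * w.z).im)]
  have h5 : normSq (toC c * w.z) ≤ R1 * normSq w.z := by
    rw [normSq_mul]; exact mul_le_mul_of_nonneg_right h2 (normSq_nonneg _)
  exact ⟨h2, by simp only [mem_ofPred_eq]; linarith⟩

theorem dn_zero_one (w : H3) : dn (0, 1) w = 1 := by
  simp [dn]

/-- there is a point of maximal height in each orbit -/
theorem exists_max (w : H3) : ∃ g : GL (Fin 2) EO, ∀ h : GL (Fin 2) EO, (h • w).t ≤ (g • w).t := by
  set T : Set (EO × EO) := {p | dn p w ≤ 1 ∧ ∃ g : GL (Fin 2) EO, (g.1 1 0, g.1 1 1) = p} with hT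
  have hfin : T.Finite := (finite_dn_le w 1).subset fun p hp => hp.1
  have hne : T.Nonempty := ⟨(0, 1), by rw [dn_zero_one], 1, by simp⟩
  obtain ⟨p, hp, hmin⟩ := Set.exists_min_image T (fun p => dn p w) hfin hne
  obtain ⟨hp1, g, hg⟩ := hp
  refine ⟨g, fun h => ?_⟩
  rw [smul_t, smul_t]
  have hle : dn (g.1 1 0, g.1 1 1) w ≤ dn (h.1 1 0, h.1 1 1) w := by
    by_cases h1 : dn (h.1 1 0, h.1 1 1) w ≤ 1
    · rw [hg]; exact hmin _ ⟨h1, h, rfl⟩
    · rw [hg]; exact hp1.trans (not_le.1 h1).le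
  exact div_le_div_of_nonneg_left w.t_pos.le (dn_pos g w) hle

/-- translation matrix -/
def trM (b : EO) : GL (Fin 2) EO :=
  Matrix.GeneralLinearGroup.mk'' !![1, b; 0, 1] (by simp [Matrix.det_fin_two])

/-- the flip -/
def flM : GL (Fin 2) EO :=
  Matrix.GeneralLinearGroup.mk'' !![0, 1; 1, 0] (by simp [Matrix.det_fin_two])

theorem trM_smul (b : EO) (w : H3) : (trM b • w).z = w.z + toC b ∧ (trM b • w).t = w.t := by
  constructor
  · rw [glEO_smul, H3.smul_z]
    have e00 : (glC (trM b)) 0 0 = 1 := by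
      change toC 1 = 1; rw [map_one]
    have e01 : (glC (trM b)) 0 1 = toC b := rfl
    have e10 : (glC (trM b)) 1 0 = 0 := by
      change toC 0 = 0; rw [map_zero]
    have e11 : (glC (trM b)) 1 1 = 1 := by
      change toC 1 = 1; rw [map_one]
    rw [H3.den, e00, e01, e10, e11]
    simp
  · rw [smul_t]
    have : dn ((trM b).1 1 0, (trM b).1 1 1) w = 1 := by
      change dn (0, 1) w = 1
      exact dn_zero_one w
    rw [this, div_one]

theorem flM_smul_t (w : H3) : (flM • w).t = w.t / (normSq w.z + w.t ^ 2) := by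
  rw [smul_t]
  congr 1
  change dn (1, 0) w = _
  simp [dn]

/-- the Siegel set -/
def sieg : Set H3 := {w | normSq w.z ≤ 3 / 4 ∧ 1 / 2 ≤ w.t}

theorem exists_smul_mem_sieg (w : H3) : ∃ g : GL (Fin 2) EO, g • w ∈ sieg := by
  obtain ⟨g, hg⟩ := exists_max w
  obtain ⟨b, hb⟩ := exists_round (g • w).z
  refine ⟨trM (-b) * g, ?_⟩
  rw [mul_smul]
  obtain ⟨hz, ht⟩ := trM_smul (-b) (g • w)
  have hz' : normSq (trM (-b) • g • w).z ≤ 3 / 4 := by
    rw [hz, map_neg, ← sub_eq_add_neg]; exact hb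
  refine ⟨hz', ?_⟩
  set w1 := trM (-b) • g • w with hw1
  have h1 : (flM • w1).t ≤ w1.t := by
    rw [hw1, ht, ← mul_smul, ← mul_smul]
    exact hg _
  rw [flM_smul_t] at h1
  have hpos : 0 < normSq w1.z + w1.t ^ 2 :=
    add_pos_of_nonneg_of_pos (normSq_nonneg _) (pow_pos w1.t_pos 2)
  rw [div_le_iff₀ hpos] at h1
  have h2 : 1 ≤ normSq w1.z + w1.t ^ 2 := by
    by_contra hlt
    push Not at hlt
    have := mul_lt_mul_of_pos_left hlt w1.t_pos
    linarith
  nlinarith [w1.t_pos]

theorem dn_ge (g : GL (Fin 2) EO) (w : H3) : min 1 (w.t ^ 2) ≤ dn (g.1 1 0, g.1 1 1) w := by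
  by_cases hc : g.1 1 0 = 0
  · have hd : g.1 1 1 ≠ 0 := by
      intro hd
      have := g.det.isUnit
      have h0 : (g.det : EO) = 0 := by
        change g.1.det = 0
        rw [Matrix.det_fin_two, hc, hd]; ring
      rw [h0] at this
      exact not_isUnit_zero this
    refine (min_le_left _ _).trans ?_
    rw [dn]
    simp only
    rw [hc, map_zero, zero_mul, zero_add, normSq_zero, zero_mul, add_zero]
    exact one_le_normSq_toC hd
  · refine (min_le_right _ _).trans ?_
    rw [dn]
    simp only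
    have h1 := one_le_normSq_toC hc
    nlinarith [normSq_nonneg (toC (g.1 1 0) * w.z + toC (g.1 1 1)), sq_nonneg w.t]

theorem smul_t_le (g : GL (Fin 2) EO) (w : H3) : (g • w).t ≤ w.t + 1 / w.t := by
  have ht := w.t_pos
  rw [smul_t, div_le_iff₀ (dn_pos g w)]
  have h1 := dn_ge g w
  rcases le_total 1 (w.t ^ 2) with h | h
  · rw [min_eq_left h] at h1
    have : 0 < 1 / w.t := by positivity
    nlinarith
  · rw [min_eq_right h] at h1
    have e : w.t = 1 / w.t * w.t ^ 2 := by field_simp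
    calc w.t = 1 / w.t * w.t ^ 2 := e
      _ ≤ (w.t + 1 / w.t) * w.t ^ 2 := by
        apply mul_le_mul_of_nonneg_right _ (sq_nonneg _)
        linarith
      _ ≤ _ := by
        apply mul_le_mul_of_nonneg_left h1
        positivity

theorem Q_bound {w : H3} (hw : w ∈ sieg) {T : ℝ} (hT : w.t ≤ T) (x y : ℂ) :
    normSq x ≤ (2 * T + 3) * w.Q x y ∧ normSq y ≤ 2 * w.Q x y := by
  have ht := w.t_pos
  have hQ : w.Q x y * w.t = normSq (x - w.z * y) + w.t ^ 2 * normSq y := by
    rw [H3.Q, div_mul_cancel₀ _ ht.ne']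
  have hQ0 := w.Q_nonneg x y
  have hy0 := normSq_nonneg y
  have hx0 := normSq_nonneg (x - w.z * y)
  obtain ⟨h1, h2⟩ := hw
  have hy : normSq y ≤ 2 * w.Q x y := by
    have h3 : w.t ^ 2 * normSq y ≤ w.Q x y * w.t := by linarith
    have h4 : w.t * (w.t * normSq y) ≤ w.t * w.Q x y := by nlinarith
    have h5 : w.t * normSq y ≤ w.Q x y := le_of_mul_le_mul_left h4 ht
    nlinarith
  refine ⟨?_, hy⟩
  have h3 : normSq (x - w.z * y) ≤ w.Q x y * T := by
    have : 0 ≤ w.t ^ 2 * normSq y := by positivity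
    nlinarith
  have h4 : normSq x ≤ 2 * normSq (x - w.z * y) + 2 * normSq (w.z * y) := by
    have e : x = (x - w.z * y) + w.z * y := by ring
    conv_lhs => rw [e]
    rw [normSq_apply (x - w.z * y + w.z * y), add_re, add_im, normSq_apply (x - w.z * y),
      normSq_apply (w.z * y)]
    nlinarith [sq_nonneg ((x - w.z * y).re - (w.z * y).re),
      sq_nonneg ((x - w.z * y).im - (w.z * y).im)]
  have h5 : normSq (w.z * y) ≤ 3 / 4 * (2 * w.Q x y) := by
    rw [normSq_mul]
    exact mul_le_mul h1 hy hy0 (by norm_num)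
  nlinarith

theorem finite_smul_mem_sieg (w : H3) : {g : GL (Fin 2) EO | g • w ∈ sieg}.Finite := by
  have ht := w.t_pos
  set T : ℝ := w.t + 1 / w.t with hT
  have hT0 : 0 < T := by positivity
  set R : ℝ := (2 * T + 3) * (w.Q 1 0 + w.Q 0 1) with hR
  have hQ1 := w.Q_nonneg 1 0
  have hQ2 := w.Q_nonneg 0 1
  have hfin : {f : Fin 2 → Fin 2 → EO | ∀ i j, f i j ∈ {x : EO | normSq (toC x) ≤ R}}.Finite := by
    have := Set.Finite.pi' (fun _ : Fin 2 => Set.Finite.pi' (fun _ : Fin 2 => finite_normSq_le R))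
    exact this
  have hinj : Function.Injective (fun g : GL (Fin 2) EO => (fun i j => g.1 i j : Fin 2 → Fin 2 → EO)) := by
    intro g h e
    exact Units.ext e
  refine (hfin.preimage hinj.injOn).subset ?_
  intro g hg
  have hT' : (g • w).t ≤ T := smul_t_le g w
  have e1 := H3.Q_smul_apply (glC g) w 1 0
  have e2 := H3.Q_smul_apply (glC g) w 0 1
  rw [norm_det_glC] at e1 e2
  simp only [mul_one, mul_zero, add_zero, zero_add, one_mul] at e1 e2
  rw [← glEO_smul] at e1 e2
  have b1 := Q_bound hg hT' (glC g 0 0) (glC g 1 0)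
  have b2 := Q_bound hg hT' (glC g 0 1) (glC g 1 1)
  rw [e1] at b1
  rw [e2] at b2
  have k1 : (2 * T + 3) * w.Q 1 0 ≤ R := by rw [hR]; nlinarith
  have k2 : (2 * T + 3) * w.Q 0 1 ≤ R := by rw [hR]; nlinarith
  have k3 : 2 * w.Q 1 0 ≤ R := by rw [hR]; nlinarith
  have k4 : 2 * w.Q 0 1 ≤ R := by rw [hR]; nlinarith
  simp only [mem_preimage, mem_ofPred_eq]
  intro i j
  fin_cases i <;> fin_cases j
  · exact b1.1.trans k1
  · exact b2.1.trans k2
  · exact b1.2.trans k3
  · exact b2.2.trans k4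

theorem isClosed_sieg : IsClosed sieg :=
  (isClosed_le (continuous_normSq.comp H3.continuous_z) continuous_const).inter
    (isClosed_le continuous_const H3.continuous_t)

theorem measurableSet_sieg : MeasurableSet sieg := isClosed_sieg.measurableSet

open Fermat.Agent.LT.B in
/-- the weight: the indicator of the Siegel set divided by the number of translates in it -/
def rho (w : H3) : ℝ≥0∞ := sieg.indicator (fun y => (cnt (GL (Fin 2) EO) sieg y)⁻¹) w

open Fermat.Agent.LT.B in
theorem isWeight_rho : IsWeight (GL (Fin 2) EO) rho := by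
  constructor
  · exact ((measurable_cnt measurableSet_sieg).inv).indicator measurableSet_sieg
  · intro w
    have hne := cnt_ne_zero (exists_smul_mem_sieg w)
    have htop := cnt_ne_top (finite_smul_mem_sieg w)
    have key : ∀ γ : GL (Fin 2) EO, rho (γ • w) =
        (cnt (GL (Fin 2) EO) sieg w)⁻¹ * sieg.indicator 1 (γ • w) := by
      intro γ
      by_cases h : γ • w ∈ sieg
      · rw [rho, indicator_of_mem h, indicator_of_mem h, cnt_smul, Pi.one_apply, mul_one]
      · rw [rho, indicator_of_notMem h, indicator_of_notMem h, mul_zero]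
    simp_rw [key]
    rw [ENNReal.tsum_mul_left]
    exact ENNReal.inv_mul_cancel hne htop

theorem rho_eq_zero {w : H3} (h : w ∉ sieg) : rho w = 0 := indicator_of_notMem h _

theorem rho_le_indicator (w : H3) : rho w ≤ sieg.indicator 1 w := by
  by_cases h : w ∈ sieg
  · rw [indicator_of_mem h]; exact isWeight_rho.le_one w
  · rw [rho_eq_zero h]; exact bot_le

end Fermat.Agent.LT.J
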