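import Fermat.Agent.LT.J.BridgeDefs
import Fermat.Agent.LT.J.HeckeAlg
import Fermat.Agent.LT.J.Siegel

/-!
# The field `ℚ(ω)` (LT, piece J9): existence of `Eis3`, dictionary between primes and places
-/

set_option autoImplicit false

open NumberField IsDedekindDomain Matrix
open Fermat.LT

noncomputable section

namespace Fermat.Agent.LT.J

variable {F : Type} [Field F] [NumberField F]

/-! ### `ℤ[ω]` is a principal ideal domain -/

theorem exists_nm_sub_lt (a : EO) {b : EO} (hb : b ≠ 0) : ∃ c : EO, QE.nm (a - c * b) < QE.nm b := by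
  obtain ⟨c, hc⟩ := exists_round (toC a / toC b)
  refine ⟨c, ?_⟩
  have hb' : toC b ≠ 0 := (map_ne_zero_iff toC toC_injective).2 hb
  have h1 : toC (a - c * b) = (toC a / toC b - toC c) * toC b := by
    rw [map_sub, map_mul]; field_simp
  have h2 : Complex.normSq (toC (a - c * b)) ≤ 3 / 4 * Complex.normSq (toC b) := by
    rw [h1, Complex.normSq_mul]
    exact mul_le_mul_of_nonneg_right hc (Complex.normSq_nonneg _)
  have h3 := one_le_normSq_toC hb
  have h4 : Complex.normSq (toC (a - c * b)) < Complex.normSq (toC b) := by linarith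
  rw [normSq_toC, normSq_toC] at h4
  exact_mod_cast h4

instance : IsPrincipalIdealRing EO := by
  refine ⟨fun I => ?_⟩
  by_cases hI : I = ⊥
  · rw [hI]; exact bot_isPrincipal
  · obtain ⟨b0, hb0, hb00⟩ := Submodule.exists_mem_ne_zero_of_ne_bot hI
    classical
    have hex : ∃ n : ℕ, ∃ b ∈ I, b ≠ 0 ∧ (QE.nm b).toNat = n := ⟨_, b0, hb0, hb00, rfl⟩
    obtain ⟨b, hb, hbne, hbn⟩ := Nat.find_spec hex
    refine ⟨b, le_antisymm (fun a ha => ?_) ?_⟩
    · obtain ⟨c, hc⟩ := exists_nm_sub_lt a hbne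
      have hmem : a - c * b ∈ I := I.sub_mem ha (I.mul_mem_left c hb)
      have h0 : a - c * b = 0 := by
        by_contra hne
        have h1 := Nat.find_min hex (m := (QE.nm (a - c * b)).toNat) (by
          rw [← hbn]
          have := nm_nonneg (a - c * b)
          omega)
        exact h1 ⟨_, hmem, hne, rfl⟩
      exact Submodule.mem_span_singleton.2 ⟨c, (sub_eq_zero.1 h0).symm⟩
    · rw [Submodule.span_singleton_le_iff_mem]
      exact hb

/-! ### Existence -/

theorem integer_eq [IsCyclotomicExtension {3} ℚ F] {z : F} (hz : IsPrimitiveRoot z 3) (x : 𝓞 F) :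
    ∃ a b : ℤ, algebraMap (𝓞 F) F x = a + b * z := by
  have hrel : z * z = -1 - z := by
    have h1 : z ^ 3 = 1 := hz.pow_eq_one
    have h2 : z ≠ 1 := hz.ne_one (by norm_num)
    have h3 : (z - 1) * (z * z + z + 1) = 0 := by linear_combination h1
    have h4 := (mul_eq_zero.1 h3).resolve_left (sub_ne_zero.2 h2)
    linear_combination h4
  have hcl := IsCyclotomicExtension.Rat.isIntegralClosure_adjoin_singleton hz
  have hint : IsIntegral ℤ (algebraMap (𝓞 F) F x) := x.2
  obtain ⟨y, hy⟩ := (hcl.isIntegral_iff (x := algebraMap (𝓞 F) F x)).1 hint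
  have hmem : algebraMap (𝓞 F) F x ∈ Algebra.adjoin ℤ ({z} : Set F) := by
    rw [← hy]; exact y.2
  refine Algebra.adjoin_induction (p := fun u _ => ∃ a b : ℤ, u = a + b * z) ?_ ?_ ?_ ?_ hmem
  · intro u hu
    rw [Set.mem_singleton_iff] at hu
    exact ⟨0, 1, by rw [hu]; push_cast; ring⟩
  · intro n
    exact ⟨n, 0, by simp⟩
  · rintro u v _ _ ⟨a, b, rfl⟩ ⟨c, d, rfl⟩
    exact ⟨a + c, b + d, by push_cast; ring⟩
  · rintro u v _ _ ⟨a, b, rfl⟩ ⟨c, d, rfl⟩
    refine ⟨a * c - b * d, a * d + b * c - b * d, ?_⟩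
    push_cast
    linear_combination ((b : F) * d) * hrel

theorem eq_om_or {x : ℂ} (h : x * x = -1 - x) : x = om ∨ x = -1 - om := by
  have h1 : (x - om) * (x - (-1 - om)) = 0 := by
    linear_combination h - om_sq
  rcases mul_eq_zero.1 h1 with h2 | h2
  · left; exact sub_eq_zero.1 h2
  · right; exact sub_eq_zero.1 h2

theorem finrank_eis (F : Type) [Field F] [NumberField F] [IsCyclotomicExtension {3} ℚ F] :
    Module.finrank ℚ F = 2 := by
  rw [IsCyclotomicExtension.finrank (n := 3) F (Polynomial.cyclotomic.irreducible_rat (by norm_num))]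
  decide

theorem subsingleton_place [IsCyclotomicExtension {3} ℚ F] (D : Datum F) :
    Subsingleton D.I := by
  have hreal : InfinitePlace.nrRealPlaces F = 0 := by
    classical
    unfold InfinitePlace.nrRealPlaces
    rw [Fintype.card_eq_zero_iff]
    refine ⟨fun w => ?_⟩
    obtain ⟨i, hi⟩ := D.bij.2 w.1
    have h1 := w.2
    rw [← hi] at h1
    have h2 : InfinitePlace.IsReal (InfinitePlace.mk (D.emb i)) := h1
    rw [InfinitePlace.isReal_iff] at h2
    rcases InfinitePlace.embedding_mk_eq (D.emb i) with h3 | h3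
    · rw [h3] at h2
      exact D.cx i h2
    · rw [h3] at h2
      exact D.cx i (ComplexEmbedding.isReal_conjugate_iff.1 h2)
  have h1 := InfinitePlace.card_add_two_mul_card_eq_rank F
  rw [hreal, finrank_eis F] at h1
  have h2 := InfinitePlace.card_eq_nrRealPlaces_add_nrComplexPlaces F
  rw [hreal] at h2
  have h3 : Fintype.card (InfinitePlace F) = 1 := by omega
  have h4 : Fintype.card D.I = 1 := by
    rw [← h3]
    exact Fintype.card_congr (Equiv.ofBijective _ D.bij)
  exact Fintype.card_le_one_iff_subsingleton.1 h4.le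

theorem nonempty_eis3 [IsCyclotomicExtension {3} ℚ F] (D : Datum F) : Nonempty (Eis3 D) := by
  have hsub := subsingleton_place D
  have hne : Nonempty D.I := by
    obtain ⟨w⟩ := (inferInstance : Nonempty (InfinitePlace F))
    obtain ⟨i, _⟩ := D.bij.2 w
    exact ⟨i⟩
  obtain ⟨i0⟩ := hne
  have hz := IsCyclotomicExtension.zeta_spec 3 ℚ F
  set z := IsCyclotomicExtension.zeta 3 ℚ F with hzd
  have hrel : z * z = -1 - z := by
    have h1 : z ^ 3 = 1 := hz.pow_eq_one
    have h2 : z ≠ 1 := hz.ne_one (by norm_num)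
    have h3 : (z - 1) * (z * z + z + 1) = 0 := by linear_combination h1
    have h4 := (mul_eq_zero.1 h3).resolve_left (sub_ne_zero.2 h2)
    linear_combination h4
  have he : D.emb i0 z * D.emb i0 z = -1 - D.emb i0 z := by
    rw [← map_mul, hrel, map_sub, map_neg, map_one]
  rcases eq_om_or he with h | h
  · exact ⟨⟨z, hrel, i0, fun i => Subsingleton.elim _ _, h, integer_eq hz⟩⟩
  · refine ⟨⟨-1 - z, ?_, i0, fun i => Subsingleton.elim _ _, ?_, fun x => ?_⟩⟩
    · linear_combination hrel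
    · rw [map_sub, map_neg, map_one, h]; ring
    · obtain ⟨a, b, hab⟩ := integer_eq hz x
      refine ⟨a - b, -b, ?_⟩
      rw [hab]
      push_cast
      ring

namespace Eis3

variable {D : Datum F} (E : Eis3 D)

/-! ### Norms -/

include E in
theorem card_place : Fintype.card (InfinitePlace F) = 1 := by
  have h1 : Fintype.card (InfinitePlace F) = Fintype.card D.I :=
    (Fintype.card_congr (Equiv.ofBijective _ D.bij)).symm
  rw [h1, Fintype.card_eq_one_iff]
  exact ⟨E.i0, E.uniq⟩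

theorem abs_norm_toF (x : EO) : |((Algebra.norm ℚ (E.toF x) : ℚ) : ℝ)| = (QE.nm x : ℤ) := by
  have h1 := InfinitePlace.prod_eq_abs_norm (E.toF x)
  have h2 : ∀ w : InfinitePlace F, w = InfinitePlace.mk (D.emb E.i0) := by
    intro w
    obtain ⟨i, hi⟩ := D.bij.2 w
    rw [← hi, E.uniq i]
  have hu : (Finset.univ : Finset (InfinitePlace F)) = {InfinitePlace.mk (D.emb E.i0)} := by
    ext w
    simp [h2 w]
  rw [hu, Finset.prod_singleton] at h1
  have h3 : (InfinitePlace.mk (D.emb E.i0)).mult = 2 := by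
    rw [InfinitePlace.mult, if_neg]
    rw [InfinitePlace.isReal_iff]
    intro h2
    rcases InfinitePlace.embedding_mk_eq (D.emb E.i0) with h3 | h3
    · rw [h3] at h2
      exact D.cx _ h2
    · rw [h3] at h2
      exact D.cx _ (ComplexEmbedding.isReal_conjugate_iff.1 h2)
  rw [h3] at h1
  rw [← normSq_toC, Complex.normSq_eq_norm_sq]
  have h4 : (InfinitePlace.mk (D.emb E.i0)) (E.toF x) = ‖toC x‖ := by
    rw [InfinitePlace.apply, E.emb_toF]
  rw [h4] at h1
  rw [h1]
  push_cast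
  rfl

theorem absNorm_span (x : EO) : ((Ideal.absNorm (Ideal.span {E.eO x}) : ℕ) : ℤ) = QE.nm x := by
  rw [Ideal.absNorm_span_singleton]
  have h1 := E.abs_norm_toF x
  rw [← E.coe_eO, ← Algebra.coe_norm_int] at h1
  have h2 : (|(Algebra.norm ℤ (E.eO x) : ℤ)| : ℤ) = QE.nm x := by
    have : ((|(Algebra.norm ℤ (E.eO x) : ℤ)| : ℤ) : ℝ) = (QE.nm x : ℤ) := by
      rw [← h1]; push_cast; rfl
    exact_mod_cast this
  rw [← h2, Int.natCast_natAbs]

/-! ### Places -/

/-- the place attached to a prime element -/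
def plc (π : EO) (hπ : Prime π) : Pl F where
  asIdeal := Ideal.span {E.eO π}
  isPrime := by
    have h : Prime (E.eO π) := (MulEquiv.prime_iff (E.eO : EO ≃* 𝓞 F)).2 hπ
    exact (Ideal.span_singleton_prime h.ne_zero).2 h
  ne_bot := by
    rw [Ne, Ideal.span_singleton_eq_bot]
    exact (map_ne_zero_iff E.eO E.eO.injective).2 hπ.ne_zero

theorem plc_asIdeal (π : EO) (hπ : Prime π) : (E.plc π hπ).asIdeal = Ideal.span {E.eO π} := rfl

theorem qv_plc (π : EO) (hπ : Prime π) : qv (E.plc π hπ) = (QE.nm π : ℤ) := by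
  rw [qv, E.plc_asIdeal, ← E.absNorm_span π]
  push_cast
  rfl

theorem av_toF_le_one (w : Pl F) (x : EO) : av w (E.toF x) ≤ 1 := by
  rw [← E.coe_eO]; exact CTree.av_algebraMap_le_one w _

theorem av_toF_lt_one_iff (w : Pl F) (x : EO) : av w (E.toF x) < 1 ↔ E.eO x ∈ w.asIdeal := by
  rw [← E.coe_eO]; exact CTree.av_algebraMap_lt_one_iff w _

theorem av_plc_lt_one_iff (π : EO) (hπ : Prime π) (x : EO) :
    av (E.plc π hπ) (E.toF x) < 1 ↔ π ∣ x := by
  rw [E.av_toF_lt_one_iff, E.plc_asIdeal, Ideal.mem_span_singleton, map_dvd_iff]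

theorem av_plc_self (π : EO) (hπ : Prime π) :
    av (E.plc π hπ) (E.toF π) = (qv (E.plc π hπ))⁻¹ := by
  have h0 : E.eO π ≠ 0 := (map_ne_zero_iff E.eO E.eO.injective).2 hπ.ne_zero
  have h1 : (E.plc π hπ).intValuation (E.eO π) = WithZero.exp (-1 : ℤ) :=
    (E.plc π hπ).intValuation_singleton h0 rfl
  have h2 : CTree.lv (E.plc π hπ) (E.toF π) = -1 := by
    rw [CTree.lv, ← E.coe_eO, HeightOneSpectrum.valuation_of_algebraMap, h1, WithZero.log_exp]
  have h3 : E.toF π ≠ 0 := (map_ne_zero_iff E.toF E.toF_injective).2 hπ.ne_zero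
  rw [CTree.av_eq_zpow _ h3, h2, _root_.zpow_neg_one]

theorem av_toF_eq_one (π : EO) (hπ : Prime π) {w : Pl F} (hw : w ≠ E.plc π hπ) :
    av w (E.toF π) = 1 := by
  refine le_antisymm (E.av_toF_le_one w π) (not_lt.1 fun h => hw ?_)
  rw [E.av_toF_lt_one_iff] at h
  have h1 : (E.plc π hπ).asIdeal ≤ w.asIdeal := by
    rw [E.plc_asIdeal, Ideal.span_singleton_le_iff_mem]; exact h
  have h2 : (E.plc π hπ).asIdeal = w.asIdeal :=
    ((E.plc π hπ).isPrime.isMaximal (E.plc π hπ).ne_bot).eq_of_le w.isPrime.ne_top h1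
  exact HeightOneSpectrum.ext h2.symm

theorem av_unit (w : Pl F) {u : EO} (hu : IsUnit u) : av w (E.toF u) = 1 := by
  obtain ⟨v, huv⟩ := hu.exists_right_inv
  have h1 : av w (E.toF u) * av w (E.toF v) = 1 := by
    rw [← map_mul, ← map_mul, huv, map_one, map_one]
  have h2 := E.av_toF_le_one w u
  have h3 := E.av_toF_le_one w v
  have h4 := (av w).nonneg (E.toF u)
  have h5 := (av w).nonneg (E.toF v)
  nlinarith

/-! ### Principal ideals -/

include E in
theorem isPrincipalIdealRing : IsPrincipalIdealRing (𝓞 F) :=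
  IsPrincipalIdealRing.of_surjective (E.eO : EO →+* 𝓞 F) E.eO.surjective

theorem exists_plc (w : Pl F) : ∃ (π : EO) (hπ : Prime π), E.plc π hπ = w := by
  have := E.isPrincipalIdealRing
  obtain ⟨r, hr⟩ := (IsPrincipalIdealRing.principal w.asIdeal).principal
  have hr' : w.asIdeal = Ideal.span {r} := hr
  have hr0 : r ≠ 0 := by
    rintro rfl
    apply w.ne_bot
    rw [hr', Ideal.span_singleton_eq_bot]
  have hp : Prime r := (Ideal.span_singleton_prime hr0).1 (hr' ▸ w.isPrime)
  have hπ : Prime (E.eO.symm r) := (MulEquiv.prime_iff (E.eO.symm : 𝓞 F ≃* EO)).2 hp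
  refine ⟨E.eO.symm r, hπ, HeightOneSpectrum.ext ?_⟩
  rw [E.plc_asIdeal, E.eO.apply_symm_apply, hr']

/-- the places dividing `M` -/
theorem plc_mem_pm (π : EO) (hπ : Prime π) (M : ℕ) : E.plc π hπ ∈ pm M ↔ π ∣ (M : EO) := by
  rw [pm, Set.mem_ofPred_eq, ← E.av_plc_lt_one_iff π hπ, map_natCast E.toF]

theorem plc_notMem_pm (π : EO) (hπ : Prime π) {M : ℕ} (h : IsCoprime (QE.nm π) (M : ℤ)) :
    E.plc π hπ ∉ pm M := by
  rw [E.plc_mem_pm]
  intro hd
  obtain ⟨u, v, huv⟩ := h
  apply hπ.not_isUnit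
  rw [isUnit_iff_dvd_one]
  have h1 : ((u * QE.nm π + v * M : ℤ) : EO) = 1 := by rw [huv]; simp
  rw [← h1]
  push_cast
  have h2 : ((QE.nm π : ℤ) : EO) = π * star π := by
    rw [QE.mul_star_eq]; rfl
  rw [h2]
  exact dvd_add (Dvd.dvd.mul_left (Dvd.intro _ rfl) _) (Dvd.dvd.mul_left hd _)

/-- a place of prime norm `p ≠ 3` comes from a split prime element -/
theorem exists_splitPrime {w : Pl F} {p : ℕ} (h3 : p ≠ 3) (hw : qv w = p) :
    ∃ (D' : HK.SplitPrime p) (hπ : Prime D'.pi), E.plc D'.pi hπ = w := by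
  obtain ⟨π, hπ, hw'⟩ := E.exists_plc w
  refine ⟨⟨π, h3, ?_⟩, hπ, hw'⟩
  rw [← hw', E.qv_plc] at hw
  exact_mod_cast hw

end Eis3

end Fermat.Agent.LT.J
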