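import Mathlib

/-!
# LT/J (J7'): a modular form of weight one with a Hecke relation is cuspidal
-/

set_option autoImplicit false

open UpperHalfPlane hiding I
open ModularForm CongruenceSubgroup Filter Topology Complex OnePoint
open scoped MatrixGroups ModularForm

namespace Fermat.Agent.LT.J.Cusp

noncomputable section

section Limit

variable {Γ : Subgroup (GL (Fin 2) ℝ)} [Γ.IsArithmetic] {k : ℤ}

theorem tendsto_im_atImInfty : Tendsto UpperHalfPlane.im atImInfty atTop := tendsto_comap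

open ConjAct Pointwise Matrix.SpecialLinearGroup in
theorem exists_tendsto_slash (f : ModularForm Γ k) (γ : SL(2, ℤ)) :
    ∃ L : ℂ, Tendsto (⇑f ∣[k] γ) atImInfty (𝓝 L) := by
  have h1 : ((toConjAct (γ : GL (Fin 2) ℝ)⁻¹) • Γ).IsArithmetic := by
    simpa [(show Rat.castHom ℝ = algebraMap ℚ ℝ by rfl), map_inv, map_mapGL]
      using! Subgroup.IsArithmetic.conj Γ (mapGL ℚ γ)⁻¹
  let g := ModularForm.translate f (γ : GL (Fin 2) ℝ)
  obtain ⟨c, hc, hO⟩ := ModularFormClass.exp_decay_sub_atImInfty' g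
  refine ⟨valueAtInfty g, ?_⟩
  rw [← tendsto_sub_nhds_zero_iff]
  refine hO.trans_tendsto ?_
  refine Real.tendsto_exp_atBot.comp ?_
  exact tendsto_im_atImInfty.const_mul_atTop_of_neg (neg_neg_of_pos hc)

end Limit

section Real

variable {f : ℍ → ℂ}

/-- the behaviour at a rational cusp -/
theorem tendsto_at_cusp (γ : SL(2, ℤ)) (hc : 0 < γ 1 0) {L : ℂ}
    (hL : Tendsto (f ∣[(1 : ℤ)] γ) atImInfty (𝓝 L)) :
    Tendsto (fun t : ℝ => ((γ 1 0 : ℂ) * t / I) *
      f (ofComplex ((γ 0 0 : ℂ) / (γ 1 0 : ℂ) + t * I))) (𝓝[>] 0) (𝓝 L) := by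
  set α : ℤ := γ 0 0
  set b : ℤ := γ 0 1
  set c : ℤ := γ 1 0
  set d : ℤ := γ 1 1
  have hdet : α * d - b * c = 1 := by
    have := γ.det_coe
    rw [Matrix.det_fin_two] at this
    exact this
  have hcR : (0 : ℝ) < c := by exact_mod_cast hc
  have hcC : (c : ℂ) ≠ 0 := by exact_mod_cast hc.ne'
  -- the point `w t`
  let w : ℝ → ℂ := fun t => -(d : ℂ) / c + I / ((c : ℂ) ^ 2 * t)
  have hw_im : ∀ t : ℝ, 0 < t → (w t).im = 1 / (c ^ 2 * t) := by
    intro t ht
    have h1 : w t = ((-(d : ℝ) / c : ℝ) : ℂ) + ((1 / (c ^ 2 * t) : ℝ) : ℂ) * I := by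
      simp only [w]
      push_cast
      ring
    rw [h1, Complex.add_im, Complex.ofReal_im, Complex.mul_I_im, Complex.ofReal_re, zero_add]
  have hw_pos : ∀ t : ℝ, 0 < t → 0 < (w t).im := by
    intro t ht
    rw [hw_im t ht]
    positivity
  have htend : Tendsto (fun t => ofComplex (w t)) (𝓝[>] 0) atImInfty := by
    rw [atImInfty, tendsto_comap_iff]
    have h1 : Tendsto (fun t : ℝ => (1 / (c : ℝ) ^ 2) * t⁻¹) (𝓝[>] 0) atTop :=
      tendsto_inv_nhdsGT_zero.const_mul_atTop (by positivity)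
    refine h1.congr' ?_
    filter_upwards [self_mem_nhdsWithin] with t ht
    have ht' : 0 < t := ht
    rw [Function.comp_apply, ofComplex_apply_of_im_pos (hw_pos t ht'), ← coe_im, coe_mk,
      hw_im t ht']
    field_simp
  refine (hL.comp htend).congr' ?_
  filter_upwards [self_mem_nhdsWithin] with t ht
  have ht' : 0 < t := ht
  have htC : (t : ℂ) ≠ 0 := by exact_mod_cast ht'.ne'
  have hz_pos : 0 < ((α : ℂ) / (c : ℂ) + t * I).im := by
    have h1 : (α : ℂ) / (c : ℂ) + t * I = ((α / c : ℝ) : ℂ) + (t : ℂ) * I := by push_cast; ring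
    rw [h1]
    simpa using ht'
  rw [Function.comp_apply, ofComplex_apply_of_im_pos (hw_pos t ht'),
    ofComplex_apply_of_im_pos hz_pos, SL_slash_apply]
  have hden : denom γ (⟨w t, hw_pos t ht'⟩ : ℍ) = I / ((c : ℂ) * t) := by
    rw [ModularGroup.denom_apply]
    change (c : ℂ) * w t + (d : ℂ) = _
    simp only [w]
    field_simp
    ring
  have hsm : γ • (⟨w t, hw_pos t ht'⟩ : ℍ) = ⟨(α : ℂ) / (c : ℂ) + t * I, hz_pos⟩ := by
    apply UpperHalfPlane.ext
    rw [UpperHalfPlane.coe_specialLinearGroup_apply]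
    simp only [algebraMap_int_eq, eq_intCast, Complex.ofReal_intCast]
    change ((α : ℂ) * w t + b) / ((c : ℂ) * w t + d) = (α : ℂ) / c + t * I
    have h2 : (c : ℂ) * w t + d = I / ((c : ℂ) * t) := by
      simp only [w]
      field_simp
      ring
    have hdetC : (α : ℂ) * d - b * c = 1 := by exact_mod_cast hdet
    rw [h2, div_eq_iff (by simp [hcC, htC])]
    simp only [w]
    field_simp
    linear_combination (-(c : ℂ) * t) * hdetC + (-(c : ℂ) * t) * Complex.I_sq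
  rw [hsm, hden]
  simp only [zpow_neg, zpow_one, inv_div]
  ring

end Real

section Level

variable {N : ℕ}

/-- matrices whose first columns agree modulo `N` -/
theorem exists_mul_T_zpow {γ γ' : SL(2, ℤ)} (h0 : ((γ' 0 0 : ℤ) : ZMod N) = (γ 0 0 : ℤ))
    (h1 : ((γ' 1 0 : ℤ) : ZMod N) = (γ 1 0 : ℤ)) :
    ∃ (x : ℤ) (δ : SL(2, ℤ)), δ ∈ Gamma1 N ∧ γ' = δ * (γ * ModularGroup.T ^ x) := by
  set x : ℤ := γ 1 1 * γ' 0 1 - γ 0 1 * γ' 1 1 with hx
  refine ⟨x, γ' * (γ * ModularGroup.T ^ x)⁻¹, ?_, by group⟩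
  have hd : ((γ 0 0 : ℤ) : ZMod N) * (γ 1 1 : ℤ) - (γ 0 1 : ℤ) * (γ 1 0 : ℤ) = 1 := by
    have := γ.det_coe
    rw [Matrix.det_fin_two] at this
    exact_mod_cast congrArg (Int.cast : ℤ → ZMod N) this
  have hd' : ((γ' 0 0 : ℤ) : ZMod N) * (γ' 1 1 : ℤ) - (γ' 0 1 : ℤ) * (γ' 1 0 : ℤ) = 1 := by
    have := γ'.det_coe
    rw [Matrix.det_fin_two] at this
    exact_mod_cast congrArg (Int.cast : ℤ → ZMod N) this
  have hmat : (γ' * (γ * ModularGroup.T ^ x)⁻¹ : SL(2, ℤ)).1 =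
      !![γ' 0 0, γ' 0 1; γ' 1 0, γ' 1 1] *
        !![γ 1 0 * x + γ 1 1, -(γ 0 0 * x + γ 0 1); -γ 1 0, γ 0 0] := by
    rw [Matrix.SpecialLinearGroup.coe_mul]
    congr 1
    · exact Matrix.eta_fin_two _
    · rw [Matrix.SpecialLinearGroup.SL2_inv_expl]
      simp [ModularGroup.coe_T_zpow, Matrix.mul_apply, Fin.sum_univ_two]
      rfl
  rw [Gamma1_mem]
  rw [hmat]
  simp only [Matrix.mul_fin_two, Matrix.of_apply, Matrix.cons_val', Matrix.cons_val_zero,
    Matrix.cons_val_one, Matrix.cons_val_fin_one]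
  push_cast
  rw [h0, h1] at *
  rw [hx]
  push_cast
  generalize ((γ 0 0 : ℤ) : ZMod N) = a at *
  generalize ((γ 0 1 : ℤ) : ZMod N) = b at *
  generalize ((γ 1 0 : ℤ) : ZMod N) = c at *
  generalize ((γ 1 1 : ℤ) : ZMod N) = d at *
  generalize ((γ' 0 1 : ℤ) : ZMod N) = b' at *
  generalize ((γ' 1 1 : ℤ) : ZMod N) = d' at *
  refine ⟨?_, ?_, ?_⟩
  · linear_combination (b' * c + 1) * hd - (b * c) * hd'
  · linear_combination -(b' * c) * hd + (b * c + 1) * hd'
  · linear_combination c * (d' * hd - d * hd')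

theorem tendsto_T_zpow_smul (x : ℤ) :
    Tendsto (fun z : ℍ => ModularGroup.T ^ x • z) atImInfty atImInfty := by
  rw [atImInfty, tendsto_comap_iff]
  refine tendsto_comap.congr fun z => ?_
  rw [Function.comp_apply, modular_T_zpow_smul]
  simp

theorem tendsto_slash_T_zpow {F : ℍ → ℂ} {k : ℤ} (x : ℤ) {L : ℂ}
    (h : Tendsto F atImInfty (𝓝 L)) :
    Tendsto (F ∣[k] (ModularGroup.T ^ x : SL(2, ℤ))) atImInfty (𝓝 L) := by
  refine (h.comp (tendsto_T_zpow_smul x)).congr fun z => ?_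
  rw [Function.comp_apply, SL_slash_apply]
  have : denom (ModularGroup.T ^ x : SL(2, ℤ)) z = 1 := by
    rw [ModularGroup.denom_apply]
    simp [ModularGroup.coe_T_zpow]
  rw [this, one_zpow, mul_one]

variable {k : ℤ} (f : ModularForm (Gamma1 N) k)

theorem slash_Gamma1 {δ : SL(2, ℤ)} (hδ : δ ∈ Gamma1 N) : ⇑f ∣[k] δ = ⇑f :=
  SlashInvariantFormClass.slash_action_eq f _ ⟨δ, hδ, rfl⟩

theorem tendsto_of_congr {γ γ' : SL(2, ℤ)} (h0 : ((γ' 0 0 : ℤ) : ZMod N) = (γ 0 0 : ℤ))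
    (h1 : ((γ' 1 0 : ℤ) : ZMod N) = (γ 1 0 : ℤ)) {L : ℂ}
    (hL : Tendsto (⇑f ∣[k] γ) atImInfty (𝓝 L)) : Tendsto (⇑f ∣[k] γ') atImInfty (𝓝 L) := by
  obtain ⟨x, δ, hδ, rfl⟩ := exists_mul_T_zpow h0 h1
  rw [SlashAction.slash_mul, slash_Gamma1 f hδ, SlashAction.slash_mul]
  exact tendsto_slash_T_zpow x hL

end Level

section Relation

theorem sum_exp (p : ℕ) (hp : p ≠ 0) (n : ℕ) :
    ∑ j ∈ Finset.range p, exp (2 * Real.pi * I * n * (j / p)) = if p ∣ n then (p : ℂ) else 0 := by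
  have hpC : (p : ℂ) ≠ 0 := by exact_mod_cast hp
  have hprim := Complex.isPrimitiveRoot_exp p hp
  set ξ : ℂ := exp (2 * Real.pi * I / p) ^ n with hξ
  have h1 : ∀ j : ℕ, exp (2 * Real.pi * I * n * (j / p)) = ξ ^ j := by
    intro j
    rw [hξ, ← pow_mul, ← Complex.exp_nat_mul]
    congr 1
    push_cast
    ring
  simp only [h1]
  split_ifs with h
  · have h2 : ξ = 1 := (hprim.pow_eq_one_iff_dvd n).mpr h
    simp [h2]
  · have h2 : ξ ≠ 1 := fun h3 => h ((hprim.pow_eq_one_iff_dvd n).mp h3)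
    rw [geom_sum_eq h2]
    have h3 : ξ ^ p = 1 := by
      rw [hξ, ← pow_mul, mul_comm n p, pow_mul, hprim.pow_eq_one, one_pow]
    rw [h3, sub_self, zero_div]

/-- the Hecke relation for the functions -/
theorem hecke_relation {F : ℂ → ℂ} {a : ℕ → ℂ} {p : ℕ} (hp : p ≠ 0) {lam : ℂ}
    (ha : ∀ w : ℂ, 0 < w.im → HasSum (fun n : ℕ => a n * exp (2 * Real.pi * I * n * w)) (F w))
    (h : ∀ n, a (p * n) + (if p ∣ n then a (n / p) else 0) = lam * a n) (w : ℂ)
    (hw : 0 < w.im) :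
    lam * F w = (1 / p) * ∑ j ∈ Finset.range p, F ((w + j) / p) + F (p * w) := by
  have hpC : (p : ℂ) ≠ 0 := by exact_mod_cast hp
  have hpR : (0 : ℝ) < p := by exact_mod_cast Nat.pos_of_ne_zero hp
  -- the sum over `j`
  have h1 : ∀ j : ℕ, 0 < ((w + j) / p).im := by
    intro j
    have : (w + j) / p = (w + j) * ((1 / p : ℝ) : ℂ) := by push_cast; ring
    rw [this, Complex.im_mul_ofReal]
    simp
    positivity
  have hinj : Function.Injective (fun m : ℕ => p * m) := mul_right_injective₀ hp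
  have h2 : HasSum (fun n : ℕ => if p ∣ n then a n * exp (2 * Real.pi * I * n * (w / p)) else 0)
      ((1 / p) * ∑ j ∈ Finset.range p, F ((w + j) / p)) := by
    have h3 := (hasSum_sum fun j (_ : j ∈ Finset.range p) => ha _ (h1 j)).mul_left (1 / (p : ℂ))
    refine h3.congr_fun ?_
    intro n
    have h4 : ∑ j ∈ Finset.range p, a n * exp (2 * Real.pi * I * n * ((w + j) / p)) =
        a n * exp (2 * Real.pi * I * n * (w / p)) *
          ∑ j ∈ Finset.range p, exp (2 * Real.pi * I * n * (j / p)) := by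
      rw [Finset.mul_sum]
      refine Finset.sum_congr rfl fun j _ => ?_
      rw [mul_assoc (a n), ← Complex.exp_add]
      congr 2
      ring
    rw [h4, sum_exp p hp n]
    split_ifs with h5
    · field_simp
    · simp
  have h3 : HasSum (fun m : ℕ => a (p * m) * exp (2 * Real.pi * I * m * w))
      ((1 / p) * ∑ j ∈ Finset.range p, F ((w + j) / p)) := by
    rw [← hinj.hasSum_iff] at h2
    · refine h2.congr_fun ?_
      intro m
      simp only [Function.comp_apply, dvd_mul_right, if_true]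
      congr 2
      push_cast
      field_simp
    · intro n hn
      rw [if_neg]
      rintro ⟨m, rfl⟩
      exact hn ⟨m, rfl⟩
  -- the other term
  have h4 : 0 < ((p : ℂ) * w).im := by
    have : ((p : ℂ) * w).im = p * w.im := by simp
    rw [this]
    positivity
  have h5 : HasSum (fun m : ℕ => (if p ∣ m then a (m / p) else 0) * exp (2 * Real.pi * I * m * w))
      (F (p * w)) := by
    have h6 := ha _ h4
    rw [← hinj.hasSum_iff]
    · refine h6.congr_fun ?_
      intro m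
      simp only [Function.comp_apply, dvd_mul_right, if_true,
        Nat.mul_div_cancel_left m (Nat.pos_of_ne_zero hp)]
      congr 2
      push_cast
      ring
    · intro n hn
      rw [if_neg, zero_mul]
      rintro ⟨m, rfl⟩
      exact hn ⟨m, rfl⟩
  have h6 := h3.add h5
  have h7 := (ha w hw).mul_left lam
  refine h7.unique (h6.congr_fun ?_)
  intro m
  rw [← add_mul, h m]
  ring

end Relation

section Main

/-- upper triangular unipotent matrices -/
def upperU (x : ℤ) : SL(2, ℤ) := ⟨!![1, x; 0, 1], by simp [Matrix.det_fin_two]⟩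

/-- lower triangular unipotent matrices -/
def lowerU (x : ℤ) : SL(2, ℤ) := ⟨!![1, 0; x, 1], by simp [Matrix.det_fin_two]⟩

theorem upperU_mul (x : ℤ) (γ : SL(2, ℤ)) : (upperU x * γ) 0 0 = γ 0 0 + x * γ 1 0 ∧
    (upperU x * γ) 1 0 = γ 1 0 := by
  constructor
  · show ((upperU x).1 * γ.1) 0 0 = _
    simp [upperU, Matrix.mul_apply, Fin.sum_univ_two]
  · show ((upperU x).1 * γ.1) 1 0 = _
    simp [upperU, Matrix.mul_apply, Fin.sum_univ_two]

theorem lowerU_mul (x : ℤ) (γ : SL(2, ℤ)) : (lowerU x * γ) 0 0 = γ 0 0 ∧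
    (lowerU x * γ) 1 0 = x * γ 0 0 + γ 1 0 := by
  constructor
  · show ((lowerU x).1 * γ.1) 0 0 = _
    simp [lowerU, Matrix.mul_apply, Fin.sum_univ_two]
  · show ((lowerU x).1 * γ.1) 1 0 = _
    simp [lowerU, Matrix.mul_apply, Fin.sum_univ_two]

theorem upperU_mem (N : ℕ) (x : ℤ) : upperU x ∈ Gamma1 N := by
  rw [Gamma1_mem]
  simp [upperU]

theorem lowerU_mem (N : ℕ) (x : ℤ) : lowerU (N * x) ∈ Gamma1 N := by
  rw [Gamma1_mem]
  simp [lowerU]

theorem tendsto_div_nhdsGT {a : ℝ} (ha : 0 < a) :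
    Tendsto (fun t : ℝ => t * a) (𝓝[>] 0) (𝓝[>] 0) := by
  refine tendsto_nhdsWithin_iff.mpr ⟨?_, ?_⟩
  · have : Tendsto (fun t : ℝ => t * a) (𝓝 0) (𝓝 (0 * a)) := (continuous_mul_const a).tendsto 0
    rw [zero_mul] at this
    exact this.mono_left nhdsWithin_le_nhds
  · filter_upwards [self_mem_nhdsWithin] with t ht
    exact mul_pos ht ha

variable {N : ℕ} (f : ModularForm (Gamma1 N) 1)

theorem limit_eq_zero {p : ℕ} (hp : p.Prime) (hpN : p ≡ 1 [MOD N]) {lam : ℂ} (hl : lam ≠ 2)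
    (hrel : ∀ w : ℂ, 0 < w.im → lam * f (ofComplex w) =
      (1 / p) * ∑ j ∈ Finset.range p, f (ofComplex ((w + j) / p)) + f (ofComplex (p * w)))
    (γ : SL(2, ℤ)) (hc : 0 < γ 1 0) (hpc : (p : ℤ) ∣ γ 1 0) {L : ℂ}
    (hL : Tendsto (⇑f ∣[(1 : ℤ)] γ) atImInfty (𝓝 L)) : L = 0 := by
  have hp0 : p ≠ 0 := hp.ne_zero
  have hpC : (p : ℂ) ≠ 0 := by exact_mod_cast hp0
  have hpR : (0 : ℝ) < p := by exact_mod_cast hp.pos
  have hpZ : (0 : ℤ) < p := by exact_mod_cast hp.pos
  have hpZN : ((p : ℤ) : ZMod N) = 1 := by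
    have := (ZMod.natCast_eq_natCast_iff p 1 N).mpr hpN
    rw [Nat.cast_one] at this
    rw [← this]
    norm_cast
  obtain ⟨c', hc'⟩ := hpc
  set α : ℤ := γ 0 0 with hα
  set c : ℤ := γ 1 0 with hcdef
  have hc'0 : 0 < c' := by
    rw [hc'] at hc
    exact (mul_pos_iff_of_pos_left hpZ).mp hc
  have hdet : α * γ 1 1 - γ 0 1 * c = 1 := by
    have := γ.det_coe
    rw [Matrix.det_fin_two] at this
    exact this
  have hcC : (c : ℂ) ≠ 0 := by exact_mod_cast hc.ne'
  have hc'C : (c' : ℂ) ≠ 0 := by exact_mod_cast hc'0.ne'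
  have hcc' : (c : ℂ) = p * c' := by rw [hc']; push_cast; ring
  have hcN : ((c : ℤ) : ZMod N) = (c' : ℤ) := by
    rw [hc', Int.cast_mul, hpZN, one_mul]
  have hcop0 : IsCoprime α c := ⟨γ 1 1, -γ 0 1, by linarith⟩
  -- the limit at `α / c`
  have hA := tendsto_at_cusp γ hc hL
  -- the limits at the points `(α + j c) / (p c)`
  have hB : ∀ j : ℕ, Tendsto (fun t : ℝ => ((c : ℂ) * t / I) *
      f (ofComplex (((α : ℂ) / c + t * I + j) / p))) (𝓝[>] 0) (𝓝 L) := by
    intro j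
    have hcop : IsCoprime (α + j * c) (p * c) := by
      have h1 : IsCoprime (α + j * c) c := (IsCoprime.add_mul_right_left_iff).mpr hcop0
      have h2 : IsCoprime (α + j * c) (p : ℤ) :=
        h1.of_isCoprime_of_dvd_right ⟨c', hc'⟩
      exact h2.mul_right h1
    obtain ⟨γj, h0, h1⟩ := hcop.exists_SL2_col 0
    have hTj : Tendsto (⇑f ∣[(1 : ℤ)] (upperU j * γ)) atImInfty (𝓝 L) := by
      rw [SlashAction.slash_mul, slash_Gamma1 f (upperU_mem N j)]
      exact hL
    have hLj : Tendsto (⇑f ∣[(1 : ℤ)] γj) atImInfty (𝓝 L) := by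
      refine tendsto_of_congr f ?_ ?_ hTj
      · rw [h0, (upperU_mul j γ).1]
      · rw [h1, (upperU_mul j γ).2, Int.cast_mul, hpZN, one_mul]
    have h2 := tendsto_at_cusp γj (by rw [h1]; positivity) hLj
    rw [h0, h1] at h2
    refine (h2.comp (tendsto_div_nhdsGT (inv_pos.mpr hpR))).congr fun t => ?_
    rw [Function.comp_apply]
    congr 1
    · push_cast
      field_simp
    · congr 2
      push_cast
      field_simp
      ring
  -- the limit at `α / c'`
  have hC : Tendsto (fun t : ℝ => ((c : ℂ) * t / I) *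
      f (ofComplex (p * ((α : ℂ) / c + t * I)))) (𝓝[>] 0) (𝓝 L) := by
    have hcop : IsCoprime α c' := hcop0.of_isCoprime_of_dvd_right ⟨p, by rw [hc']; ring⟩
    obtain ⟨γ', h0, h1⟩ := hcop.exists_SL2_col 0
    have hL' : Tendsto (⇑f ∣[(1 : ℤ)] γ') atImInfty (𝓝 L) := by
      refine tendsto_of_congr f ?_ ?_ hL
      · rw [h0]
      · rw [h1, ← hcN]
    have h2 := tendsto_at_cusp γ' (by rw [h1]; exact hc'0) hL'
    rw [h0, h1] at h2
    refine (h2.comp (tendsto_div_nhdsGT hpR)).congr fun t => ?_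
    rw [Function.comp_apply, hcc']
    congr 1
    · push_cast
      ring
    · congr 2
      push_cast
      field_simp
  -- combine
  have hD : Tendsto (fun t : ℝ => (1 / p) * ∑ j ∈ Finset.range p, ((c : ℂ) * t / I) *
      f (ofComplex (((α : ℂ) / c + t * I + j) / p)) + ((c : ℂ) * t / I) *
      f (ofComplex (p * ((α : ℂ) / c + t * I)))) (𝓝[>] 0)
      (𝓝 ((1 / p) * ∑ j ∈ Finset.range p, L + L)) :=
    ((tendsto_finsetSum _ fun j _ => hB j).const_mul _).add hC
  have hE := hA.const_mul lam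
  have hF : lam * L = (1 / p) * ∑ j ∈ Finset.range p, L + L := by
    refine tendsto_nhds_unique (hE.congr' ?_) hD
    filter_upwards [self_mem_nhdsWithin] with t ht
    have ht' : 0 < t := ht
    have hz_pos : 0 < ((α : ℂ) / (c : ℂ) + t * I).im := by
      have h1 : (α : ℂ) / (c : ℂ) + t * I = ((α / c : ℝ) : ℂ) + (t : ℂ) * I := by push_cast; ring
      rw [h1]
      simpa using ht'
    have h1 := hrel _ hz_pos
    rw [← Finset.mul_sum]
    calc lam * ((c : ℂ) * t / I * f (ofComplex ((α : ℂ) / c + t * I)))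
        = ((c : ℂ) * t / I) * (lam * f (ofComplex ((α : ℂ) / c + t * I))) := by ring
      _ = _ := by rw [h1]; ring
  rw [Finset.sum_const, Finset.card_range, nsmul_eq_mul, ← mul_assoc, one_div,
    inv_mul_cancel₀ hpC, one_mul] at hF
  have hG : (lam - 2) * L = 0 := by linear_combination hF
  rcases mul_eq_zero.mp hG with h | h
  · exact absurd (sub_eq_zero.mp h) hl
  · exact h

/-- every matrix can be moved by `Γ₁(N)` to one whose lower left entry is positive and divisible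
by `p` -/
theorem exists_good {p : ℕ} (hp : p.Prime) {N : ℕ} [NeZero N] (hpN : p ≡ 1 [MOD N])
    (γ : SL(2, ℤ)) : ∃ δ ∈ Gamma1 N, 0 < (δ * γ) 1 0 ∧ (p : ℤ) ∣ (δ * γ) 1 0 := by
  -- first make the upper left entry prime to `p`
  obtain ⟨δ₁, hδ₁, h1⟩ : ∃ δ ∈ Gamma1 N, ¬ (p : ℤ) ∣ (δ * γ) 0 0 := by
    by_cases h : (p : ℤ) ∣ γ 0 0
    · refine ⟨upperU 1, upperU_mem N 1, ?_⟩
      rw [(upperU_mul 1 γ).1, one_mul]
      intro h2
      have h3 : (p : ℤ) ∣ γ 1 0 := (dvd_add_right h).mp h2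
      have := γ.det_coe
      rw [Matrix.det_fin_two] at this
      have h4 : (p : ℤ) ∣ 1 := by
        rw [← this]
        exact dvd_sub (Dvd.dvd.mul_right h _) (Dvd.dvd.mul_left h3 _)
      exact hp.one_lt.ne' (by exact_mod_cast Int.eq_one_of_dvd_one (by positivity) h4)
    · exact ⟨1, one_mem _, by rwa [one_mul]⟩
  set γ₁ := δ₁ * γ with hγ₁
  set α : ℤ := γ₁ 0 0
  set c : ℤ := γ₁ 1 0
  have hNp : IsCoprime (N : ℤ) p := by
    obtain ⟨k, hk⟩ := (Nat.modEq_iff_dvd.mp hpN)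
    refine ⟨k, 1, ?_⟩
    push_cast at hk
    linear_combination -hk
  have hα : α ≠ 0 := by
    intro h
    apply h1
    rw [h]
    exact dvd_zero _
  have hcop : IsCoprime (N * α) (p : ℤ) := by
    refine hNp.mul_left ?_
    rw [isCoprime_comm]
    exact (Prime.coprime_iff_not_dvd (Nat.prime_iff_prime_int.mp hp)).mpr h1
  obtain ⟨u, v, huv⟩ := hcop
  -- `m₀ = - c u`, `m = m₀ + p α s`
  let s : ℤ := |c| + |c * u * N * α| + 1
  refine ⟨lowerU (N * (-c * u + p * α * s)) * δ₁, mul_mem (lowerU_mem N _) hδ₁, ?_, ?_⟩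
  · rw [mul_assoc, ← hγ₁, (lowerU_mul _ γ₁).2]
    change 0 < (N * (-c * u + p * α * s)) * α + c
    have hN1 : (1 : ℤ) ≤ N := by exact_mod_cast Nat.one_le_iff_ne_zero.mpr (NeZero.ne N)
    have hp1 : (1 : ℤ) ≤ p := by exact_mod_cast hp.one_lt.le
    have hα2 : 1 ≤ α ^ 2 := by
      have := pow_pos (abs_pos.mpr hα) 2
      rw [sq_abs] at this
      exact this
    have hs : 0 ≤ s := by positivity
    have h5 : 1 ≤ N * p * α ^ 2 := by
      have := mul_le_mul hN1 hp1 (by norm_num) (by positivity)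
      nlinarith
    have h6 : s ≤ N * p * α ^ 2 * s := le_mul_of_one_le_left hs h5
    have h7 := neg_abs_le c
    have h8 := le_abs_self (c * u * N * α)
    have h9 : (N * (-c * u + p * α * s)) * α + c =
      N * p * α ^ 2 * s - c * u * N * α + c := by ring
    rw [h9]
    simp only [s] at h6 ⊢
    linarith
  · rw [mul_assoc, ← hγ₁, (lowerU_mul _ γ₁).2]
    refine ⟨c * v + N * α * s * α, ?_⟩
    linear_combination (-c) * huv

end Main

end

end Fermat.Agent.LT.J.Cusp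

namespace Fermat.Agent.LT.J

open Cusp

/-- **J7'**: a weight one modular form on `Γ₁(N)` whose coefficients satisfy the Hecke relation at
a prime `p ≡ 1 mod N` with an eigenvalue `≠ 2` is cuspidal. -/
theorem exists_cusp_of_hecke {N : ℕ} [NeZero N]
    (f : ModularForm ((Gamma1 N).map (Matrix.SpecialLinearGroup.mapGL ℝ)) 1) (p : ℕ)
    (hp : p.Prime) (hpN : p ≡ 1 [MOD N]) (lam : ℂ) (hl : lam ≠ 2) (a : ℕ → ℂ)
    (ha : ∀ z : ℍ, HasSum (fun n : ℕ => a n * exp (2 * Real.pi * I * n * z)) (f z))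
    (h : ∀ n, a (p * n) + (if p ∣ n then a (n / p) else 0) = lam * a n) :
    ∃ g : CuspForm ((Gamma1 N).map (Matrix.SpecialLinearGroup.mapGL ℝ)) 1, ⇑g = ⇑f := by
  have ha' : ∀ w : ℂ, 0 < w.im →
      HasSum (fun n : ℕ => a n * exp (2 * Real.pi * I * n * w)) (f (ofComplex w)) := by
    intro w hw
    have h1 := ha (ofComplex w)
    rw [ofComplex_apply_of_im_pos hw] at h1 ⊢
    exact h1
  have hrel := hecke_relation (F := fun w => f (ofComplex w)) hp.ne_zero ha' h
  have hzero : ∀ γ : SL(2, ℤ), IsZeroAtImInfty (⇑f ∣[(1 : ℤ)] γ) := by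
    intro γ
    obtain ⟨L, hL⟩ := exists_tendsto_slash f γ
    obtain ⟨δ, hδ, hc, hpc⟩ := exists_good hp hpN γ
    have h1 : ⇑f ∣[(1 : ℤ)] (δ * γ) = ⇑f ∣[(1 : ℤ)] γ := by
      rw [SlashAction.slash_mul, slash_Gamma1 f hδ]
    have h2 := limit_eq_zero f hp hpN hl hrel (δ * γ) hc hpc (by rw [h1]; exact hL)
    rw [h2] at hL
    exact hL
  refine ⟨{ toSlashInvariantForm := f.toSlashInvariantForm
            holo' := f.holo'
            zero_at_cusps' := ?_ }, rfl⟩
  intro c hc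
  rw [Subgroup.IsArithmetic.isCusp_iff_isCusp_SL2Z] at hc
  rw [OnePoint.isZeroAt_iff_forall_SL2Z hc]
  intro γ _
  exact hzero γ

end Fermat.Agent.LT.J
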