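import Mathlib

/-!
# Moderate growth implies modularity (LT, piece J)

A holomorphic function on the upper half plane, invariant under the weight `k` action of `Γ₁(N)`,
with `‖f z‖ ≤ C (y + 1/y)^A`, is a modular form.
-/

set_option autoImplicit false

open UpperHalfPlane hiding I
open ModularForm CongruenceSubgroup Filter Topology Complex OnePoint Asymptotics
open scoped MatrixGroups ModularForm Real Manifold

namespace Fermat.Agent.LT.J.Growth

noncomputable section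

theorem re_invQParam (h : ℝ) (q : ℂ) :
    (Function.Periodic.invQParam h q).re = h / (2 * π) * q.arg := by
  have h1 : (h : ℂ) / (2 * π * I) = ((-(h / (2 * π)) : ℝ) : ℂ) * I := by
    push_cast
    have : (π : ℂ) ≠ 0 := by exact_mod_cast Real.pi_ne_zero
    field_simp
    rw [I_sq]
    ring
  rw [Function.Periodic.invQParam, h1, mul_assoc, re_ofReal_mul, I_mul_re, log_im]
  ring

theorem isBoundedAtImInfty_of_growth {g : ℍ → ℂ} {h : ℝ} (hh : 0 < h) (hol : MDiff g)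
    (per : Function.Periodic (g ∘ ofComplex) h) {C : ℝ} {B : ℕ}
    (gr : ∀ z : ℍ, 1 ≤ z.im → |z.re| ≤ h → ‖g z‖ ≤ C * z.im ^ B) : IsBoundedAtImInfty g := by
  set F := Function.Periodic.cuspFunction h (g ∘ ofComplex) with hF
  have hd : ∀ᶠ q in 𝓝[≠] 0, DifferentiableAt ℂ F q :=
    Function.Periodic.eventually_differentiableAt_cuspFunction_nhds_ne_zero hh per
      (eventually_of_mem (preimage_mem_comap (Ioi_mem_atTop 0))
        (fun z hz ↦ UpperHalfPlane.mdifferentiableAt_iff.mp (hol ⟨z, hz⟩)))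
  -- the bound for the cusp function
  have hbd : ∀ᶠ q : ℂ in 𝓝[≠] 0, ‖F q‖ ≤ C * (h / (2 * π)) ^ B * |Real.log ‖q‖| ^ (B : ℝ) := by
    have h1 : ∀ᶠ q : ℂ in 𝓝[≠] 0, 1 ≤ (Function.Periodic.invQParam h q).im := by
      have := Function.Periodic.invQParam_tendsto hh
      rw [tendsto_comap_iff] at this
      exact this.eventually_ge_atTop 1
    filter_upwards [h1, self_mem_nhdsWithin] with q hq hq0
    have hq0' : q ≠ 0 := hq0
    have hpos : 0 < (Function.Periodic.invQParam h q).im := by linarith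
    rw [hF, Function.Periodic.cuspFunction_eq_of_nonzero _ _ hq0', Function.comp_apply,
      ofComplex_apply_of_im_pos hpos]
    refine (gr ⟨_, hpos⟩ hq ?_).trans ?_
    · show |(Function.Periodic.invQParam h q).re| ≤ h
      rw [re_invQParam, abs_mul, abs_of_pos (by positivity)]
      have h2 := abs_arg_le_pi q
      calc h / (2 * π) * |q.arg| ≤ h / (2 * π) * π := by gcongr
        _ = h / 2 := by field_simp
        _ ≤ h := by linarith
    · show C * (Function.Periodic.invQParam h q).im ^ B ≤ _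
      have h3 : (Function.Periodic.invQParam h q).im = h / (2 * π) * |Real.log ‖q‖| := by
        rw [Function.Periodic.im_invQParam] at hpos ⊢
        have h4 : Real.log ‖q‖ < 0 := by
          by_contra h5
          have h6 : 0 ≤ h / (2 * π) * Real.log ‖q‖ := mul_nonneg (by positivity) (not_lt.mp h5)
          have h7 : -h / (2 * π) * Real.log ‖q‖ = -(h / (2 * π) * Real.log ‖q‖) := by ring
          linarith
        rw [abs_of_neg h4]
        ring
      rw [h3, mul_pow, Real.rpow_natCast, mul_assoc]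
  have ho : (fun z => F z - F 0) =o[𝓝[≠] 0] fun z => (z - 0)⁻¹ := by
    have h1 : (fun q : ℂ => ‖q‖⁻¹) =O[𝓝[≠] 0] fun z : ℂ => (z - 0)⁻¹ := by
      refine IsBigO.of_bound 1 (Eventually.of_forall fun q => ?_)
      simp
    have h2 : (fun q : ℂ => |Real.log ‖q‖| ^ (B : ℝ)) =o[𝓝[≠] 0] fun q : ℂ => ‖q‖⁻¹ := by
      have h3 := (isLittleO_abs_log_rpow_rpow_nhdsGT_zero (B : ℝ) (s := -1) (by norm_num)).comp_tendsto
        (tendsto_norm_nhdsNE_zero (E := ℂ))
      refine h3.congr (fun _ => rfl) (fun q => ?_)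
      simp [Real.rpow_neg_one]
    have h4 : (fun q : ℂ => F q) =O[𝓝[≠] 0] fun q : ℂ => |Real.log ‖q‖| ^ (B : ℝ) := by
      refine IsBigO.of_bound (C * (h / (2 * π)) ^ B) ?_
      filter_upwards [hbd] with q hq
      rwa [Real.norm_of_nonneg (by positivity)]
    have h5 : (fun _ : ℂ => F 0) =o[𝓝[≠] 0] fun q : ℂ => ‖q‖⁻¹ := by
      rw [isLittleO_const_left]
      right
      have h6 : Tendsto (fun q : ℂ => ‖q‖⁻¹) (𝓝[≠] 0) atTop :=
        tendsto_inv_nhdsGT_zero.comp tendsto_norm_nhdsNE_zero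
      refine h6.congr fun q => ?_
      simp
    exact ((h4.trans_isLittleO h2).sub h5).trans_isBigO h1
  have hlim := tendsto_limUnder_of_differentiable_on_punctured_nhds_of_isLittleO hd ho
  have h7 : Tendsto g atImInfty (𝓝 (limUnder (𝓝[≠] 0) F)) := by
    have h8 : Tendsto (fun τ : ℍ => F (Function.Periodic.qParam h τ)) atImInfty
        (𝓝 (limUnder (𝓝[≠] 0) F)) := hlim.comp (tendsto_nhdsWithin_iff.mpr
          ⟨qParam_tendsto_atImInfty hh, Eventually.of_forall fun τ =>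
            Function.Periodic.qParam_ne_zero _⟩)
    refine h8.congr fun τ => ?_
    exact UpperHalfPlane.eq_cuspFunction τ hh.ne' per
  exact h7.isBigO_one ℝ

/-! ### Slash action -/

theorem one_le_norm_denom (γ : SL(2, ℤ)) {z : ℍ} (hz : 1 ≤ z.im) :
    1 ≤ ‖((γ 1 0 : ℤ) : ℂ) * z + (γ 1 1 : ℤ)‖ := by
  rcases eq_or_ne (γ 1 0) 0 with h | h
  · have hdet := Matrix.det_fin_two (γ : Matrix (Fin 2) (Fin 2) ℤ)
    rw [γ.det_coe] at hdet
    have hdet' : γ 0 0 * γ 1 1 = 1 := by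
      have : γ 0 0 * γ 1 1 - γ 0 1 * γ 1 0 = 1 := hdet.symm
      rwa [h, mul_zero, sub_zero] at this
    have h1 : |γ 1 1| = 1 := Int.isUnit_iff_abs_eq.mp (IsUnit.of_mul_eq_one (γ 0 0) (by
      rw [mul_comm]; exact hdet'))
    rw [h, Int.cast_zero, zero_mul, zero_add, Complex.norm_intCast, ← Int.cast_abs, h1,
      Int.cast_one]
  · have h1 : (1 : ℝ) ≤ |((γ 1 0 : ℤ) : ℝ)| := by
      have := Int.one_le_abs h
      rw [← Int.cast_abs]
      exact_mod_cast this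
    have h2 : (((γ 1 0 : ℤ) : ℂ) * z + (γ 1 1 : ℤ)).im = (γ 1 0 : ℤ) * z.im := by simp
    calc (1 : ℝ) ≤ |((γ 1 0 : ℤ) : ℝ)| * z.im := by
          nlinarith [abs_nonneg ((γ 1 0 : ℤ) : ℝ)]
      _ = |(((γ 1 0 : ℤ) : ℂ) * z + (γ 1 1 : ℤ)).im| := by
          rw [h2, abs_mul, abs_of_pos z.im_pos]
      _ ≤ _ := Complex.abs_im_le_norm _

theorem norm_denom_le (γ : SL(2, ℤ)) {h : ℝ} {z : ℍ} (hz : 1 ≤ z.im) (hx : |z.re| ≤ h) :
    ‖((γ 1 0 : ℤ) : ℂ) * z + (γ 1 1 : ℤ)‖ ≤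
      (|((γ 1 0 : ℤ) : ℝ)| * (h + 1) + |((γ 1 1 : ℤ) : ℝ)|) * z.im := by
  have h0 : 0 ≤ h := (abs_nonneg _).trans hx
  have h1 : ‖(z : ℂ)‖ ≤ (h + 1) * z.im := by
    calc ‖(z : ℂ)‖ ≤ |(z : ℂ).re| + |(z : ℂ).im| := Complex.norm_le_abs_re_add_abs_im _
      _ ≤ h + z.im := by
          have : |(z : ℂ).im| = z.im := abs_of_pos z.im_pos
          rw [this]
          gcongr
          exact hx
      _ ≤ (h + 1) * z.im := by nlinarith
  calc ‖((γ 1 0 : ℤ) : ℂ) * z + (γ 1 1 : ℤ)‖ ≤ ‖((γ 1 0 : ℤ) : ℂ) * z‖ + ‖((γ 1 1 : ℤ) : ℂ)‖ :=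
        norm_add_le _ _
    _ = |((γ 1 0 : ℤ) : ℝ)| * ‖(z : ℂ)‖ + |((γ 1 1 : ℤ) : ℝ)| := by
        rw [norm_mul, Complex.norm_intCast, Complex.norm_intCast]
    _ ≤ |((γ 1 0 : ℤ) : ℝ)| * ((h + 1) * z.im) + |((γ 1 1 : ℤ) : ℝ)| * z.im := by
        gcongr
        nlinarith [abs_nonneg ((γ 1 1 : ℤ) : ℝ)]
    _ = _ := by ring

theorem im_smul_SL (γ : SL(2, ℤ)) (z : ℍ) :
    (γ • z).im = z.im / ‖((γ 1 0 : ℤ) : ℂ) * z + (γ 1 1 : ℤ)‖ ^ 2 := by
  rw [ModularGroup.im_smul_eq_div_normSq, Complex.normSq_eq_norm_sq]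
  congr 2

/-- a slash of a function of moderate growth is of polynomial growth in strips -/
theorem growth_slash {f : ℍ → ℂ} {C : ℝ} {A : ℕ} (gr : ∀ z : ℍ, ‖f z‖ ≤ C * (z.im + 1 / z.im) ^ A)
    (k : ℤ) (γ : SL(2, ℤ)) {h : ℝ} (hh : 0 < h) : ∃ (C' : ℝ) (B : ℕ),
      ∀ z : ℍ, 1 ≤ z.im → |z.re| ≤ h → ‖(f ∣[k] γ) z‖ ≤ C' * z.im ^ B := by
  set K : ℝ := |((γ 1 0 : ℤ) : ℝ)| * (h + 1) + |((γ 1 1 : ℤ) : ℝ)| with hK
  have hK0 : 0 ≤ K := by positivity
  have hC : 0 ≤ C := by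
    have h1 := (norm_nonneg _).trans (gr UpperHalfPlane.I)
    rw [UpperHalfPlane.I_im] at h1
    exact nonneg_of_mul_nonneg_left h1 (by positivity)
  refine ⟨C * (1 + K ^ 2) ^ A * K ^ k.natAbs, A + k.natAbs, fun z hz hx => ?_⟩
  have hD1 := one_le_norm_denom γ hz
  have hD2 : ‖((γ 1 0 : ℤ) : ℂ) * z + (γ 1 1 : ℤ)‖ ≤ K * z.im := norm_denom_le γ hz hx
  set D : ℝ := ‖((γ 1 0 : ℤ) : ℂ) * z + (γ 1 1 : ℤ)‖ with hD
  have hy : 0 < z.im := z.im_pos
  have e1 : (f ∣[k] γ) z = f (γ • z) * (((γ 1 0 : ℤ) : ℂ) * z + (γ 1 1 : ℤ)) ^ (-k) := by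
    rw [ModularForm.SL_slash_apply, ModularGroup.denom_apply]
  rw [e1, norm_mul, norm_zpow, ← hD]
  have e2 : ‖f (γ • z)‖ ≤ C * ((1 + K ^ 2) * z.im) ^ A := by
    refine (gr _).trans ?_
    rw [im_smul_SL, ← hD]
    have h1 : z.im / D ^ 2 ≤ z.im := by
      rw [div_le_iff₀ (by positivity)]
      nlinarith [one_le_pow₀ hD1 (n := 2)]
    have h2 : 1 / (z.im / D ^ 2) ≤ K ^ 2 * z.im := by
      rw [one_div_div, div_le_iff₀ hy]
      have : D ^ 2 ≤ (K * z.im) ^ 2 := pow_le_pow_left₀ (by positivity) hD2 2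
      calc D ^ 2 ≤ (K * z.im) ^ 2 := this
        _ = K ^ 2 * z.im * z.im := by ring
    gcongr
    calc z.im / D ^ 2 + 1 / (z.im / D ^ 2) ≤ z.im + K ^ 2 * z.im := add_le_add h1 h2
      _ = (1 + K ^ 2) * z.im := by ring
  have e3 : D ^ (-k) ≤ (K * z.im) ^ k.natAbs := by
    calc D ^ (-k) ≤ D ^ (k.natAbs : ℤ) := zpow_le_zpow_right₀ hD1 (by omega)
      _ = D ^ k.natAbs := zpow_natCast _ _
      _ ≤ _ := pow_le_pow_left₀ (by positivity) hD2 _
  calc ‖f (γ • z)‖ * D ^ (-k) ≤ (C * ((1 + K ^ 2) * z.im) ^ A) * (K * z.im) ^ k.natAbs :=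
        mul_le_mul e2 e3 (by positivity) (by positivity)
    _ = _ := by rw [mul_pow, mul_pow, pow_add]; ring

/-- slashes of invariant functions are periodic -/
theorem periodic_slash {f : ℍ → ℂ} {N : ℕ} {k : ℤ} (inv : ∀ γ ∈ Gamma1 N, f ∣[k] γ = f)
    (γ : SL(2, ℤ)) : Function.Periodic ((f ∣[k] γ) ∘ ofComplex) N := by
  have h1 : ∀ τ : ℍ, (f ∣[k] γ) ((N : ℝ) +ᵥ τ) = (f ∣[k] γ) τ := by
    intro τ
    have hT : ModularGroup.T ^ N ∈ CongruenceSubgroup.Gamma N := by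
      have := ModularGroup_T_pow_mem_Gamma N N (dvd_refl _)
      rwa [zpow_natCast, Int.natAbs_natCast] at this
    have hconj : γ * ModularGroup.T ^ N * γ⁻¹ ∈ CongruenceSubgroup.Gamma N :=
      (Gamma_normal N).conj_mem _ hT γ
    have hmem : γ * ModularGroup.T ^ N * γ⁻¹ ∈ Gamma1 N := by
      rw [Gamma1_mem]
      rw [Gamma_mem] at hconj
      exact ⟨hconj.1, hconj.2.2.2, hconj.2.2.1⟩
    have h2 : (f ∣[k] γ) ∣[k] (ModularGroup.T ^ N) = f ∣[k] γ := by
      rw [← SlashAction.slash_mul]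
      have : γ * ModularGroup.T ^ N = (γ * ModularGroup.T ^ N * γ⁻¹) * γ := by group
      rw [this, SlashAction.slash_mul, inv _ hmem]
    have h3 := congrFun h2 τ
    rw [ModularForm.SL_slash_apply] at h3
    have h4 : (ModularGroup.T ^ N : SL(2, ℤ)) • τ = (N : ℝ) +ᵥ τ := by
      have := UpperHalfPlane.modular_T_zpow_smul τ N
      rw [zpow_natCast] at this
      rw [this]
      simp
    have h5 : UpperHalfPlane.denom ((ModularGroup.T ^ N : SL(2, ℤ)) : GL (Fin 2) ℝ) τ = 1 := by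
      rw [ModularGroup.denom_apply]
      have := ModularGroup.coe_T_zpow (N : ℤ)
      rw [zpow_natCast] at this
      rw [this]
      simp
    rw [h4, h5, one_zpow, mul_one] at h3
    exact h3
  intro w
  by_cases! hw : 0 < im w
  · have hw' : 0 < im (w + N) := by simp [hw]
    simp only [Function.comp_apply, ofComplex_apply_of_im_pos hw', ofComplex_apply_of_im_pos hw]
    rw [← h1 ⟨w, hw⟩]
    refine congrArg (f ∣[k] γ) (UpperHalfPlane.ext ?_)
    simp [add_comm]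
  · have : im (w + N) ≤ 0 := by simpa using hw
    simp [ofComplex_apply_of_im_nonpos this, ofComplex_apply_of_im_nonpos hw]

/-- **Moderate growth implies modular.** -/
theorem exists_modularForm_of_growth {f : ℍ → ℂ} {N : ℕ} [NeZero N] {k : ℤ} (hol : MDiff f)
    (inv : ∀ γ ∈ Gamma1 N, f ∣[k] γ = f) {C : ℝ} {A : ℕ}
    (gr : ∀ z : ℍ, ‖f z‖ ≤ C * (z.im + 1 / z.im) ^ A) :
    ∃ g : ModularForm ((Gamma1 N).map (Matrix.SpecialLinearGroup.mapGL ℝ)) k, ⇑g = f := by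
  have hN : (0 : ℝ) < N := by exact_mod_cast Nat.pos_of_neZero N
  refine ⟨{ toFun := f
            slash_action_eq' := ?_
            holo' := hol
            bdd_at_cusps' := ?_ }, rfl⟩
  · rintro _ ⟨γ, hγ, rfl⟩
    exact inv γ hγ
  · intro c hc
    rw [Subgroup.IsArithmetic.isCusp_iff_isCusp_SL2Z] at hc
    rw [OnePoint.isBoundedAt_iff_forall_SL2Z hc]
    intro γ _
    obtain ⟨C', B, h⟩ := growth_slash gr k γ hN
    exact isBoundedAtImInfty_of_growth hN (hol.slash k γ) (by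
      have := periodic_slash inv γ
      exact_mod_cast this) h

end

end Fermat.Agent.LT.J.Growth
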