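import Mathlib
import Fermat.Prelude.Def_FLTPrelim_Modularity
import Fermat.Agent.LT.J.Growth
import Fermat.Agent.LT.K.Defs

/-!
# From transformation laws to modular forms with character `χ₋₃` (LT, piece J)
-/

set_option autoImplicit false

open UpperHalfPlane hiding I
open ModularForm CongruenceSubgroup Filter Topology Complex OnePoint Asymptotics
open scoped MatrixGroups ModularForm Real Manifold

namespace Fermat.Agent.LT.J

open Growth

noncomputable section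

theorem chi3_eq (d : ℤ) : K.chi3 d = legendreSym 3 d := by
  rw [K.chi3, jacobiSym.legendreSym.to_jacobiSym]

theorem legendreSym_three_eq_one {d : ℤ} (h : (d : ZMod 3) = 1) : legendreSym 3 d = 1 := by
  rw [legendreSym, h, map_one]

theorem mdiff_of_differentiableOn {f : ℂ → ℂ} (hol : DifferentiableOn ℂ f {z | 0 < z.im}) :
    MDiff (fun τ : ℍ => f τ) := by
  rw [UpperHalfPlane.mdifferentiable_iff]
  refine hol.congr fun z hz => ?_
  rw [Function.comp_apply, ofComplex_apply_of_im_pos hz]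

/-- **Packaging**: a holomorphic function with the transformation law of weight one and character
`χ₋₃` under `Γ₀(N)`, and of moderate growth, is a modular form. -/
theorem exists_modularForm {N : ℕ} [NeZero N] (h3 : 3 ∣ N) {f : ℂ → ℂ}
    (hol : DifferentiableOn ℂ f {z | 0 < z.im})
    (tr : ∀ γ ∈ Gamma0 N, ∀ τ : ℍ, f (γ • τ : ℍ) =
      (legendreSym 3 (γ 1 1) : ℤ) * ((γ 1 0 : ℤ) * (τ : ℂ) + (γ 1 1 : ℤ)) * f τ)
    {C : ℝ} {A : ℕ} (gr : ∀ τ : ℍ, ‖f τ‖ ≤ C * (τ.im + 1 / τ.im) ^ A) :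
    ∃ g : ModularForm ((Gamma1 N).map (Matrix.SpecialLinearGroup.mapGL ℝ)) 1,
      (∀ τ : ℍ, g τ = f τ) ∧
      (∀ γ ∈ Gamma0 N, (⇑g ∣[(1 : ℤ)] γ) = ((K.chi3 (γ 1 1) : ℤ) : ℂ) • ⇑g) ∧
      ∀ a : ℕ → ℂ, (∀ τ : ℍ, HasSum (fun n : ℕ => a n * exp (2 * π * I * n * τ)) (f τ)) →
        ∀ n, ModularFormClass.qCoeff g n = a n := by
  have key : ∀ γ ∈ Gamma0 N, ((fun τ : ℍ => f τ) ∣[(1 : ℤ)] γ) =
      ((K.chi3 (γ 1 1) : ℤ) : ℂ) • fun τ : ℍ => f τ := by
    intro γ hγ
    funext τ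
    rw [SL_slash_apply, ModularGroup.denom_apply]
    show f (γ • τ : ℍ) * _ = ((K.chi3 (γ 1 1) : ℤ) : ℂ) * f τ
    have hne : ((γ 1 0 : ℤ) : ℂ) * τ + (γ 1 1 : ℤ) ≠ 0 := by
      have := UpperHalfPlane.denom_ne_zero (γ : GL (Fin 2) ℝ) τ
      rwa [ModularGroup.denom_apply] at this
    rw [tr γ hγ τ, chi3_eq, zpow_neg_one]
    field_simp
  have inv : ∀ γ ∈ Gamma1 N, ((fun τ : ℍ => f τ) ∣[(1 : ℤ)] γ) = fun τ : ℍ => f τ := by
    intro γ hγ
    rw [key γ (Gamma1_in_Gamma0 N hγ)]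
    rw [Gamma1_mem] at hγ
    have h1 : ((γ 1 1 : ℤ) : ZMod 3) = 1 := by
      have := congrArg (ZMod.castHom h3 (ZMod 3)) hγ.2.1
      rwa [map_intCast, map_one] at this
    rw [chi3_eq, legendreSym_three_eq_one h1]
    simp
  obtain ⟨g, hg⟩ := exists_modularForm_of_growth (mdiff_of_differentiableOn hol) inv gr
  refine ⟨g, fun τ => congrFun hg τ, fun γ hγ => ?_, fun a ha n => ?_⟩
  · rw [hg]
    exact key γ hγ
  · symm
    refine ModularFormClass.qExpansion_coeff_unique (f := g) one_pos (by simp) (fun τ => ?_) n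
    have h1 := ha τ
    rw [hg]
    refine h1.congr_fun fun n => ?_
    rw [Function.Periodic.qParam, smul_eq_mul, ← Complex.exp_nat_mul]
    congr 2
    push_cast
    ring

end

end Fermat.Agent.LT.J
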