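import Fermat.Agent.LT.J.Asm
import Fermat.Agent.LT.J.Pack
import Fermat.Agent.LT.J.CuspOfHecke

/-!
# The theta descent (LT, piece J8): main theorem for coefficient systems
-/

set_option autoImplicit false
set_option linter.unusedSectionVars false

open Complex Matrix MeasureTheory Set
open UpperHalfPlane hiding I
open CongruenceSubgroup

open scoped ComplexConjugate ENNReal MatrixGroups ModularForm

noncomputable section

namespace Fermat.Agent.LT.J

open Fermat.LT QE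

/-- J2 -/
theorem Sys.nonempty_coefData {M : ℕ} (S : Sys M) : Nonempty (CoefData S.c) := by
  have hc := S.coefSys
  choose B hB using fun n : ℤ => exists_cfS hc n
  have hA : ∀ n, ∃ A : ℂ, B n = 0 → ∀ y : ℝ, 0 < y → cf S.c n y = A := by
    intro n
    by_cases h : B n = 0
    · obtain ⟨A, hA⟩ := exists_cf_const hc n (hB n) h
      exact ⟨A, fun _ => hA⟩
    · exact ⟨0, fun h' => absurd h' h⟩
  choose A hA using hA
  exact ⟨{ B := B
           hB := hB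
           hpos := fun n hn => cfS_eq_zero_of_pos hc n hn (hB n)
           A := A
           hA := hA
           hneg := fun n hn h0 => cf_eq_zero_of_neg hc n hn (hA n h0) }⟩

theorem Out.differentiableOn {N : ℕ} {P : Set ℕ} {lam : ℕ → ℝ} {G : ℂ → ℂ} {a : ℕ → ℂ}
    (h : Out N P lam G a) : DifferentiableOn ℂ G {z | 0 < z.im} := by
  intro z hz
  have hz' : 0 < z.im := hz
  set δ : ℝ := z.im / 2 with hδ
  have hδ0 : 0 < δ := by positivity
  have hopen : IsOpen {w : ℂ | δ < w.im} := isOpen_lt continuous_const continuous_im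
  have hsum : Summable fun n : ℕ => ‖a n * ee ⟨0, δ⟩ n‖ :=
    (h.hasSum ⟨0, δ⟩ hδ0).summable.norm
  have hle : ∀ (n : ℕ) (w : ℂ), w ∈ {w : ℂ | δ < w.im} → ‖a n * ee w n‖ ≤ ‖a n * ee ⟨0, δ⟩ n‖ := by
    intro n w hw
    have hw' : δ < w.im := hw
    rw [norm_mul, norm_mul, norm_ee, norm_ee]
    apply mul_le_mul_of_nonneg_left _ (norm_nonneg _)
    apply Real.exp_le_exp.2
    have hpi := Real.pi_pos
    have hn : (0 : ℝ) ≤ ((n : ℤ) : ℝ) := by positivity
    have : 2 * Real.pi * δ * ((n : ℤ) : ℝ) ≤ 2 * Real.pi * w.im * ((n : ℤ) : ℝ) := by gcongr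
    simp only
    linarith
  have hd : DifferentiableOn ℂ (fun w => ∑' n : ℕ, a n * ee w n) {w : ℂ | δ < w.im} := by
    refine differentiableOn_tsum_of_summable_norm hsum (fun n => ?_) hopen hle
    have : Differentiable ℂ fun w : ℂ => a n * ee w n := by
      unfold ee
      fun_prop
    exact this.differentiableOn
  have hd2 : DifferentiableOn ℂ G {w : ℂ | δ < w.im} := by
    refine hd.congr fun w hw => ?_
    exact (h.hasSum w (hδ0.trans hw)).tsum_eq.symm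
  have hmem : z ∈ {w : ℂ | δ < w.im} := by
    simp only [mem_ofPred_eq, hδ]; linarith
  exact (hd2.differentiableAt (hopen.mem_nhds hmem)).differentiableWithinAt

/-- The final output. -/
theorem Out.exists_cuspForm {N : ℕ} [NeZero N] (h3 : 3 ∣ N) {P : Set ℕ} {lam : ℕ → ℝ} {G : ℂ → ℂ}
    {a : ℕ → ℂ} (h : Out N P lam G a)
    (hp : ∃ p ∈ P, p.Prime ∧ p ≡ 1 [MOD N] ∧ lam p ≠ 2) :
    ∃ f : CuspForm (Gamma1 N) 1, f ≠ 0 ∧
      (∀ γ ∈ Gamma0 N, (⇑f ∣[(1 : ℤ)] γ) = ((K.chi3 (γ 1 1) : ℤ) : ℂ) • ⇑f) ∧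
      ∀ p ∈ P, ∀ n : ℕ, ModularFormClass.qCoeff ⇑f (p * n) +
        (if p ∣ n then ModularFormClass.qCoeff ⇑f (n / p) else 0) =
          (lam p : ℂ) * ModularFormClass.qCoeff ⇑f n := by
  obtain ⟨K, hK⟩ := h.growth
  obtain ⟨g, hg1, hg2, hg3⟩ := exists_modularForm h3 h.differentiableOn h.smul
    (C := K) (A := 7) (fun τ => hK τ τ.im_pos)
  have hsum : ∀ τ : ℍ, HasSum (fun n : ℕ => a n * exp (2 * Real.pi * I * n * τ)) (G τ) := by
    intro τ
    have h1 := h.hasSum τ τ.im_pos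
    refine h1.congr_fun fun n => ?_
    rw [ee]
    congr 2
    push_cast
    ring
  have hq := hg3 a hsum
  obtain ⟨p, hpP, hpp, hpN, hpl⟩ := hp
  obtain ⟨f, hf⟩ := exists_cusp_of_hecke g p hpp hpN (lam p) (by exact_mod_cast hpl) a
    (fun z => by rw [hg1 z]; exact hsum z) (h.hecke p hpP)
  refine ⟨f, ?_, ?_, ?_⟩
  · rintro rfl
    obtain ⟨n, hn⟩ := h.ne
    apply hn
    rw [← hq n]
    refine hg3 (fun _ => 0) (fun τ => ?_) n
    have h0 : G τ = 0 := by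
      rw [← hg1 τ, ← congrFun hf τ]
      rfl
    rw [h0]
    simp only [zero_mul]
    exact hasSum_zero
  · intro γ hγ
    rw [hf]
    exact hg2 γ hγ
  · intro p hp n
    rw [hf, hq, hq, hq]
    exact h.hecke p hp n

/-- **Theta descent for coefficient systems.** -/
theorem Sys.main {M : ℕ} [NeZero M] (S : Sys M) (P : Set ℕ) (lam : ℕ → ℝ)
    (hP : ∀ p ∈ P, p.Prime)
    (h1 : ∀ p ∈ P, HeckeRel (cf S.c) p (lam p)) (h2 : ∀ p ∈ P, HeckeRel (cfS S.c) p (lam p))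
    (hne : ∃ y : ℝ, 0 < y ∧ cf S.c 1 y ≠ 0)
    (hp : ∃ p ∈ P, p ≡ 1 [MOD 3 * M ^ 2] ∧ lam p ≠ 2) :
    ∃ f : CuspForm (Gamma1 (3 * M ^ 2)) 1, f ≠ 0 ∧
      (∀ γ ∈ Gamma0 (3 * M ^ 2), (⇑f ∣[(1 : ℤ)] γ) = ((K.chi3 (γ 1 1) : ℤ) : ℂ) • ⇑f) ∧
      ∀ p ∈ P, ∀ n : ℕ, ModularFormClass.qCoeff ⇑f (p * n) +
        (if p ∣ n then ModularFormClass.qCoeff ⇑f (n / p) else 0) =
          (lam p : ℂ) * ModularFormClass.qCoeff ⇑f n := by
  obtain ⟨D⟩ := S.nonempty_coefData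
  obtain ⟨G, a, h⟩ := exists_out S D P lam (fun p hp => (hP p hp).ne_zero) h1 h2 hne
  have : NeZero (3 * M ^ 2) := ⟨by have := NeZero.ne M; positivity⟩
  obtain ⟨p, hpP, hp1, hp2⟩ := hp
  exact h.exists_cuspForm ⟨M ^ 2, rfl⟩ ⟨p, hpP, hP p hpP, hp1, hp2⟩

end Fermat.Agent.LT.J
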