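import Fermat.Agent.LT.J.Coeff

/-!
# The Fourier coefficients of the theta lift: differential equations (LT, piece J2)

For `c : CoefSys`:
* `cf c n y = √y Λ_n(exp(-4πy s²))`, `cfS c n y = √y Λ_n((1/2 - 4πy s²) exp(-4πy s²))`.
* `hasDerivAt_cf`: `cf' = cfS / y`; `cfS_eq`: `cfS = B exp(4πny)`, `B = 0` for `n > 0`.
* if `B = 0` then `cf` is constant, and zero for `n < 0`.
-/

set_option autoImplicit false

open MeasureTheory Set Filter Topology
open scoped ENNReal NNReal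

noncomputable section

namespace Fermat.Agent.LT.J

open Fermat.LT Fermat.Agent.LT.B Fermat.Agent.LT.CArch

/-- the `n`-th Fourier coefficient of the lift -/
def cf (c : Lat ℤ → H3 → ℂ) (n : ℤ) (y : ℝ) : ℂ := Real.sqrt y * Lam rho c n (gss y)

/-- the `n`-th Fourier coefficient of the starred lift -/
def cfS (c : Lat ℤ → H3 → ℂ) (n : ℤ) (y : ℝ) : ℂ :=
  Real.sqrt y * Lam rho c n (fun s => (1 / 2 - 4 * Real.pi * y * s ^ 2) * gss y s)

variable {c : Lat ℤ → H3 → ℂ} (hc : CoefSys c) (n : ℤ)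

include hc

theorem Lam_gss {y : ℝ} (hy : 0 < y) : Lam rho c n (gss y) = mom c n 0 y := by
  have hpi := Real.pi_pos
  have h1 : gss y = gm 0 y := funext fun s => (gm_zero y s).symm
  rw [h1, Lam_eq hc (by positivity) n (continuous_gm 0 y).measurable (GB_gm 0 hy le_rfl)]
  rfl

theorem Lam_gssS {y : ℝ} (hy : 0 < y) :
    Lam rho c n (fun s => (1 / 2 - 4 * Real.pi * y * s ^ 2) * gss y s) =
      1 / 2 * mom c n 0 y - 4 * Real.pi * y * mom c n 1 y := by
  have hpi := Real.pi_pos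
  set h : ℝ → ℝ := fun s => (1 / 2 - 4 * Real.pi * y * s ^ 2) * gss y s with hh
  have he : ∀ s, h s = 1 / 2 * gm 0 y s - 4 * Real.pi * y * gm 1 y s := by
    intro s
    rw [hh]
    simp only
    rw [gm_zero, show gm 1 y s = s ^ 2 * gss y s from rfl]
    ring
  have hb : GB (1 / 2 * gc 0 y + 4 * Real.pi * y * gc 1 y) (2 * Real.pi * y)
      (fun s => (h s : ℂ)) := by
    intro s
    simp only
    rw [he, Complex.norm_real, Real.norm_eq_abs, add_mul]
    have h0 := gm_le 0 hy le_rfl s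
    have h1 := gm_le 1 hy le_rfl s
    have g0 := gm_nonneg 0 y s
    have g1 := gm_nonneg 1 y s
    have h2 : |1 / 2 * gm 0 y s - 4 * Real.pi * y * gm 1 y s| ≤
        1 / 2 * gm 0 y s + 4 * Real.pi * y * gm 1 y s := by
      have : 0 ≤ 4 * Real.pi * y * gm 1 y s := by positivity
      rw [abs_le]; constructor <;> linarith
    refine h2.trans ?_
    rw [mul_assoc _ (gc 0 y), mul_assoc _ (gc 1 y)]
    exact add_le_add (mul_le_mul_of_nonneg_left h0 (by norm_num))
      (mul_le_mul_of_nonneg_left h1 (by positivity))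
  have hm : Measurable h := by
    have : h = fun s => 1 / 2 * gm 0 y s - 4 * Real.pi * y * gm 1 y s := funext he
    rw [this]
    exact ((continuous_gm 0 y).measurable.const_mul _).sub
      ((continuous_gm 1 y).measurable.const_mul _)
  rw [Lam_eq hc (by positivity) n hm hb]
  have h3 : (fun s => (h s : ℂ)) = fun s => (1 / 2 : ℂ) * (gm 0 y s : ℂ) +
      (-(4 * Real.pi * y) : ℂ) * (gm 1 y s : ℂ) + (0 : ℂ) * (gm 0 y s : ℂ) := by
    funext s
    rw [he]
    push_cast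
    ring
  rw [h3, LamL_lin3 n (integrable_mom hc n 0 hy) (integrable_mom hc n 1 hy)
    (integrable_mom hc n 0 hy)]
  unfold mom
  ring

theorem cf_eq {y : ℝ} (hy : 0 < y) : cf c n y = Real.sqrt y * mom c n 0 y := by
  rw [cf, Lam_gss hc n hy]

theorem cfS_eq {y : ℝ} (hy : 0 < y) : cfS c n y =
    Real.sqrt y * (1 / 2 * mom c n 0 y - 4 * Real.pi * y * mom c n 1 y) := by
  rw [cfS, Lam_gssS hc n hy]

omit hc in
theorem hasDerivAt_sqrtC {y : ℝ} (hy : 0 < y) :
    HasDerivAt (fun y : ℝ => (Real.sqrt y : ℂ)) ((Real.sqrt y : ℂ) / (2 * y)) y := by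
  have h1 := (Real.hasDerivAt_sqrt hy.ne').ofReal_comp
  refine h1.congr_deriv ?_
  have hs := Real.sqrt_pos.2 hy
  have h2 : 1 / (2 * Real.sqrt y) = Real.sqrt y / (2 * y) := by
    rw [div_eq_div_iff (by positivity) (by positivity)]
    nlinarith [Real.mul_self_sqrt hy.le]
  rw [h2]
  push_cast
  rfl

/-- (i) -/
theorem hasDerivAt_cf {y : ℝ} (hy : 0 < y) : HasDerivAt (cf c n) (cfS c n y / y) y := by
  have h1 : cf c n =ᶠ[𝓝 y] fun y => (Real.sqrt y : ℂ) * mom c n 0 y :=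
    Filter.mem_of_superset (Ioi_mem_nhds hy) fun z hz => cf_eq hc n hz
  refine HasDerivAt.congr_of_eventuallyEq ?_ h1
  refine ((hasDerivAt_sqrtC hy).mul (hasDerivAt_mom hc n 0 hy)).congr_deriv ?_
  rw [cfS_eq hc n hy]
  have : (y : ℂ) ≠ 0 := by exact_mod_cast hy.ne'
  field_simp
  ring

theorem hasDerivAt_cfS {y : ℝ} (hy : 0 < y) :
    HasDerivAt (cfS c n) (4 * Real.pi * n * cfS c n y) y := by
  have h1 : cfS c n =ᶠ[𝓝 y] fun y : ℝ => (Real.sqrt y : ℂ) *
      (1 / 2 * mom c n 0 y - 4 * Real.pi * y * mom c n 1 y) :=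
    Filter.mem_of_superset (Ioi_mem_nhds hy) fun z hz => cfS_eq hc n hz
  refine HasDerivAt.congr_of_eventuallyEq ?_ h1
  have hy1 : HasDerivAt (fun y : ℝ => (4 * Real.pi * y : ℂ)) (4 * Real.pi) y := by
    have := (Complex.ofRealCLM.hasDerivAt (x := y)).const_mul (4 * Real.pi : ℂ)
    simpa using this
  have h2 := (hasDerivAt_sqrtC hy).mul (((hasDerivAt_mom hc n 0 hy).const_mul (1 / 2 : ℂ)).sub
    (hy1.mul (hasDerivAt_mom hc n 1 hy)))
  refine h2.congr_deriv ?_
  rw [cfS_eq hc n hy]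
  have hode := mom_ode hc n hy
  push_cast at hode
  have hy' : (y : ℂ) ≠ 0 := by exact_mod_cast hy.ne'
  have h3 : (Real.sqrt y : ℂ) / (2 * y) * (1 / 2 * mom c n 0 y - 4 * Real.pi * y * mom c n 1 y) +
      (Real.sqrt y : ℂ) * (1 / 2 * (-(4 * Real.pi) * mom c n (0 + 1) y) -
      (4 * Real.pi * mom c n 1 y + 4 * Real.pi * y * (-(4 * Real.pi) * mom c n (1 + 1) y))) -
      4 * Real.pi * n * ((Real.sqrt y : ℂ) * (1 / 2 * mom c n 0 y - 4 * Real.pi * y * mom c n 1 y))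
      = (Real.sqrt y : ℂ) / (4 * y) * (64 * Real.pi ^ 2 * y ^ 2 * mom c n 2 y +
    (64 * Real.pi ^ 2 * y ^ 2 * n - 32 * Real.pi * y) * mom c n 1 y +
    (1 - 8 * Real.pi * n * y) * mom c n 0 y) := by
    field_simp
    ring
  rw [hode, mul_zero] at h3
  exact sub_eq_zero.1 h3

/-- (ii) -/
theorem exists_cfS : ∃ B : ℂ, ∀ y : ℝ, 0 < y → cfS c n y = B * Real.exp (4 * Real.pi * n * y) := by
  have hd : ∀ y ∈ Ioi (0 : ℝ), HasDerivAt (fun y : ℝ => cfS c n y *
      (Real.exp (-(4 * Real.pi * n * y)) : ℂ)) 0 y := by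
    intro y hy
    have h1 : HasDerivAt (fun y : ℝ => (Real.exp (-(4 * Real.pi * n * y)) : ℂ))
        ((Real.exp (-(4 * Real.pi * n * y)) * (-(4 * Real.pi * n)) : ℝ) : ℂ) y := by
      refine HasDerivAt.ofReal_comp ?_
      have h2 : HasDerivAt (fun y : ℝ => -(4 * Real.pi * n * y)) (-(4 * Real.pi * n)) y := by
        have := ((hasDerivAt_id y).const_mul (4 * Real.pi * n)).fun_neg
        simpa using this
      exact h2.exp
    refine ((hasDerivAt_cfS hc n hy).mul h1).congr_deriv ?_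
    push_cast
    ring
  obtain ⟨B, hB⟩ := isOpen_Ioi.exists_is_const_of_deriv_eq_zero (isPreconnected_Ioi)
    (fun y hy => (hd y hy).differentiableAt.differentiableWithinAt) (fun y hy => (hd y hy).deriv)
  refine ⟨B, fun y hy => ?_⟩
  rw [← hB y hy, mul_assoc, ← Complex.ofReal_mul, ← Real.exp_add, neg_add_cancel, Real.exp_zero,
    Complex.ofReal_one, mul_one]

theorem exists_mom_bound (k : ℕ) : ∃ C : ℝ, ∀ y : ℝ, 1 ≤ y → ‖mom c n k y‖ ≤ C := by
  obtain ⟨B, hB⟩ := hc.bdd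
  have hpi := Real.pi_pos
  refine ⟨∫ x in Qset n, B * (gc k 1 * Real.exp (-(2 * Real.pi * 1 * sL x.1 x.2 ^ 2))) ∂nuL,
    fun y hy => ?_⟩
  rw [mom, LamL_eq]
  refine norm_integral_le_of_norm_le
    (((integrableOn_gauss (by positivity) n).const_mul _).const_mul _) ?_
  refine Eventually.of_forall fun x => ?_
  rw [norm_mul, Complex.norm_real, Real.norm_of_nonneg (gm_nonneg k y _)]
  have h3 := hB x.1 x.2
  have h4 := (norm_nonneg _).trans h3
  have h5 := gm_nonneg k y (sL x.1 x.2)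
  have h6 := gm_le k one_pos hy (sL x.1 x.2)
  gcongr

theorem exists_cfS_bound : ∃ C : ℝ, 0 ≤ C ∧ ∀ y : ℝ, 1 ≤ y → ‖cfS c n y‖ ≤ C * y ^ 2 := by
  obtain ⟨C0, h0⟩ := exists_mom_bound hc n 0
  obtain ⟨C1, h1⟩ := exists_mom_bound hc n 1
  have hpi := Real.pi_pos
  have hC0 : 0 ≤ C0 := (norm_nonneg _).trans (h0 1 le_rfl)
  have hC1 : 0 ≤ C1 := (norm_nonneg _).trans (h1 1 le_rfl)
  refine ⟨1 / 2 * C0 + 4 * Real.pi * C1, by positivity, fun y hy => ?_⟩
  have hy0 : 0 < y := by linarith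
  rw [cfS_eq hc n hy0, norm_mul, Complex.norm_real, Real.norm_of_nonneg (Real.sqrt_nonneg y)]
  have hs : Real.sqrt y ≤ y := by
    rw [Real.sqrt_le_left hy0.le]
    nlinarith
  have h2 : ‖1 / 2 * mom c n 0 y - 4 * Real.pi * y * mom c n 1 y‖ ≤
      (1 / 2 * C0 + 4 * Real.pi * C1) * y := by
    refine (norm_sub_le _ _).trans ?_
    rw [norm_mul, norm_mul]
    have e1 : ‖(1 / 2 : ℂ)‖ = 1 / 2 := by simp
    have e2 : ‖(4 * Real.pi * y : ℂ)‖ = 4 * Real.pi * y := by
      rw [show (4 * Real.pi * y : ℂ) = ((4 * Real.pi * y : ℝ) : ℂ) by push_cast; rfl,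
        Complex.norm_real, Real.norm_of_nonneg (by positivity)]
    rw [e1, e2]
    have a0 := h0 y hy
    have a1 := h1 y hy
    calc 1 / 2 * ‖mom c n 0 y‖ + 4 * Real.pi * y * ‖mom c n 1 y‖
        ≤ 1 / 2 * C0 + 4 * Real.pi * y * C1 := by gcongr
      _ ≤ 1 / 2 * (C0 * y) + 4 * Real.pi * y * C1 := by
          have : C0 ≤ C0 * y := le_mul_of_one_le_right hC0 hy
          linarith
      _ = _ := by ring
  calc Real.sqrt y * _ ≤ y * ((1 / 2 * C0 + 4 * Real.pi * C1) * y) := by gcongr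
    _ = _ := by ring

/-- (iii) -/
theorem cfS_eq_zero_of_pos (hn : 0 < n) {B : ℂ}
    (hB : ∀ y : ℝ, 0 < y → cfS c n y = B * Real.exp (4 * Real.pi * n * y)) : B = 0 := by
  obtain ⟨C, hC0, hC⟩ := exists_cfS_bound hc n
  have hpi := Real.pi_pos
  have hn1 : (1 : ℝ) ≤ n := by exact_mod_cast hn
  have h1 : ∀ y : ℝ, 1 ≤ y → ‖B‖ ≤ C * (y ^ 2 * Real.exp (-y)) := by
    intro y hy
    have h2 := hC y hy
    rw [hB y (by linarith), norm_mul, Complex.norm_real, Real.norm_of_nonneg (Real.exp_pos _).le]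
      at h2
    have h3 : Real.exp y ≤ Real.exp (4 * Real.pi * n * y) := by
      apply Real.exp_le_exp.2
      have : 1 ≤ 4 * Real.pi * n := by nlinarith [Real.pi_gt_three]
      nlinarith
    have h4 : ‖B‖ * Real.exp y ≤ C * y ^ 2 :=
      (mul_le_mul_of_nonneg_left h3 (norm_nonneg _)).trans h2
    calc ‖B‖ = ‖B‖ * Real.exp y * Real.exp (-y) := by
          rw [mul_assoc, ← Real.exp_add]; simp
      _ ≤ C * y ^ 2 * Real.exp (-y) := by gcongr
      _ = _ := by ring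
  have h2 : Tendsto (fun y : ℝ => C * (y ^ 2 * Real.exp (-y))) atTop (𝓝 (C * 0)) :=
    (Real.tendsto_pow_mul_exp_neg_atTop_nhds_zero 2).const_mul C
  rw [mul_zero] at h2
  have h3 : ‖B‖ ≤ 0 := ge_of_tendsto h2 ((eventually_ge_atTop 1).mono h1)
  exact norm_le_zero_iff.1 h3

/-- (iv), first part -/
theorem exists_cf_const {B : ℂ}
    (hB : ∀ y : ℝ, 0 < y → cfS c n y = B * Real.exp (4 * Real.pi * n * y)) (hB0 : B = 0) :
    ∃ A : ℂ, ∀ y : ℝ, 0 < y → cf c n y = A := by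
  have hd : ∀ y ∈ Ioi (0 : ℝ), HasDerivAt (cf c n) 0 y := by
    intro y hy
    refine (hasDerivAt_cf hc n hy).congr_deriv ?_
    rw [hB y hy, hB0, zero_mul, zero_div]
  exact isOpen_Ioi.exists_is_const_of_deriv_eq_zero (isPreconnected_Ioi)
    (fun y hy => (hd y hy).differentiableAt.differentiableWithinAt) (fun y hy => (hd y hy).deriv)

theorem tendsto_cf_zero (hn : n < 0) : Tendsto (cf c n) atTop (𝓝 0) := by
  obtain ⟨B, hB⟩ := hc.bdd
  have hpi := Real.pi_pos
  set D : ℝ := ∫ x in Qset n, B * (Real.exp (-(4 * Real.pi * sL x.1 x.2 ^ 2))) ∂nuL with hD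
  have h1 : ∀ y : ℝ, 1 ≤ y → ‖cf c n y‖ ≤ y * (Real.exp (-(y - 1)) * D) := by
    intro y hy
    have hy0 : 0 < y := by linarith
    rw [cf_eq hc n hy0, norm_mul, Complex.norm_real, Real.norm_of_nonneg (Real.sqrt_nonneg y)]
    have hs : Real.sqrt y ≤ y := by
      rw [Real.sqrt_le_left hy0.le]
      nlinarith
    have h2 : ‖mom c n 0 y‖ ≤ Real.exp (-(y - 1)) * D := by
      rw [mom, LamL_eq, hD, ← integral_const_mul]
      refine norm_integral_le_of_norm_le
        (((integrableOn_gauss (by positivity) n).const_mul _).const_mul _) ?_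
      refine (ae_restrict_mem (measurableSet_Qset n)).mono fun x hx => ?_
      have hq : x.1.q = n := hx
      rw [norm_mul, Complex.norm_real, Real.norm_of_nonneg (gm_nonneg 0 y _), gm_zero]
      have h3 := hB x.1 x.2
      have h4 := (norm_nonneg _).trans h3
      have h5 : gss y (sL x.1 x.2) ≤ Real.exp (-(y - 1)) *
          Real.exp (-(4 * Real.pi * sL x.1 x.2 ^ 2)) := by
        unfold gss
        rw [← Real.exp_add]
        apply Real.exp_le_exp.2
        have h6 := s_sq_add_q_nonneg x.1 x.2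
        have h7 : (n : ℝ) ≤ -1 := by exact_mod_cast (by omega : n ≤ -1)
        have h8 : 1 ≤ sL x.1 x.2 ^ 2 := by
          rw [hq] at h6; linarith
        have h9 : (y - 1) ≤ 4 * Real.pi * (y - 1) * sL x.1 x.2 ^ 2 := by
          have a1 : 1 ≤ 4 * Real.pi * sL x.1 x.2 ^ 2 := by nlinarith [Real.pi_gt_three]
          nlinarith
        nlinarith
      have h6 : 0 ≤ gss y (sL x.1 x.2) := (Real.exp_pos _).le
      calc ‖c x.1 x.2‖ * gss y (sL x.1 x.2) ≤ B * (Real.exp (-(y - 1)) *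
          Real.exp (-(4 * Real.pi * sL x.1 x.2 ^ 2))) := by gcongr
        _ = _ := by ring
    gcongr
  have h2 : Tendsto (fun y : ℝ => Real.exp 1 * D * (y ^ 1 * Real.exp (-y))) atTop
      (𝓝 (Real.exp 1 * D * 0)) :=
    (Real.tendsto_pow_mul_exp_neg_atTop_nhds_zero 1).const_mul _
  rw [mul_zero] at h2
  refine squeeze_zero_norm' ((eventually_ge_atTop 1).mono fun y hy => ?_) h2
  refine (h1 y hy).trans (le_of_eq ?_)
  rw [show -(y - 1) = 1 + -y by ring, Real.exp_add]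
  ring

/-- (iv), second part -/
theorem cf_eq_zero_of_neg (hn : n < 0) {A : ℂ} (hA : ∀ y : ℝ, 0 < y → cf c n y = A) : A = 0 := by
  have h1 := tendsto_cf_zero hc n hn
  have h2 : Tendsto (cf c n) atTop (𝓝 A) :=
    tendsto_const_nhds.congr' ((eventually_gt_atTop 0).mono fun y hy => (hA y hy).symm)
  exact tendsto_nhds_unique h2 h1

end Fermat.Agent.LT.J
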