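import Mathlib
import Fermat.Agent.LT.A.H3Top

/-!
# Binary hermitian forms and hyperbolic 3-space (LT, piece J)

`Herm` = hermitian matrices `[[a, b], [conj b, d]]`, quadratic form `q X = |b|² - a d` (signature
`(3,1)`), pairing `sH X P` with a point `P` of `H3`, action `X ↦ g X g*` of `GL₂(ℂ)`.
-/

set_option autoImplicit false

open Complex Matrix MeasureTheory

open scoped ComplexConjugate

noncomputable section

namespace Fermat.Agent.LT.J

open Fermat.LT

/-- hermitian matrices `[[a, b], [conj b, d]]` -/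
@[ext] structure Herm where
  /-- upper left entry -/
  a : ℝ
  /-- upper right entry -/
  b : ℂ
  /-- lower right entry -/
  d : ℝ

namespace Herm

/-- minus the determinant -/
def q (X : Herm) : ℝ := normSq X.b - X.a * X.d

/-- half of the trace pairing of `X` with the form `P.Q` -/
def s (X : Herm) (P : H3) : ℝ :=
  (X.a - 2 * (X.b * conj P.z).re + X.d * (normSq P.z + P.t ^ 2)) / (2 * P.t)

/-- the action `g X g*` (for an arbitrary matrix `g`) -/
def act (g : Matrix (Fin 2) (Fin 2) ℂ) (X : Herm) : Herm where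
  a := normSq (g 0 0) * X.a + 2 * (g 0 0 * X.b * conj (g 0 1)).re + normSq (g 0 1) * X.d
  b := g 0 0 * conj (g 1 0) * X.a + g 0 0 * conj (g 1 1) * X.b + g 0 1 * conj (g 1 0) * conj X.b
    + g 0 1 * conj (g 1 1) * X.d
  d := normSq (g 1 0) * X.a + 2 * (g 1 0 * X.b * conj (g 1 1)).re + normSq (g 1 1) * X.d

/-- The matrix of a hermitian form. -/
def mat (X : Herm) : Matrix (Fin 2) (Fin 2) ℂ := !![(X.a : ℂ), X.b; conj X.b, (X.d : ℂ)]

theorem mat_injective : Function.Injective mat := by
  intro X Y h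
  have h00 := congrFun (congrFun h 0) 0
  have h01 := congrFun (congrFun h 0) 1
  have h11 := congrFun (congrFun h 1) 1
  simp only [mat, of_apply, cons_val', cons_val_zero, cons_val_one, cons_val_fin_one] at h00 h01 h11
  exact Herm.ext (by exact_mod_cast h00) h01 (by exact_mod_cast h11)

theorem two_re_eq (w : ℂ) : ((2 * w.re : ℝ) : ℂ) = w + conj w := by
  rw [add_conj]

theorem mat_act (g : Matrix (Fin 2) (Fin 2) ℂ) (X : Herm) : (act g X).mat = g * X.mat * gᴴ := by
  ext i j
  fin_cases i <;> fin_cases j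
  · simp only [mat, act, ofReal_add, ofReal_mul, ← mul_conj, Fin.zero_eta, Fin.isValue, of_apply,
      cons_val', cons_val_zero, cons_val_fin_one, Matrix.mul_apply, Fin.sum_univ_two,
      conjTranspose_apply, cons_val_one]
    rw [← ofReal_mul, two_re_eq]
    simp only [map_mul, conj_conj, RCLike.star_def]
    ring
  · simp only [mat, act, Fin.zero_eta, Fin.isValue, of_apply, Fin.mk_one,
      cons_val', cons_val_zero, cons_val_fin_one, Matrix.mul_apply, Fin.sum_univ_two,
      conjTranspose_apply, cons_val_one, RCLike.star_def]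
    ring
  · simp only [mat, act, Fin.zero_eta, Fin.isValue, of_apply, Fin.mk_one, map_add, map_mul,
      conj_conj, conj_ofReal,
      cons_val', cons_val_zero, cons_val_fin_one, Matrix.mul_apply, Fin.sum_univ_two,
      conjTranspose_apply, cons_val_one, RCLike.star_def]
    ring
  · simp only [mat, act, ofReal_add, ofReal_mul, ← mul_conj, Fin.mk_one, Fin.isValue, of_apply,
      cons_val', cons_val_zero, cons_val_fin_one, Matrix.mul_apply, Fin.sum_univ_two,
      conjTranspose_apply, cons_val_one]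
    rw [← ofReal_mul, two_re_eq]
    simp only [map_mul, conj_conj, RCLike.star_def]
    ring

theorem act_mul (g h : Matrix (Fin 2) (Fin 2) ℂ) (X : Herm) : act (g * h) X = act g (act h X) := by
  apply mat_injective
  rw [mat_act, mat_act, mat_act, conjTranspose_mul]
  simp only [Matrix.mul_assoc]

theorem act_one (X : Herm) : act 1 X = X := by
  apply mat_injective
  rw [mat_act, conjTranspose_one, Matrix.mul_one, Matrix.one_mul]

theorem det_mat (X : Herm) : X.mat.det = -((X.q : ℝ) : ℂ) := by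
  rw [mat, Matrix.det_fin_two_of, q]
  push_cast
  rw [← mul_conj]
  ring

theorem q_act (g : Matrix (Fin 2) (Fin 2) ℂ) (X : Herm) :
    (act g X).q = normSq g.det * X.q := by
  have h := det_mat (act g X)
  rw [mat_act, Matrix.det_mul, Matrix.det_mul, det_mat, Matrix.det_conjTranspose] at h
  have h2 : ((act g X).q : ℂ) = ((normSq g.det * X.q : ℝ) : ℂ) := by
    push_cast
    rw [← mul_conj]
    simp only [RCLike.star_def] at h
    linear_combination h
  exact_mod_cast h2

theorem s_eq_Q (X : Herm) (P : H3) :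
    X.s P = (P.Q X.b 1 + (X.a - normSq X.b) * P.Q 1 0 + (X.d - 1) * P.Q 0 1) / 2 := by
  have ht := P.t_ne_zero
  rw [s, H3.Q, H3.Q, H3.Q]
  have h : normSq (X.b - P.z * 1) = normSq X.b - 2 * (X.b * conj P.z).re + normSq P.z := by
    rw [mul_one, normSq_sub]; ring
  rw [h]
  simp only [mul_zero, sub_zero, normSq_one, normSq_zero, mul_one, zero_sub, normSq_neg]
  field_simp
  ring

/-- rank one form `v v*` -/
def rk (x y : ℂ) : Herm := ⟨normSq x, x * conj y, normSq y⟩

theorem s_rk (x y : ℂ) (P : H3) : (rk x y).s P = P.Q x y / 2 := by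
  have ht := P.t_ne_zero
  rw [s, rk, H3.Q]
  have h : normSq (x - P.z * y) = normSq x - 2 * (x * conj y * conj P.z).re
      + normSq P.z * normSq y := by
    rw [normSq_sub, normSq_mul, map_mul]
    have : x * (conj P.z * conj y) = x * conj y * conj P.z := by ring
    rw [this]; ring
  rw [h]
  simp only
  field_simp
  ring

theorem s_act_eq (g : Matrix (Fin 2) (Fin 2) ℂ) (X : Herm) (P : H3) :
    (act g X).s P = (P.Q (g 0 0 * X.b + g 0 1 * 1) (g 1 0 * X.b + g 1 1 * 1)
      + (X.a - normSq X.b) * P.Q (g 0 0 * 1 + g 0 1 * 0) (g 1 0 * 1 + g 1 1 * 0)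
      + (X.d - 1) * P.Q (g 0 0 * 0 + g 0 1 * 1) (g 1 0 * 0 + g 1 1 * 1)) / 2 := by
  have ht := P.t_ne_zero
  have key : ∀ x y : ℂ, P.Q x y / 2 = (rk x y).s P := fun x y => (s_rk x y P).symm
  have e : ∀ u v w c1 c2 : ℝ, (u + c1 * v + c2 * w) / 2 = u / 2 + c1 * (v / 2) + c2 * (w / 2) := by
    intros; ring
  rw [e, key, key, key]
  simp only [s, rk, act, mul_one, mul_zero, add_zero, zero_add]
  rw [mul_div_assoc', mul_div_assoc', ← add_div, ← add_div]
  congr 1
  have h1 : ∀ α β : ℂ, normSq (α * X.b + β) =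
      normSq α * normSq X.b + 2 * (α * X.b * conj β).re + normSq β := by
    intro α β
    rw [normSq_add, normSq_mul]; ring
  rw [h1, h1]
  have h2 : ((g 0 0 * conj (g 1 0) * X.a + g 0 0 * conj (g 1 1) * X.b
      + g 0 1 * conj (g 1 0) * conj X.b + g 0 1 * conj (g 1 1) * X.d) * conj P.z).re =
      ((g 0 0 * X.b + g 0 1) * conj (g 1 0 * X.b + g 1 1) * conj P.z).re
      + (X.a - normSq X.b) * (g 0 0 * conj (g 1 0) * conj P.z).re
      + (X.d - 1) * (g 0 1 * conj (g 1 1) * conj P.z).re := by
    have h3 : (g 0 0 * conj (g 1 0) * X.a + g 0 0 * conj (g 1 1) * X.b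
      + g 0 1 * conj (g 1 0) * conj X.b + g 0 1 * conj (g 1 1) * X.d) * conj P.z =
      (g 0 0 * X.b + g 0 1) * conj (g 1 0 * X.b + g 1 1) * conj P.z
      + ((X.a - normSq X.b : ℝ) : ℂ) * (g 0 0 * conj (g 1 0) * conj P.z)
      + ((X.d - 1 : ℝ) : ℂ) * (g 0 1 * conj (g 1 1) * conj P.z) := by
      push_cast
      rw [← mul_conj]
      simp only [map_add, map_mul]
      ring
    rw [h3, add_re, add_re, re_ofReal_mul, re_ofReal_mul]
  rw [h2]
  ring

/-- **Equivariance** of the pairing. -/
theorem s_act (g : GL (Fin 2) ℂ) (X : Herm) (P : H3) :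
    (act g.1 X).s (g • P) = ‖(g : Matrix (Fin 2) (Fin 2) ℂ).det‖ * X.s P := by
  have h := s_act_eq g.1 X (g • P)
  rw [h, s_eq_Q]
  have e1 := H3.Q_smul_apply g P X.b 1
  have e2 := H3.Q_smul_apply g P 1 0
  have e3 := H3.Q_smul_apply g P 0 1
  rw [e1, e2, e3]
  ring

/-- scalar multiple -/
def smul (c : ℝ) (X : Herm) : Herm := ⟨c * X.a, c * X.b, c * X.d⟩

theorem q_smul (c : ℝ) (X : Herm) : (smul c X).q = c ^ 2 * X.q := by
  simp only [q, smul, normSq_mul, normSq_ofReal]; ring

theorem s_smul (c : ℝ) (X : Herm) (P : H3) : (smul c X).s P = c * X.s P := by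
  simp only [s, smul]
  have : ((c : ℂ) * X.b * conj P.z).re = c * (X.b * conj P.z).re := by
    rw [mul_assoc, re_ofReal_mul]
  rw [this]; ring

theorem act_smul (g : Matrix (Fin 2) (Fin 2) ℂ) (c : ℝ) (X : Herm) :
    act g (smul c X) = smul c (act g X) := by
  ext
  · simp only [act, smul]
    have : (g 0 0 * (c * X.b) * conj (g 0 1)).re = c * (g 0 0 * X.b * conj (g 0 1)).re := by
      rw [← re_ofReal_mul]; congr 1; ring
    rw [this]; ring
  · simp only [act, smul, map_mul, conj_ofReal, ofReal_mul]; ring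
  · simp only [act, smul]
    have : (g 1 0 * (c * X.b) * conj (g 1 1)).re = c * (g 1 0 * X.b * conj (g 1 1)).re := by
      rw [← re_ofReal_mul]; congr 1; ring
    rw [this]; ring

theorem continuous_s (X : Herm) : Continuous (X.s) := by
  unfold s
  refine Continuous.div ?_ (continuous_const.mul H3.continuous_t) fun P =>
    mul_ne_zero two_ne_zero P.t_ne_zero
  exact ((continuous_const.sub (continuous_const.mul
    (continuous_re.comp (continuous_const.mul (continuous_conj.comp H3.continuous_z))))).add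
    (continuous_const.mul ((continuous_normSq.comp H3.continuous_z).add (H3.continuous_t.pow 2))))

/-- translation form of the pairing: with `a' = a - 2Re(b conj z) + d|z|²`, `b' = b - dz`,
`s = (a' + d t²)/(2t)` and `q = |b'|² - a' d`. -/
theorem q_eq_trans (X : Herm) (z : ℂ) :
    X.q = normSq (X.b - X.d * z) - (X.a - 2 * (X.b * conj z).re + X.d * normSq z) * X.d := by
  rw [q, normSq_sub, normSq_mul, normSq_ofReal, map_mul, conj_ofReal]
  have : (X.b * (X.d * conj z)).re = X.d * (X.b * conj z).re := by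
    rw [← re_ofReal_mul]; congr 1; ring
  rw [this]; ring

/-- The majorant: `2 s² + q = (a'²/t² + d² t²)/2 + |b'|²`. -/
theorem majorant_eq (X : Herm) (P : H3) :
    2 * X.s P ^ 2 + X.q =
      ((X.a - 2 * (X.b * conj P.z).re + X.d * normSq P.z) ^ 2 / P.t ^ 2 + X.d ^ 2 * P.t ^ 2) / 2
      + normSq (X.b - X.d * P.z) := by
  have ht := P.t_ne_zero
  rw [q_eq_trans X P.z, s]
  field_simp
  ring

/-- `s² + q ≥ 0`. -/
theorem s_sq_add_q_nonneg (X : Herm) (P : H3) : 0 ≤ X.s P ^ 2 + X.q := by
  have ht := P.t_pos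
  have h : X.s P ^ 2 + X.q = ((X.a - 2 * (X.b * conj P.z).re + X.d * normSq P.z
      - X.d * P.t ^ 2) / (2 * P.t)) ^ 2 + normSq (X.b - X.d * P.z) := by
    rw [q_eq_trans X P.z, s]
    field_simp
    ring
  rw [h]
  exact add_nonneg (sq_nonneg _) (normSq_nonneg _)

end Herm

end Fermat.Agent.LT.J
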