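import Mathlib
import Fermat.Agent.LT.J.Herm

/-!
# The Eisenstein integers and the lattice of hermitian forms (LT, piece J)

* `QE R = R[ω]`, `ω² = -1 - ω` (`= QuadraticAlgebra R (-1) (-1)`), `EO = QE ℤ = ℤ[ω]`,
  `toC : EO →+* ℂ`, `th = √-3 = 1 + 2ω`.
* `Lat R = {(a, β, c) : a c : R, β : QE R}`, `q X = N(β) - 3ac`, standing for the hermitian matrix
  `X = [[a, β/√-3], [conj, c]]`, i.e. the skew hermitian matrix `Y = [[√-3 a, β], [-conj β, √-3 c]]`.
* `act g X` corresponds to `g X g*`, for `g` any matrix over `QE R`.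
* `toHerm : Lat ℤ → Herm` the real hermitian form `√3 · X`, so that
  `Herm.q (toHerm X) = q X`, `Herm.s (toHerm X) P = (√3 a - 2 Im(β conj z) + √3 c (|z|²+t²))/(2t)`.
-/

set_option autoImplicit false
set_option linter.unusedSimpArgs false

open Complex Matrix

open scoped ComplexConjugate

noncomputable section

namespace Fermat.Agent.LT.J

open Fermat.LT

/-- `R[ω]`, `ω² = -1 - ω`. -/
abbrev QE (R : Type*) [CommRing R] : Type _ := QuadraticAlgebra R (-1) (-1)

/-- The ring of Eisenstein integers. -/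
abbrev EO : Type := QE ℤ

namespace QE

variable {R : Type*} [CommRing R]

@[simp] theorem re_one' : (1 : QE R).re = 1 := rfl
@[simp] theorem im_one' : (1 : QE R).im = 0 := rfl

@[simp] theorem star_re (x : QE R) : (star x).re = x.re - x.im := by
  rw [QuadraticAlgebra.re_star]; ring

@[simp] theorem star_im (x : QE R) : (star x).im = -x.im := by
  rw [QuadraticAlgebra.im_star]

@[simp] theorem mul_re (x y : QE R) : (x * y).re = x.re * y.re - x.im * y.im := by
  rw [QuadraticAlgebra.re_mul]; ring

@[simp] theorem mul_im (x y : QE R) : (x * y).im = x.re * y.im + x.im * y.re - x.im * y.im := by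
  rw [QuadraticAlgebra.im_mul]; ring

/-- the norm `N(x + yω) = x² - xy + y²` -/
def nm (x : QE R) : R := x.re ^ 2 - x.re * x.im + x.im ^ 2

theorem nm_eq (x : QE R) : (nm x : R) = (x * star x).re := by
  rw [nm, mul_re, star_re, star_im]; ring

theorem mul_star_eq (x : QE R) : x * star x = QuadraticAlgebra.C (nm x) := by
  ext
  · rw [← nm_eq]; rfl
  · simp; ring

theorem nm_mul (x y : QE R) : nm (x * y) = nm x * nm y := by
  simp only [nm, mul_re, mul_im]; ring

@[simp] theorem nm_one : nm (1 : QE R) = 1 := by simp [nm]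

@[simp] theorem nm_zero : nm (0 : QE R) = 0 := by simp [nm]

@[simp] theorem nm_star (x : QE R) : nm (star x) = nm x := by
  simp only [nm, star_re, star_im]; ring

/-- change of coefficients -/
def map {S : Type*} [CommRing S] (f : R →+* S) : QE R →+* QE S where
  toFun x := ⟨f x.re, f x.im⟩
  map_one' := by ext <;> simp
  map_mul' x y := by
    ext
    · simp [mul_re]
    · simp [mul_im]
  map_zero' := by ext <;> simp
  map_add' x y := by ext <;> simp

section
variable {S : Type*} [CommRing S] (f : R →+* S)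

@[simp] theorem map_re (x : QE R) : (map f x).re = f x.re := rfl
@[simp] theorem map_im (x : QE R) : (map f x).im = f x.im := rfl

theorem map_star (x : QE R) : map f (star x) = star (map f x) := by
  ext <;> simp

theorem map_nm (x : QE R) : f (nm x) = nm (map f x) := by
  simp [nm]

end

/-- `√-3 = 1 + 2ω` -/
def th : QE R := ⟨1, 2⟩

@[simp] theorem th_re : (th : QE R).re = 1 := rfl
@[simp] theorem th_im : (th : QE R).im = 2 := rfl

theorem th_sq : (th : QE R) * th = -3 := by
  ext
  · rw [mul_re, th_re, th_im, QuadraticAlgebra.re_neg, QuadraticAlgebra.re_ofNat]; norm_num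
  · rw [mul_im, th_re, th_im, QuadraticAlgebra.im_neg, QuadraticAlgebra.im_ofNat]; norm_num

theorem star_th : star (th : QE R) = -th := by
  ext
  · simp; norm_num
  · simp

end QE

open QE

/-! ### Embedding into `ℂ` -/

/-- the primitive cube root of unity `(-1 + √3 i)/2` -/
def om : ℂ := ⟨-1 / 2, Real.sqrt 3 / 2⟩

theorem sqrt3_sq : Real.sqrt 3 * Real.sqrt 3 = 3 := Real.mul_self_sqrt (by norm_num)

theorem sqrt3_pos : 0 < Real.sqrt 3 := Real.sqrt_pos.2 (by norm_num)

@[simp] theorem om_re : om.re = -1 / 2 := rfl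
@[simp] theorem om_im : om.im = Real.sqrt 3 / 2 := rfl

theorem om_sq : om * om = -1 - om := by
  apply Complex.ext
  · simp only [mul_re, om_re, om_im, sub_re, neg_re, one_re]
    nlinarith [sqrt3_sq]
  · simp only [mul_im, om_re, om_im, sub_im, neg_im, one_im]
    ring

/-- the embedding `ℤ[ω] → ℂ` -/
def toC : EO →+* ℂ where
  toFun x := x.re + x.im * om
  map_one' := by simp
  map_zero' := by simp
  map_add' x y := by simp; ring
  map_mul' x y := by
    simp only [QE.mul_re, QE.mul_im]
    push_cast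
    linear_combination (-(x.im : ℂ) * y.im) * om_sq

theorem toC_apply (x : EO) : toC x = x.re + x.im * om := rfl

theorem toC_re (x : EO) : (toC x).re = x.re - x.im / 2 := by
  rw [toC_apply]
  simp
  ring

theorem toC_im (x : EO) : (toC x).im = x.im * (Real.sqrt 3 / 2) := by
  rw [toC_apply]
  simp

theorem conj_toC (x : EO) : conj (toC x) = toC (star x) := by
  apply Complex.ext
  · rw [conj_re, toC_re, toC_re, star_re, star_im]; push_cast; ring
  · rw [conj_im, toC_im, toC_im, star_im]; push_cast; ring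

theorem normSq_toC (x : EO) : normSq (toC x) = (nm x : ℤ) := by
  rw [normSq_apply, toC_re, toC_im, nm]
  push_cast
  have := sqrt3_sq
  linear_combination ((x.im : ℝ) ^ 2 / 4) * this

theorem nm_nonneg (x : EO) : 0 ≤ nm x := by
  have h : (0 : ℝ) ≤ ((nm x : ℤ) : ℝ) := by
    rw [← normSq_toC]; exact normSq_nonneg _
  exact_mod_cast h

theorem toC_injective : Function.Injective toC := by
  intro x y h
  have h1 := congrArg Complex.re h
  have h2 := congrArg Complex.im h
  rw [toC_re, toC_re] at h1
  rw [toC_im, toC_im] at h2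
  have h3 : (x.im : ℝ) = y.im := mul_right_cancel₀ (by have := sqrt3_pos; positivity) h2
  have h4 : x.im = y.im := by exact_mod_cast h3
  rw [h3] at h1
  have h5 : (x.re : ℝ) = y.re := by linarith
  exact QuadraticAlgebra.ext (by exact_mod_cast h5) h4

theorem nm_eq_zero_iff (x : EO) : nm x = 0 ↔ x = 0 := by
  constructor
  · intro h
    have h1 := normSq_toC x
    rw [h] at h1
    have h2 : toC x = 0 := normSq_eq_zero.1 (by simpa using h1)
    exact toC_injective (by rw [h2, map_zero])
  · rintro rfl; exact nm_zero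

theorem toC_th : toC th = Real.sqrt 3 * I := by
  apply Complex.ext
  · rw [toC_re]; simp
  · rw [toC_im]; simp; ring

instance : IsDomain EO :=
  Function.Injective.isDomain toC toC_injective

theorem isUnit_iff_nm (x : EO) : IsUnit x ↔ nm x = 1 := by
  constructor
  · rintro ⟨u, rfl⟩
    have h : nm (u : EO) * nm ((u⁻¹ : EOˣ) : EO) = 1 := by
      rw [← nm_mul, Units.mul_inv, nm_one]
    have h1 := nm_nonneg (u : EO)
    rcases Int.eq_one_or_neg_one_of_mul_eq_one h with h2 | h2
    · exact h2
    · omega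
  · intro h
    refine IsUnit.of_mul_eq_one (star x) ?_
    rw [mul_star_eq, h]
    rfl

/-! ### The lattice -/

/-- The lattice of hermitian forms: `(a, β, c)`. -/
@[ext] structure Lat (R : Type*) [CommRing R] where
  /-- upper left entry -/
  a : R
  /-- `√-3` times the upper right entry -/
  β : QE R
  /-- lower right entry -/
  c : R

namespace Lat

section ring
variable {R : Type*} [CommRing R]

/-- the quadratic form -/
def q (X : Lat R) : R := nm X.β - 3 * (X.a * X.c)

/-- the action of matrices -/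
def act (g : Matrix (Fin 2) (Fin 2) (QE R)) (X : Lat R) : Lat R where
  a := nm (g 0 0) * X.a + (g 0 0 * X.β * star (g 0 1)).im + nm (g 0 1) * X.c
  β := X.a • (th * g 0 0 * star (g 1 0)) + g 0 0 * star (g 1 1) * X.β
    - g 0 1 * star (g 1 0) * star X.β + X.c • (th * g 0 1 * star (g 1 1))
  c := nm (g 1 0) * X.a + (g 1 0 * X.β * star (g 1 1)).im + nm (g 1 1) * X.c

theorem act_one (X : Lat R) : act 1 X = X := by
  apply Lat.ext
  · simp [act]
  · simp [act]
  · simp [act]

theorem act_mul (g h : Matrix (Fin 2) (Fin 2) (QE R)) (X : Lat R) :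
    act (g * h) X = act g (act h X) := by
  apply Lat.ext
  · simp only [act, Matrix.mul_apply, Fin.sum_univ_two, nm, QE.mul_re, QE.mul_im, QE.star_re,
      QE.star_im, QuadraticAlgebra.re_add, QuadraticAlgebra.im_add, QuadraticAlgebra.re_sub,
      QuadraticAlgebra.im_sub, QuadraticAlgebra.re_smul, QuadraticAlgebra.im_smul, smul_eq_mul,
      th_re, th_im]
    ring
  · apply QuadraticAlgebra.ext
    · simp only [act, Matrix.mul_apply, Fin.sum_univ_two, nm, QE.mul_re, QE.mul_im, QE.star_re,
        QE.star_im, QuadraticAlgebra.re_add, QuadraticAlgebra.im_add, QuadraticAlgebra.re_sub,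
        QuadraticAlgebra.im_sub, QuadraticAlgebra.re_smul, QuadraticAlgebra.im_smul, smul_eq_mul,
        th_re, th_im]
      ring
    · simp only [act, Matrix.mul_apply, Fin.sum_univ_two, nm, QE.mul_re, QE.mul_im, QE.star_re,
        QE.star_im, QuadraticAlgebra.re_add, QuadraticAlgebra.im_add, QuadraticAlgebra.re_sub,
        QuadraticAlgebra.im_sub, QuadraticAlgebra.re_smul, QuadraticAlgebra.im_smul, smul_eq_mul,
        th_re, th_im]
      ring
  · simp only [act, Matrix.mul_apply, Fin.sum_univ_two, nm, QE.mul_re, QE.mul_im, QE.star_re,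
      QE.star_im, QuadraticAlgebra.re_add, QuadraticAlgebra.im_add, QuadraticAlgebra.re_sub,
      QuadraticAlgebra.im_sub, QuadraticAlgebra.re_smul, QuadraticAlgebra.im_smul, smul_eq_mul,
      th_re, th_im]
    ring

theorem q_act (g : Matrix (Fin 2) (Fin 2) (QE R)) (X : Lat R) :
    (act g X).q = nm g.det * X.q := by
  simp only [q, act, Matrix.det_fin_two, nm, QE.mul_re, QE.mul_im, QE.star_re,
      QE.star_im, QuadraticAlgebra.re_add, QuadraticAlgebra.im_add, QuadraticAlgebra.re_sub,
      QuadraticAlgebra.im_sub, QuadraticAlgebra.re_smul, QuadraticAlgebra.im_smul, smul_eq_mul,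
      th_re, th_im]
  ring

/-- scalar multiplication -/
def smul (d : R) (X : Lat R) : Lat R := ⟨d * X.a, d • X.β, d * X.c⟩

theorem q_smul (d : R) (X : Lat R) : (smul d X).q = d ^ 2 * X.q := by
  simp only [q, smul, nm, QuadraticAlgebra.re_smul, QuadraticAlgebra.im_smul, smul_eq_mul]
  ring

theorem act_smul (g : Matrix (Fin 2) (Fin 2) (QE R)) (d : R) (X : Lat R) :
    act g (smul d X) = smul d (act g X) := by
  apply Lat.ext
  · simp only [act, smul, nm, QE.mul_re, QE.mul_im, QE.star_re,
      QE.star_im, QuadraticAlgebra.re_add, QuadraticAlgebra.im_add, QuadraticAlgebra.re_sub,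
      QuadraticAlgebra.im_sub, QuadraticAlgebra.re_smul, QuadraticAlgebra.im_smul, smul_eq_mul,
      th_re, th_im]
    ring
  · apply QuadraticAlgebra.ext <;>
    · simp only [act, smul, nm, QE.mul_re, QE.mul_im, QE.star_re,
        QE.star_im, QuadraticAlgebra.re_add, QuadraticAlgebra.im_add, QuadraticAlgebra.re_sub,
        QuadraticAlgebra.im_sub, QuadraticAlgebra.re_smul, QuadraticAlgebra.im_smul, smul_eq_mul,
        th_re, th_im]
      ring
  · simp only [act, smul, nm, QE.mul_re, QE.mul_im, QE.star_re,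
      QE.star_im, QuadraticAlgebra.re_add, QuadraticAlgebra.im_add, QuadraticAlgebra.re_sub,
      QuadraticAlgebra.im_sub, QuadraticAlgebra.re_smul, QuadraticAlgebra.im_smul, smul_eq_mul,
      th_re, th_im]
    ring

theorem smul_smul (d e : R) (X : Lat R) : smul d (smul e X) = smul (d * e) X := by
  apply Lat.ext
  · simp only [smul]; ring
  · simp only [smul]; rw [_root_.smul_smul]
  · simp only [smul]; ring

theorem one_smul (X : Lat R) : smul 1 X = X := by
  apply Lat.ext <;> simp [smul]

/-- A scalar matrix `x` acts by `N(x)`. -/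
theorem act_scalar (x : QE R) (X : Lat R) : act (Matrix.scalar (Fin 2) x) X = smul (nm x) X := by
  apply Lat.ext
  · simp [act, smul]
  · simp only [act, smul, Matrix.scalar_apply, Matrix.diagonal_apply_eq, ne_eq, zero_ne_one,
      not_false_eq_true, Matrix.diagonal_apply_ne, one_ne_zero, star_zero, mul_zero, smul_zero,
      zero_mul, zero_add, sub_zero, add_zero]
    rw [mul_star_eq, QuadraticAlgebra.C_mul_eq_smul]
  · simp [act, smul]

instance : MulAction (GL (Fin 2) (QE R)) (Lat R) where
  smul g X := act g.1 X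
  one_smul X := act_one X
  mul_smul g h X := act_mul g.1 h.1 X

theorem gl_smul (g : GL (Fin 2) (QE R)) (X : Lat R) : g • X = act g.1 X := rfl

/-- change of coefficients -/
def map {S : Type*} [CommRing S] (f : R →+* S) (X : Lat R) : Lat S :=
  ⟨f X.a, QE.map f X.β, f X.c⟩

theorem map_q {S : Type*} [CommRing S] (f : R →+* S) (X : Lat R) : (X.map f).q = f X.q := by
  simp [q, map, map_nm, map_ofNat]

theorem map_act {S : Type*} [CommRing S] (f : R →+* S) (g : Matrix (Fin 2) (Fin 2) (QE R))
    (X : Lat R) : (act g X).map f = act (g.map (QE.map f)) (X.map f) := by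
  apply Lat.ext
  · simp [act, map, nm]
  · apply QuadraticAlgebra.ext <;> simp [act, map, map_ofNat]
  · simp [act, map, nm]

theorem map_smul {S : Type*} [CommRing S] (f : R →+* S) (d : R)
    (X : Lat R) : (smul d X).map f = smul (f d) (X.map f) := by
  apply Lat.ext
  · simp [smul, map]
  · apply QuadraticAlgebra.ext <;> simp [smul, map]
  · simp [smul, map]

/-- the coordinates -/
def equivProd (R : Type*) [CommRing R] : Lat R ≃ R × (R × R) × R where
  toFun X := (X.a, (X.β.re, X.β.im), X.c)
  invFun p := ⟨p.1, ⟨p.2.1.1, p.2.1.2⟩, p.2.2⟩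
  left_inv X := by cases X; rfl
  right_inv p := rfl

instance : Zero (Lat R) := ⟨⟨0, 0, 0⟩⟩

@[simp] theorem zero_a : (0 : Lat R).a = 0 := rfl
@[simp] theorem zero_β : (0 : Lat R).β = 0 := rfl
@[simp] theorem zero_c : (0 : Lat R).c = 0 := rfl

end ring

instance : Countable (Lat ℤ) := (equivProd ℤ).injective.countable

instance (M : ℕ) [NeZero M] : Finite (Lat (ZMod M)) := Finite.of_equiv _ (equivProd (ZMod M)).symm

/-- the real hermitian form `√3 · X` -/
def toHerm (X : Lat ℤ) : Herm := ⟨Real.sqrt 3 * X.a, -I * toC X.β, Real.sqrt 3 * X.c⟩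

theorem q_toHerm (X : Lat ℤ) : X.toHerm.q = (X.q : ℝ) := by
  rw [toHerm, Herm.q, q, normSq_mul, normSq_toC, normSq_neg, normSq_I]
  push_cast
  linear_combination (-(X.a : ℝ) * X.c) * sqrt3_sq

theorem s_toHerm (X : Lat ℤ) (P : H3) : X.toHerm.s P =
    (Real.sqrt 3 * X.a - 2 * (toC X.β * conj P.z).im + Real.sqrt 3 * X.c *
      (normSq P.z + P.t ^ 2)) / (2 * P.t) := by
  rw [toHerm, Herm.s]
  have : (-I * toC X.β * conj P.z).re = (toC X.β * conj P.z).im := by
    rw [mul_assoc, neg_mul, neg_re, I_mul_re, neg_neg]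
  rw [this]

theorem toC_im_eq (x : EO) : Real.sqrt 3 * ((x.im : ℤ) : ℝ) = 2 * (toC x).im := by
  rw [toC_im]; ring

theorem toHerm_act (g : Matrix (Fin 2) (Fin 2) EO) (X : Lat ℤ) :
    (act g X).toHerm = Herm.act (g.map toC) X.toHerm := by
  apply Herm.ext
  · simp only [toHerm, Herm.act, act, Matrix.map_apply]
    push_cast
    rw [mul_add, mul_add, toC_im_eq, normSq_toC, normSq_toC]
    have : (toC (g 0 0) * (-I * toC X.β) * conj (toC (g 0 1))).re =
        (toC (g 0 0 * X.β * star (g 0 1))).im := by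
      rw [map_mul, map_mul, ← conj_toC]
      have : toC (g 0 0) * (-I * toC X.β) * conj (toC (g 0 1)) =
        -(I * (toC (g 0 0) * toC X.β * conj (toC (g 0 1)))) := by ring
      rw [this, neg_re, I_mul_re, neg_neg]
    rw [this]; ring
  · simp only [toHerm, Herm.act, act, Matrix.map_apply, zsmul_eq_mul]
    simp only [map_add, map_sub, map_mul, map_intCast, toC_th, ← conj_toC, map_neg, conj_I]
    push_cast
    have h3 : I * I = -1 := I_mul_I
    linear_combination (-((X.a : ℂ) * Real.sqrt 3 * toC (g 0 0) * conj (toC (g 1 0)))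
      - ((X.c : ℂ) * Real.sqrt 3 * toC (g 0 1) * conj (toC (g 1 1)))) * h3
  · simp only [toHerm, Herm.act, act, Matrix.map_apply]
    push_cast
    rw [mul_add, mul_add, toC_im_eq, normSq_toC, normSq_toC]
    have : (toC (g 1 0) * (-I * toC X.β) * conj (toC (g 1 1))).re =
        (toC (g 1 0 * X.β * star (g 1 1))).im := by
      rw [map_mul, map_mul, ← conj_toC]
      have : toC (g 1 0) * (-I * toC X.β) * conj (toC (g 1 1)) =
        -(I * (toC (g 1 0) * toC X.β * conj (toC (g 1 1)))) := by ring
      rw [this, neg_re, I_mul_re, neg_neg]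
    rw [this]; ring

end Lat

/-! ### The action of integral matrices on `H3` -/

/-- `GL₂(ℤ[ω]) → GL₂(ℂ)` -/
def glC : GL (Fin 2) EO →* GL (Fin 2) ℂ := Matrix.GeneralLinearGroup.map (n := Fin 2) toC

instance : MulAction (GL (Fin 2) EO) H3 := MulAction.compHom H3 glC

theorem glEO_smul (g : GL (Fin 2) EO) (P : H3) : g • P = glC g • P := rfl

theorem glC_val (g : GL (Fin 2) EO) : (glC g).1 = g.1.map toC := rfl

theorem norm_det_glC (g : GL (Fin 2) EO) : ‖(glC g).1.det‖ = 1 := by
  have h1 : (glC g).1.det = toC g.1.det := by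
    rw [glC_val]; exact (RingHom.map_det toC g.1).symm
  have h2 : nm g.1.det = 1 := (isUnit_iff_nm _).1 g.det.isUnit
  have h3 := normSq_toC g.1.det
  rw [h2, Int.cast_one, normSq_eq_norm_sq, ← h1] at h3
  exact (pow_eq_one_iff_of_nonneg (norm_nonneg _) two_ne_zero).1 h3

/-- an integral matrix with nonzero determinant as an element of `GL₂(ℂ)` -/
def matC (g : Matrix (Fin 2) (Fin 2) EO) (hg : g.det ≠ 0) : GL (Fin 2) ℂ :=
  Matrix.GeneralLinearGroup.mkOfDetNeZero (g.map toC) (by
    have h : (g.map toC).det = toC g.det := (RingHom.map_det toC g).symm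
    rw [h]
    exact (map_ne_zero_iff toC toC_injective).2 hg)

theorem matC_val (g : Matrix (Fin 2) (Fin 2) EO) (hg : g.det ≠ 0) :
    (matC g hg).1 = g.map toC := rfl

/-- The pairing of a lattice vector with a point. -/
def sL (X : Lat ℤ) (P : H3) : ℝ := X.toHerm.s P

theorem sL_eq (X : Lat ℤ) (P : H3) : sL X P =
    (Real.sqrt 3 * X.a - 2 * (toC X.β * conj P.z).im + Real.sqrt 3 * X.c *
      (normSq P.z + P.t ^ 2)) / (2 * P.t) := Lat.s_toHerm X P

theorem sL_matC (g : Matrix (Fin 2) (Fin 2) EO) (hg : g.det ≠ 0) (X : Lat ℤ) (P : H3) :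
    sL (Lat.act g X) (matC g hg • P) = Real.sqrt ((nm g.det : ℤ) : ℝ) * sL X P := by
  rw [sL, Lat.toHerm_act, ← matC_val g hg, Herm.s_act]
  congr 1
  have h : (matC g hg).1.det = toC g.det := (RingHom.map_det toC g).symm
  rw [h, ← normSq_toC, normSq_eq_norm_sq, Real.sqrt_sq (norm_nonneg _)]

theorem sL_gl (g : GL (Fin 2) EO) (X : Lat ℤ) (P : H3) : sL (g • X) (g • P) = sL X P := by
  rw [sL, Lat.gl_smul, Lat.toHerm_act, ← glC_val g, glEO_smul, Herm.s_act, norm_det_glC, one_mul]
  rfl

theorem q_gl (g : GL (Fin 2) EO) (X : Lat ℤ) : (g • X).q = X.q := by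
  have h : nm g.1.det = 1 := (isUnit_iff_nm _).1 g.det.isUnit
  rw [Lat.gl_smul, Lat.q_act, h, one_mul]

theorem sL_smul (d : ℤ) (X : Lat ℤ) (P : H3) : sL (Lat.smul d X) P = d * sL X P := by
  rw [sL_eq, sL_eq]
  have : (toC (Lat.smul d X).β * conj P.z).im = d * (toC X.β * conj P.z).im := by
    have h : toC (Lat.smul d X).β = ((d : ℝ) : ℂ) * toC X.β := by
      simp [Lat.smul, zsmul_eq_mul]
    rw [h, mul_assoc, im_ofReal_mul]
  rw [this]
  simp only [Lat.smul]
  push_cast
  ring

theorem s_sq_add_q_nonneg (X : Lat ℤ) (P : H3) : 0 ≤ sL X P ^ 2 + (X.q : ℝ) := by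
  rw [← Lat.q_toHerm]; exact Herm.s_sq_add_q_nonneg _ _

end Fermat.Agent.LT.J
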