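import Mathlib
import Fermat.Agent.LT.J.Lat

/-!
# Lemma T: `GL₂(ℤ[ω])` acts transitively on the vectors with `q X = 1` (LT, piece J6)
-/

set_option autoImplicit false

open Matrix

noncomputable section

namespace Fermat.Agent.LT.J

open QE

/-- the base vector -/
def X0 : Lat ℤ := ⟨0, 1, 0⟩

@[simp] theorem X0_a : X0.a = 0 := rfl
@[simp] theorem X0_β : X0.β = 1 := rfl
@[simp] theorem X0_c : X0.c = 0 := rfl

theorem q_X0 : X0.q = 1 := by
  simp [Lat.q]

namespace LemT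

/-- build an element of `GL₂` -/
def gl (a b c d : EO) (h : IsUnit (a * d - b * c)) : GL (Fin 2) EO :=
  Matrix.GeneralLinearGroup.mk'' !![a, b; c, d] (by rw [Matrix.det_fin_two_of]; exact h)

theorem gl_val (a b c d : EO) (h : IsUnit (a * d - b * c)) :
    (gl a b c d h).1 = !![a, b; c, d] := rfl

/-- upper unipotent -/
def un (x : EO) : GL (Fin 2) EO := gl 1 x 0 1 (by simp)

/-- the Weyl element -/
def wl : GL (Fin 2) EO := gl 0 1 (-1) 0 (by simp)

theorem un_smul (x : EO) (X : Lat ℤ) : un x • X =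
    ⟨X.a + (X.β * star x).im + nm x * X.c, X.β + X.c • (th * x), X.c⟩ := by
  rw [Lat.gl_smul, un, gl_val]
  apply Lat.ext
  · simp [Lat.act]
  · simp only [Lat.act, Matrix.of_apply, Matrix.cons_val', Matrix.cons_val_zero,
      Matrix.cons_val_one, Matrix.cons_val_fin_one]
    simp
  · simp [Lat.act]

theorem wl_smul (X : Lat ℤ) : wl • X = ⟨X.c, star X.β, X.a⟩ := by
  rw [Lat.gl_smul, wl, gl_val]
  apply Lat.ext
  · simp [Lat.act]
  · simp only [Lat.act, Matrix.of_apply, Matrix.cons_val', Matrix.cons_val_zero,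
      Matrix.cons_val_one, Matrix.cons_val_fin_one]
    simp
  · simp [Lat.act, nm]

theorem dg_smul (x : EO) (hx : IsUnit (x * 1 - 0 * 0)) (X : Lat ℤ) :
    gl x 0 0 1 hx • X = ⟨nm x * X.a, x * X.β, X.c⟩ := by
  rw [Lat.gl_smul, gl_val]
  apply Lat.ext
  · simp [Lat.act]
  · simp only [Lat.act, Matrix.of_apply, Matrix.cons_val', Matrix.cons_val_zero,
      Matrix.cons_val_one, Matrix.cons_val_fin_one]
    simp
  · simp [Lat.act]

/-- reduction of `β` modulo `√-3 c` -/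
theorem exists_reduce (β : EO) (c : ℤ) (hc : c ≠ 0) :
    ∃ x : EO, 4 * nm (β + c • (th * x)) ≤ 9 * c ^ 2 := by
  -- `√-3 β = (β₁ - 2 β₂) + (2 β₁ - β₂) ω`
  have key : ∀ n : ℤ, ∃ k : ℤ, |2 * (n - 3 * c * k)| ≤ |3 * c| := by
    intro n
    have h3c : 3 * c ≠ 0 := by positivity
    refine ⟨(2 * n + |3 * c|) / (2 * (3 * c)), ?_⟩
    set m : ℤ := 3 * c with hm
    rcases lt_or_gt_of_ne h3c with h | h
    · rw [abs_of_neg h]
      have h1 := Int.emod_nonneg (2 * n + -m) (show 2 * m ≠ 0 by omega)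
      have h2 := Int.emod_lt_of_neg (2 * n + -m) (show 2 * m < 0 by omega)
      have h3 := Int.mul_ediv_add_emod (2 * n + -m) (2 * m)
      have h4 : 2 * (n - m * ((2 * n + -m) / (2 * m))) = (2 * n + -m) % (2 * m) + m := by
        linarith
      rw [h4, abs_le]
      constructor <;> omega
    · rw [abs_of_pos h]
      have h1 := Int.emod_nonneg (2 * n + m) (show 2 * m ≠ 0 by omega)
      have h2 := Int.emod_lt_of_pos (2 * n + m) (show 0 < 2 * m by omega)
      have h3 := Int.mul_ediv_add_emod (2 * n + m) (2 * m)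
      have h4 : 2 * (n - m * ((2 * n + m) / (2 * m))) = (2 * n + m) % (2 * m) - m := by
        linarith
      rw [h4, abs_le]
      constructor <;> omega
  obtain ⟨k1, hk1⟩ := key (β.re - 2 * β.im)
  obtain ⟨k2, hk2⟩ := key (2 * β.re - β.im)
  refine ⟨⟨k1, k2⟩, ?_⟩
  set r1 : ℤ := β.re - 2 * β.im - 3 * c * k1 with hr1
  set r2 : ℤ := 2 * β.re - β.im - 3 * c * k2 with hr2
  have h1 : 3 * nm (β + c • (th * (⟨k1, k2⟩ : EO))) = r1 ^ 2 - r1 * r2 + r2 ^ 2 := by
    simp only [nm, QuadraticAlgebra.re_add, QuadraticAlgebra.im_add, QuadraticAlgebra.re_smul,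
      QuadraticAlgebra.im_smul, QE.mul_re, QE.mul_im, th_re, th_im, smul_eq_mul, hr1, hr2]
    ring
  have h2 : (2 * r1) ^ 2 ≤ (3 * c) ^ 2 := sq_le_sq.mpr hk1
  have h3 : (2 * r2) ^ 2 ≤ (3 * c) ^ 2 := sq_le_sq.mpr hk2
  nlinarith [sq_nonneg (r1 + r2), sq_nonneg (r1 - r2)]

/-- the descent -/
theorem exists_c_eq_zero (n : ℕ) : ∀ X : Lat ℤ, X.q = 1 → X.c.natAbs ≤ n →
    ∃ g : GL (Fin 2) EO, (g • X).c = 0 := by
  induction n with
  | zero =>
    intro X _ hc
    refine ⟨1, ?_⟩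
    rw [one_smul]
    omega
  | succ n ih =>
    intro X hX hc
    by_cases hc0 : X.c = 0
    · exact ⟨1, by rw [one_smul]; exact hc0⟩
    obtain ⟨x, hx⟩ := exists_reduce X.β X.c hc0
    set Y : Lat ℤ := un x • X with hY
    have hYc : Y.c = X.c := by rw [hY, un_smul]
    have hYβ : Y.β = X.β + X.c • (th * x) := by rw [hY, un_smul]
    have hYq : Y.q = 1 := by rw [hY, q_gl, hX]
    rw [← hYβ] at hx
    have h1 : nm Y.β - 3 * (Y.a * Y.c) = 1 := hYq
    rw [hYc] at h1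
    have h0 := nm_nonneg Y.β
    have h2 : 0 ≤ Y.a * X.c := by
      by_contra h
      push Not at h
      omega
    have h3 : |Y.a| < |X.c| := by
      by_contra h
      push Not at h
      have h4 : |Y.a| * |X.c| = Y.a * X.c := by rw [← abs_mul, abs_of_nonneg h2]
      have h5 : |X.c| * |X.c| ≤ |Y.a| * |X.c| := mul_le_mul_of_nonneg_right h (abs_nonneg _)
      rw [h4, ← sq, sq_abs] at h5
      have h6 : 0 < X.c ^ 2 := by positivity
      nlinarith
    have h7 : Y.a.natAbs < X.c.natAbs := by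
      rw [Int.abs_eq_natAbs, Int.abs_eq_natAbs] at h3
      exact_mod_cast h3
    obtain ⟨g, hg⟩ := ih (wl • Y) (by rw [q_gl, hYq])
      (by rw [wl_smul]; change Y.a.natAbs ≤ n; omega)
    refine ⟨g * wl * un x, ?_⟩
    rw [mul_smul, mul_smul, ← hY]
    exact hg

end LemT

open LemT

/-- **Lemma T**: `GL₂(ℤ[ω])` acts transitively on the vectors with `q X = 1`. -/
theorem exists_smul_X0 (X : Lat ℤ) (hX : X.q = 1) : ∃ g : GL (Fin 2) EO, g • X0 = X := by
  suffices h : ∃ g : GL (Fin 2) EO, g • X = X0 by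
    obtain ⟨g, hg⟩ := h
    exact ⟨g⁻¹, by rw [← hg, inv_smul_smul]⟩
  obtain ⟨g, hg⟩ := exists_c_eq_zero _ X hX le_rfl
  set Y : Lat ℤ := g • X with hY
  have hYq : Y.q = 1 := by rw [hY, q_gl, hX]
  have h1 : nm Y.β = 1 := by
    have : nm Y.β - 3 * (Y.a * Y.c) = 1 := hYq
    rw [hg] at this
    linarith
  have hu : IsUnit (star Y.β * 1 - 0 * 0 : EO) := by
    rw [mul_one, mul_zero, sub_zero, isUnit_iff_nm, nm_star, h1]
  refine ⟨un ⟨0, Y.a⟩ * gl (star Y.β) 0 0 1 hu * g, ?_⟩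
  rw [mul_smul, mul_smul, ← hY, dg_smul, un_smul]
  have h2 : star Y.β * Y.β = 1 := by
    rw [mul_comm, mul_star_eq, h1]
    rfl
  apply Lat.ext
  · simp [h1, h2, hg]
  · simp [h2, hg]
  · simp [hg]

end Fermat.Agent.LT.J
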