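import Mathlib
import Fermat.Agent.LT.J.LemmaT

/-!
# The stabilizer of `X0` in `GL₂(ℤ[ω])` is `μ₃ × SL₂(ℤ)` (LT, piece J6)
-/

set_option autoImplicit false

open Matrix
open scoped MatrixGroups

noncomputable section

namespace Fermat.Agent.LT.J

open Fermat.LT QE

/-- `SL₂(ℤ) → GL₂(ℤ[ω])` -/
def slEO : SL(2, ℤ) →* GL (Fin 2) EO :=
  Matrix.SpecialLinearGroup.toGL.comp (Matrix.SpecialLinearGroup.map (Int.castRingHom EO))

theorem slEO_apply (g : SL(2, ℤ)) (i j : Fin 2) : (slEO g).1 i j = ((g i j : ℤ) : EO) := rfl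

theorem slEO_injective : Function.Injective slEO := by
  intro g h hgh
  ext i j
  have h1 := congrArg (fun x : GL (Fin 2) EO => (x.1 i j).re) hgh
  simp only [slEO_apply] at h1
  simpa using h1

theorem det_entries (g : SL(2, ℤ)) : g 0 0 * g 1 1 - g 0 1 * g 1 0 = 1 := by
  have := g.det_coe
  rw [Matrix.det_fin_two] at this
  exact this

@[simp] theorem star_intCast_EO (n : ℤ) : star ((n : ℤ) : EO) = (n : EO) := by
  apply QuadraticAlgebra.ext <;> simp

theorem slEO_smul_X0 (g : SL(2, ℤ)) : slEO g • X0 = X0 := by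
  rw [Lat.gl_smul]
  apply Lat.ext
  · simp [Lat.act, slEO_apply]
  · simp only [Lat.act, slEO_apply, star_intCast_EO, X0_a, X0_β, X0_c, mul_one, zero_smul,
      zero_add, add_zero, star_one]
    have := det_entries g
    rw [← Int.cast_mul, ← Int.cast_mul, ← Int.cast_sub, this, Int.cast_one]
  · simp [Lat.act, slEO_apply]

theorem scalar_smul_Lat (u : EOˣ) (X : Lat ℤ) :
    Matrix.GeneralLinearGroup.scalar (Fin 2) u • X = X := by
  rw [Lat.gl_smul, Matrix.GeneralLinearGroup.coe_scalar, Lat.act_scalar,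
    (isUnit_iff_nm _).1 u.isUnit, Lat.one_smul]

theorem scalar_smul_H3 (u : EOˣ) (w : H3) :
    Matrix.GeneralLinearGroup.scalar (Fin 2) u • w = w := by
  have hn : nm (u : EO) = 1 := (isUnit_iff_nm _).1 u.isUnit
  have hn' : Complex.normSq (toC u) = 1 := by
    rw [normSq_toC, hn, Int.cast_one]
  have h00 : (glC (Matrix.GeneralLinearGroup.scalar (Fin 2) u)) 0 0 = toC u := by
    simp [glC]
  have h01 : (glC (Matrix.GeneralLinearGroup.scalar (Fin 2) u)) 0 1 = 0 := by
    simp [glC]
  have h10 : (glC (Matrix.GeneralLinearGroup.scalar (Fin 2) u)) 1 0 = 0 := by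
    simp [glC]
  have h11 : (glC (Matrix.GeneralLinearGroup.scalar (Fin 2) u)) 1 1 = toC u := by
    simp [glC]
  have hden : H3.den (glC (Matrix.GeneralLinearGroup.scalar (Fin 2) u)) w = 1 := by
    rw [H3.den, h10, h11]
    simp [hn']
  rw [glEO_smul]
  apply H3.ext
  · rw [H3.smul_z, hden, h00, h01, h10, h11]
    simp only [add_zero, zero_mul, zero_add, map_zero, mul_zero, Complex.ofReal_one, div_one]
    rw [mul_right_comm, Complex.mul_conj, hn', Complex.ofReal_one, one_mul]
  · rw [H3.smul_t, hden, norm_det_glC, one_mul, div_one]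

namespace StabX0

/-- reduction modulo `√-3` -/
def red3 : EO →+* ZMod 3 where
  toFun z := ((z.re + z.im : ℤ) : ZMod 3)
  map_one' := by simp
  map_zero' := by simp
  map_add' x y := by
    simp only [QuadraticAlgebra.re_add, QuadraticAlgebra.im_add]
    push_cast
    ring
  map_mul' x y := by
    simp only [QE.mul_re, QE.mul_im]
    push_cast
    have h3 : (3 : ZMod 3) = 0 := by decide
    linear_combination (-(x.im : ZMod 3) * y.im) * h3

theorem red3_apply (z : EO) : red3 z = ((z.re + z.im : ℤ) : ZMod 3) := rfl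

theorem red3_star (z : EO) : red3 (star z) = red3 z := by
  rw [red3_apply, red3_apply, star_re, star_im]
  push_cast
  have h3 : (3 : ZMod 3) = 0 := by decide
  linear_combination (-(z.im : ZMod 3)) * h3

theorem cube_eq_one (u : EO) (h : nm u = 1) (h1 : red3 u = 1) : u ^ 3 = 1 := by
  have h2 : (2 * u.re - u.im) ^ 2 + 3 * u.im ^ 2 = 4 := by
    have : u.re ^ 2 - u.re * u.im + u.im ^ 2 = 1 := h
    linear_combination 4 * this
  have h3 : (2 * u.im - u.re) ^ 2 + 3 * u.re ^ 2 = 4 := by
    have : u.re ^ 2 - u.re * u.im + u.im ^ 2 = 1 := h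
    linear_combination 4 * this
  have h4 : u.im ≤ 1 := by nlinarith [sq_nonneg (2 * u.re - u.im)]
  have h5 : -1 ≤ u.im := by nlinarith [sq_nonneg (2 * u.re - u.im)]
  have h6 : u.re ≤ 1 := by nlinarith [sq_nonneg (2 * u.im - u.re)]
  have h7 : -1 ≤ u.re := by nlinarith [sq_nonneg (2 * u.im - u.re)]
  obtain ⟨x, y⟩ := u
  rw [red3_apply] at h1
  simp only [nm] at h h1 h4 h5 h6 h7
  interval_cases x <;> interval_cases y <;>
    first
    | (exfalso; revert h; norm_num; done)
    | (exfalso; revert h1; decide)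
    | (rw [pow_succ, pow_two]; rfl)

theorem im_eq_zero_of_star {z : EO} (h : star z = z) : z.im = 0 := by
  have h1 := congrArg QuadraticAlgebra.im h
  rw [star_im] at h1
  omega

theorem star_eq_of_im {z : EO} (h : z.im = 0) : star z = z := by
  apply QuadraticAlgebra.ext
  · rw [star_re, h, sub_zero]
  · rw [star_im, h, neg_zero]

theorem eq_intCast_of_im {z : EO} (h : z.im = 0) : z = ((z.re : ℤ) : EO) := by
  apply QuadraticAlgebra.ext
  · simp
  · rw [h]; simp

theorem exists_of_stab (g : GL (Fin 2) EO) (h : g • X0 = X0) :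
    ∃ (v : rootsOfUnity 3 EO) (γ : SL(2, ℤ)),
      Matrix.GeneralLinearGroup.scalar (Fin 2) v.1 * slEO γ = g := by
  set a := g.1 0 0 with ha
  set b := g.1 0 1 with hb
  set c := g.1 1 0 with hc
  set d := g.1 1 1 with hd
  have h1 : (a * star b).im = 0 := by
    have := congrArg Lat.a h
    rw [Lat.gl_smul] at this
    simpa [Lat.act] using this
  have h2 : (c * star d).im = 0 := by
    have := congrArg Lat.c h
    rw [Lat.gl_smul] at this
    simpa [Lat.act] using this
  have h3 : a * star d - b * star c = 1 := by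
    have := congrArg Lat.β h
    rw [Lat.gl_smul] at this
    simpa [Lat.act] using this
  have h1' := star_eq_of_im h1
  have h2' := star_eq_of_im h2
  rw [star_mul, star_star] at h1' h2'
  have h3' : d * star a - c * star b = 1 := by
    have := congrArg star h3
    simpa [star_mul] using this
  set u : EO := g.1.det with hu
  have hu2 : u = a * d - b * c := by rw [hu, Matrix.det_fin_two]
  have hunit : IsUnit u := g.det.isUnit
  have hnm : nm u = 1 := (isUnit_iff_nm u).1 hunit
  have huu : u * star u = 1 := by rw [mul_star_eq, hnm]; rfl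
  have ea : u * star a = a := by rw [hu2]; linear_combination a * h3' - c * h1'
  have eb : u * star b = b := by rw [hu2]; linear_combination b * h3' - d * h1'
  have ec : u * star c = c := by rw [hu2]; linear_combination c * h3 + a * h2'
  have ed : u * star d = d := by rw [hu2]; linear_combination d * h3 + b * h2'
  have hred : red3 u = 1 := by
    have k : ∀ z : EO, u * star z = z → red3 z ≠ 0 → red3 u = 1 := by
      intro z hz h0
      have := congrArg red3 hz
      rw [map_mul, red3_star] at this
      exact mul_right_cancel₀ h0 (by rw [this, one_mul])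
    by_contra hne
    have ka : red3 a = 0 := by by_contra h0; exact hne (k a ea h0)
    have kb : red3 b = 0 := by by_contra h0; exact hne (k b eb h0)
    have h4 : red3 u = 0 := by
      rw [hu2, map_sub, map_mul, map_mul, ka, kb, zero_mul, zero_mul, sub_zero]
    have h5 := congrArg red3 huu
    rw [map_mul, h4, zero_mul, map_one] at h5
    exact zero_ne_one h5
  have hu3 : u ^ 3 = 1 := cube_eq_one u hnm hred
  have hsu : star u = u ^ 2 := by
    calc star u = u ^ 3 * star u := by rw [hu3, one_mul]
      _ = u ^ 2 * (u * star u) := by ring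
      _ = u ^ 2 := by rw [huu, mul_one]
  have key : ∀ z : EO, u * star z = z → (u * z).im = 0 := by
    intro z hz
    apply im_eq_zero_of_star
    rw [star_mul, hsu]
    calc star z * u ^ 2 = u * (u * star z) := by ring
      _ = u * z := by rw [hz]
  have ha' := eq_intCast_of_im (key a ea)
  have hb' := eq_intCast_of_im (key b eb)
  have hc' := eq_intCast_of_im (key c ec)
  have hd' := eq_intCast_of_im (key d ed)
  have hdet : (u * a).re * (u * d).re - (u * b).re * (u * c).re = 1 := by
    have h4 : (((u * a).re * (u * d).re - (u * b).re * (u * c).re : ℤ) : EO) = ((1 : ℤ) : EO) := by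
      push_cast
      rw [← ha', ← hb', ← hc', ← hd']
      calc u * a * (u * d) - u * b * (u * c) = u ^ 2 * (a * d - b * c) := by ring
        _ = u ^ 3 := by rw [← hu2]; ring
        _ = 1 := hu3
    have h5 := congrArg QuadraticAlgebra.re h4
    simpa using h5
  let γ : SL(2, ℤ) := ⟨!![(u * a).re, (u * b).re; (u * c).re, (u * d).re], by
    rw [Matrix.det_fin_two_of]; exact hdet⟩
  let v : EOˣ := ⟨u ^ 2, u, by rw [← pow_succ, hu3], by rw [← pow_succ', hu3]⟩
  have hv : v ^ 3 = 1 := by
    ext1
    rw [Units.val_pow_eq_pow_val, Units.val_one]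
    change (u ^ 2) ^ 3 = 1
    rw [← pow_mul, mul_comm, pow_mul, hu3, one_pow]
  refine ⟨⟨v, (mem_rootsOfUnity _ _).2 hv⟩, γ, ?_⟩
  have k2 : ∀ z : EO, u ^ 2 * (((u * z).re : ℤ) : EO) = u ^ 3 * z ∨ (u * z).im ≠ 0 := by
    intro z
    by_cases hz : (u * z).im = 0
    · left
      rw [← eq_intCast_of_im hz]
      ring
    · right; exact hz
  have k3 : ∀ z : EO, (u * z).im = 0 → u ^ 2 * (((u * z).re : ℤ) : EO) = z := by
    intro z hz
    rcases k2 z with h4 | h4
    · rw [h4, hu3, one_mul]
    · exact absurd hz h4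
  apply Units.ext
  rw [Units.val_mul, Matrix.GeneralLinearGroup.coe_scalar, Matrix.scalar_apply]
  ext1 i j
  rw [Matrix.diagonal_mul]
  change u ^ 2 * (slEO γ).1 i j = g.1 i j
  rw [slEO_apply]
  fin_cases i <;> fin_cases j
  · exact k3 a (key a ea)
  · exact k3 b (key b eb)
  · exact k3 c (key c ec)
  · exact k3 d (key d ed)

/-- the parametrization of the stabilizer -/
def stabMap (p : rootsOfUnity 3 EO × SL(2, ℤ)) : {g : GL (Fin 2) EO // g • X0 = X0} :=
  ⟨Matrix.GeneralLinearGroup.scalar (Fin 2) p.1.1 * slEO p.2, by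
    rw [mul_smul, slEO_smul_X0, scalar_smul_Lat]⟩

theorem stabMap_bijective : Function.Bijective stabMap := by
  refine ⟨?_, ?_⟩
  · rintro ⟨v, γ⟩ ⟨v', γ'⟩ h
    have h0 : ∀ i j, (v.1 : EO) * ((γ i j : ℤ) : EO) = (v'.1 : EO) * ((γ' i j : ℤ) : EO) := by
      intro i j
      have h1 := congrArg (fun x : {g : GL (Fin 2) EO // g • X0 = X0} => x.1.1 i j) h
      simp only [stabMap, Units.val_mul, Matrix.GeneralLinearGroup.coe_scalar, Matrix.scalar_apply,
        Matrix.diagonal_mul, slEO_apply] at h1
      exact h1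
    have hv3 : (v.1 : EO) ^ 3 = 1 := by
      have := (mem_rootsOfUnity _ _).1 v.2
      rw [← Units.val_pow_eq_pow_val, this, Units.val_one]
    have hv3' : (v'.1 : EO) ^ 3 = 1 := by
      have := (mem_rootsOfUnity _ _).1 v'.2
      rw [← Units.val_pow_eq_pow_val, this, Units.val_one]
    have h1 : ∀ i j, γ i j = γ' i j := by
      intro i j
      have h2 := congrArg (fun x => x ^ 3) (h0 i j)
      simp only [mul_pow, hv3, hv3', one_mul] at h2
      have h3 : (γ i j) ^ 3 = (γ' i j) ^ 3 := by
        have h4 : (((γ i j) ^ 3 : ℤ) : EO) = (((γ' i j) ^ 3 : ℤ) : EO) := by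
          push_cast; exact h2
        have h5 := congrArg QuadraticAlgebra.re h4
        rwa [QuadraticAlgebra.re_intCast, QuadraticAlgebra.re_intCast] at h5
      exact (Odd.strictMono_pow (by decide : Odd 3)).injective h3
    have hγ : γ = γ' := by ext i j; exact h1 i j
    subst hγ
    have h2 : ∃ j, γ 0 j ≠ 0 := by
      by_contra hcon
      push Not at hcon
      have := det_entries γ
      rw [hcon 0, hcon 1] at this
      simp at this
    obtain ⟨j, hj⟩ := h2
    have hj' : ((γ 0 j : ℤ) : EO) ≠ 0 := by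
      intro h3
      apply hj
      have h4 := congrArg QuadraticAlgebra.re h3
      simpa using h4
    have h3 := mul_right_cancel₀ hj' (h0 0 j)
    have : v = v' := Subtype.ext (Units.ext h3)
    rw [this]
  · rintro ⟨g, hg⟩
    obtain ⟨v, γ, h⟩ := exists_of_stab g hg
    exact ⟨(v, γ), Subtype.ext h⟩

/-- the stabilizer of `X0` is `μ₃ × SL₂(ℤ)` -/
def stabEquiv : rootsOfUnity 3 EO × SL(2, ℤ) ≃ {g : GL (Fin 2) EO // g • X0 = X0} :=
  Equiv.ofBijective stabMap stabMap_bijective

end StabX0

end Fermat.Agent.LT.J
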