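import Mathlib
import Fermat.Agent.LT.J.StabX0

/-!
# The stabilizer of the line of `X0` modulo `M` (LT, piece J6)

For `R = (ℤ/M)[ω]`, the elements `g ∈ GL₂(R)` with `g • X0 = d • X0`, `d` a unit, are exactly the
elements `u • h`, `u ∈ Rˣ`, `h ∈ GL₂(ℤ/M)`.
-/

set_option autoImplicit false

open Matrix
open scoped MatrixGroups

noncomputable section

namespace Fermat.Agent.LT.J

open Fermat.LT QE

/-- `GL₂(O/M)` -/
abbrev GM (M : ℕ) : Type := GL (Fin 2) (QE (ZMod M))

/-- reduction modulo `M` -/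
def redG (M : ℕ) : GL (Fin 2) EO →* GM M :=
  Matrix.GeneralLinearGroup.map (QE.map (Int.castRingHom (ZMod M)))

/-- `GL₂(ℤ/M) → GL₂(O/M)` -/
def zG (M : ℕ) : GL (Fin 2) (ZMod M) →* GM M :=
  Matrix.GeneralLinearGroup.map (algebraMap (ZMod M) (QE (ZMod M)))

/-- the base vector modulo `M` -/
def X0R (M : ℕ) : Lat (ZMod M) := ⟨0, 1, 0⟩

theorem redG_apply (M : ℕ) (g : GL (Fin 2) EO) (i j : Fin 2) :
    (redG M g).1 i j = QE.map (Int.castRingHom (ZMod M)) (g.1 i j) := rfl

theorem redG_val (M : ℕ) (g : GL (Fin 2) EO) :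
    (redG M g).1 = g.1.map (QE.map (Int.castRingHom (ZMod M))) := rfl

theorem zG_apply (M : ℕ) (g : GL (Fin 2) (ZMod M)) (i j : Fin 2) :
    (zG M g).1 i j = algebraMap (ZMod M) (QE (ZMod M)) (g.1 i j) := rfl

namespace Hilb90

theorem isUnit_of_nm {R : Type*} [CommRing R] {x : QE R} (h : IsUnit (nm x)) : IsUnit x := by
  refine isUnit_of_mul_isUnit_left (y := star x) ?_
  rw [mul_star_eq, QuadraticAlgebra.C_eq_algebraMap]
  exact h.map _

theorem isUnit_nm_of_isUnit {R : Type*} [CommRing R] {x : QE R} (h : IsUnit x) : IsUnit (nm x) := by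
  obtain ⟨u, rfl⟩ := h
  refine IsUnit.of_mul_eq_one (nm ((u⁻¹ : (QE R)ˣ) : QE R)) ?_
  rw [← nm_mul, Units.mul_inv, nm_one]

/-- the quadratic form takes a unit value -/
theorem exists_unit_form (M : ℕ) [NeZero M] (ε : QE (ZMod M)) (hε : nm ε = 1)
    (h3 : ∀ h : 3 ∣ M, ZMod.castHom h (ZMod 3) (ε.re + ε.im) = 1) :
    ∃ x : QE (ZMod M), IsUnit (x + ε * star x) := by
  obtain ⟨P, hP⟩ := ZMod.intCast_surjective ε.re
  obtain ⟨Q, hQ⟩ := ZMod.intCast_surjective ε.im
  have hPQ : (M : ℤ) ∣ P ^ 2 - P * Q + Q ^ 2 - 1 := by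
    rw [← ZMod.intCast_zmod_eq_zero_iff_dvd]
    push_cast
    rw [hP, hQ]
    have : ε.re ^ 2 - ε.re * ε.im + ε.im ^ 2 = 1 := hε
    rw [this, sub_self]
  set A : ℤ := 2 + 2 * P - Q with hA
  set C : ℤ := 2 - P - Q with hC
  set B : ℤ := -2 + 4 * Q - 2 * P with hB
  have key : ∀ ℓ : ℕ, ℓ.Prime → ℓ ∣ M → (ℓ : ℤ) ∣ A → ¬ (ℓ : ℤ) ∣ C := by
    intro ℓ hℓ hℓM hlA hlC
    have hℓp : Prime (ℓ : ℤ) := Nat.prime_iff_prime_int.mp hℓ
    have h1 : (ℓ : ℤ) ∣ 3 * P := by
      have : (3 : ℤ) * P = A - C := by rw [hA, hC]; ring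
      rw [this]
      exact dvd_sub hlA hlC
    have h2 : (ℓ : ℤ) ∣ P ^ 2 - P * Q + Q ^ 2 - 1 := (Int.natCast_dvd_natCast.mpr hℓM).trans hPQ
    by_cases hℓ3 : ℓ = 3
    · subst hℓ3
      have h4 := h3 hℓM
      have h5 : ((P + Q : ℤ) : ZMod 3) = 1 := by
        rw [← h4, ← hP, ← hQ, ← Int.cast_add, map_intCast]
      have h6 : ((3 : ℕ) : ℤ) ∣ (P + Q) - 1 := by
        rw [← ZMod.intCast_zmod_eq_zero_iff_dvd]
        push_cast at h5 ⊢
        rw [h5, sub_self]
      rw [hC] at hlC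
      push_cast at h6 hlC
      omega
    · have h4 : (ℓ : ℤ) ∣ P := by
        rcases hℓp.dvd_or_dvd h1 with h | h
        · exfalso
          apply hℓ3
          have h5 : ℓ ∣ 3 := by exact_mod_cast h
          exact (Nat.prime_dvd_prime_iff_eq hℓ Nat.prime_three).1 h5
        · exact h
      have h5 : (ℓ : ℤ) ∣ 2 - Q := by
        have : (2 : ℤ) - Q = C + P := by rw [hC]; ring
        rw [this]
        exact dvd_add hlC h4
      have h6 : (ℓ : ℤ) ∣ 3 := by
        have : (3 : ℤ) = (P ^ 2 - P * Q + Q ^ 2 - 1) - P * (P - Q) + (2 - Q) * (Q + 2) := by ring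
        rw [this]
        exact dvd_add (dvd_sub h2 (Dvd.dvd.mul_right h4 _)) (Dvd.dvd.mul_right h5 _)
      apply hℓ3
      have h7 : ℓ ∣ 3 := by exact_mod_cast h6
      exact (Nat.prime_dvd_prime_iff_eq hℓ Nat.prime_three).1 h7
  classical
  set s1 : Finset ℕ := M.primeFactors.filter fun ℓ => (ℓ : ℤ) ∣ A
  set s2 : Finset ℕ := M.primeFactors.filter fun ℓ => ¬ (ℓ : ℤ) ∣ A
  set x1 : ℤ := ∏ ℓ ∈ s1, (ℓ : ℤ) with hx1
  set x2 : ℤ := ∏ ℓ ∈ s2, (ℓ : ℤ) with hx2
  have hprod : ∀ (s : Finset ℕ), (∀ ℓ ∈ s, ℓ.Prime) → ∀ ℓ : ℕ, ℓ.Prime →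
      (ℓ : ℤ) ∣ ∏ r ∈ s, (r : ℤ) → ℓ ∈ s := by
    intro s hs ℓ hℓ hd
    have hℓp : Prime (ℓ : ℤ) := Nat.prime_iff_prime_int.mp hℓ
    obtain ⟨r, hr, hdr⟩ := (Prime.dvd_finsetProd_iff hℓp _).1 hd
    have h1 : ℓ ∣ r := by exact_mod_cast hdr
    rw [(Nat.prime_dvd_prime_iff_eq hℓ (hs r hr)).1 h1]
    exact hr
  have hs1 : ∀ ℓ ∈ s1, ℓ.Prime := fun ℓ hℓ => Nat.prime_of_mem_primeFactors (Finset.mem_filter.1 hℓ).1
  have hs2 : ∀ ℓ ∈ s2, ℓ.Prime := fun ℓ hℓ => Nat.prime_of_mem_primeFactors (Finset.mem_filter.1 hℓ).1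
  set V : ℤ := A * x1 ^ 2 + B * (x1 * x2) + C * x2 ^ 2 with hV
  have hcop : IsCoprime V (M : ℤ) := by
    rw [Int.isCoprime_iff_gcd_eq_one]
    by_contra hne
    obtain ⟨ℓ, hℓ, hd⟩ := Nat.exists_prime_and_dvd hne
    have hℓp : Prime (ℓ : ℤ) := Nat.prime_iff_prime_int.mp hℓ
    have hdV : (ℓ : ℤ) ∣ V := (Int.natCast_dvd_natCast.mpr hd).trans (Int.gcd_dvd_left ..)
    have hdM' : (ℓ : ℤ) ∣ M := (Int.natCast_dvd_natCast.mpr hd).trans (Int.gcd_dvd_right ..)
    have hdM : ℓ ∣ M := by exact_mod_cast hdM'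
    have hmem : ℓ ∈ M.primeFactors := Nat.mem_primeFactors.2 ⟨hℓ, hdM, NeZero.ne M⟩
    by_cases hlA : (ℓ : ℤ) ∣ A
    · have hx1d : (ℓ : ℤ) ∣ x1 := Finset.dvd_prod_of_mem _ (Finset.mem_filter.2 ⟨hmem, hlA⟩)
      have hx2d : ¬ (ℓ : ℤ) ∣ x2 := fun h =>
        (Finset.mem_filter.1 (hprod s2 hs2 ℓ hℓ h)).2 hlA
      have hCd := key ℓ hℓ hdM hlA
      have h4 : (ℓ : ℤ) ∣ C * x2 ^ 2 := by
        have : C * x2 ^ 2 = V - x1 * (A * x1 + B * x2) := by rw [hV]; ring
        rw [this]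
        exact dvd_sub hdV (Dvd.dvd.mul_right hx1d _)
      rcases hℓp.dvd_or_dvd h4 with h | h
      · exact hCd h
      · exact hx2d (hℓp.dvd_of_dvd_pow h)
    · have hx2d : (ℓ : ℤ) ∣ x2 := Finset.dvd_prod_of_mem _ (Finset.mem_filter.2 ⟨hmem, hlA⟩)
      have hx1d : ¬ (ℓ : ℤ) ∣ x1 := fun h =>
        hlA (Finset.mem_filter.1 (hprod s1 hs1 ℓ hℓ h)).2
      have h4 : (ℓ : ℤ) ∣ A * x1 ^ 2 := by
        have : A * x1 ^ 2 = V - x2 * (B * x1 + C * x2) := by rw [hV]; ring
        rw [this]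
        exact dvd_sub hdV (Dvd.dvd.mul_right hx2d _)
      rcases hℓp.dvd_or_dvd h4 with h | h
      · exact hlA h
      · exact hx1d (hℓp.dvd_of_dvd_pow h)
  refine ⟨⟨(x1 : ZMod M), (x2 : ZMod M)⟩, isUnit_of_nm ?_⟩
  have hnm : nm ((⟨(x1 : ZMod M), (x2 : ZMod M)⟩ : QE (ZMod M)) +
      ε * star (⟨(x1 : ZMod M), (x2 : ZMod M)⟩ : QE (ZMod M))) = ((V : ℤ) : ZMod M) := by
    rw [hV, hA, hB, hC]
    simp only [nm, QuadraticAlgebra.re_add, QuadraticAlgebra.im_add, QE.mul_re, QE.mul_im,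
      QE.star_re, QE.star_im]
    push_cast
    rw [hP, hQ]
    have h5 : ε.re ^ 2 - ε.re * ε.im + ε.im ^ 2 = 1 := hε
    linear_combination ((x1 : ZMod M) ^ 2 - x1 * x2 + (x2 : ZMod M) ^ 2) * h5
  rw [hnm]
  obtain ⟨a, b, hab⟩ := hcop
  refine IsUnit.of_mul_eq_one ((a : ℤ) : ZMod M) ?_
  have h6 := congrArg (Int.cast : ℤ → ZMod M) hab
  push_cast at h6
  rw [ZMod.natCast_self, mul_zero, add_zero] at h6
  rw [mul_comm]
  exact h6

theorem C_inj' {R : Type*} [CommRing R] {x y : R}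
    (h : (algebraMap R (QE R) x) = algebraMap R (QE R) y) : x = y := by
  have := congrArg QuadraticAlgebra.re h
  simpa using this

theorem eq_algebraMap_of_star {M : ℕ} {z : QE (ZMod M)} (h : star z = z) :
    z = algebraMap (ZMod M) (QE (ZMod M)) z.re := by
  have h1 := congrArg QuadraticAlgebra.re h
  rw [star_re] at h1
  have h2 : z.im = 0 := by linear_combination -h1
  apply QuadraticAlgebra.ext
  · simp
  · rw [h2]; simp

theorem star_algebraMap' {R : Type*} [CommRing R] (r : R) :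
    star (algebraMap R (QE R) r) = algebraMap R (QE R) r := by
  apply QuadraticAlgebra.ext <;> simp

theorem act_X0R {M : ℕ} (g : GM M) : g • X0R M =
    ⟨(g.1 0 0 * star (g.1 0 1)).im, g.1 0 0 * star (g.1 1 1) - g.1 0 1 * star (g.1 1 0),
      (g.1 1 0 * star (g.1 1 1)).im⟩ := by
  rw [Lat.gl_smul]
  apply Lat.ext
  · simp [Lat.act, X0R]
  · simp [Lat.act, X0R]
  · simp [Lat.act, X0R]

theorem star_of_im {R : Type*} [CommRing R] {z : QE R} (h : z.im = 0) : star z = z := by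
  apply QuadraticAlgebra.ext
  · rw [star_re, h, sub_zero]
  · rw [star_im, h, neg_zero]

/-- **Hilbert 90** for the stabilizer of the line of `X0` -/
theorem exists_of_smul {M : ℕ} [NeZero M] (g : GM M) (d : (ZMod M)ˣ)
    (h : g • X0R M = Lat.smul (d : ZMod M) (X0R M)) :
    ∃ (u : (QE (ZMod M))ˣ) (k : GL (Fin 2) (ZMod M)),
      Matrix.GeneralLinearGroup.scalar (Fin 2) u * zG M k = g := by
  set a := g.1 0 0 with ha
  set b := g.1 0 1 with hb
  set c := g.1 1 0 with hc
  set e := g.1 1 1 with he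
  set δ : QE (ZMod M) := algebraMap (ZMod M) (QE (ZMod M)) (d : ZMod M) with hδ
  rw [act_X0R] at h
  have h1 : (a * star b).im = 0 := by
    have := congrArg Lat.a h
    simpa [Lat.smul, X0R] using this
  have h2 : (c * star e).im = 0 := by
    have := congrArg Lat.c h
    simpa [Lat.smul, X0R] using this
  have h3 : a * star e - b * star c = δ := by
    have := congrArg Lat.β h
    change a * star e - b * star c = (d : ZMod M) • (1 : QE (ZMod M)) at this
    rw [this, hδ, Algebra.algebraMap_eq_smul_one]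
  have h1' := star_of_im h1
  have h2' := star_of_im h2
  rw [star_mul, star_star] at h1' h2'
  have h3' : e * star a - c * star b = δ := by
    have := congrArg star h3
    rw [hδ, star_algebraMap'] at this
    simpa [star_mul] using this
  set D : QE (ZMod M) := g.1.det with hD
  have hD2 : D = a * e - b * c := by rw [hD, Matrix.det_fin_two]
  have hunit : IsUnit D := g.det.isUnit
  have ea : D * star a = δ * a := by rw [hD2]; linear_combination a * h3' - c * h1'
  have eb : D * star b = δ * b := by rw [hD2]; linear_combination b * h3' - e * h1'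
  have ec : D * star c = δ * c := by rw [hD2]; linear_combination c * h3 + a * h2'
  have ee : D * star e = δ * e := by rw [hD2]; linear_combination e * h3 + b * h2'
  obtain ⟨Du, hDu⟩ := hunit
  -- `star z = ε z`
  set ε : QE (ZMod M) := ((Du⁻¹ : (QE (ZMod M))ˣ) : QE (ZMod M)) * δ with hε
  have hinv : ((Du⁻¹ : (QE (ZMod M))ˣ) : QE (ZMod M)) * D = 1 := by
    rw [← hDu, Units.inv_mul]
  have key : ∀ z : QE (ZMod M), D * star z = δ * z → star z = ε * z := by
    intro z hz
    calc star z = (((Du⁻¹ : (QE (ZMod M))ˣ) : QE (ZMod M)) * D) * star z := by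
          rw [hinv, one_mul]
      _ = ((Du⁻¹ : (QE (ZMod M))ˣ) : QE (ZMod M)) * (D * star z) := by ring
      _ = ε * z := by rw [hz, hε]; ring
  have ka := key a ea
  have kb := key b eb
  have kc := key c ec
  have ke := key e ee
  -- `star ε * ε = 1`
  have kD : star D = ε * ε * D := by
    rw [hD2, star_sub, star_mul, star_mul, ka, kb, kc, ke]; ring
  have hεε : star ε * ε = 1 := by
    have k2 : ∀ z : QE (ZMod M), star z = ε * z → (star ε * ε) * z = z := by
      intro z hz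
      calc (star ε * ε) * z = star ε * (ε * z) := by ring
        _ = star ε * star z := by rw [hz]
        _ = star (ε * z) := by rw [star_mul ε z]; ring
        _ = star (star z) := by rw [hz]
        _ = z := star_star z
    have k3 : (star ε * ε) * D = D := by
      rw [hD2]
      calc (star ε * ε) * (a * e - b * c)
          = ((star ε * ε) * a) * e - ((star ε * ε) * b) * c := by ring
        _ = a * e - b * c := by rw [k2 a ka, k2 b kb]
    calc star ε * ε = (((Du⁻¹ : (QE (ZMod M))ˣ) : QE (ZMod M)) * D) * (star ε * ε) := by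
          rw [hinv, one_mul]
      _ = ((Du⁻¹ : (QE (ZMod M))ˣ) : QE (ZMod M)) * ((star ε * ε) * D) := by ring
      _ = 1 := by rw [k3, hinv]
  have hnε : nm ε = 1 := by
    have k4 : ε * star ε = 1 := by rw [mul_comm]; exact hεε
    rw [mul_star_eq] at k4
    have := congrArg QuadraticAlgebra.re k4
    simpa using this
  -- reduction modulo `√-3`
  have h3ε : ∀ h : 3 ∣ M, ZMod.castHom h (ZMod 3) ((star ε).re + (star ε).im) = 1 := by
    intro h3M
    set f : ZMod M →+* ZMod 3 := ZMod.castHom h3M (ZMod 3) with hf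
    have f3 : f 3 = 0 := by
      rw [map_ofNat]; decide
    have rmul : ∀ z w : QE (ZMod M), f ((z * w).re + (z * w).im) =
        f (z.re + z.im) * f (w.re + w.im) := by
      intro z w
      rw [← map_mul]
      have : (z * w).re + (z * w).im = (z.re + z.im) * (w.re + w.im) - 3 * (z.im * w.im) := by
        rw [QE.mul_re, QE.mul_im]; ring
      rw [this, map_sub, map_mul _ 3, f3, zero_mul, sub_zero]
    have rstar : ∀ z : QE (ZMod M), f ((star z).re + (star z).im) = f (z.re + z.im) := by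
      intro z
      have : (star z).re + (star z).im = (z.re + z.im) - 3 * z.im := by
        rw [star_re, star_im]; ring
      rw [this, map_sub, map_mul _ 3, f3, zero_mul, sub_zero]
    rw [rstar]
    have k5 : ∀ z : QE (ZMod M), star z = ε * z → f (z.re + z.im) ≠ 0 →
        f (ε.re + ε.im) = 1 := by
      intro z hz h0
      have h7 := rstar z
      rw [hz, rmul] at h7
      have h8 : (f (ε.re + ε.im) - 1) * f (z.re + z.im) = 0 := by linear_combination h7
      rcases mul_eq_zero.1 h8 with h9 | h9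
      · exact sub_eq_zero.1 h9
      · exact absurd h9 h0
    by_contra hne
    have ra : f (a.re + a.im) = 0 := by by_contra h0; exact hne (k5 a ka h0)
    have rb : f (b.re + b.im) = 0 := by by_contra h0; exact hne (k5 b kb h0)
    have rD : f (D.re + D.im) = 0 := by
      have h10 : D.re + D.im = ((a * e).re + (a * e).im) - ((b * c).re + (b * c).im) := by
        rw [hD2, QuadraticAlgebra.re_sub, QuadraticAlgebra.im_sub]; ring
      rw [h10, map_sub, rmul, rmul, ra, rb, zero_mul, zero_mul, sub_zero]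
    have h11 := rmul (((Du⁻¹ : (QE (ZMod M))ˣ) : QE (ZMod M))) D
    rw [hinv, rD, mul_zero] at h11
    simp at h11
  obtain ⟨x, hx⟩ := exists_unit_form M (star ε) (by rw [nm_star, hnε]) h3ε
  obtain ⟨u, hu⟩ := hx
  have hsu : star (u : QE (ZMod M)) = ε * u := by
    rw [hu, star_add, star_mul, star_star, star_star]
    linear_combination (-star x) * hεε
  set ui : QE (ZMod M) := ((u⁻¹ : (QE (ZMod M))ˣ) : QE (ZMod M)) with hui
  have huiu : ui * u = 1 := by rw [hui, Units.inv_mul]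
  have hsui : star ui * ε = ui := by
    have h7 := congrArg star huiu
    rw [star_mul, star_one, hsu] at h7
    calc star ui * ε = (star ui * ε) * (ui * u) := by rw [huiu, mul_one]
      _ = ui * (ε * u * star ui) := by ring
      _ = ui := by rw [h7, mul_one]
  have hreal : ∀ z : QE (ZMod M), star z = ε * z →
      ui * z = algebraMap (ZMod M) (QE (ZMod M)) (ui * z).re := by
    intro z hz
    apply eq_algebraMap_of_star
    rw [star_mul, hz]
    calc ε * z * star ui = (star ui * ε) * z := by ring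
      _ = ui * z := by rw [hsui]
  have ra := hreal a ka
  have rb := hreal b kb
  have rc := hreal c kc
  have re := hreal e ke
  set K : Matrix (Fin 2) (Fin 2) (ZMod M) :=
    !![(ui * a).re, (ui * b).re; (ui * c).re, (ui * e).re] with hK
  have hdetK : IsUnit K.det := by
    have h7 : algebraMap (ZMod M) (QE (ZMod M)) K.det = ui * ui * D := by
      rw [hK, Matrix.det_fin_two_of, map_sub, map_mul, map_mul, ← ra, ← rb, ← rc, ← re, hD2]
      ring
    have h8 : IsUnit (algebraMap (ZMod M) (QE (ZMod M)) K.det) := by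
      rw [h7, ← hDu]
      exact ((u⁻¹).isUnit.mul (u⁻¹).isUnit).mul Du.isUnit
    have h9 := isUnit_nm_of_isUnit h8
    have h10 : nm (algebraMap (ZMod M) (QE (ZMod M)) K.det) = K.det * K.det := by
      simp [nm]; ring
    rw [h10] at h9
    exact isUnit_of_mul_isUnit_left h9
  refine ⟨u, Matrix.GeneralLinearGroup.mk'' K hdetK, ?_⟩
  apply Units.ext
  rw [Units.val_mul, Matrix.GeneralLinearGroup.coe_scalar, Matrix.scalar_apply]
  ext1 i j
  rw [Matrix.diagonal_mul]
  have hfin : ∀ z : QE (ZMod M), ui * z = algebraMap (ZMod M) (QE (ZMod M)) (ui * z).re →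
      (u : QE (ZMod M)) * algebraMap (ZMod M) (QE (ZMod M)) (ui * z).re = z := by
    intro z hz
    rw [← hz, ← mul_assoc, mul_comm (u : QE (ZMod M)), huiu, one_mul]
  rw [zG_apply]
  fin_cases i <;> fin_cases j
  · exact hfin a ra
  · exact hfin b rb
  · exact hfin c rc
  · exact hfin e re

theorem smul_X0R_zG {M : ℕ} (k : GL (Fin 2) (ZMod M)) :
    zG M k • X0R M = Lat.smul k.1.det (X0R M) := by
  rw [act_X0R]
  apply Lat.ext
  · simp [zG_apply, Lat.smul, X0R]
  · simp only [zG_apply, star_algebraMap', Lat.smul, X0R]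
    rw [← map_mul, ← map_mul, ← map_sub, Matrix.det_fin_two, Algebra.algebraMap_eq_smul_one]
  · simp [zG_apply, Lat.smul, X0R]

theorem scalar_smul_Lat' {M : ℕ} (u : (QE (ZMod M))ˣ) (X : Lat (ZMod M)) :
    Matrix.GeneralLinearGroup.scalar (Fin 2) u • X = Lat.smul (nm (u : QE (ZMod M))) X := by
  rw [Lat.gl_smul, Matrix.GeneralLinearGroup.coe_scalar, Lat.act_scalar]

end Hilb90

end Fermat.Agent.LT.J
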