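import Fermat.Agent.LT.J.Lat
import Fermat.Agent.LT.A.H3Meas
import Fermat.Agent.LT.B.Quot
import Fermat.Agent.LT.CArch.OnH3

/-!
# Coefficient systems and the theta kernel (LT, piece J): definitions

* `Sys M`: functions `c : Lat ℤ → H3 → ℂ`, `M`-periodic in the lattice variable, invariant under
  `GL₂(ℤ[ω])`, with the spherical mean property (`t = 0`) in the `H3` variable.
* `Theta φ z w = √y ∑_X φ X e(z q(X)) exp(-4π y s(X,w)²)`.
* `lift ρ c z = ∫ ρ(w) Theta (c · w) z w dw`.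
* `Lam ρ c n h = ∫ ρ(w) ∑_{q X = n} c X w h(s X w) dw`.
-/

set_option autoImplicit false

open Complex Matrix MeasureTheory

open scoped ComplexConjugate ENNReal

noncomputable section

namespace Fermat.Agent.LT.J

open Fermat.LT

/-- reduction modulo `M` -/
abbrev redM (M : ℕ) (X : Lat ℤ) : Lat (ZMod M) := X.map (Int.castRingHom (ZMod M))

/-- coefficient system of level `M` -/
structure Sys (M : ℕ) where
  /-- the functions -/
  c : Lat ℤ → H3 → ℂ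
  per : ∀ (X Y : Lat ℤ) (w : H3), redM M X = redM M Y → c X w = c Y w
  inv : ∀ (g : GL (Fin 2) EO) (X : Lat ℤ) (w : H3), c (g • X) (g • w) = c X w
  scal : ∀ (d : ℤ) (X : Lat ℤ) (w : H3), IsCoprime d (M : ℤ) → c (Lat.smul d X) w = c X w
  cont : ∀ X : Lat ℤ, Continuous (c X)
  bdd : ∃ B : ℝ, ∀ (X : Lat ℤ) (w : H3), ‖c X w‖ ≤ B
  mean : ∀ g : ℝ → ℂ, CArch.IsTest g → ∀ (X : Lat ℤ) (w : H3),
    CArch.kopH g (c X) w = CArch.hat g 0 * c X w

/-- the Gaussian `exp (-4π y s²)` -/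
def gss (y s : ℝ) : ℝ := Real.exp (-(4 * Real.pi * y * s ^ 2))

/-- `e(z n) = exp (2π i z n)` -/
def ee (z : ℂ) (n : ℤ) : ℂ := Complex.exp (2 * Real.pi * I * z * n)

/-- the theta kernel -/
def Theta (φ : Lat ℤ → ℂ) (z : ℂ) (w : H3) : ℂ :=
  Real.sqrt z.im * ∑' X : Lat ℤ, φ X * (ee z X.q * gss z.im (sL X w))

/-- the theta lift -/
def lift (ρ : H3 → ℝ≥0∞) (c : Lat ℤ → H3 → ℂ) (z : ℂ) : ℂ :=
  ∫ w : H3, ((ρ w).toReal : ℂ) * Theta (fun X => c X w) z w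

/-- the functional `Λ_n` -/
def Lam (ρ : H3 → ℝ≥0∞) (c : Lat ℤ → H3 → ℂ) (n : ℤ) (h : ℝ → ℝ) : ℂ :=
  ∫ w : H3, ((ρ w).toReal : ℂ) * ∑' X : {X : Lat ℤ // X.q = n}, c X w * (h (sL X w) : ℂ)

/-- the majorant `q + 2 s²` -/
def Maj (X : Lat ℤ) (w : H3) : ℝ := X.q + 2 * sL X w ^ 2

end Fermat.Agent.LT.J
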