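import Mathlib
import Fermat.Agent.LT.J.Hilb90
import Fermat.Agent.LT.J.Sys

/-!
# The coefficient system attached to a function `Φ : H3 → GL₂(O/M) → ℂ` (LT, piece J6)
-/

set_option autoImplicit false

open Matrix MeasureTheory
open scoped MatrixGroups

noncomputable section

namespace Fermat.Agent.LT.J

open Fermat.LT QE

/-- automorphic functions of level `M` in classical form -/
structure PhiSys (M : ℕ) where
  /-- the function -/
  Φ : H3 → GM M → ℂ
  inv : ∀ (g : GL (Fin 2) EO) (w : H3) (s : GM M), Φ (g • w) (redG M g * s) = Φ w s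
  cent : ∀ (u : (QE (ZMod M))ˣ) (w : H3) (s : GM M),
    Φ w (s * Matrix.GeneralLinearGroup.scalar (Fin 2) u) = Φ w s
  cont : ∀ s : GM M, Continuous fun w => Φ w s
  bdd : ∃ B : ℝ, ∀ (w : H3) (s : GM M), ‖Φ w s‖ ≤ B
  mean : ∀ g : ℝ → ℂ, CArch.IsTest g → ∀ (s : GM M) (w : H3),
    CArch.kopH g (fun w => Φ w s) w = CArch.hat g 0 * Φ w s

instance finite_QE (M : ℕ) [NeZero M] : Finite (QE (ZMod M)) := by
  have : Function.Injective (fun x : QE (ZMod M) => (x.re, x.im)) := by
    intro x y h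
    exact QuadraticAlgebra.ext (congrArg Prod.fst h) (congrArg Prod.snd h)
  exact Finite.of_injective _ this

instance finite_GM (M : ℕ) [NeZero M] : Finite (GM M) := inferInstance

instance fintype_GM (M : ℕ) [NeZero M] : Fintype (GM M) := Fintype.ofFinite _

/-! ### The counting function -/

open Classical in
/-- `coef X g` is the number of `d` with `g • X0 = d • X` -/
def coef {M : ℕ} [NeZero M] (X : Lat (ZMod M)) (g : GM M) : ℂ :=
  ∑ d : (ZMod M)ˣ, if g • X0R M = Lat.smul (d : ZMod M) X then 1 else 0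

section coef

variable {M : ℕ} [NeZero M]

omit [NeZero M] in
theorem smul_Lat_smul (g : GM M) (d : ZMod M) (X : Lat (ZMod M)) :
    g • Lat.smul d X = Lat.smul d (g • X) := by
  rw [Lat.gl_smul, Lat.gl_smul, Lat.act_smul]

theorem coef_mul (h : GM M) (X : Lat (ZMod M)) (g : GM M) : coef (h • X) (h * g) = coef X g := by
  unfold coef
  refine Finset.sum_congr rfl fun d _ => ?_
  congr 1
  rw [mul_smul, ← smul_Lat_smul, smul_left_cancel_iff]

open Classical in
theorem coef_smul (u : (ZMod M)ˣ) (X : Lat (ZMod M)) (g : GM M) :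
    coef (Lat.smul (u : ZMod M) X) g = coef X g := by
  unfold coef
  rw [← Equiv.sum_comp (Equiv.mulRight u) (fun d : (ZMod M)ˣ =>
    if g • X0R M = Lat.smul (d : ZMod M) X then (1 : ℂ) else 0)]
  refine Finset.sum_congr rfl fun d _ => ?_
  rw [Lat.smul_smul, Equiv.coe_mulRight, Units.val_mul]

open Classical in
theorem coef_X0R (g : GM M) : coef (X0R M) g =
    if ∃ d : (ZMod M)ˣ, g • X0R M = Lat.smul (d : ZMod M) (X0R M) then 1 else 0 := by
  unfold coef
  split_ifs with h
  · obtain ⟨d, hd⟩ := h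
    rw [Finset.sum_eq_single d]
    · rw [if_pos hd]
    · intro d' _ hne
      rw [if_neg]
      intro hd'
      apply hne
      rw [hd] at hd'
      have := congrArg (fun X : Lat (ZMod M) => X.β.re) hd'
      simp [Lat.smul, X0R] at this
      exact (Units.ext this).symm
    · intro h
      exact absurd (Finset.mem_univ d) h
  · refine Finset.sum_eq_zero fun d _ => ?_
    rw [if_neg]
    exact fun hd => h ⟨d, hd⟩

end coef

theorem redM_smul (M : ℕ) (g : GL (Fin 2) EO) (X : Lat ℤ) :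
    redM M (g • X) = redG M g • redM M X := by
  rw [Lat.gl_smul, Lat.gl_smul, redM, Lat.map_act, redG_val]

theorem redM_X0 (M : ℕ) : redM M X0 = X0R M := by
  apply Lat.ext
  · simp [Lat.map, X0R]
  · simp [Lat.map, X0R]
  · simp [Lat.map, X0R]

namespace PhiSys

variable {M : ℕ} [NeZero M] (P : PhiSys M) (s₀ : GM M)

/-- the coefficient functions -/
def cc (X : Lat ℤ) (w : H3) : ℂ := ∑ g : GM M, coef (redM M X) g * P.Φ w (g * s₀)

/-- The coefficient system of `Φ` and `s₀`. -/
def toSys : Sys M where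
  c := P.cc s₀
  per X Y w h := by unfold cc; rw [h]
  inv g X w := by
    unfold cc
    rw [redM_smul, ← Equiv.sum_comp (Equiv.mulLeft (redG M g)) (fun k : GM M =>
      coef (redG M g • redM M X) k * P.Φ (g • w) (k * s₀))]
    refine Finset.sum_congr rfl fun k _ => ?_
    rw [Equiv.coe_mulLeft, coef_mul, mul_assoc, P.inv]
  scal d X w hd := by
    unfold cc
    refine Finset.sum_congr rfl fun k _ => ?_
    congr 1
    rw [redM, Lat.map_smul]
    obtain ⟨a, b, hab⟩ := hd
    have h1 : (d : ZMod M) * (a : ZMod M) = 1 := by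
      have h6 := congrArg (Int.cast : ℤ → ZMod M) hab
      push_cast at h6
      rw [ZMod.natCast_self, mul_zero, add_zero] at h6
      rw [mul_comm]
      exact h6
    exact coef_smul (Units.mk _ _ h1 (by rw [mul_comm]; exact h1)) _ k
  cont X := by
    unfold cc
    exact continuous_finsetSum _ fun k _ => continuous_const.mul (P.cont _)
  bdd := by
    obtain ⟨B, hB⟩ := P.bdd
    refine ⟨∑ g : GM M, (Fintype.card (ZMod M)ˣ : ℝ) * B, fun X w => ?_⟩
    unfold cc
    refine (norm_sum_le _ _).trans (Finset.sum_le_sum fun g _ => ?_)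
    rw [norm_mul]
    refine mul_le_mul ?_ (hB _ _) (norm_nonneg _) (by positivity)
    unfold coef
    refine (norm_sum_le _ _).trans ?_
    refine (Finset.sum_le_card_nsmul _ _ 1 fun d _ => ?_).trans ?_
    · split_ifs <;> simp
    · rw [Finset.card_univ, nsmul_eq_mul, mul_one]
  mean g hg X w := by
    unfold cc CArch.kopH
    simp only [Finset.mul_sum]
    rw [integral_finsetSum]
    · refine Finset.sum_congr rfl fun k _ => ?_
      have h1 := P.mean g hg (k * s₀) w
      unfold CArch.kopH at h1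
      have h2 : ∀ R : H3, CArch.kfun g (H3.ch w R) * (coef (redM M X) k * P.Φ R (k * s₀)) =
          coef (redM M X) k * (CArch.kfun g (H3.ch w R) * P.Φ R (k * s₀)) := fun R => by ring
      simp only [h2]
      rw [integral_const_mul, h1]
      ring
    · intro k _
      have h1 := (CArch.integrable_kopH hg (P.cont (k * s₀)) w).const_mul (coef (redM M X) k)
      refine h1.congr (Filter.Eventually.of_forall fun R => ?_)
      simp only
      ring

theorem toSys_c : (P.toSys s₀).c = P.cc s₀ := rfl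

/-- transfer of sums over representatives (Hecke operators) -/
theorem sum_cc {ι : Type*} (I : Finset ι) (r : ι → Matrix (Fin 2) (Fin 2) EO)
    (hr : ∀ i, (r i).det ≠ 0) (rb : ι → GM M)
    (hrb : ∀ i, (rb i).1 = (r i).map (QE.map (Int.castRingHom (ZMod M)))) (μ : ℂ)
    (h : ∀ (w : H3) (s : GM M), ∑ i ∈ I, P.Φ (matC (r i) (hr i) • w) (rb i * s) = μ * P.Φ w s)
    (X : Lat ℤ) (w : H3) :
    ∑ i ∈ I, (P.toSys s₀).c (Lat.act (r i) X) (matC (r i) (hr i) • w) =
      μ * (P.toSys s₀).c X w := by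
  rw [toSys_c]
  have h1 : ∀ i ∈ I, P.cc s₀ (Lat.act (r i) X) (matC (r i) (hr i) • w) =
      ∑ g : GM M, coef (redM M X) g * P.Φ (matC (r i) (hr i) • w) (rb i * (g * s₀)) := by
    intro i _
    unfold cc
    have h2 : redM M (Lat.act (r i) X) = rb i • redM M X := by
      rw [redM, Lat.map_act, Lat.gl_smul, hrb]
    rw [h2, ← Equiv.sum_comp (Equiv.mulLeft (rb i)) (fun k : GM M =>
      coef (rb i • redM M X) k * P.Φ (matC (r i) (hr i) • w) (k * s₀))]
    refine Finset.sum_congr rfl fun k _ => ?_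
    rw [Equiv.coe_mulLeft, coef_mul, mul_assoc]
  rw [Finset.sum_congr rfl h1, Finset.sum_comm]
  unfold cc
  rw [Finset.mul_sum]
  refine Finset.sum_congr rfl fun g _ => ?_
  rw [← Finset.mul_sum, h]
  ring

/-- the homomorphism `(u, h) ↦ u h` -/
def uh (M : ℕ) : (QE (ZMod M))ˣ × GL (Fin 2) (ZMod M) →* GM M :=
  (Matrix.GeneralLinearGroup.scalar (Fin 2)).noncommCoprod (zG M)
    fun u h => Matrix.GeneralLinearGroup.scalar_commute u (zG M h)

theorem uh_apply (M : ℕ) (p : (QE (ZMod M))ˣ × GL (Fin 2) (ZMod M)) :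
    uh M p = Matrix.GeneralLinearGroup.scalar (Fin 2) p.1 * zG M p.2 := rfl

theorem mem_range_uh (g : GM M) :
    g ∈ Set.range (uh M) ↔ ∃ d : (ZMod M)ˣ, g • X0R M = Lat.smul (d : ZMod M) (X0R M) := by
  constructor
  · rintro ⟨p, rfl⟩
    refine ⟨(Hilb90.isUnit_nm_of_isUnit p.1.isUnit).unit * p.2.det, ?_⟩
    rw [uh_apply, mul_smul, Hilb90.smul_X0R_zG, Hilb90.scalar_smul_Lat', Lat.smul_smul]
    rfl
  · rintro ⟨d, hd⟩
    obtain ⟨u, k, h⟩ := Hilb90.exists_of_smul g d hd
    exact ⟨(u, k), h⟩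

/-- **The value at `X0`** is a positive multiple of the sum over `GL₂(ℤ/M)`. -/
theorem exists_cc_X0 (P : PhiSys M) [Fintype (GL (Fin 2) (ZMod M))] :
    ∃ κ : ℝ, 0 < κ ∧ ∀ (s₀ : GM M) (w : H3),
      P.cc s₀ X0 w = κ * ∑ h : GL (Fin 2) (ZMod M), P.Φ w (zG M h * s₀) := by
  classical
  have : Fintype (QE (ZMod M))ˣ := Fintype.ofFinite _
  set N₁ : ℕ := (Finset.univ.filter fun p : (QE (ZMod M))ˣ × GL (Fin 2) (ZMod M) =>
    uh M p = 1).card with hN₁
  have hN₁pos : 0 < N₁ := Finset.card_pos.2 ⟨1, by simp⟩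
  refine ⟨(Fintype.card (QE (ZMod M))ˣ : ℝ) / N₁, by positivity, fun s₀ w => ?_⟩
  have h1 : ∑ p : (QE (ZMod M))ˣ × GL (Fin 2) (ZMod M), P.Φ w (uh M p * s₀) =
      (Fintype.card (QE (ZMod M))ˣ : ℂ) * ∑ h : GL (Fin 2) (ZMod M), P.Φ w (zG M h * s₀) := by
    rw [Fintype.sum_prod_type]
    have h2 : ∀ u : (QE (ZMod M))ˣ, ∑ h : GL (Fin 2) (ZMod M), P.Φ w (uh M (u, h) * s₀) =
        ∑ h : GL (Fin 2) (ZMod M), P.Φ w (zG M h * s₀) := by
      intro u
      refine Finset.sum_congr rfl fun h _ => ?_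
      rw [uh_apply, mul_assoc, Matrix.GeneralLinearGroup.scalar_commute, P.cent]
    rw [Finset.sum_congr rfl fun u _ => h2 u, Finset.sum_const, Finset.card_univ, nsmul_eq_mul]
  have h2 : ∑ p : (QE (ZMod M))ˣ × GL (Fin 2) (ZMod M), P.Φ w (uh M p * s₀) =
      (N₁ : ℂ) * ∑ g ∈ Finset.univ.image (uh M), P.Φ w (g * s₀) := by
    rw [Finset.sum_comp (fun g => P.Φ w (g * s₀)) (uh M), Finset.mul_sum]
    refine Finset.sum_congr rfl fun g hg => ?_
    rw [nsmul_eq_mul]
    congr 2
    have hg' : g ∈ Set.range (uh M) := by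
      obtain ⟨p, _, hp⟩ := Finset.mem_image.1 hg
      exact ⟨p, hp⟩
    exact MonoidHom.card_fiber_eq_of_mem_range (uh M) hg' ⟨1, map_one _⟩
  have h3 : P.cc s₀ X0 w = ∑ g ∈ Finset.univ.image (uh M), P.Φ w (g * s₀) := by
    unfold cc
    rw [redM_X0, ← Finset.sum_filter_add_sum_filter_not Finset.univ
      (fun g => g ∈ Finset.univ.image (uh M))]
    have h4 : ∑ g ∈ Finset.univ.filter (fun g => g ∉ Finset.univ.image (uh M)),
        coef (X0R M) g * P.Φ w (g * s₀) = 0 := by
      refine Finset.sum_eq_zero fun g hg => ?_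
      have hg' : g ∉ Set.range (uh M) := by
        rintro ⟨p, hp⟩
        exact (Finset.mem_filter.1 hg).2 (Finset.mem_image.2 ⟨p, Finset.mem_univ _, hp⟩)
      rw [coef_X0R, if_neg (fun h => hg' ((mem_range_uh g).2 h)), zero_mul]
    rw [h4, add_zero]
    have h5 : Finset.univ.filter (fun g => g ∈ Finset.univ.image (uh M)) =
        Finset.univ.image (uh M) := by
      ext g
      simp
    rw [h5]
    refine Finset.sum_congr rfl fun g hg => ?_
    have hg' : g ∈ Set.range (uh M) := by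
      obtain ⟨p, _, hp⟩ := Finset.mem_image.1 hg
      exact ⟨p, hp⟩
    rw [coef_X0R, if_pos ((mem_range_uh g).1 hg'), one_mul]
  have hN₁C : (N₁ : ℂ) ≠ 0 := by exact_mod_cast hN₁pos.ne'
  rw [h3]
  push_cast
  rw [div_mul_eq_mul_div, eq_div_iff hN₁C, mul_comm, ← h2, h1]

end PhiSys

end Fermat.Agent.LT.J
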