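import Fermat.Agent.LT.J.Bounds

/-!
# Exchange of sums and integrals (LT, piece J5)

`muR` is the measure `ρ dw` on `H3`.  For a family `H i : H3 → ℂ`, `i` running over (an injective
image of) a set of lattice vectors, with `‖H i w‖ ≤ C exp (-ε Maj (e i) w)`, everything converges.
-/

set_option autoImplicit false
set_option linter.unusedSectionVars false

open Complex Matrix MeasureTheory Set

open scoped ComplexConjugate ENNReal

noncomputable section

namespace Fermat.Agent.LT.J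

open Fermat.LT QE

/-- the measure `ρ dw` -/
def muR : Measure H3 := (volume : Measure H3).withDensity rho

theorem measurable_rho : Measurable rho := isWeight_rho.meas

theorem rho_lt_top (w : H3) : rho w < ∞ := (isWeight_rho.ne_top w).lt_top

theorem lintegral_muR {f : H3 → ℝ≥0∞} (hf : Measurable f) :
    ∫⁻ w, f w ∂muR = ∫⁻ w, rho w * f w :=
  lintegral_withDensity_eq_lintegral_mul _ measurable_rho hf

/-- integrals against `ρ dw` -/
theorem integral_muR {E : Type*} [NormedAddCommGroup E] [NormedSpace ℝ E] (f : H3 → E) :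
    ∫ w, f w ∂muR = ∫ w, (rho w).toReal • f w :=
  integral_withDensity_eq_integral_toReal_smul measurable_rho
    (Filter.Eventually.of_forall rho_lt_top) f

theorem integral_muR' (f : H3 → ℂ) : ∫ w, f w ∂muR = ∫ w, ((rho w).toReal : ℂ) * f w := by
  rw [integral_muR]
  simp only [Complex.real_smul]

theorem measurable_t : Measurable (fun w : H3 => w.t) := H3.continuous_t.measurable

/-- the integral of the height -/
def It : ℝ := (∫⁻ w : H3, rho w * ENNReal.ofReal w.t).toReal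

theorem lintegral_t_muR : ∫⁻ w, ENNReal.ofReal w.t ∂muR = ENNReal.ofReal It := by
  rw [lintegral_muR measurable_t.ennreal_ofReal, It, ENNReal.ofReal_toReal]
  exact lintegral_rho_t_lt_top.ne

theorem ae_mem_sieg : ∀ᵐ w ∂muR, w ∈ sieg := by
  rw [muR, ae_withDensity_iff measurable_rho]
  refine Filter.Eventually.of_forall fun w hw => ?_
  by_contra h
  exact hw (rho_eq_zero h)

instance : IsFiniteMeasure muR := by
  constructor
  have h1 : muR univ = ∫⁻ _, 1 ∂muR := by simp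
  rw [h1]
  calc ∫⁻ _, 1 ∂muR ≤ ∫⁻ w, 2 * ENNReal.ofReal w.t ∂muR := by
        refine lintegral_mono_ae (ae_mem_sieg.mono fun w hw => ?_)
        have h2 : (1 : ℝ) ≤ 2 * w.t := by linarith [hw.2]
        calc (1 : ℝ≥0∞) = ENNReal.ofReal 1 := by simp
          _ ≤ ENNReal.ofReal (2 * w.t) := ENNReal.ofReal_le_ofReal h2
          _ = _ := by rw [ENNReal.ofReal_mul (by norm_num)]; simp
    _ = 2 * ∫⁻ w, ENNReal.ofReal w.t ∂muR :=
        lintegral_const_mul _ measurable_t.ennreal_ofReal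
    _ < ∞ := by
        rw [lintegral_t_muR]
        exact ENNReal.mul_lt_top (by simp) ENNReal.ofReal_lt_top

/-! ### Gaussian sums -/

theorem summable_exp_maj {ε : ℝ} (hε : 0 < ε) (w : H3) :
    Summable fun X : Lat ℤ => Real.exp (-(ε * Maj X w)) := by
  have h := ne_top_of_le_ne_top ENNReal.ofReal_ne_top (tsum_maj_le hε w)
  have h2 := ENNReal.summable_toReal h
  refine h2.congr fun X => ?_
  rw [ENNReal.toReal_ofReal (Real.exp_pos _).le]

/-- constant in the bound for points of the Siegel set -/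
def KE (ε : ℝ) : ℝ := 46656 * (1 + 1 / Real.sqrt ε) ^ 4

theorem KE_pos {ε : ℝ} : 0 < KE ε := by
  unfold KE
  have : 0 ≤ 1 / Real.sqrt ε := by positivity
  positivity

theorem tsum_maj_sieg {ε : ℝ} (hε : 0 < ε) {w : H3} (hw : w ∈ sieg) :
    ∑' X : Lat ℤ, ENNReal.ofReal (Real.exp (-(ε * Maj X w))) ≤ ENNReal.ofReal (KE ε * w.t) := by
  refine (tsum_maj_le hε w).trans (ENNReal.ofReal_le_ofReal ?_)
  have ht := w.t_pos
  have h2 := hw.2
  have h3 : (1 + w.t) * (1 + 1 / w.t) ≤ 9 * w.t := by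
    have h4 : 1 / w.t ≤ 2 := by
      rw [div_le_iff₀ ht]; linarith
    have h5 : 0 < 1 / w.t := by positivity
    nlinarith
  have h4 : 0 ≤ 5184 * (1 + 1 / Real.sqrt ε) ^ 4 := by
    have : 0 ≤ 1 / Real.sqrt ε := by positivity
    positivity
  calc _ ≤ 5184 * (1 + 1 / Real.sqrt ε) ^ 4 * (9 * w.t) := mul_le_mul_of_nonneg_left h3 h4
    _ = _ := by rw [KE]; ring

theorem measurable_sL (X : Lat ℤ) : Measurable (sL X) := (Herm.continuous_s _).measurable

theorem continuous_sL (X : Lat ℤ) : Continuous (sL X) := Herm.continuous_s _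

theorem continuous_Maj (X : Lat ℤ) : Continuous (Maj X) := by
  unfold Maj
  exact continuous_const.add (continuous_const.mul ((continuous_sL X).pow 2))

theorem measurable_Maj (X : Lat ℤ) : Measurable (Maj X) := (continuous_Maj X).measurable

theorem lintegral_tsum_maj_le {ε : ℝ} (hε : 0 < ε) :
    ∫⁻ w, ∑' X : Lat ℤ, ENNReal.ofReal (Real.exp (-(ε * Maj X w))) ∂muR ≤
      ENNReal.ofReal (KE ε * It) := by
  calc _ ≤ ∫⁻ w, ENNReal.ofReal (KE ε * w.t) ∂muR :=
        lintegral_mono_ae (ae_mem_sieg.mono fun w hw => tsum_maj_sieg hε hw)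
    _ = ∫⁻ w, ENNReal.ofReal (KE ε) * ENNReal.ofReal w.t ∂muR := by
        simp_rw [ENNReal.ofReal_mul KE_pos.le]
    _ = ENNReal.ofReal (KE ε) * ENNReal.ofReal It := by
        rw [lintegral_const_mul _ measurable_t.ennreal_ofReal, lintegral_t_muR]
    _ = _ := by rw [← ENNReal.ofReal_mul KE_pos.le]

/-! ### The exchange theorem -/

section exch

variable {ι : Type*} [Countable ι] {e : ι → Lat ℤ} {H : ι → H3 → ℂ} {C ε : ℝ}

theorem tsum_lintegral_enorm_le (he : Function.Injective e) (hε : 0 < ε) (hC : 0 ≤ C)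
    (hb : ∀ i w, ‖H i w‖ ≤ C * Real.exp (-(ε * Maj (e i) w))) :
    ∑' i, ∫⁻ w, ‖H i w‖ₑ ∂muR ≤ ENNReal.ofReal (C * (KE ε * It)) := by
  calc ∑' i, ∫⁻ w, ‖H i w‖ₑ ∂muR
      ≤ ∑' i, ∫⁻ w, ENNReal.ofReal C * ENNReal.ofReal (Real.exp (-(ε * Maj (e i) w))) ∂muR := by
        refine ENNReal.tsum_le_tsum fun i => lintegral_mono fun w => ?_
        rw [← ENNReal.ofReal_mul hC, ← ofReal_norm]
        exact ENNReal.ofReal_le_ofReal (hb i w)
    _ = ∑' i, ENNReal.ofReal C * ∫⁻ w, ENNReal.ofReal (Real.exp (-(ε * Maj (e i) w))) ∂muR := by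
        refine tsum_congr fun i => lintegral_const_mul _ ?_
        exact (Real.measurable_exp.comp ((measurable_Maj (e i)).const_mul ε).neg).ennreal_ofReal
    _ = ENNReal.ofReal C * ∑' i, ∫⁻ w, ENNReal.ofReal (Real.exp (-(ε * Maj (e i) w))) ∂muR :=
        ENNReal.tsum_mul_left
    _ ≤ ENNReal.ofReal C *
        ∑' X : Lat ℤ, ∫⁻ w, ENNReal.ofReal (Real.exp (-(ε * Maj X w))) ∂muR :=
        mul_le_mul_right (ENNReal.tsum_comp_le_tsum_of_injective he
          (fun X => ∫⁻ w, ENNReal.ofReal (Real.exp (-(ε * Maj X w))) ∂muR)) _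
    _ = ENNReal.ofReal C *
        ∫⁻ w, ∑' X : Lat ℤ, ENNReal.ofReal (Real.exp (-(ε * Maj X w))) ∂muR := by
        rw [lintegral_tsum]
        intro X
        exact (Real.measurable_exp.comp ((measurable_Maj X).const_mul ε).neg).ennreal_ofReal.aemeasurable
    _ ≤ ENNReal.ofReal C * ENNReal.ofReal (KE ε * It) :=
        mul_le_mul_right (lintegral_tsum_maj_le hε) _
    _ = _ := by rw [← ENNReal.ofReal_mul hC]

theorem exch_integrable (hm : ∀ i, AEStronglyMeasurable (H i) muR) (he : Function.Injective e)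
    (hε : 0 < ε) (hC : 0 ≤ C) (hb : ∀ i w, ‖H i w‖ ≤ C * Real.exp (-(ε * Maj (e i) w))) (i : ι) :
    Integrable (H i) muR := by
  refine ⟨hm i, ?_⟩
  refine lt_of_le_of_lt ?_ (ENNReal.ofReal_lt_top (r := C * (KE ε * It)))
  exact (ENNReal.le_tsum i).trans (tsum_lintegral_enorm_le he hε hC hb)

theorem exch_summable_norm (hm : ∀ i, AEStronglyMeasurable (H i) muR) (he : Function.Injective e)
    (hε : 0 < ε) (hC : 0 ≤ C) (hb : ∀ i w, ‖H i w‖ ≤ C * Real.exp (-(ε * Maj (e i) w))) :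
    Summable fun i => ∫ w, ‖H i w‖ ∂muR := by
  have h1 : ∑' i, ∫⁻ w, ‖H i w‖ₑ ∂muR ≠ ∞ :=
    ne_top_of_le_ne_top ENNReal.ofReal_ne_top (tsum_lintegral_enorm_le he hε hC hb)
  refine (ENNReal.summable_toReal h1).congr fun i => ?_
  rw [integral_norm_eq_lintegral_enorm (hm i)]

/-- **Exchange of sum and integral.** -/
theorem exch_hasSum (hm : ∀ i, AEStronglyMeasurable (H i) muR) (he : Function.Injective e)
    (hε : 0 < ε) (hC : 0 ≤ C) (hb : ∀ i w, ‖H i w‖ ≤ C * Real.exp (-(ε * Maj (e i) w))) :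
    HasSum (fun i => ∫ w, H i w ∂muR) (∫ w, ∑' i, H i w ∂muR) :=
  hasSum_integral_of_summable_integral_norm (exch_integrable hm he hε hC hb)
    (exch_summable_norm hm he hε hC hb)

theorem exch_summable_pt (he : Function.Injective e)
    (hε : 0 < ε) (hb : ∀ i w, ‖H i w‖ ≤ C * Real.exp (-(ε * Maj (e i) w))) (w : H3) :
    Summable fun i => H i w := by
  refine Summable.of_norm_bounded ?_ (fun i => hb i w)
  exact ((summable_exp_maj hε w).comp_injective he).mul_left C

theorem exch_norm_tsum_le (he : Function.Injective e)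
    (hε : 0 < ε) (hC : 0 ≤ C) (hb : ∀ i w, ‖H i w‖ ≤ C * Real.exp (-(ε * Maj (e i) w))) {w : H3}
    (hw : w ∈ sieg) : ‖∑' i, H i w‖ ≤ C * (KE ε * w.t) := by
  have hs := (summable_exp_maj hε w)
  have h1 : ∑' i, ‖H i w‖ ≤ ∑' i, C * Real.exp (-(ε * Maj (e i) w)) := by
    refine Summable.tsum_le_tsum (fun i => hb i w) ?_ ((hs.comp_injective he).mul_left C)
    exact Summable.of_nonneg_of_le (fun i => norm_nonneg _) (fun i => hb i w)
      ((hs.comp_injective he).mul_left C)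
  have h2 : ∑' i, Real.exp (-(ε * Maj (e i) w)) ≤ ∑' X : Lat ℤ, Real.exp (-(ε * Maj X w)) :=
    tsum_comp_le_tsum_of_inj hs (fun X => (Real.exp_pos _).le) he
  have h3 : ∑' X : Lat ℤ, Real.exp (-(ε * Maj X w)) ≤ KE ε * w.t := by
    have h4 := tsum_maj_sieg hε hw
    rw [← ENNReal.ofReal_tsum_of_nonneg (fun X => (Real.exp_pos _).le) hs] at h4
    have ht := w.t_pos
    exact (ENNReal.ofReal_le_ofReal_iff (by have := KE_pos (ε := ε); positivity)).1 h4
  have h5 : ‖∑' i, H i w‖ ≤ ∑' i, ‖H i w‖ := by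
    apply norm_tsum_le_tsum_norm
    exact Summable.of_nonneg_of_le (fun i => norm_nonneg _) (fun i => hb i w)
      ((hs.comp_injective he).mul_left C)
  rw [tsum_mul_left] at h1
  calc _ ≤ _ := h5
    _ ≤ _ := h1
    _ ≤ C * (KE ε * w.t) := mul_le_mul_of_nonneg_left (h2.trans h3) hC

theorem exch_aesm (hm : ∀ i, AEStronglyMeasurable (H i) muR) (he : Function.Injective e)
    (hε : 0 < ε) (hb : ∀ i w, ‖H i w‖ ≤ C * Real.exp (-(ε * Maj (e i) w))) :
    AEStronglyMeasurable (fun w => ∑' i, H i w) muR := by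
  classical
  have hs : ∀ w, HasSum (fun i => H i w) (∑' i, H i w) := fun w =>
    (exch_summable_pt he hε hb w).hasSum
  refine aestronglyMeasurable_of_tendsto_ae (u := Filter.atTop)
    (f := fun (s : Finset ι) w => ∑ i ∈ s, H i w) (fun s => ?_)
    (Filter.Eventually.of_forall fun w => hs w)
  exact Finset.aestronglyMeasurable_fun_sum s fun i _ => hm i

theorem exch_integrable_tsum (hm : ∀ i, AEStronglyMeasurable (H i) muR)
    (he : Function.Injective e)
    (hε : 0 < ε) (hC : 0 ≤ C) (hb : ∀ i w, ‖H i w‖ ≤ C * Real.exp (-(ε * Maj (e i) w))) :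
    Integrable (fun w => ∑' i, H i w) muR := by
  refine ⟨exch_aesm hm he hε hb, ?_⟩
  refine lt_of_le_of_lt ?_ (ENNReal.ofReal_lt_top (r := C * (KE ε * It)))
  calc ∫⁻ w, ‖∑' i, H i w‖ₑ ∂muR ≤ ∫⁻ w, ENNReal.ofReal (C * (KE ε * w.t)) ∂muR := by
        refine lintegral_mono_ae (ae_mem_sieg.mono fun w hw => ?_)
        rw [← ofReal_norm]
        exact ENNReal.ofReal_le_ofReal (exch_norm_tsum_le he hε hC hb hw)
    _ = ∫⁻ w, ENNReal.ofReal (C * KE ε) * ENNReal.ofReal w.t ∂muR := by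
        refine lintegral_congr fun w => ?_
        rw [← ENNReal.ofReal_mul (mul_nonneg hC KE_pos.le), mul_assoc]
    _ = ENNReal.ofReal (C * (KE ε * It)) := by
        rw [lintegral_const_mul _ measurable_t.ennreal_ofReal, lintegral_t_muR,
          ← ENNReal.ofReal_mul (mul_nonneg hC KE_pos.le), mul_assoc]
    _ ≤ _ := le_rfl

theorem It_nonneg : 0 ≤ It := ENNReal.toReal_nonneg

theorem exch_norm_integral_le (hm : ∀ i, AEStronglyMeasurable (H i) muR)
    (he : Function.Injective e)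
    (hε : 0 < ε) (hC : 0 ≤ C) (hb : ∀ i w, ‖H i w‖ ≤ C * Real.exp (-(ε * Maj (e i) w))) :
    ‖∫ w, ∑' i, H i w ∂muR‖ ≤ C * (KE ε * It) := by
  have h1 : ∑' i, ∫⁻ w, ‖H i w‖ₑ ∂muR ≤ ENNReal.ofReal (C * (KE ε * It)) :=
    tsum_lintegral_enorm_le he hε hC hb
  have h2 : ‖∫ w, ∑' i, H i w ∂muR‖ₑ ≤ ENNReal.ofReal (C * (KE ε * It)) := by
    calc ‖∫ w, ∑' i, H i w ∂muR‖ₑ ≤ ∫⁻ w, ‖∑' i, H i w‖ₑ ∂muR := enorm_integral_le_lintegral_enorm _
      _ ≤ ∫⁻ w, ∑' i, ‖H i w‖ₑ ∂muR := lintegral_mono fun w => enorm_tsum_le_tsum_enorm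
      _ = ∑' i, ∫⁻ w, ‖H i w‖ₑ ∂muR := lintegral_tsum fun i => (hm i).enorm
      _ ≤ _ := h1
  rw [← ofReal_norm] at h2
  exact (ENNReal.ofReal_le_ofReal_iff
    (mul_nonneg hC (mul_nonneg KE_pos.le It_nonneg))).1 h2

end exch

end Fermat.Agent.LT.J
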