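import Mathlib
import Fermat.Agent.LT.J.StabX0
import Fermat.Agent.LT.J.Sys

/-!
# Fermi coordinates around the hyperbolic plane fixed by `X0` (LT, piece J6)
-/

set_option autoImplicit false

open Matrix MeasureTheory Set
open UpperHalfPlane hiding I
open Complex (I normSq)
open scoped MatrixGroups ENNReal ComplexConjugate

noncomputable section

namespace Fermat.Agent.LT.J

open Fermat.LT

/-- `√(1+s²)` -/
def rt1 (s : ℝ) : ℝ := Real.sqrt (1 + s ^ 2)

theorem rt1_pos (s : ℝ) : 0 < rt1 s := Real.sqrt_pos.2 (by positivity)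

theorem rt1_sq (s : ℝ) : rt1 s ^ 2 = 1 + s ^ 2 := Real.sq_sqrt (by positivity)

theorem continuous_rt1 : Continuous rt1 := by
  unfold rt1
  fun_prop

/-- Fermi coordinates: `(τ, s)` is the point at signed distance `arsinh s` from the plane,
with foot point `τ`. -/
def emb (p : ℍ × ℝ) : H3 :=
  H3.mk ⟨p.1.re, p.2 * (p.1.im / rt1 p.2)⟩ (p.1.im / rt1 p.2) (div_pos p.1.im_pos (rt1_pos _))

theorem emb_z (p : ℍ × ℝ) : (emb p).z = ⟨p.1.re, p.2 * (p.1.im / rt1 p.2)⟩ := rfl
theorem emb_t (p : ℍ × ℝ) : (emb p).t = p.1.im / rt1 p.2 := rfl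

/-- the foot point -/
def foot (w : H3) : ℍ :=
  ⟨⟨w.z.re, Real.sqrt (w.z.im ^ 2 + w.t ^ 2)⟩,
    Real.sqrt_pos.2 (add_pos_of_nonneg_of_pos (sq_nonneg _) (pow_pos w.t_pos 2))⟩

theorem foot_re (w : H3) : (foot w).re = w.z.re := rfl
theorem foot_im (w : H3) : (foot w).im = Real.sqrt (w.z.im ^ 2 + w.t ^ 2) := rfl

theorem sL_X0 (w : H3) : sL X0 w = w.z.im / w.t := by
  rw [sL_eq]
  simp only [X0_a, X0_β, X0_c, map_one, one_mul, Int.cast_zero, mul_zero, zero_mul, add_zero,
    zero_sub, Complex.conj_im]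
  have := w.t_ne_zero
  field_simp

theorem sL_emb (p : ℍ × ℝ) : sL X0 (emb p) = p.2 := by
  rw [sL_X0, emb_z, emb_t]
  have h1 := p.1.im_pos
  have h2 := rt1_pos p.2
  exact mul_div_cancel_right₀ _ (by positivity)

theorem rt1_div (w : H3) : rt1 (w.z.im / w.t) = Real.sqrt (w.z.im ^ 2 + w.t ^ 2) / w.t := by
  have ht := w.t_pos
  rw [rt1, show 1 + (w.z.im / w.t) ^ 2 = (w.z.im ^ 2 + w.t ^ 2) / w.t ^ 2 by field_simp; ring,
    Real.sqrt_div' _ (by positivity), Real.sqrt_sq ht.le]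

theorem foot_emb (p : ℍ × ℝ) : foot (emb p) = p.1 := by
  have h1 := p.1.im_pos
  have h2 := rt1_pos p.2
  apply UpperHalfPlane.ext
  apply Complex.ext
  · rfl
  · change Real.sqrt ((p.2 * (p.1.im / rt1 p.2)) ^ 2 + (p.1.im / rt1 p.2) ^ 2) = p.1.im
    rw [show (p.2 * (p.1.im / rt1 p.2)) ^ 2 + (p.1.im / rt1 p.2) ^ 2 =
      (1 + p.2 ^ 2) * (p.1.im / rt1 p.2) ^ 2 by ring, ← rt1_sq, ← mul_pow,
      mul_div_cancel₀ _ h2.ne', Real.sqrt_sq h1.le]

theorem emb_foot (w : H3) : emb (foot w, sL X0 w) = w := by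
  have ht := w.t_pos
  have h0 : 0 < w.z.im ^ 2 + w.t ^ 2 := by positivity
  have h1 : (foot w).im / rt1 (sL X0 w) = w.t := by
    rw [sL_X0, rt1_div, foot_im]
    have := Real.sqrt_pos.2 h0
    field_simp
  apply H3.ext
  · rw [emb_z]
    apply Complex.ext
    · rfl
    · change sL X0 w * ((foot w).im / rt1 (sL X0 w)) = w.z.im
      rw [h1, sL_X0]
      field_simp
  · rw [emb_t]
    exact h1

theorem continuous_emb : Continuous emb := by
  rw [H3.continuous_iff]
  have h1 : Continuous fun p : ℍ × ℝ => p.1.im / rt1 p.2 :=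
    (UpperHalfPlane.continuous_im.comp continuous_fst).div (continuous_rt1.comp continuous_snd)
      fun p => (rt1_pos _).ne'
  refine ⟨?_, h1⟩
  have h2 : (fun p : ℍ × ℝ => (emb p).z) = fun p : ℍ × ℝ =>
      ((p.1.re : ℝ) : ℂ) + ((p.2 * (p.1.im / rt1 p.2) : ℝ) : ℂ) * I := by
    funext p
    rw [emb_z]
    apply Complex.ext <;> simp
  rw [h2]
  exact (Complex.continuous_ofReal.comp (UpperHalfPlane.continuous_re.comp continuous_fst)).add
    ((Complex.continuous_ofReal.comp (continuous_snd.mul h1)).mul continuous_const)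

theorem continuous_foot : Continuous foot := by
  have h1 : Continuous fun w : H3 => Real.sqrt (w.z.im ^ 2 + w.t ^ 2) := by
    have := H3.continuous_z
    have := H3.continuous_t
    fun_prop
  rw [UpperHalfPlane.isEmbedding_coe.continuous_iff]
  have h2 : (UpperHalfPlane.coe ∘ foot) = fun w : H3 =>
      ((w.z.re : ℝ) : ℂ) + ((Real.sqrt (w.z.im ^ 2 + w.t ^ 2) : ℝ) : ℂ) * I := by
    funext w
    apply Complex.ext <;> simp [foot]
  rw [h2]
  exact (Complex.continuous_ofReal.comp (Complex.continuous_re.comp H3.continuous_z)).add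
    ((Complex.continuous_ofReal.comp h1).mul continuous_const)

theorem continuous_sL_X0 : Continuous (sL X0) := by
  have : sL X0 = fun w : H3 => w.z.im / w.t := funext sL_X0
  rw [this]
  exact (Complex.continuous_im.comp H3.continuous_z).div H3.continuous_t fun w => w.t_ne_zero

/-- Fermi coordinates as a homeomorphism -/
def embHomeo : ℍ × ℝ ≃ₜ H3 where
  toFun := emb
  invFun w := (foot w, sL X0 w)
  left_inv p := by
    change (foot (emb p), sL X0 (emb p)) = p
    rw [foot_emb, sL_emb]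
  right_inv := emb_foot
  continuous_toFun := continuous_emb
  continuous_invFun := continuous_foot.prodMk continuous_sL_X0

/-! ### Equivariance -/

theorem glC_slEO (γ : SL(2, ℤ)) (i j : Fin 2) : (glC (slEO γ)) i j = ((γ i j : ℤ) : ℂ) := by
  change toC ((slEO γ).1 i j) = _
  rw [slEO_apply, map_intCast]

theorem den_slEO (γ : SL(2, ℤ)) (w : H3) : H3.den (glC (slEO γ)) w =
    (γ 1 0 * w.z.re + γ 1 1) ^ 2 + (γ 1 0) ^ 2 * (w.z.im ^ 2 + w.t ^ 2) := by
  rw [H3.den, glC_slEO, glC_slEO]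
  simp only [Complex.normSq_apply, Complex.add_re, Complex.add_im, Complex.mul_re, Complex.mul_im,
    Complex.intCast_re, Complex.intCast_im]
  ring

theorem foot_smul (γ : SL(2, ℤ)) (w : H3) : foot (slEO γ • w) = γ • foot w := by
  set R : ℝ := Real.sqrt (w.z.im ^ 2 + w.t ^ 2) with hR
  have ht := w.t_pos
  have h0 : 0 < w.z.im ^ 2 + w.t ^ 2 := by positivity
  have hR2 : R ^ 2 = w.z.im ^ 2 + w.t ^ 2 := Real.sq_sqrt h0.le
  set a : ℝ := ((γ 0 0 : ℤ) : ℝ) with ha
  set b : ℝ := ((γ 0 1 : ℤ) : ℝ) with hb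
  set c : ℝ := ((γ 1 0 : ℤ) : ℝ) with hc
  set d : ℝ := ((γ 1 1 : ℤ) : ℝ) with hd
  have hdet : a * d - b * c = 1 := by
    rw [ha, hb, hc, hd]
    exact_mod_cast congrArg (Int.cast : ℤ → ℝ) (det_entries γ)
  have hD := den_slEO γ w
  have hDpos := H3.den_pos (glC (slEO γ)) w
  rw [← hR2, ← hc, ← hd] at hD
  set D : ℝ := H3.den (glC (slEO γ)) w with hDdef
  have hdetn : ‖(glC (slEO γ) : Matrix (Fin 2) (Fin 2) ℂ).det‖ = 1 := norm_det_glC _
  set x : ℝ := w.z.re with hx
  obtain ⟨U, hU⟩ : ∃ U : ℝ, U = (a * x + b) * (c * x + d) + a * c * R ^ 2 := ⟨_, rfl⟩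
  have h1 : (slEO γ • w).z.re = U / D := by
    rw [glEO_smul, H3.smul_z, ← hDdef, Complex.div_ofReal_re, glC_slEO, glC_slEO, glC_slEO,
      glC_slEO, hU, hR2]
    congr 1
    simp only [map_add, map_mul, map_intCast, Complex.add_re, Complex.add_im,
      Complex.mul_re, Complex.mul_im, Complex.intCast_re, Complex.intCast_im, Complex.conj_re,
      Complex.conj_im, ← Complex.ofReal_pow, Complex.ofReal_re, Complex.ofReal_im]
    ring
  have h2 : (slEO γ • w).z.im = w.z.im / D := by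
    rw [glEO_smul, H3.smul_z, ← hDdef, Complex.div_ofReal_im, glC_slEO, glC_slEO, glC_slEO,
      glC_slEO]
    congr 1
    simp only [map_add, map_mul, map_intCast, Complex.add_re, Complex.add_im,
      Complex.mul_re, Complex.mul_im, Complex.intCast_re, Complex.intCast_im, Complex.conj_re,
      Complex.conj_im, ← Complex.ofReal_pow, Complex.ofReal_re, Complex.ofReal_im]
    linear_combination w.z.im * hdet
  have ht' : (slEO γ • w).t = w.t / D := by
    rw [glEO_smul, H3.smul_t, hdetn, one_mul]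
  have h3 : Real.sqrt ((slEO γ • w).z.im ^ 2 + (slEO γ • w).t ^ 2) = R / D := by
    rw [h2, ht', show (w.z.im / D) ^ 2 + (w.t / D) ^ 2 = (w.z.im ^ 2 + w.t ^ 2) / D ^ 2 by ring,
      Real.sqrt_div' _ (by positivity), Real.sqrt_sq hDpos.le]
  have hτ : ((foot w : ℍ) : ℂ) = ⟨x, R⟩ := rfl
  have hτ' : ((foot (slEO γ • w) : ℍ) : ℂ) = ⟨U / D, R / D⟩ := by
    rw [← h1, ← h3]
    rfl
  apply UpperHalfPlane.ext
  rw [UpperHalfPlane.coe_specialLinearGroup_apply]
  simp only [algebraMap_int_eq, eq_intCast, Complex.ofReal_intCast]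
  have ha' : ((γ 0 0 : ℤ) : ℂ) = (a : ℂ) := by rw [ha]; norm_cast
  have hb' : ((γ 0 1 : ℤ) : ℂ) = (b : ℂ) := by rw [hb]; norm_cast
  have hc' : ((γ 1 0 : ℤ) : ℂ) = (c : ℂ) := by rw [hc]; norm_cast
  have hd' : ((γ 1 1 : ℤ) : ℂ) = (d : ℂ) := by rw [hd]; norm_cast
  have hne : (c : ℂ) * ⟨x, R⟩ + (d : ℂ) ≠ 0 := by
    intro h
    have h4 := congrArg Complex.re h
    have h5 := congrArg Complex.im h
    simp at h4 h5
    apply hDpos.ne'
    rw [hD, h4]
    rcases h5 with h5 | h5 <;> rw [h5] <;> ring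
  rw [hτ, hτ']
  refine Eq.trans ?_ (congrArg₂ (· / ·) (congrArg₂ (· + ·) (congrArg₂ (· * ·) ha'.symm rfl) hb'.symm)
    (congrArg₂ (· + ·) (congrArg₂ (· * ·) hc'.symm rfl) hd'.symm))
  rw [eq_div_iff hne]
  have hDne := hDpos.ne'
  apply Complex.ext
  · simp only [Complex.add_re, Complex.mul_re, Complex.mul_im, Complex.ofReal_re,
      Complex.ofReal_im, Complex.add_im]
    rw [hU]
    field_simp
    rw [hD]
    linear_combination (c * R ^ 2) * hdet
  · simp only [Complex.add_im, Complex.mul_re, Complex.mul_im, Complex.ofReal_re,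
      Complex.ofReal_im, Complex.add_re]
    rw [hU]
    field_simp
    rw [hD]
    linear_combination (-R * (c * x + d)) * hdet

theorem sL_X0_smul (γ : SL(2, ℤ)) (w : H3) : sL X0 (slEO γ • w) = sL X0 w := by
  conv_lhs => rw [← slEO_smul_X0 γ]
  exact sL_gl _ _ _

theorem emb_smul (γ : SL(2, ℤ)) (p : ℍ × ℝ) : slEO γ • emb p = emb (γ • p.1, p.2) := by
  rw [← emb_foot (slEO γ • emb p), foot_smul, foot_emb, sL_X0_smul, sL_emb]

/-! ### The volume in Fermi coordinates -/

theorem lintegral_scale {a : ℝ} (ha : 0 < a) (H : ℝ → ℝ≥0∞) :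
    ∫⁻ v, H v = ENNReal.ofReal a * ∫⁻ s, H (s * a) := by
  have h1 := Real.smul_map_volume_mul_right ha.ne'
  have h2 : ∫⁻ s, H (s * a) = ∫⁻ v, H v ∂(Measure.map (· * a) volume) := by
    have he : MeasurableEmbedding (fun s : ℝ => s * a) :=
      (MeasurableEquiv.mulRight₀ a ha.ne').measurableEmbedding
    rw [he.lintegral_map]
  rw [h2]
  conv_lhs => rw [← h1]
  rw [lintegral_smul_measure, abs_of_pos ha, smul_eq_mul]

theorem lintegral_scale_Ioi {a : ℝ} (ha : 0 < a) (H : ℝ → ℝ≥0∞) :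
    ∫⁻ v in Ioi 0, H v = ENNReal.ofReal a * ∫⁻ s in Ioi 0, H (s * a) := by
  rw [← lintegral_indicator measurableSet_Ioi, ← lintegral_indicator measurableSet_Ioi,
    lintegral_scale ha]
  congr 1
  refine lintegral_congr fun s => ?_
  by_cases hs : 0 < s
  · have h1 : s * a ∈ Ioi (0 : ℝ) := mul_pos hs ha
    have h2 : s ∈ Ioi (0 : ℝ) := hs
    rw [indicator_of_mem h1, indicator_of_mem h2]
  · have h1 : s * a ∉ Ioi (0 : ℝ) := fun h => hs ((mul_pos_iff_of_pos_right ha).mp h)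
    have h2 : s ∉ Ioi (0 : ℝ) := hs
    rw [indicator_of_notMem h1, indicator_of_notMem h2]

theorem lintegral_complex (H : ℂ → ℝ≥0∞) (hH : Measurable H) :
    ∫⁻ z : ℂ, H z = ∫⁻ x : ℝ, ∫⁻ y : ℝ, H ⟨x, y⟩ := by
  have h1 := Complex.volume_preserving_equiv_real_prod.symm
  rw [← h1.lintegral_comp hH]
  have hv : (volume : Measure (ℝ × ℝ)) = (volume : Measure ℝ).prod (volume : Measure ℝ) := rfl
  rw [hv, lintegral_prod (fun a : ℝ × ℝ => H (Complex.measurableEquivRealProd.symm a))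
    (hH.comp Complex.measurableEquivRealProd.symm.measurable).aemeasurable]
  rfl

/-- the integral over the upper half plane -/
theorem lintegral_UHP (G : ℂ → ℝ≥0∞) (hG : Measurable G) :
    ∫⁻ τ : ℍ, G τ = ∫⁻ x : ℝ, ∫⁻ R in Ioi (0 : ℝ), ENNReal.ofReal (R⁻¹ ^ 2) * G ⟨x, R⟩ := by
  have hm : Measurable fun z : ℂ => ENNReal.ofReal (z.im⁻¹ ^ 2) * G z :=
    (ENNReal.measurable_ofReal.comp ((Complex.measurable_im.inv).pow_const 2)).mul hG
  have h1 : ∫⁻ τ : ℍ, G τ =
      ∫⁻ τ : ℍ, ENNReal.ofReal ((τ : ℂ).im⁻¹ ^ 2) * G τ ∂(volume.comap UpperHalfPlane.coe) := by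
    rw [UpperHalfPlane.volume_def, lintegral_withDensity_eq_lintegral_mul]
    · refine lintegral_congr fun τ => ?_
      rw [Pi.mul_apply]
      congr 1
      rw [ENNReal.ofReal, Real.toNNReal_of_nonneg (by positivity)]
      congr 1
      ext
      simp
    · refine Measurable.coe_nnreal_ennreal (Measurable.pow_const ?_ 2)
      refine (Measurable.div measurable_const ?_)
      exact (UpperHalfPlane.continuous_im.measurable).subtype_mk
    · exact hG.comp UpperHalfPlane.measurable_coe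
  have h2 : (volume.comap UpperHalfPlane.coe).map UpperHalfPlane.coe =
      (volume : Measure ℂ).restrict (Set.range UpperHalfPlane.coe) :=
    UpperHalfPlane.measurableEmbedding_coe.map_comap _
  have h3 : Set.range UpperHalfPlane.coe = {z : ℂ | 0 < z.im} := by
    ext z
    constructor
    · rintro ⟨τ, rfl⟩; exact τ.im_pos
    · intro hz; exact ⟨⟨z, hz⟩, rfl⟩
  have hs : MeasurableSet {z : ℂ | 0 < z.im} := measurableSet_lt measurable_const
    Complex.measurable_im
  rw [h1, ← UpperHalfPlane.measurableEmbedding_coe.lintegral_map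
    (fun z : ℂ => ENNReal.ofReal (z.im⁻¹ ^ 2) * G z), h2, h3,
    ← lintegral_indicator hs, lintegral_complex _ (hm.indicator hs)]
  refine lintegral_congr fun x => ?_
  rw [← lintegral_indicator measurableSet_Ioi]
  refine lintegral_congr fun y => ?_
  by_cases hy : 0 < y
  · rw [indicator_of_mem (show (⟨x, y⟩ : ℂ) ∈ {z : ℂ | 0 < z.im} from hy),
      indicator_of_mem (show y ∈ Ioi (0 : ℝ) from hy)]
  · rw [indicator_of_notMem (show (⟨x, y⟩ : ℂ) ∉ {z : ℂ | 0 < z.im} from hy),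
      indicator_of_notMem (show y ∉ Ioi (0 : ℝ) from hy)]

/-- the measure `√(1+s²) ds` -/
def nuS : Measure ℝ := volume.withDensity fun s => ENNReal.ofReal (rt1 s)

theorem measurable_rt1 : Measurable rt1 := continuous_rt1.measurable

instance : SigmaFinite nuS := by
  unfold nuS
  exact SigmaFinite.withDensity_ofReal _

theorem measurable_mix {F : ℂ × ℝ → ℝ≥0∞} (hF : Measurable F) :
    Measurable fun q : ℝ × ℝ × ℝ => F (⟨q.1, q.2.1 * q.2.2⟩, q.2.2) := by
  refine hF.comp (Measurable.prodMk ?_ (measurable_snd.comp measurable_snd))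
  exact Complex.measurableEquivRealProd.symm.measurable.comp
      (measurable_fst.prodMk ((measurable_fst.comp measurable_snd).mul
        (measurable_snd.comp measurable_snd)))

theorem lintegral_H3_aux {F : ℂ × ℝ → ℝ≥0∞} (hF : Measurable F) :
    ∫⁻ w : H3, F (w.z, w.t) = ∫⁻ t in Ioi (0 : ℝ), ∫⁻ x : ℝ, ∫⁻ s : ℝ,
      ENNReal.ofReal (t⁻¹ ^ 2) * F (⟨x, s * t⟩, t) := by
  rw [H3.lintegral_eq F hF]
  refine setLIntegral_congr_fun measurableSet_Ioi fun t ht => ?_
  have ht : (0 : ℝ) < t := ht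
  rw [lintegral_complex (fun z => F (z, t)) (hF.comp (measurable_id.prodMk measurable_const)),
    ← lintegral_const_mul' _ _ ENNReal.ofReal_ne_top]
  refine lintegral_congr fun x => ?_
  rw [lintegral_scale ht, ← mul_assoc, ← ENNReal.ofReal_mul (by positivity),
    ← lintegral_const_mul' _ _ ENNReal.ofReal_ne_top]
  refine lintegral_congr fun s => ?_
  congr 2
  field_simp

theorem lintegral_emb_aux {F : ℂ × ℝ → ℝ≥0∞} (hF : Measurable F) (s : ℝ) :
    ENNReal.ofReal (rt1 s) * ∫⁻ τ : ℍ, F (⟨(τ : ℂ).re, s * ((τ : ℂ).im / rt1 s)⟩,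
        (τ : ℂ).im / rt1 s) = ∫⁻ x : ℝ,
      ∫⁻ t in Ioi (0 : ℝ), ENNReal.ofReal (t⁻¹ ^ 2) * F (⟨x, s * t⟩, t) := by
  set c : ℝ := rt1 s with hc
  have hcpos : 0 < c := rt1_pos s
  have hG : Measurable fun z : ℂ => F (⟨z.re, s * (z.im / c)⟩, z.im / c) := by
    have h1 : Measurable fun z : ℂ => ((z.re, s, z.im / c) : ℝ × ℝ × ℝ) :=
      Complex.measurable_re.prodMk
        (measurable_const.prodMk (Complex.measurable_im.div_const c))
    exact (measurable_mix hF).comp h1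
  rw [lintegral_UHP _ hG, ← lintegral_const_mul' _ _ ENNReal.ofReal_ne_top]
  refine lintegral_congr fun x => ?_
  rw [lintegral_scale_Ioi hcpos, ← mul_assoc, ← ENNReal.ofReal_mul hcpos.le,
    ← lintegral_const_mul' _ _ ENNReal.ofReal_ne_top]
  refine setLIntegral_congr_fun measurableSet_Ioi fun t ht => ?_
  have ht : (0 : ℝ) < t := ht
  have h2 : t * c / c = t := by field_simp
  simp only [h2]
  rw [← mul_assoc, ← ENNReal.ofReal_mul (by positivity)]
  congr 2
  field_simp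

theorem lintegral_exchange {K : ℝ × ℝ × ℝ → ℝ≥0∞} (hK : Measurable K) :
    ∫⁻ s : ℝ, ∫⁻ x : ℝ, ∫⁻ t in Ioi (0 : ℝ), K (x, s, t) =
      ∫⁻ t in Ioi (0 : ℝ), ∫⁻ x : ℝ, ∫⁻ s : ℝ, K (x, s, t) := by
  calc ∫⁻ s : ℝ, ∫⁻ x : ℝ, ∫⁻ t in Ioi (0 : ℝ), K (x, s, t)
      = ∫⁻ s : ℝ, ∫⁻ t in Ioi (0 : ℝ), ∫⁻ x : ℝ, K (x, s, t) := by
        refine lintegral_congr fun s => ?_
        refine lintegral_lintegral_swap (Measurable.aemeasurable ?_)
        have : Measurable fun q : ℝ × ℝ => (q.1, s, q.2) :=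
          measurable_fst.prodMk (measurable_const.prodMk measurable_snd)
        exact hK.comp this
    _ = ∫⁻ t in Ioi (0 : ℝ), ∫⁻ s : ℝ, ∫⁻ x : ℝ, K (x, s, t) := by
        refine lintegral_lintegral_swap (Measurable.aemeasurable ?_)
        have h1 : Measurable fun q : (ℝ × ℝ) × ℝ => (q.2, q.1.1, q.1.2) :=
          measurable_snd.prodMk ((measurable_fst.comp measurable_fst).prodMk
            (measurable_snd.comp measurable_fst))
        exact (hK.comp h1).lintegral_prod_right'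
    _ = ∫⁻ t in Ioi (0 : ℝ), ∫⁻ x : ℝ, ∫⁻ s : ℝ, K (x, s, t) := by
        refine lintegral_congr fun t => ?_
        refine lintegral_lintegral_swap (Measurable.aemeasurable ?_)
        have : Measurable fun q : ℝ × ℝ => (q.2, q.1, t) :=
          measurable_snd.prodMk (measurable_fst.prodMk measurable_const)
        exact hK.comp this

theorem lintegral_emb (g : H3 → ℝ≥0∞) (hg : Measurable g) :
    ∫⁻ p : ℍ × ℝ, g (emb p) ∂((volume : Measure ℍ).prod nuS) = ∫⁻ w : H3, g w := by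
  -- extend `g` to `ℂ × ℝ`
  obtain ⟨F, hF, hFg⟩ : ∃ F : ℂ × ℝ → ℝ≥0∞, Measurable F ∧ ∀ w : H3, F (w.z, w.t) = g w :=
    ⟨Function.extend H3.val g 0, H3.measurableEmbedding_val.measurable_extend hg measurable_zero,
      fun w => H3.val_injective.extend_apply _ _ w⟩
  have hge : Measurable fun p : ℍ × ℝ => g (emb p) := hg.comp continuous_emb.measurable
  have h1 : ∀ s : ℝ, ∫⁻ τ : ℍ, g (emb (τ, s)) =
      ∫⁻ τ : ℍ, F (⟨(τ : ℂ).re, s * ((τ : ℂ).im / rt1 s)⟩, (τ : ℂ).im / rt1 s) := by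
    intro s
    refine lintegral_congr fun τ => ?_
    rw [← hFg, emb_z, emb_t]
    rfl
  have hK : Measurable fun q : ℝ × ℝ × ℝ =>
      ENNReal.ofReal (q.2.2⁻¹ ^ 2) * F (⟨q.1, q.2.1 * q.2.2⟩, q.2.2) :=
    (ENNReal.measurable_ofReal.comp (((measurable_snd.comp measurable_snd).inv).pow_const 2)).mul
      (measurable_mix hF)
  have h2 := lintegral_exchange hK
  simp_rw [← hFg]
  rw [lintegral_H3_aux hF, ← h2]
  simp_rw [hFg]
  rw [lintegral_prod_symm _ hge.aemeasurable, nuS,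
    lintegral_withDensity_eq_lintegral_mul (volume : Measure ℝ)
      (f := fun s => ENNReal.ofReal (rt1 s)) (ENNReal.measurable_ofReal.comp measurable_rt1)
      (g := fun s => ∫⁻ x : ℍ, g (emb (x, s))) hge.lintegral_prod_left']
  refine lintegral_congr fun s => ?_
  rw [Pi.mul_apply, h1 s]
  exact lintegral_emb_aux hF s

/-- **The volume in Fermi coordinates.** -/
theorem measurePreserving_emb :
    MeasurePreserving emb ((volume : Measure ℍ).prod nuS) (volume : Measure H3) := by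
  refine ⟨continuous_emb.measurable, ?_⟩
  refine Measure.ext_of_lintegral _ fun g hg => ?_
  rw [lintegral_map hg continuous_emb.measurable, lintegral_emb g hg]

theorem measurableEmbedding_emb : MeasurableEmbedding emb :=
  embHomeo.measurableEmbedding

end Fermat.Agent.LT.J
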