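import Mathlib
import Fermat.Agent.LT.J.Fermi
import Fermat.Agent.LT.J.Exch

/-!
# The first coefficient and the period over `SL₂(ℤ) \ ℍ` (LT, piece J6)
-/

set_option autoImplicit false

open Matrix MeasureTheory Set Filter Topology
open UpperHalfPlane hiding I
open Complex (I normSq)
open scoped MatrixGroups ENNReal ComplexConjugate

noncomputable section

namespace Fermat.Agent.LT.J

open Fermat.LT Fermat.Agent.LT.B

/-- the number of cube roots of unity -/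
def m3 : ℕ := Nat.card (rootsOfUnity 3 EO)

theorem m3_ne_zero : m3 ≠ 0 := Nat.card_pos.ne'

/-- the weight on `H3` for the stabilizer of `X0` -/
def Wst (ρ₂ : ℍ → ℝ≥0∞) (w : H3) : ℝ≥0∞ := ρ₂ (foot w) / m3

section weight

variable {ρ₂ : ℍ → ℝ≥0∞}

theorem m3_ne_zero' : (m3 : ℝ≥0∞) ≠ 0 := by exact_mod_cast m3_ne_zero

theorem m3_ne_top : (m3 : ℝ≥0∞) ≠ ∞ := ENNReal.natCast_ne_top _

theorem sum_stab_Wst (hρ₂ : IsWeight SL(2, ℤ) ρ₂) (w : H3) :
    ∑' g : {g : GL (Fin 2) EO // g • X0 = X0}, Wst ρ₂ (g.1 • w) = 1 := by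
  rw [← StabX0.stabEquiv.tsum_eq]
  have h1 : ∀ p : rootsOfUnity 3 EO × SL(2, ℤ),
      Wst ρ₂ ((StabX0.stabEquiv p).1 • w) = ρ₂ (p.2 • foot w) / m3 := by
    intro p
    have : (StabX0.stabEquiv p).1 = Matrix.GeneralLinearGroup.scalar (Fin 2) p.1.1 * slEO p.2 := rfl
    rw [this, mul_smul, scalar_smul_H3, Wst, foot_smul]
  simp_rw [h1]
  rw [ENNReal.tsum_prod (f := fun (_ : rootsOfUnity 3 EO) (g : SL(2, ℤ)) => ρ₂ (g • foot w) / m3)]
  have h2 : ∀ _ : rootsOfUnity 3 EO, ∑' g : SL(2, ℤ), ρ₂ (g • foot w) / m3 = 1 / m3 := by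
    intro _
    simp_rw [div_eq_mul_inv]
    rw [ENNReal.tsum_mul_right, hρ₂.sum_eq]
  rw [tsum_congr h2]
  have : Fintype (rootsOfUnity 3 EO) := Fintype.ofFinite _
  rw [tsum_fintype, Finset.sum_const, Finset.card_univ, ← Nat.card_eq_fintype_card, nsmul_eq_mul]
  exact ENNReal.mul_div_cancel m3_ne_zero' m3_ne_top

/-- translation of the fibre to the stabilizer -/
def fiberEquiv (g₀ : GL (Fin 2) EO) {X : Lat ℤ} (h₀ : g₀ • X0 = X) :
    {g : GL (Fin 2) EO // g • X0 = X0} ≃ {g : GL (Fin 2) EO // g • X0 = X} where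
  toFun δ := ⟨g₀ * δ.1⁻¹, by rw [mul_smul, ← h₀, smul_left_cancel_iff, inv_smul_eq_iff, δ.2]⟩
  invFun g := ⟨g.1⁻¹ * g₀, by rw [mul_smul, h₀, inv_smul_eq_iff, g.2]⟩
  left_inv δ := by
    apply Subtype.ext
    simp
  right_inv g := by
    apply Subtype.ext
    simp

theorem sum_fiber_Wst (hρ₂ : IsWeight SL(2, ℤ) ρ₂) {X : Lat ℤ} (hX : X.q = 1) (w : H3) :
    ∑' g : {g : GL (Fin 2) EO // g • X0 = X}, Wst ρ₂ (g.1⁻¹ • w) = 1 := by
  obtain ⟨g₀, h₀⟩ := exists_smul_X0 X hX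
  rw [← (fiberEquiv g₀ h₀).tsum_eq, ← sum_stab_Wst hρ₂ (g₀⁻¹ • w)]
  refine tsum_congr fun δ => ?_
  congr 1
  change (g₀ * δ.1⁻¹)⁻¹ • w = _
  rw [_root_.mul_inv_rev, inv_inv, mul_smul]

theorem Wst_le_one (hρ₂ : IsWeight SL(2, ℤ) ρ₂) (w : H3) : Wst ρ₂ w ≤ 1 := by
  have h := ENNReal.le_tsum (f := fun g : {g : GL (Fin 2) EO // g • X0 = X0} => Wst ρ₂ (g.1 • w))
    ⟨1, one_smul _ _⟩
  rw [sum_stab_Wst hρ₂] at h
  simpa using h

theorem Wst_ne_top (hρ₂ : IsWeight SL(2, ℤ) ρ₂) (w : H3) : Wst ρ₂ w ≠ ∞ :=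
  ne_top_of_le_ne_top ENNReal.one_ne_top (Wst_le_one hρ₂ w)

theorem hasSum_fiber_Wst (hρ₂ : IsWeight SL(2, ℤ) ρ₂) {X : Lat ℤ} (hX : X.q = 1) (w : H3) :
    HasSum (fun g : {g : GL (Fin 2) EO // g • X0 = X} => (Wst ρ₂ (g.1⁻¹ • w)).toReal) 1 := by
  have h := sum_fiber_Wst hρ₂ hX w
  have h2 : ∑' g : {g : GL (Fin 2) EO // g • X0 = X}, Wst ρ₂ (g.1⁻¹ • w) ≠ ∞ := by
    rw [h]; exact ENNReal.one_ne_top
  have h3 := (ENNReal.summable_toReal h2).hasSum
  rwa [← ENNReal.tsum_toReal_eq (fun g => Wst_ne_top hρ₂ _), h, ENNReal.toReal_one] at h3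

/-- the map `γ ↦ γ X0` to the quadric `q = 1` -/
def toQ1 (g : GL (Fin 2) EO) : {X : Lat ℤ // X.q = 1} := ⟨g • X0, by rw [q_gl, q_X0]⟩

/-- the fibre of `toQ1` -/
def fibQ1 (X : {X : Lat ℤ // X.q = 1}) :
    {g : GL (Fin 2) EO // toQ1 g = X} ≃ {g : GL (Fin 2) EO // g • X0 = X.1} :=
  Equiv.subtypeEquivRight fun _ => Subtype.ext_iff

/-- The sum over the quadric `q = 1` as a sum over `GL₂(ℤ[ω])`. -/
theorem hasSum_unfold (hρ₂ : IsWeight SL(2, ℤ) ρ₂) {F : Lat ℤ → H3 → ℂ}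
    (hF : ∀ (g : GL (Fin 2) EO) (X : Lat ℤ) (w : H3), F (g • X) (g • w) = F X w) (w : H3)
    (hs : Summable fun X : {X : Lat ℤ // X.q = 1} => ‖F X w‖) :
    HasSum (fun g : GL (Fin 2) EO => ((Wst ρ₂ (g • w)).toReal : ℂ) * F X0 (g • w))
      (∑' X : {X : Lat ℤ // X.q = 1}, F X w) := by
  rw [← (Equiv.inv (GL (Fin 2) EO)).hasSum_iff]
  have h1 : ((fun g : GL (Fin 2) EO => ((Wst ρ₂ (g • w)).toReal : ℂ) * F X0 (g • w)) ∘
      (Equiv.inv (GL (Fin 2) EO))) =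
      fun g => ((Wst ρ₂ (g⁻¹ • w)).toReal : ℂ) * F (toQ1 g) w := by
    funext g
    rw [Function.comp_apply, Equiv.inv_apply]
    congr 1
    change _ = F (g • X0) w
    have := hF g X0 (g⁻¹ • w)
    rw [smul_inv_smul] at this
    exact this.symm
  rw [h1, ← (Equiv.sigmaFiberEquiv toQ1).hasSum_iff]
  have hfib : ∀ X : {X : Lat ℤ // X.q = 1},
      HasSum (fun g : {g : GL (Fin 2) EO // toQ1 g = X} => (Wst ρ₂ (g.1⁻¹ • w)).toReal) 1 := by
    intro X
    rw [← (fibQ1 X).symm.hasSum_iff]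
    exact hasSum_fiber_Wst hρ₂ X.2 w
  have h2 : ((fun g => ((Wst ρ₂ (g⁻¹ • w)).toReal : ℂ) * F (toQ1 g) w) ∘
      (Equiv.sigmaFiberEquiv toQ1)) =
      fun p : (Σ X : {X : Lat ℤ // X.q = 1}, {g : GL (Fin 2) EO // toQ1 g = X}) =>
        ((Wst ρ₂ (p.2.1⁻¹ • w)).toReal : ℂ) * F p.1 w := by
    funext p
    obtain ⟨X, g, rfl⟩ := p
    rfl
  rw [h2]
  refine HasSum.sigma_of_hasSum (f := fun p : (Σ X : {X : Lat ℤ // X.q = 1},
    {g : GL (Fin 2) EO // toQ1 g = X}) => ((Wst ρ₂ (p.2.1⁻¹ • w)).toReal : ℂ) * F p.1 w)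
    hs.of_norm.hasSum ?_ ?_
  · intro X
    have h3 : HasSum (fun g : {g : GL (Fin 2) EO // toQ1 g = X} =>
        ((Wst ρ₂ (g.1⁻¹ • w)).toReal : ℂ)) ((1 : ℝ) : ℂ) := by
      exact_mod_cast (hfib X)
    simpa using h3.mul_right (F X w)
  · refine Summable.of_norm ?_
    rw [summable_sigma_of_nonneg (fun _ => norm_nonneg _)]
    have h4 : ∀ (X : {X : Lat ℤ // X.q = 1}) (g : {g : GL (Fin 2) EO // toQ1 g = X}),
        ‖((Wst ρ₂ (g.1⁻¹ • w)).toReal : ℂ) * F X w‖ = (Wst ρ₂ (g.1⁻¹ • w)).toReal * ‖F X w‖ := by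
      intro X g
      rw [norm_mul, Complex.norm_real, Real.norm_of_nonneg ENNReal.toReal_nonneg]
    simp only [h4]
    refine ⟨fun X => ((hfib X).mul_right _).summable, ?_⟩
    refine hs.congr fun X => ?_
    rw [((hfib X).mul_right _).tsum_eq, one_mul]

end weight

section integral

theorem gss_pos (y s : ℝ) : 0 < gss y s := Real.exp_pos _

theorem continuous_gss (y : ℝ) : Continuous (gss y) := by
  unfold gss
  fun_prop

theorem norm_gss (y s : ℝ) : ‖((gss y s : ℝ) : ℂ)‖ = gss y s := by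
  rw [Complex.norm_real, Real.norm_of_nonneg (gss_pos y s).le]

variable {M : ℕ} (S : Sys M)

theorem norm_term_le {B : ℝ} (hB : ∀ (X : Lat ℤ) (w : H3), ‖S.c X w‖ ≤ B) (y : ℝ)
    (X : {X : Lat ℤ // X.q = 1}) (w : H3) :
    ‖S.c X w * (gss y (sL X w) : ℂ)‖ ≤
      (B * Real.exp (2 * Real.pi * y)) * Real.exp (-((2 * Real.pi * y) * Maj X w)) := by
  rw [norm_mul, norm_gss, mul_assoc, ← Real.exp_add]
  have h1 : 2 * Real.pi * y + -((2 * Real.pi * y) * Maj X w) =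
      -(4 * Real.pi * y * sL X w ^ 2) := by
    rw [Maj, X.2]
    push_cast
    ring
  rw [h1]
  exact mul_le_mul_of_nonneg_right (hB _ _) (Real.exp_pos _).le

theorem summable_term {y : ℝ} (hy : 0 < y) (w : H3) :
    Summable fun X : {X : Lat ℤ // X.q = 1} => ‖S.c X w * (gss y (sL X w) : ℂ)‖ := by
  obtain ⟨B, hB⟩ := S.bdd
  refine Summable.of_nonneg_of_le (fun _ => norm_nonneg _) (fun X => norm_term_le S hB y X w) ?_
  exact ((summable_exp_maj (by positivity) w).comp_injective Subtype.val_injective).mul_left _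

theorem rt1_le (s : ℝ) : rt1 s ≤ 1 + |s| := by
  rw [rt1, Real.sqrt_le_left (by positivity)]
  have := abs_nonneg s
  nlinarith [sq_abs s]

theorem integrable_gss_rt1 {y : ℝ} (hy : 0 < y) :
    Integrable fun s : ℝ => gss y s * (1 + |s|) := by
  have h1 : Integrable fun s : ℝ => Real.exp (-(4 * Real.pi * y) * s ^ 2) :=
    integrable_exp_neg_mul_sq (by positivity)
  have h2 : Integrable fun s : ℝ => s * Real.exp (-(4 * Real.pi * y) * s ^ 2) :=
    integrable_mul_exp_neg_mul_sq (by positivity)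
  have h3 := h1.add h2.norm
  refine h3.congr (Filter.Eventually.of_forall fun s => ?_)
  have h4 : gss y s = Real.exp (-(4 * Real.pi * y) * s ^ 2) := by
    rw [gss]; congr 1; ring
  simp only [Pi.add_apply, norm_mul, Real.norm_eq_abs, Real.abs_exp, h4]
  ring

theorem measurable_ofReal_rt1 : Measurable fun s : ℝ => ENNReal.ofReal (rt1 s) :=
  ENNReal.measurable_ofReal.comp measurable_rt1

theorem integrable_gss_nuS {y : ℝ} (hy : 0 < y) : Integrable (gss y) nuS := by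
  unfold nuS
  rw [integrable_withDensity_iff_integrable_smul' measurable_ofReal_rt1
    (Filter.Eventually.of_forall fun _ => ENNReal.ofReal_lt_top)]
  refine (integrable_gss_rt1 hy).mono' ?_ (Filter.Eventually.of_forall fun s => ?_)
  · exact (measurable_ofReal_rt1.ennreal_toReal.mul
      (continuous_gss y).measurable).aestronglyMeasurable
  · rw [smul_eq_mul, ENNReal.toReal_ofReal (rt1_pos s).le, norm_mul,
      Real.norm_of_nonneg (rt1_pos s).le, Real.norm_of_nonneg (gss_pos y s).le, mul_comm]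
    exact mul_le_mul_of_nonneg_left (rt1_le s) (gss_pos y s).le

variable {ρ₂ : ℍ → ℝ≥0∞}

theorem integrable_rho2 (hρ₂ : IsWeight SL(2, ℤ) ρ₂) (hfin : ∫⁻ τ : ℍ, ρ₂ τ ≠ ∞) :
    Integrable fun τ : ℍ => (ρ₂ τ).toReal :=
  integrable_toReal_of_lintegral_ne_top hρ₂.meas.aemeasurable hfin

/-- the unfolded integrand -/
def phiX (S : Sys M) (ρ₂ : ℍ → ℝ≥0∞) (y : ℝ) (w : H3) : ℂ :=
  ((Wst ρ₂ w).toReal : ℂ) * (S.c X0 w * (gss y (sL X0 w) : ℂ))

theorem phiX_emb (y : ℝ) (p : ℍ × ℝ) : phiX S ρ₂ y (emb p) =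
    (m3 : ℂ)⁻¹ * (((ρ₂ p.1).toReal : ℂ) * S.c X0 (emb p) * (gss y p.2 : ℂ)) := by
  rw [phiX, Wst, foot_emb, sL_emb, ENNReal.toReal_div, ENNReal.toReal_natCast]
  push_cast
  ring

theorem measurable_phiX (hρ₂ : IsWeight SL(2, ℤ) ρ₂) (y : ℝ) : Measurable (phiX S ρ₂ y) := by
  unfold phiX
  refine Measurable.mul ?_ (((S.cont X0).measurable).mul ?_)
  · refine Complex.measurable_ofReal.comp (Measurable.ennreal_toReal ?_)
    unfold Wst
    exact (hρ₂.meas.comp continuous_foot.measurable).div_const _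
  · exact Complex.measurable_ofReal.comp ((continuous_gss y).measurable.comp (measurable_sL X0))

theorem integrable_phiX_emb (hρ₂ : IsWeight SL(2, ℤ) ρ₂) (hfin : ∫⁻ τ : ℍ, ρ₂ τ ≠ ∞) {y : ℝ}
    (hy : 0 < y) :
    Integrable (fun p => phiX S ρ₂ y (emb p)) ((volume : Measure ℍ).prod nuS) := by
  obtain ⟨B, hB⟩ := S.bdd
  have h1 := (integrable_rho2 hρ₂ hfin).mul_prod (integrable_gss_nuS hy)
  have h2 := h1.const_mul ((m3 : ℝ)⁻¹ * B)
  refine h2.mono' ((measurable_phiX S hρ₂ y).comp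
    continuous_emb.measurable).aestronglyMeasurable (Filter.Eventually.of_forall fun p => ?_)
  rw [phiX_emb, norm_mul, norm_mul, norm_mul, norm_gss, Complex.norm_real,
    Real.norm_of_nonneg ENNReal.toReal_nonneg, norm_inv, Complex.norm_natCast]
  have h3 := hB X0 (emb p)
  have h4 := gss_pos y p.2
  have h5 : 0 ≤ (ρ₂ p.1).toReal := ENNReal.toReal_nonneg
  calc (m3 : ℝ)⁻¹ * ((ρ₂ p.1).toReal * ‖S.c X0 (emb p)‖ * gss y p.2)
      ≤ (m3 : ℝ)⁻¹ * ((ρ₂ p.1).toReal * B * gss y p.2) := by gcongr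
    _ = _ := by ring

theorem integrable_phiX (hρ₂ : IsWeight SL(2, ℤ) ρ₂) (hfin : ∫⁻ τ : ℍ, ρ₂ τ ≠ ∞) {y : ℝ}
    (hy : 0 < y) : Integrable (phiX S ρ₂ y) := by
  rw [← measurePreserving_emb.integrable_comp_emb measurableEmbedding_emb]
  exact integrable_phiX_emb S hρ₂ hfin hy

/-- **Unfolding** of `Λ_1`. -/
theorem Lam_one_eq (hρ₂ : IsWeight SL(2, ℤ) ρ₂) (hfin : ∫⁻ τ : ℍ, ρ₂ τ ≠ ∞) {y : ℝ}
    (hy : 0 < y) : Lam rho S.c 1 (gss y) = ∫ w, phiX S ρ₂ y w := by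
  have hφ := integrable_phiX S hρ₂ hfin hy
  rw [← integral_periodize (Γ := GL (Fin 2) EO) isWeight_rho hφ,
    integral_qMeas isWeight_rho _ (aestronglyMeasurable_periodize isWeight_rho hφ.1), Lam]
  refine integral_congr_ae (Filter.Eventually.of_forall fun w => ?_)
  simp only
  rw [periodize_pr, Complex.real_smul]
  congr 1
  refine ((hasSum_unfold hρ₂ (F := fun X w => S.c X w * (gss y (sL X w) : ℂ)) ?_ w
    (summable_term S hy w)).tsum_eq).symm
  intro g X w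
  rw [S.inv, sL_gl]

/-- the period integrals at distance `s` -/
def Per (S : Sys M) (ρ₂ : ℍ → ℝ≥0∞) (s : ℝ) : ℂ :=
  ∫ τ : ℍ, ((ρ₂ τ).toReal : ℂ) * S.c X0 (emb (τ, s))

theorem continuous_Per (hρ₂ : IsWeight SL(2, ℤ) ρ₂) (hfin : ∫⁻ τ : ℍ, ρ₂ τ ≠ ∞) :
    Continuous (Per S ρ₂) := by
  obtain ⟨B, hB⟩ := S.bdd
  refine continuous_of_dominated (bound := fun τ => (ρ₂ τ).toReal * B) ?_ ?_ ?_ ?_
  · intro s
    refine (Measurable.mul ?_ ?_).aestronglyMeasurable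
    · exact Complex.measurable_ofReal.comp hρ₂.meas.ennreal_toReal
    · exact (S.cont X0).measurable.comp (continuous_emb.comp
        (continuous_id.prodMk continuous_const)).measurable
  · intro s
    refine Filter.Eventually.of_forall fun τ => ?_
    rw [norm_mul, Complex.norm_real, Real.norm_of_nonneg ENNReal.toReal_nonneg]
    exact mul_le_mul_of_nonneg_left (hB _ _) ENNReal.toReal_nonneg
  · exact (integrable_rho2 hρ₂ hfin).mul_const B
  · refine Filter.Eventually.of_forall fun τ => ?_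
    exact continuous_const.mul ((S.cont X0).comp (continuous_emb.comp
      (continuous_const.prodMk continuous_id)))

theorem exists_norm_Per_le (hρ₂ : IsWeight SL(2, ℤ) ρ₂) (hfin : ∫⁻ τ : ℍ, ρ₂ τ ≠ ∞) :
    ∃ C : ℝ, 0 ≤ C ∧ ∀ s, ‖Per S ρ₂ s‖ ≤ C := by
  obtain ⟨B, hB⟩ := S.bdd
  have hB0 : 0 ≤ B := (norm_nonneg _).trans (hB X0 default)
  refine ⟨∫ τ : ℍ, (ρ₂ τ).toReal * B, integral_nonneg fun τ =>
    mul_nonneg ENNReal.toReal_nonneg hB0, fun s => ?_⟩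
  refine (norm_integral_le_integral_norm _).trans ?_
  refine integral_mono_of_nonneg (Filter.Eventually.of_forall fun τ => norm_nonneg _)
    ((integrable_rho2 hρ₂ hfin).mul_const B) (Filter.Eventually.of_forall fun τ => ?_)
  simp only
  rw [norm_mul, Complex.norm_real, Real.norm_of_nonneg ENNReal.toReal_nonneg]
  exact mul_le_mul_of_nonneg_left (hB _ _) ENNReal.toReal_nonneg

theorem integral_phiX (hρ₂ : IsWeight SL(2, ℤ) ρ₂) (hfin : ∫⁻ τ : ℍ, ρ₂ τ ≠ ∞) {y : ℝ}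
    (hy : 0 < y) : ∫ w, phiX S ρ₂ y w =
      (m3 : ℂ)⁻¹ * ∫ s : ℝ, (rt1 s : ℂ) * (gss y s : ℂ) * Per S ρ₂ s := by
  rw [← measurePreserving_emb.integral_comp measurableEmbedding_emb,
    integral_prod_symm _ (integrable_phiX_emb S hρ₂ hfin hy)]
  have h1 : ∀ s : ℝ, ∫ τ : ℍ, phiX S ρ₂ y (emb (τ, s)) =
      (m3 : ℂ)⁻¹ * ((gss y s : ℂ) * Per S ρ₂ s) := by
    intro s
    rw [Per, ← integral_const_mul, ← integral_const_mul]
    refine integral_congr_ae (Filter.Eventually.of_forall fun τ => ?_)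
    simp only
    rw [phiX_emb]
    ring
  simp_rw [h1]
  rw [nuS, integral_withDensity_eq_integral_toReal_smul measurable_ofReal_rt1
    (Filter.Eventually.of_forall fun _ => ENNReal.ofReal_lt_top), ← integral_const_mul]
  refine integral_congr_ae (Filter.Eventually.of_forall fun s => ?_)
  simp only [Function.comp_apply]
  rw [ENNReal.toReal_ofReal (rt1_pos s).le, Complex.real_smul]
  ring

/-- rescaling -/
theorem sqrt_mul_Lam_one (hρ₂ : IsWeight SL(2, ℤ) ρ₂) (hfin : ∫⁻ τ : ℍ, ρ₂ τ ≠ ∞) {y : ℝ}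
    (hy : 0 < y) : (Real.sqrt y : ℂ) * Lam rho S.c 1 (gss y) =
      (m3 : ℂ)⁻¹ * ∫ r : ℝ, (rt1 (r / Real.sqrt y) : ℂ) * (gss 1 r : ℂ) *
        Per S ρ₂ (r / Real.sqrt y) := by
  have hsy : 0 < Real.sqrt y := Real.sqrt_pos.2 hy
  rw [Lam_one_eq S hρ₂ hfin hy, integral_phiX S hρ₂ hfin hy]
  have h1 := Measure.integral_comp_div (fun s : ℝ => (rt1 s : ℂ) * (gss y s : ℂ) * Per S ρ₂ s)
    (Real.sqrt y)
  rw [abs_of_pos hsy, Complex.real_smul] at h1
  rw [mul_left_comm, ← h1]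
  congr 1
  refine integral_congr_ae (Filter.Eventually.of_forall fun r => ?_)
  simp only
  have h2 : gss y (r / Real.sqrt y) = gss 1 r := by
    rw [gss, gss]
    congr 2
    rw [div_pow, Real.sq_sqrt hy.le]
    field_simp
  rw [h2]

theorem integral_gss_one : ∫ r : ℝ, gss 1 r = 1 / 2 := by
  have h1 : (fun r : ℝ => gss 1 r) = fun r => Real.exp (-(4 * Real.pi) * r ^ 2) := by
    funext r
    rw [gss]; congr 1; ring
  rw [h1, integral_gaussian]
  rw [show Real.pi / (4 * Real.pi) = (1 / 2) ^ 2 by field_simp; norm_num]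
  rw [Real.sqrt_sq (by norm_num)]

/-- **J6**: the first coefficient tends to (a multiple of) the period. -/
theorem tendsto_Lam_one (hρ₂ : IsWeight SL(2, ℤ) ρ₂) (hfin : ∫⁻ τ : ℍ, ρ₂ τ ≠ ∞) :
    Tendsto (fun y : ℝ => (Real.sqrt y : ℂ) * Lam rho S.c 1 (gss y)) atTop
      (𝓝 ((m3 : ℂ)⁻¹ * (1 / 2 * Per S ρ₂ 0))) := by
  obtain ⟨C, hC0, hC⟩ := exists_norm_Per_le S hρ₂ hfin
  have hcont := continuous_Per S hρ₂ hfin
  have h1 : Tendsto (fun y : ℝ => ∫ r : ℝ, (rt1 (r / Real.sqrt y) : ℂ) * (gss 1 r : ℂ) *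
      Per S ρ₂ (r / Real.sqrt y)) atTop (𝓝 (∫ r : ℝ, (rt1 0 : ℂ) * (gss 1 r : ℂ) * Per S ρ₂ 0)) := by
    refine tendsto_integral_filter_of_dominated_convergence
      (bound := fun r => gss 1 r * (1 + |r|) * C) ?_ ?_ ((integrable_gss_rt1 one_pos).mul_const C) ?_
    · refine Filter.Eventually.of_forall fun y => Continuous.aestronglyMeasurable ?_
      have h2 : Continuous fun r : ℝ => r / Real.sqrt y := continuous_id.div_const _
      exact ((Complex.continuous_ofReal.comp (continuous_rt1.comp h2)).mul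
        (Complex.continuous_ofReal.comp (continuous_gss 1))).mul (hcont.comp h2)
    · filter_upwards [eventually_ge_atTop (1 : ℝ)] with y hy
      refine Filter.Eventually.of_forall fun r => ?_
      rw [norm_mul, norm_mul, norm_gss, Complex.norm_real, Real.norm_of_nonneg (rt1_pos _).le,
        mul_comm (rt1 _)]
      have hsy : 1 ≤ Real.sqrt y := by rw [Real.one_le_sqrt]; exact hy
      have h3 : rt1 (r / Real.sqrt y) ≤ 1 + |r| := by
        refine (rt1_le _).trans ?_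
        rw [abs_div, abs_of_pos (by linarith : (0 : ℝ) < Real.sqrt y)]
        have := div_le_self (abs_nonneg r) hsy
        linarith
      have h4 := gss_pos 1 r
      have h5 := rt1_pos (r / Real.sqrt y)
      gcongr
      exact hC _
    · refine Filter.Eventually.of_forall fun r => ?_
      have h2 : Tendsto (fun y : ℝ => r / Real.sqrt y) atTop (𝓝 0) :=
        tendsto_const_nhds.div_atTop Real.tendsto_sqrt_atTop
      refine Tendsto.mul (Tendsto.mul ?_ tendsto_const_nhds) ?_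
      · exact ((Complex.continuous_ofReal.comp continuous_rt1).tendsto 0).comp h2
      · exact (hcont.tendsto 0).comp h2
  have h2 : ∫ r : ℝ, (rt1 0 : ℂ) * (gss 1 r : ℂ) * Per S ρ₂ 0 = 1 / 2 * Per S ρ₂ 0 := by
    have h3 : rt1 0 = 1 := by simp [rt1]
    rw [h3]
    simp only [Complex.ofReal_one, one_mul]
    rw [integral_mul_const, integral_complex_ofReal, integral_gss_one]
    push_cast
    ring
  rw [h2] at h1
  refine (h1.const_mul ((m3 : ℂ)⁻¹)).congr' ?_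
  filter_upwards [eventually_gt_atTop (0 : ℝ)] with y hy
  exact (sqrt_mul_Lam_one S hρ₂ hfin hy).symm

/-- **Non-vanishing.** -/
theorem exists_Lam_one_ne_zero (hρ₂ : IsWeight SL(2, ℤ) ρ₂) (hfin : ∫⁻ τ : ℍ, ρ₂ τ ≠ ∞)
    (h0 : Per S ρ₂ 0 ≠ 0) : ∃ y : ℝ, 0 < y ∧ Lam rho S.c 1 (gss y) ≠ 0 := by
  by_contra hcon
  push Not at hcon
  have h1 := tendsto_Lam_one S hρ₂ hfin
  have h2 : Tendsto (fun y : ℝ => (Real.sqrt y : ℂ) * Lam rho S.c 1 (gss y)) atTop (𝓝 0) := by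
    refine tendsto_const_nhds.congr' ?_
    filter_upwards [eventually_gt_atTop (0 : ℝ)] with y hy
    rw [hcon y hy, mul_zero]
  have h3 := tendsto_nhds_unique h1 h2
  have h4 : (m3 : ℂ) ≠ 0 := by exact_mod_cast m3_ne_zero
  simp [h4, h0] at h3

end integral

end Fermat.Agent.LT.J
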