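import Mathlib
import Fermat.Agent.LT.J.Period

/-!
# A weight of finite mass for `SL₂(ℤ)` on the upper half plane (LT, piece J6)
-/

set_option autoImplicit false

open Matrix MeasureTheory Set Filter Topology
open UpperHalfPlane hiding I
open Complex (I normSq)
open scoped MatrixGroups ENNReal ComplexConjugate

noncomputable section

namespace Fermat.Agent.LT.J

open Fermat.LT Fermat.Agent.LT.B

instance countable_SL2Z : Countable SL(2, ℤ) := slEO_injective.countable

instance continuousConstSMul_SL2Z : ContinuousConstSMul SL(2, ℤ) ℍ where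
  continuous_const_smul γ := by
    have h1 : Continuous fun τ : ℍ => foot (slEO γ • emb (τ, 0)) :=
      continuous_foot.comp ((continuous_const_smul (slEO γ)).comp
        (continuous_emb.comp (continuous_id.prodMk continuous_const)))
    refine h1.congr fun τ => ?_
    rw [foot_smul, foot_emb]

instance measurableConstSMul_SL2Z : MeasurableConstSMul SL(2, ℤ) ℍ where
  measurable_const_smul γ := (continuous_const_smul γ).measurable

instance smulInvariantMeasure_SL2Z : SMulInvariantMeasure SL(2, ℤ) ℍ volume where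
  measure_preimage_smul γ s hs := by
    change volume ((fun τ : ℍ => (Matrix.SpecialLinearGroup.mapGL ℝ γ) • τ) ⁻¹' s) = volume s
    exact measure_preimage_smul volume (Matrix.SpecialLinearGroup.mapGL ℝ γ) s

/-- a Siegel set in the upper half plane -/
def siegH : Set ℍ := {τ | |τ.re| ≤ 1 / 2 ∧ 1 / 2 ≤ τ.im}

theorem measurableSet_siegH : MeasurableSet siegH := by
  have h1 : IsClosed siegH :=
    (isClosed_le (UpperHalfPlane.continuous_re.abs) continuous_const).inter
      (isClosed_le continuous_const UpperHalfPlane.continuous_im)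
  exact h1.measurableSet

theorem exists_smul_mem_siegH (τ : ℍ) : ∃ γ : SL(2, ℤ), γ • τ ∈ siegH := by
  obtain ⟨γ, hγ⟩ := ModularGroup.exists_smul_mem_fd τ
  refine ⟨γ, hγ.2, ?_⟩
  have h1 := ModularGroup.three_le_four_mul_im_sq_of_mem_fd hγ
  have h2 := (γ • τ).im_pos
  nlinarith

theorem emb_zero_z (τ : ℍ) : (emb (τ, 0)).z = (τ.re : ℂ) := by
  rw [emb_z]
  apply Complex.ext <;> simp

theorem emb_zero_t (τ : ℍ) : (emb (τ, 0)).t = τ.im := by
  rw [emb_t]
  simp [rt1]

theorem emb_mem_sieg {τ : ℍ} (h : τ ∈ siegH) : emb (τ, 0) ∈ sieg := by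
  refine ⟨?_, ?_⟩
  · rw [emb_zero_z, Complex.normSq_ofReal]
    have h1 := h.1
    have h2 := abs_nonneg τ.re
    have h3 : τ.re * τ.re = |τ.re| * |τ.re| := (abs_mul_abs_self _).symm
    rw [h3]
    nlinarith
  · rw [emb_zero_t]
    exact h.2

theorem finite_smul_mem_siegH (τ : ℍ) : {γ : SL(2, ℤ) | γ • τ ∈ siegH}.Finite := by
  refine ((finite_smul_mem_sieg (emb (τ, 0))).preimage slEO_injective.injOn).subset ?_
  intro γ hγ
  have hγ : γ • τ ∈ siegH := hγ
  change slEO γ • emb (τ, 0) ∈ sieg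
  rw [emb_smul]
  exact emb_mem_sieg hγ

/-- the weight on the upper half plane -/
def rhoH (τ : ℍ) : ℝ≥0∞ := siegH.indicator (fun y => (cnt SL(2, ℤ) siegH y)⁻¹) τ

theorem isWeight_rhoH : IsWeight SL(2, ℤ) rhoH := by
  constructor
  · exact ((measurable_cnt measurableSet_siegH).inv).indicator measurableSet_siegH
  · intro w
    have hne := cnt_ne_zero (exists_smul_mem_siegH w)
    have htop := cnt_ne_top (finite_smul_mem_siegH w)
    have key : ∀ γ : SL(2, ℤ), rhoH (γ • w) =
        (cnt SL(2, ℤ) siegH w)⁻¹ * siegH.indicator 1 (γ • w) := by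
      intro γ
      by_cases h : γ • w ∈ siegH
      · rw [rhoH, indicator_of_mem h, indicator_of_mem h, cnt_smul, Pi.one_apply, mul_one]
      · rw [rhoH, indicator_of_notMem h, indicator_of_notMem h, mul_zero]
    simp_rw [key]
    rw [ENNReal.tsum_mul_left]
    exact ENNReal.inv_mul_cancel hne htop

theorem rhoH_eq_zero {τ : ℍ} (h : τ ∉ siegH) : rhoH τ = 0 := indicator_of_notMem h _

theorem rhoH_le_indicator (τ : ℍ) : rhoH τ ≤ siegH.indicator 1 τ := by
  by_cases h : τ ∈ siegH
  · rw [indicator_of_mem h]; exact isWeight_rhoH.le_one τ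
  · rw [rhoH_eq_zero h]; exact bot_le

theorem volume_siegH_lt_top : volume siegH < ∞ := by
  have h1 : volume siegH = ∫⁻ τ : ℍ,
      ({z : ℂ | |z.re| ≤ 1 / 2 ∧ 1 / 2 ≤ z.im}.indicator (1 : ℂ → ℝ≥0∞)) τ := by
    rw [← lintegral_indicator_one measurableSet_siegH]
    rfl
  have hs : MeasurableSet {z : ℂ | |z.re| ≤ 1 / 2 ∧ 1 / 2 ≤ z.im} := by
    have h2 : IsClosed {z : ℂ | |z.re| ≤ 1 / 2 ∧ 1 / 2 ≤ z.im} :=
      (isClosed_le (Complex.continuous_re.abs) continuous_const).inter
        (isClosed_le continuous_const Complex.continuous_im)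
    exact h2.measurableSet
  rw [h1, lintegral_UHP _ (measurable_one.indicator hs)]
  have h2 : ∀ x : ℝ, (∫⁻ R in Ioi (0 : ℝ), ENNReal.ofReal (R⁻¹ ^ 2) *
      {z : ℂ | |z.re| ≤ 1 / 2 ∧ 1 / 2 ≤ z.im}.indicator (1 : ℂ → ℝ≥0∞) ⟨x, R⟩) ≤
      (Icc (-1 / 2 : ℝ) (1 / 2)).indicator (fun _ => ∫⁻ R in Ioi (1 / 4 : ℝ),
        ENNReal.ofReal (R⁻¹ ^ 2)) x := by
    intro x
    by_cases hx : x ∈ Icc (-1 / 2 : ℝ) (1 / 2)
    · rw [indicator_of_mem hx, ← lintegral_indicator measurableSet_Ioi,
        ← lintegral_indicator measurableSet_Ioi]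
      refine lintegral_mono fun R => ?_
      by_cases hR : 1 / 2 ≤ R
      · have h3 : R ∈ Ioi (1 / 4 : ℝ) := by
          have : (1 / 4 : ℝ) < R := by linarith
          exact this
        have h4 : R ∈ Ioi (0 : ℝ) := by
          have : (0 : ℝ) < R := by linarith
          exact this
        rw [indicator_of_mem h3, indicator_of_mem h4]
        refine mul_le_of_le_one_right' ?_
        exact indicator_le_self' (fun _ _ => zero_le_one) _
      · by_cases h4 : R ∈ Ioi (0 : ℝ)
        · rw [indicator_of_mem h4, indicator_of_notMem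
            (show (⟨x, R⟩ : ℂ) ∉ {z : ℂ | |z.re| ≤ 1 / 2 ∧ 1 / 2 ≤ z.im} from fun h => hR h.2),
            mul_zero]
          exact bot_le
        · rw [indicator_of_notMem h4]
          exact bot_le
    · rw [indicator_of_notMem hx]
      refine le_of_eq ?_
      rw [← lintegral_indicator measurableSet_Ioi]
      refine (lintegral_congr fun R => ?_).trans lintegral_zero
      by_cases h4 : R ∈ Ioi (0 : ℝ)
      · rw [indicator_of_mem h4, indicator_of_notMem, mul_zero]
        intro h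
        apply hx
        have := abs_le.1 h.1
        exact ⟨by linarith [this.1], this.2⟩
      · rw [indicator_of_notMem h4]
  refine (lintegral_mono h2).trans_lt ?_
  rw [lintegral_indicator measurableSet_Icc, setLIntegral_const]
  refine ENNReal.mul_lt_top ?_ (by simp)
  have h3 : IntegrableOn (fun R : ℝ => R ^ (-2 : ℝ)) (Ioi (1 / 4 : ℝ)) :=
    integrableOn_Ioi_rpow_of_lt (by norm_num) (by norm_num)
  have h4 := h3.2
  refine lt_of_eq_of_lt ?_ h4
  refine setLIntegral_congr_fun measurableSet_Ioi fun R hR => ?_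
  have hR : (0 : ℝ) < R := lt_trans (by norm_num) hR
  simp only
  rw [Real.enorm_eq_ofReal (by positivity)]
  congr 1
  rw [Real.rpow_neg hR.le, inv_pow]
  norm_cast

theorem lintegral_rhoH_ne_top : ∫⁻ τ : ℍ, rhoH τ ≠ ∞ := by
  refine ne_top_of_le_ne_top volume_siegH_lt_top.ne ?_
  rw [← lintegral_indicator_one measurableSet_siegH]
  exact lintegral_mono rhoH_le_indicator

/-- Every weight has finite mass. -/
theorem IsWeight_lintegral_ne_top {ρ₂ : ℍ → ℝ≥0∞} (hρ₂ : IsWeight SL(2, ℤ) ρ₂) :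
    ∫⁻ τ : ℍ, ρ₂ τ ≠ ∞ := by
  have h := hρ₂.lintegral_eq (μ := volume) isWeight_rhoH (F := fun _ => 1) aemeasurable_const
    (fun _ _ => rfl)
  simp only [mul_one] at h
  rw [h]
  exact lintegral_rhoH_ne_top

/-- The integral of an invariant function does not depend on the weight. -/
theorem integral_weight_congr {ρ₂ ρ₂' : ℍ → ℝ≥0∞} (hρ₂ : IsWeight SL(2, ℤ) ρ₂)
    (hρ₂' : IsWeight SL(2, ℤ) ρ₂') {F : ℍ → ℂ} (hF : AEStronglyMeasurable F)
    (hinv : ∀ (γ : SL(2, ℤ)) (τ : ℍ), F (γ • τ) = F τ) :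
    ∫ τ : ℍ, ((ρ₂ τ).toReal : ℂ) * F τ = ∫ τ : ℍ, ((ρ₂' τ).toReal : ℂ) * F τ := by
  have h1 : ∀ {ρ : ℍ → ℝ≥0∞}, IsWeight SL(2, ℤ) ρ → ∫ q, desc F hinv q ∂qMeas SL(2, ℤ) volume ρ =
      ∫ τ : ℍ, ((ρ τ).toReal : ℂ) * F τ := by
    intro ρ hρ
    rw [integral_qMeas hρ]
    · refine integral_congr_ae (Filter.Eventually.of_forall fun τ => ?_)
      simp only
      rw [desc_pr, Complex.real_smul]
    · rw [aestronglyMeasurable_qMeas_iff hρ]
      exact hF
  rw [← h1 hρ₂, ← h1 hρ₂', qMeas_congr hρ₂ hρ₂']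

end Fermat.Agent.LT.J
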