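import Mathlib
import Fermat.Agent.LT.J.PhiSys
import Fermat.Agent.LT.J.WeightH

/-!
# Non-vanishing of the first coefficient from the period of `Φ` (LT, piece J6)
-/

set_option autoImplicit false

open Matrix MeasureTheory
open UpperHalfPlane hiding I
open scoped MatrixGroups ENNReal

noncomputable section

namespace Fermat.Agent.LT.J

open Fermat.LT Fermat.Agent.LT.B

/-- **J6, final form.**  If the `SL₂(ℤ)`-period of `Σ_h Φ(·, h s₀)` is nonzero, then the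
first coefficient of the lift of the system of `(Φ, s₀)` does not vanish. -/
theorem PhiSys.exists_Lam_ne_zero {M : ℕ} [NeZero M] (P : PhiSys M) (s₀ : GM M)
    [Fintype (GL (Fin 2) (ZMod M))] {ρ₂ : ℍ → ℝ≥0∞} (hρ₂ : IsWeight SL(2, ℤ) ρ₂)
    (h : ∫ τ : ℍ, ((ρ₂ τ).toReal : ℂ) *
      ∑ k : GL (Fin 2) (ZMod M), P.Φ (emb (τ, 0)) (zG M k * s₀) ≠ 0) :
    ∃ y : ℝ, 0 < y ∧ Lam rho (P.toSys s₀).c 1 (gss y) ≠ 0 := by
  obtain ⟨κ, hκ, hc⟩ := PhiSys.exists_cc_X0 P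
  refine exists_Lam_one_ne_zero (P.toSys s₀) hρ₂ (IsWeight_lintegral_ne_top hρ₂) ?_
  have h1 : Per (P.toSys s₀) ρ₂ 0 = (κ : ℂ) * ∫ τ : ℍ, ((ρ₂ τ).toReal : ℂ) *
      ∑ k : GL (Fin 2) (ZMod M), P.Φ (emb (τ, 0)) (zG M k * s₀) := by
    rw [Per, ← integral_const_mul]
    refine integral_congr_ae (Filter.Eventually.of_forall fun τ => ?_)
    simp only
    rw [PhiSys.toSys_c, hc]
    ring
  rw [h1]
  have h2 : (κ : ℂ) ≠ 0 := by exact_mod_cast hκ.ne'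
  exact mul_ne_zero h2 h

end Fermat.Agent.LT.J
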