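import Mathlib
import Fermat.Agent.LT.J.PeriodPhi
import Fermat.Agent.LT.J.CoefODE

/-!
# Non-vanishing of the first coefficient `cf` (LT, piece J6)
-/

set_option autoImplicit false

open Matrix MeasureTheory
open UpperHalfPlane hiding I
open scoped MatrixGroups ENNReal

noncomputable section

namespace Fermat.Agent.LT.J

open Fermat.LT Fermat.Agent.LT.B

theorem PhiSys.exists_cf_ne_zero {M : ℕ} [NeZero M] (P : PhiSys M) (s₀ : GM M)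
    [Fintype (GL (Fin 2) (ZMod M))] {ρ₂ : ℍ → ℝ≥0∞} (hρ₂ : IsWeight SL(2, ℤ) ρ₂)
    (h : ∫ τ : ℍ, ((ρ₂ τ).toReal : ℂ) *
      ∑ k : GL (Fin 2) (ZMod M), P.Φ (emb (τ, 0)) (zG M k * s₀) ≠ 0) :
    ∃ y : ℝ, 0 < y ∧ cf (P.toSys s₀).c 1 y ≠ 0 := by
  obtain ⟨y, hy, h1⟩ := PhiSys.exists_Lam_ne_zero P s₀ hρ₂ h
  refine ⟨y, hy, mul_ne_zero ?_ h1⟩
  have : Real.sqrt y ≠ 0 := (Real.sqrt_pos.2 hy).ne'
  exact_mod_cast this

end Fermat.Agent.LT.J
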