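import Fermat.Agent.LT.J.Hecke
import Fermat.Agent.LT.J.PeriodCf
import Fermat.Agent.LT.J.Main

/-!
# Hecke relations for coefficient systems and the final form of the theta descent (LT, piece J3)
-/

set_option autoImplicit false
set_option linter.unusedSectionVars false

open MeasureTheory Set Matrix CongruenceSubgroup
open UpperHalfPlane hiding I
open scoped ENNReal NNReal MatrixGroups ModularForm

noncomputable section

namespace Fermat.Agent.LT.J

open Fermat.LT Fermat.Agent.LT.B QE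

namespace HK

variable {p : ℕ} [hp : Fact p.Prime] (D : SplitPrime p) {M : ℕ}

/-- Hecke relations for the coefficient functions of a coefficient system -/
theorem heckeRel (S : Sys M) (hpM : IsCoprime (p : ℤ) (M : ℤ)) {l : ℝ}
    (hH : ∀ X w, ∑ i, S.c (Lat.act (D.hr i) X) (D.rC i • w) = Real.sqrt p * l * S.c X w) :
    HeckeRel (cf S.c) p l ∧ HeckeRel (cfS S.c) p l :=
  ⟨fun n _ hy => hecke_cf D S.coefSys (fun X w => S.scal p X w hpM) hH n hy,
    fun n _ hy => hecke_cfS D S.coefSys (fun X w => S.scal p X w hpM) hH n hy⟩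

/-- the representatives modulo `M` -/
def SplitPrime.rG (hpM : IsCoprime (p : ℤ) (M : ℤ)) (i : Option (ZMod p)) : GM M :=
  Matrix.GeneralLinearGroup.mk'' ((D.hr i).map (QE.map (Int.castRingHom (ZMod M)))) (by
    have h1 : ((D.hr i).map (QE.map (Int.castRingHom (ZMod M)))).det =
        QE.map (Int.castRingHom (ZMod M)) (D.hr i).det := (RingHom.map_det _ _).symm
    rw [h1, D.det_hr]
    obtain ⟨a, b, hab⟩ := hpM
    have h2 : (a : ZMod M) * (p : ZMod M) = 1 := by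
      have h6 := congrArg (Int.cast : ℤ → ZMod M) hab
      push_cast at h6
      rw [ZMod.natCast_self, mul_zero, add_zero] at h6
      exact h6
    refine IsUnit.of_mul_eq_one ((a : QE (ZMod M)) *
      QE.map (Int.castRingHom (ZMod M)) (star D.pi)) ?_
    have h3 : QE.map (Int.castRingHom (ZMod M)) D.pi *
        QE.map (Int.castRingHom (ZMod M)) (star D.pi) = (p : QE (ZMod M)) := by
      rw [← map_mul, mul_star_eq, D.nm_pi]
      have : (QuadraticAlgebra.C (p : ℤ) : EO) = ((p : ℕ) : EO) := by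
        apply QuadraticAlgebra.ext <;> simp
      rw [this, map_natCast]
    have h4 : (a : QE (ZMod M)) * (p : QE (ZMod M)) = 1 := by
      have h5 := congrArg (algebraMap (ZMod M) (QE (ZMod M))) h2
      rw [map_mul, map_intCast, map_natCast, map_one] at h5
      exact h5
    calc _ = (a : QE (ZMod M)) * (QE.map (Int.castRingHom (ZMod M)) D.pi *
        QE.map (Int.castRingHom (ZMod M)) (star D.pi)) := by ring
      _ = 1 := by rw [h3, h4])

theorem SplitPrime.rG_val (hpM : IsCoprime (p : ℤ) (M : ℤ)) (i : Option (ZMod p)) :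
    (D.rG hpM i).1 = (D.hr i).map (QE.map (Int.castRingHom (ZMod M))) := rfl

variable [NeZero M]

/-- Hecke relations from those of `Φ` -/
theorem heckeRel_phi (P : PhiSys M) (s₀ : GM M) (hpM : IsCoprime (p : ℤ) (M : ℤ)) {l : ℝ}
    (hH : ∀ (w : H3) (s : GM M), ∑ i, P.Φ (D.rC i • w) (D.rG hpM i * s) =
      Real.sqrt p * l * P.Φ w s) :
    HeckeRel (cf (P.toSys s₀).c) p l ∧ HeckeRel (cfS (P.toSys s₀).c) p l :=
  heckeRel D (P.toSys s₀) hpM fun X w => P.sum_cc s₀ Finset.univ (fun i => D.hr i)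
    (fun i => D.det_hr_ne i) (fun i => D.rG hpM i) (fun i => D.rG_val hpM i) _ hH X w

end HK

open HK in
/-- the Hecke condition for `Φ` at a rational prime `p` split in `ℚ(√-3)` -/
def PhiSys.HeckeAt {M : ℕ} (P : PhiSys M) (p : ℕ) (l : ℝ) : Prop :=
  ∃ (_ : Fact p.Prime) (D : SplitPrime p) (hpM : IsCoprime (p : ℤ) (M : ℤ)),
    ∀ (w : H3) (s : GM M), ∑ i, P.Φ (D.rC i • w) (D.rG hpM i * s) = Real.sqrt p * l * P.Φ w s

/-- **Theta descent.** -/
theorem PhiSys.main {M : ℕ} [NeZero M] (Φ : PhiSys M) (s₀ : GM M)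
    [Fintype (GL (Fin 2) (ZMod M))] {ρ₂ : ℍ → ℝ≥0∞} (hρ₂ : IsWeight SL(2, ℤ) ρ₂)
    (h : ∫ τ : ℍ, ((ρ₂ τ).toReal : ℂ) *
      ∑ k : GL (Fin 2) (ZMod M), Φ.Φ (emb (τ, 0)) (zG M k * s₀) ≠ 0)
    (P : Set ℕ) (lam : ℕ → ℝ) (hH : ∀ p ∈ P, Φ.HeckeAt p (lam p))
    (hp : ∃ p ∈ P, p ≡ 1 [MOD 3 * M ^ 2] ∧ lam p ≠ 2) :
    ∃ f : CuspForm (Gamma1 (3 * M ^ 2)) 1, f ≠ 0 ∧
      (∀ γ ∈ Gamma0 (3 * M ^ 2), (⇑f ∣[(1 : ℤ)] γ) = ((K.chi3 (γ 1 1) : ℤ) : ℂ) • ⇑f) ∧
      ∀ p ∈ P, ∀ n : ℕ, ModularFormClass.qCoeff ⇑f (p * n) +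
        (if p ∣ n then ModularFormClass.qCoeff ⇑f (n / p) else 0) =
          (lam p : ℂ) * ModularFormClass.qCoeff ⇑f n := by
  refine (Φ.toSys s₀).main P lam (fun p hp => ?_) (fun p hp => ?_) (fun p hp => ?_)
    (Φ.exists_cf_ne_zero s₀ hρ₂ h) hp
  · obtain ⟨hf, _⟩ := hH p hp
    exact hf.out
  · obtain ⟨hf, D, hpM, hD⟩ := hH p hp
    exact (HK.heckeRel_phi D Φ s₀ hpM hD).1
  · obtain ⟨hf, D, hpM, hD⟩ := hH p hp
    exact (HK.heckeRel_phi D Φ s₀ hpM hD).2

end Fermat.Agent.LT.J
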