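import Fermat.Agent.LT.J.BridgeHecke
import Fermat.Agent.LT.J.HeckeRel

/-!
# J9: from functions `Ξ : H3 → GL₂(F) → ℂ` to functions on `H3 × GL₂(O/M)`

* `lftM s`: an integral matrix lifting `s : GM M`; `lft s = E.toG (lftM s)`.
* `XiSys`: the hypotheses on `Ξ`; `XiSys.Phi P s = Ξ P (lft s)`.
-/

set_option autoImplicit false
set_option linter.unusedSectionVars false

open NumberField IsDedekindDomain Matrix
open Fermat.LT

noncomputable section

namespace Fermat.Agent.LT.J

variable {F : Type} [Field F] [NumberField F]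

open CTree Fermat.Agent.LT.B

/-- reduction of integral matrices -/
def rdM (M : ℕ) (A : Matrix (Fin 2) (Fin 2) EO) : Matrix (Fin 2) (Fin 2) (QE (ZMod M)) :=
  A.map (QE.map (Int.castRingHom (ZMod M)))

theorem rdM_mul (M : ℕ) (A B : Matrix (Fin 2) (Fin 2) EO) : rdM M (A * B) = rdM M A * rdM M B :=
  Matrix.map_mul

theorem rdM_one (M : ℕ) : rdM M 1 = 1 := by
  unfold rdM
  exact Matrix.map_one _ (map_zero _) (map_one _)

theorem QE_map_surjective (M : ℕ) : Function.Surjective (QE.map (Int.castRingHom (ZMod M))) := by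
  intro x
  obtain ⟨a, ha⟩ := ZMod.intCast_surjective x.re
  obtain ⟨b, hb⟩ := ZMod.intCast_surjective x.im
  exact ⟨⟨a, b⟩, QuadraticAlgebra.ext ha hb⟩

theorem QE_map_eq_zero_iff (M : ℕ) (x : EO) :
    QE.map (Int.castRingHom (ZMod M)) x = 0 ↔ ∃ y, x = (M : EO) * y := by
  constructor
  · intro h
    have h1 := congrArg QuadraticAlgebra.re h
    have h2 := congrArg QuadraticAlgebra.im h
    simp only [QE.map_re, QE.map_im, QuadraticAlgebra.re_zero, QuadraticAlgebra.im_zero,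
      eq_intCast] at h1 h2
    rw [ZMod.intCast_zmod_eq_zero_iff_dvd] at h1 h2
    obtain ⟨a, ha⟩ := h1
    obtain ⟨b, hb⟩ := h2
    refine ⟨⟨a, b⟩, ?_⟩
    apply QuadraticAlgebra.ext
    · rw [QE.mul_re, HK.re_nat, HK.im_nat, ha]; ring
    · rw [QE.mul_im, HK.re_nat, HK.im_nat, hb]; ring
  · rintro ⟨y, rfl⟩
    rw [map_mul, map_natCast]
    have : ((M : ℕ) : QE (ZMod M)) = 0 := by
      have h := map_natCast (algebraMap (ZMod M) (QE (ZMod M))) M
      rw [ZMod.natCast_self, map_zero] at h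
      exact h.symm
    rw [this, zero_mul]

theorem exists_lift (M : ℕ) (s : GM M) :
    ∃ A : Matrix (Fin 2) (Fin 2) EO, A.det ≠ 0 ∧ rdM M A = s.1 := by
  choose f hf using QE_map_surjective M
  set A0 : Matrix (Fin 2) (Fin 2) EO := s.1.map f with hA0
  have h0 : rdM M A0 = s.1 := by
    refine Matrix.ext fun i j => ?_
    rw [rdM, hA0, Matrix.map_apply, Matrix.map_apply, hf]
  by_cases hd : A0.det = 0
  · have h1 : QE.map (Int.castRingHom (ZMod M)) A0.det = s.1.det := by
      rw [← h0]; exact RingHom.map_det _ _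
    rw [hd, map_zero] at h1
    have h2 : IsUnit s.1.det := s.det.isUnit
    rw [← h1] at h2
    have h3 : Subsingleton (QE (ZMod M)) := subsingleton_of_zero_eq_one (isUnit_zero_iff.1 h2)
    exact ⟨1, by simp, Subsingleton.elim _ _⟩
  · exact ⟨A0, hd, h0⟩

/-- an integral lift -/
def lftM {M : ℕ} (s : GM M) : Matrix (Fin 2) (Fin 2) EO := (exists_lift M s).choose

theorem lftM_det {M : ℕ} (s : GM M) : (lftM s).det ≠ 0 := (exists_lift M s).choose_spec.1

theorem rdM_lftM {M : ℕ} (s : GM M) : rdM M (lftM s) = s.1 := (exists_lift M s).choose_spec.2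

namespace Eis3

variable {D : Datum F} (E : Eis3 D) {M : ℕ}

/-- an integral lift as an element of `GL₂(F)` -/
def lft (s : GM M) : G2 F := E.toG (lftM s) (lftM_det s)

theorem toG_mul (A B : Matrix (Fin 2) (Fin 2) EO) (hA : A.det ≠ 0) (hB : B.det ≠ 0)
    (hAB : (A * B).det ≠ 0) : E.toG (A * B) hAB = E.toG A hA * E.toG B hB := by
  apply Units.ext
  rw [Units.val_mul, E.toG_val, E.toG_val, E.toG_val, Matrix.map_mul]

theorem av_det_eq_one {A : Matrix (Fin 2) (Fin 2) EO} (hA : IsUnit (rdM M A)) {w : Pl F}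
    (hw : w ∈ pm M) : av w (E.toF A.det) = 1 := by
  have h1 : IsUnit (rdM M A).det := (Matrix.isUnit_iff_isUnit_det _).1 hA
  have h2 : (rdM M A).det = QE.map (Int.castRingHom (ZMod M)) A.det := (RingHom.map_det _ _).symm
  rw [h2] at h1
  obtain ⟨v, hv⟩ := h1.exists_right_inv
  obtain ⟨v, rfl⟩ := QE_map_surjective M v
  have h3 : QE.map (Int.castRingHom (ZMod M)) (A.det * v - 1) = 0 := by
    rw [map_sub, map_mul, hv, map_one, sub_self]
  obtain ⟨y, hy⟩ := (QE_map_eq_zero_iff M _).1 h3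
  refine le_antisymm (E.av_toF_le_one w _) (not_lt.1 fun hlt => ?_)
  have h4 : av w (1 : F) < 1 := by
    have e : (1 : F) = E.toF A.det * E.toF v + -((M : F) * E.toF y) := by
      have := congrArg E.toF hy
      rw [map_sub, map_mul, map_mul, map_one, map_natCast] at this
      linear_combination -this
    rw [e]
    refine (av_add_le w _ _).trans_lt (max_lt ?_ ?_)
    · rw [map_mul]
      exact mul_lt_one_of_nonneg_of_lt_one_left ((av w).nonneg _) hlt (E.av_toF_le_one w v)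
    · rw [(av w).map_neg, map_mul]
      exact mul_lt_one_of_nonneg_of_lt_one_left ((av w).nonneg _) hw (E.av_toF_le_one w y)
  rw [map_one] at h4
  exact lt_irrefl _ h4

theorem toG_mem_intM {A : Matrix (Fin 2) (Fin 2) EO} (hA : A.det ≠ 0) (hu : IsUnit (rdM M A)) :
    E.toG A hA ∈ intM F M := by
  rw [mem_intM]
  intro w hw
  exact E.toG_mem_intGL A hA (E.av_det_eq_one hu hw)

theorem isUnit_rdM_of_eq {A : Matrix (Fin 2) (Fin 2) EO} {s : GM M} (h : rdM M A = s.1) :
    IsUnit (rdM M A) := by rw [h]; exact s.isUnit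

/-- congruent matrices -/
theorem cong_of_rdM {A B : Matrix (Fin 2) (Fin 2) EO} (hA : A.det ≠ 0) (hB : B.det ≠ 0)
    (hu : IsUnit (rdM M A)) (hAB : rdM M A = rdM M B) :
    Cong M ((E.toG A hA)⁻¹ * E.toG B hB) := by
  have hu' : IsUnit (rdM M B) := hAB ▸ hu
  have h1 := E.toG_mem_intM hA hu
  have h2 := E.toG_mem_intM hB hu'
  rw [mem_intM] at h1 h2
  intro w hw
  refine ⟨mul_mem (inv_mem (h1 w hw)) (h2 w hw), ?_⟩
  have e : ((E.toG A hA)⁻¹ * E.toG B hB).1 - 1 =
      ((E.toG A hA)⁻¹).1 * ((E.toG B hB).1 - (E.toG A hA).1) := by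
    rw [mul_sub, Units.val_mul, ← Units.val_mul _ (E.toG A hA), inv_mul_cancel, Units.val_one]
  rw [e]
  refine (nm_mul_le w _ _).trans ?_
  have h3 : Fermat.LT.nm w ((E.toG A hA)⁻¹).1 ≤ 1 := (h1 w hw).2
  have h4 : Fermat.LT.nm w ((E.toG B hB).1 - (E.toG A hA).1) ≤ av w (M : F) := by
    rw [nm_le_iff]
    intro i j
    rw [E.toG_val, E.toG_val, Matrix.sub_apply, Matrix.map_apply, Matrix.map_apply, ← map_sub]
    have h5 : QE.map (Int.castRingHom (ZMod M)) (B i j - A i j) = 0 := by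
      have := congrFun (congrFun hAB i) j
      unfold rdM at this
      rw [Matrix.map_apply, Matrix.map_apply] at this
      rw [map_sub, this, sub_self]
    obtain ⟨y, hy⟩ := (QE_map_eq_zero_iff M _).1 h5
    rw [hy, map_mul, map_natCast, map_mul]
    exact mul_le_of_le_one_right ((av w).nonneg _) (E.av_toF_le_one w y)
  calc _ ≤ 1 * av w (M : F) := mul_le_mul h3 h4 (Fermat.LT.nm_nonneg w _) zero_le_one
    _ = _ := one_mul _

theorem lft_mem_intM (s : GM M) : E.lft s ∈ intM F M :=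
  E.toG_mem_intM _ (isUnit_rdM_of_eq (rdM_lftM s))

theorem lft_cong {A : Matrix (Fin 2) (Fin 2) EO} (hA : A.det ≠ 0) {s : GM M}
    (h : rdM M A = s.1) : Cong M ((E.toG A hA)⁻¹ * E.lft s) :=
  E.cong_of_rdM hA (lftM_det s) (isUnit_rdM_of_eq h) (h.trans (rdM_lftM s).symm)

/-- units give elements of `outM` -/
theorem toG_mem_outM (γ : GL (Fin 2) EO) (h : γ.1.det ≠ 0) : E.toG γ.1 h ∈ outM F M := by
  rw [mem_outM]
  intro w _
  exact intGL_le_stdH w (E.toG_mem_intGL _ h (E.av_unit w γ.det.isUnit))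

end Eis3

/-- hypotheses on `Ξ` -/
structure XiSys {D : Datum F} (E : Eis3 D) (M : ℕ) (Ξ : H3 → G2 F → ℂ) : Prop where
  left : ∀ γ ∈ outM F M, ∀ (P : H3) (g : G2 F), Ξ (E.gC γ • P) (γ * g) = Ξ P g
  cong : ∀ (P : H3) (g : G2 F) (κ : G2 F), g ∈ intM F M → Cong M κ → Ξ P (g * κ) = Ξ P g
  scal : ∀ (P : H3) (g : G2 F) (c : Fˣ), Ξ P (g * sc c) = Ξ P g

/-- the Hecke relation at `π` for all complete residue systems -/
def XiHecke {D : Datum F} (E : Eis3 D) (Ξ : H3 → G2 F → ℂ) {π : EO} (hπ : Prime π) (μ : ℂ) :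
    Prop :=
  ∀ R : Finset EO, Eis3.IsRes π R → ∀ (P : H3) (g : G2 F),
    ∑ b ∈ R, Ξ (matC (rM π b) (det_rM_ne hπ.ne_zero b) • P)
        (E.toG (rM π b) (det_rM_ne hπ.ne_zero b) * g) +
      Ξ (matC (rI π) (det_rI_ne hπ.ne_zero) • P) (E.toG (rI π) (det_rI_ne hπ.ne_zero) * g) =
    μ * Ξ P g

namespace XiSys

variable {D : Datum F} {E : Eis3 D} {M : ℕ} {Ξ : H3 → G2 F → ℂ} (h : XiSys E M Ξ)

/-- the classical function -/
def Phi (_ : XiSys E M Ξ) (P : H3) (s : GM M) : ℂ := Ξ P (E.lft s)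

include h

theorem eq_Phi {A : Matrix (Fin 2) (Fin 2) EO} (hA : A.det ≠ 0) {s : GM M} (hs : rdM M A = s.1)
    (P : H3) : Ξ P (E.toG A hA) = h.Phi P s := by
  have h1 := h.cong P (E.toG A hA) _ (E.toG_mem_intM hA (Eis3.isUnit_rdM_of_eq hs))
    (E.lft_cong hA hs)
  rw [mul_inv_cancel_left] at h1
  exact h1.symm

/-- the value at a product -/
theorem mul_lft {A : Matrix (Fin 2) (Fin 2) EO} (hA : A.det ≠ 0) {r : GM M} (hr : rdM M A = r.1)
    (P : H3) (s : GM M) : Ξ P (E.toG A hA * E.lft s) = h.Phi P (r * s) := by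
  have hAB : (A * lftM s).det ≠ 0 := by
    rw [Matrix.det_mul]; exact mul_ne_zero hA (lftM_det s)
  have h1 : rdM M (A * lftM s) = (r * s).1 := by
    rw [rdM_mul, hr, rdM_lftM, Units.val_mul]
  rw [← h.eq_Phi hAB h1, Eis3.lft, ← E.toG_mul A (lftM s) hA (lftM_det s) hAB]

theorem Phi_one (P : H3) : h.Phi P 1 = Ξ P 1 := by
  have h1 : (1 : Matrix (Fin 2) (Fin 2) EO).det ≠ 0 := by simp
  rw [← h.eq_Phi h1 (by rw [rdM_one, Units.val_one])]
  congr 1
  apply Units.ext
  rw [E.toG_val, Units.val_one]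
  exact Matrix.map_one _ (map_zero _) (map_one _)

/-- (i) -/
theorem Phi_inv (γ : GL (Fin 2) EO) (P : H3) (s : GM M) :
    h.Phi (γ • P) (redG M γ * s) = h.Phi P s := by
  have hd : γ.1.det ≠ 0 := γ.det.isUnit.ne_zero
  rw [← h.mul_lft hd (r := redG M γ) (by rw [redG_val]; rfl)]
  have h1 := h.left _ (E.toG_mem_outM (M := M) γ hd) P (E.lft s)
  have h2 : E.gC (E.toG γ.1 hd) • P = γ • P := by
    rw [E.gC_toG]
    have : matC γ.1 hd = glC γ := by
      apply Units.ext
      rw [matC_val, glC_val]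
    rw [this]
    rfl
  rw [h2] at h1
  exact h1

/-- (ii) -/
theorem Phi_cent (u : (QE (ZMod M))ˣ) (P : H3) (s : GM M) :
    h.Phi P (s * Matrix.GeneralLinearGroup.scalar (Fin 2) u) = h.Phi P s := by
  obtain ⟨x, hx⟩ := QE_map_surjective M (u : QE (ZMod M))
  by_cases hx0 : x = 0
  · have h1 : (u : QE (ZMod M)) = 0 := by rw [← hx, hx0, map_zero]
    have h2 : IsUnit (0 : QE (ZMod M)) := h1 ▸ u.isUnit
    have h3 : Subsingleton (QE (ZMod M)) := subsingleton_of_zero_eq_one (isUnit_zero_iff.1 h2)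
    congr 1
    apply Units.ext
    exact Subsingleton.elim _ _
  · have hA : (Matrix.scalar (Fin 2) x).det ≠ 0 := by
      rw [Matrix.det_fin_two]
      simp [hx0]
    have hc : E.toF x ≠ 0 := (map_ne_zero_iff E.toF E.toF_injective).2 hx0
    have hAB : (lftM s * Matrix.scalar (Fin 2) x).det ≠ 0 := by
      rw [Matrix.det_mul]; exact mul_ne_zero (lftM_det s) hA
    have hr : rdM M (lftM s * Matrix.scalar (Fin 2) x) =
        (s * Matrix.GeneralLinearGroup.scalar (Fin 2) u).1 := by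
      rw [rdM_mul, rdM_lftM, Units.val_mul]
      congr 1
      refine Matrix.ext fun i j => ?_
      have e : (Matrix.GeneralLinearGroup.scalar (Fin 2) u).1 =
        Matrix.scalar (Fin 2) (u : QE (ZMod M)) := rfl
      rw [e, rdM, Matrix.map_apply, Matrix.scalar_apply, Matrix.scalar_apply]
      by_cases hij : i = j
      · subst hij
        rw [Matrix.diagonal_apply_eq, Matrix.diagonal_apply_eq, hx]
      · rw [Matrix.diagonal_apply_ne _ hij, Matrix.diagonal_apply_ne _ hij, map_zero]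
    rw [← h.eq_Phi hAB hr, E.toG_mul _ _ (lftM_det s) hA]
    have e : E.toG (Matrix.scalar (Fin 2) x) hA = sc (Units.mk0 _ hc) := by
      apply Units.ext
      rw [E.toG_val, sc_val, Units.val_mk0]
      refine Matrix.ext fun i j => ?_
      rw [Matrix.map_apply, Matrix.scalar_apply, Matrix.smul_apply, smul_eq_mul]
      by_cases hij : i = j
      · subst hij
        rw [Matrix.diagonal_apply_eq, Matrix.one_apply_eq, mul_one]
      · rw [Matrix.diagonal_apply_ne _ hij, Matrix.one_apply_ne hij, mul_zero, map_zero]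
    rw [e, h.scal]
    rfl

/-- the Hecke relation for `Phi`, all residue systems -/
theorem Phi_hecke {π : EO} (hπ : Prime π) {μ : ℂ} (hH : XiHecke E Ξ hπ μ) {R : Finset EO}
    (hR : Eis3.IsRes π R) {tb : EO → GM M} (htb : ∀ b ∈ R, (tb b).1 = rdM M (rM π b)) {tI : GM M}
    (htI : tI.1 = rdM M (rI π)) (P : H3) (s : GM M) :
    ∑ b ∈ R, h.Phi (matC (rM π b) (det_rM_ne hπ.ne_zero b) • P) (tb b * s) +
      h.Phi (matC (rI π) (det_rI_ne hπ.ne_zero) • P) (tI * s) = μ * h.Phi P s := by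
  rw [← h.mul_lft (det_rI_ne hπ.ne_zero) htI.symm]
  rw [Finset.sum_congr rfl fun b hb =>
    (h.mul_lft (det_rM_ne hπ.ne_zero b) (htb b hb).symm
      (matC (rM π b) (det_rM_ne hπ.ne_zero b) • P) s).symm]
  exact hH R hR P (E.lft s)

/-- `HeckeAt` for the classical function -/
theorem heckeAt [NeZero M] {p : ℕ} [hp : Fact p.Prime] (D' : HK.SplitPrime p) (hπ : Prime D'.pi)
    (hpM : IsCoprime (p : ℤ) (M : ℤ)) {l : ℝ} (hH : XiHecke E Ξ hπ (Real.sqrt p * l))
    (P : PhiSys M) (hP : ∀ w s, P.Φ w s = h.Phi w s) : P.HeckeAt p l := by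
  classical
  refine ⟨hp, D', hpM, fun w s => ?_⟩
  have hinj : Function.Injective (fun b : ZMod p => ((b.val : ℕ) : EO)) := by
    intro b b' hb
    have := congrArg D'.red hb
    simp only [D'.red_natCast_val] at this
    exact this
  set R : Finset EO := Finset.univ.image (fun b : ZMod p => ((b.val : ℕ) : EO)) with hR
  have hres : Eis3.IsRes D'.pi R := by
    intro x
    refine ⟨((D'.red x).val : EO), ⟨Finset.mem_image_of_mem _ (Finset.mem_univ _), ?_⟩, ?_⟩
    · obtain ⟨y, hy⟩ := D'.pi_dvd (x := x - ((D'.red x).val : EO)) (by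
        rw [map_sub, D'.red_natCast_val, sub_self])
      exact ⟨y, hy⟩
    · rintro b ⟨hb, y, hy⟩
      obtain ⟨b', _, rfl⟩ := Finset.mem_image.1 hb
      have := congrArg D'.red hy
      rw [map_sub, map_mul, D'.red_pi, zero_mul, D'.red_natCast_val, sub_eq_zero] at this
      simp only [this]
  have key := h.Phi_hecke hπ hH hres
    (tb := fun b => if hb : ∃ b' : ZMod p, ((b'.val : ℕ) : EO) = b then
      D'.rG hpM (some hb.choose) else 1)
    (tI := D'.rG hpM none) (fun b hb => by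
      obtain ⟨b', _, rfl⟩ := Finset.mem_image.1 hb
      have hex : ∃ b'' : ZMod p, ((b''.val : ℕ) : EO) = ((b'.val : ℕ) : EO) := ⟨b', rfl⟩
      have hch : hex.choose = b' := hinj hex.choose_spec
      rw [dif_pos hex, hch]
      rfl) rfl w s
  rw [hR, Finset.sum_image fun b _ b' _ hb => hinj hb] at key
  rw [Fintype.sum_option, hP w s, ← key, add_comm]
  congr 1
  · refine Finset.sum_congr rfl fun b _ => ?_
    have hex : ∃ b'' : ZMod p, ((b''.val : ℕ) : EO) = ((b.val : ℕ) : EO) := ⟨b, rfl⟩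
    have hch : hex.choose = b := hinj hex.choose_spec
    rw [hP, dif_pos hex, hch]
    rfl
  · rw [hP]
    rfl

end XiSys

/-- Hecke relation for finite combinations of translates of `Psi`. -/
theorem xiHecke_comb {D : Datum F} (E : Eis3 D) {M : ℕ} [NeZero M] (hU : LevM D.toLevel M)
    {π : EO} (hπ : Prime π) (hw : E.plc π hπ ∉ pm M) {φ : X D → ℂ}
    (hinv : ∀ (γ : G2 F) (x : X D), φ (γ • x) = φ x) {μ : ℂ}
    (hT : ∀ x, TX (E.plc π hπ) φ x = μ * φ x) {ι : Type*} (I : Finset ι) (c : ι → ℂ)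
    (k : ι → G2 F) :
    XiHecke E (fun P g => ∑ i ∈ I, c i * Psi M φ P (g * k i)) hπ μ := by
  intro R hR P g
  simp only
  rw [Finset.sum_comm, ← Finset.sum_add_distrib, Finset.mul_sum]
  refine Finset.sum_congr rfl fun i _ => ?_
  have h1 := E.hecke_Psi hπ hU hw hinv hT hR P (g * k i)
  simp only [mul_assoc] at h1 ⊢
  rw [← Finset.mul_sum, ← mul_add, h1]
  ring

end Fermat.Agent.LT.J
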