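import Fermat.Agent.LT.J.EisField

/-!
# J9, (P6): the Hecke relations of the classical functions
-/

set_option autoImplicit false

open NumberField IsDedekindDomain Matrix
open Fermat.LT

noncomputable section

namespace Fermat.Agent.LT.J

variable {F : Type} [Field F] [NumberField F]

open CTree Fermat.Agent.LT.B

/-- `(1 b; 0 π)` -/
def rM (π b : EO) : Matrix (Fin 2) (Fin 2) EO := !![1, b; 0, π]

/-- `(π 0; 0 1)` -/
def rI (π : EO) : Matrix (Fin 2) (Fin 2) EO := !![π, 0; 0, 1]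

theorem det_rM (π b : EO) : (rM π b).det = π := by simp [rM]

theorem det_rI (π : EO) : (rI π).det = π := by simp [rI]

theorem det_rM_ne {π : EO} (h : π ≠ 0) (b : EO) : (rM π b).det ≠ 0 := by rwa [det_rM]

theorem det_rI_ne {π : EO} (h : π ≠ 0) : (rI π).det ≠ 0 := by rwa [det_rI]

theorem tri_mem_stdH {w : Pl F} {a : Fˣ} {b : F} (ha : av w (a : F) = 1) (hb : av w b ≤ 1) :
    tri a b ∈ stdH w := by
  rw [← dn_eq_zero_iff, dn_eq_iff, pow_zero, dd_tri, ha, max_eq_left hb]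
  norm_num

namespace Eis3

variable {D : Datum F} (E : Eis3 D)

section local_

variable {π : EO} (hπ : Prime π)

theorem av_toF_pi : av (E.plc π hπ) (E.toF π) = (qv (E.plc π hπ))⁻¹ := E.av_plc_self π hπ

/-- the class of `(1 b; 0 π)⁻¹` -/
theorem mul_nu_some (b : EO) {c : 𝓞 F ⧸ (E.plc π hπ).asIdeal}
    (hc : c = Ideal.Quotient.mk _ (-(E.eO b))) :
    E.toG (rM π b) (det_rM_ne hπ.ne_zero b) * nu (E.plc π hπ) (some c) ∈ stdH (E.plc π hπ) := by
  have hπ0 : E.toF π ≠ 0 := (map_ne_zero_iff E.toF E.toF_injective).2 hπ.ne_zero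
  set u : Fˣ := Units.mk0 (E.toF π) hπ0 with hu
  have hq := qv_pos (E.plc π hπ)
  have e : E.toG (rM π b) (det_rM_ne hπ.ne_zero b) * nu (E.plc π hπ) (some c) =
      sc u * tri (unif (E.plc π hπ) * u⁻¹) ((rep (E.plc π hπ) c + E.toF b) / E.toF π) := by
    apply Units.ext
    rw [sc_mul_val, Units.val_mul, E.toG_val, nu, tri_val, tri_val]
    refine Matrix.ext fun i j => ?_
    fin_cases i <;> fin_cases j
    · simp [rM, Matrix.mul_apply, Fin.sum_univ_two, hu]
      field_simp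
    · simp [rM, Matrix.mul_apply, Fin.sum_univ_two, hu]
      field_simp
    · simp [rM, Matrix.mul_apply, Fin.sum_univ_two]
    · simp [rM, Matrix.mul_apply, Fin.sum_univ_two, hu]
  rw [e]
  refine mul_mem (scal_le_stdH _ (sc_mem u)) (tri_mem_stdH ?_ ?_)
  · rw [Units.val_mul, map_mul, av_unif, Units.val_inv_eq_inv_val, map_inv₀, hu, Units.val_mk0,
      E.av_toF_pi hπ, inv_inv, inv_mul_cancel₀ hq.ne']
  · rw [map_div₀, E.av_toF_pi hπ, div_le_iff₀ (inv_pos.2 hq), one_mul, ← av_lt_one_iff_le]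
    rw [rep, ← E.coe_eO, ← map_add, av_algebraMap_lt_one_iff, ← sub_neg_eq_add,
      ← Ideal.Quotient.eq]
    rw [← hc]
    exact Quotient.out_eq' c

theorem mul_nu_none :
    E.toG (rI π) (det_rI_ne hπ.ne_zero) * nu (E.plc π hπ) none ∈ stdH (E.plc π hπ) := by
  set w := E.plc π hπ with hw
  have hπ0 : E.toF π ≠ 0 := (map_ne_zero_iff E.toF E.toF_injective).2 hπ.ne_zero
  set u : Fˣ := Units.mk0 (E.toF π) hπ0 with hu
  have hq := qv_pos w
  have e : E.toG (rI π) (det_rI_ne hπ.ne_zero) * nu w none = tri (u * (unif w)⁻¹) 0 := by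
    apply Units.ext
    rw [Units.val_mul, E.toG_val, nu, tri_val, tri_val]
    refine Matrix.ext fun i j => ?_
    fin_cases i <;> fin_cases j <;> simp [rI, Matrix.mul_apply, Fin.sum_univ_two, hu]
  rw [e]
  refine tri_mem_stdH ?_ (by simp)
  rw [Units.val_mul, map_mul, av_unif_inv, hu, Units.val_mk0, E.av_toF_pi hπ,
    inv_mul_cancel₀ hq.ne']

end local_

/-- an integral matrix is in `GL₂(O_v)` at the places not dividing its determinant -/
theorem toG_mem_intGL (A : Matrix (Fin 2) (Fin 2) EO) (hA : A.det ≠ 0) {v : Pl F}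
    (hv : av v (E.toF A.det) = 1) : E.toG A hA ∈ intGL v := by
  have h1 : Fermat.LT.nm v (E.toG A hA).1 ≤ 1 := by
    rw [nm_le_iff]
    intro i j
    rw [E.toG_val, Matrix.map_apply]
    exact E.av_toF_le_one v _
  refine ⟨h1, ?_⟩
  have h2 : (E.toG A hA).1.det = E.toF A.det := by
    rw [E.toG_val]; exact (RingHom.map_det E.toF A).symm
  rw [nm_inv, h2, hv, inv_one, one_mul]
  exact h1

theorem gC_smul_const (γ : G2 F) (P : H3) {x : XI D.toArch} (hx : x = fun _ => P) :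
    γ • x = fun _ => E.gC γ • P := by
  subst hx
  funext i
  rw [XI_smul_apply, E.uniq i]
  rfl

section move

variable {M : ℕ} [NeZero M] {π : EO} (hπ : Prime π)

/-- the key step: moving the component at `w` back to the base point -/
theorem move (hU : LevM D.toLevel M) (hw : E.plc π hπ ∉ pm M) {φ : X D → ℂ}
    (hinv : ∀ (γ : G2 F) (x : X D), φ (γ • x) = φ x)
    (A : Matrix (Fin 2) (Fin 2) EO) (hA : A.det ≠ 0) (hdet : A.det = π) (P : H3) (g : G2 F)
    {z : Yl D.toLevel (E.plc π hπ)} (hz : z = (((E.toG A hA)⁻¹ : G2 F) : Yl D.toLevel (E.plc π hπ))) :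
    φ (fun _ => P, upd (ins M g) (E.plc π hπ) z) =
      Psi M φ (E.gC (E.toG A hA) • P) (E.toG A hA * g) := by
  classical
  set γ := E.toG A hA with hγ
  rw [← hinv γ, Psi]
  congr 1
  refine Prod.ext (E.gC_smul_const γ P rfl) ?_
  change γ • upd (ins M g) (E.plc π hπ) z = ins M (γ * g)
  refine Y.ext' fun v => ?_
  rw [G2_smul_apply]
  by_cases hvw : v = E.plc π hπ
  · subst hvw
    have h1 : (upd (ins M g : Y D.toLevel) (E.plc π hπ) z) (E.plc π hπ) = z := by
      change Function.update (ins M g : Y D.toLevel).val (E.plc π hπ) z (E.plc π hπ) = z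
      rw [Function.update_self]
    rw [h1, ins_of_notMem _ hw, hz]
    change ((γ * γ⁻¹ : G2 F) : Yl D.toLevel (E.plc π hπ)) = _
    rw [mul_inv_cancel]
  · have h1 : (upd (ins M g : Y D.toLevel) (E.plc π hπ) z) v = (ins M g : Y D.toLevel) v := by
      change Function.update (ins M g : Y D.toLevel).val (E.plc π hπ) z v = _
      exact Function.update_of_ne hvw _ _
    rw [h1]
    by_cases hv : v ∈ pm M
    · rw [ins_of_mem _ hv, ins_of_mem _ hv]
      rfl
    · rw [ins_of_notMem _ hv, ins_of_notMem _ hv]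
      change ((γ * 1 : G2 F) : Yl D.toLevel v) = _
      rw [QuotientGroup.eq, mul_one, mul_one, D.toLevel.H_eq (hU.good v (not_mem_pm.mp hv))]
      refine inv_mem (intGL_le_stdH v (E.toG_mem_intGL A hA ?_))
      rw [hdet]
      exact E.av_toF_eq_one π hπ hvw

/-- a complete residue system modulo `π` -/
def IsRes (π : EO) (R : Finset EO) : Prop := ∀ x : EO, ∃! b, b ∈ R ∧ π ∣ x - b

/-- **(P6)** The Hecke relation of `Psi`. -/
theorem hecke_Psi (hU : LevM D.toLevel M) (hw : E.plc π hπ ∉ pm M) {φ : X D → ℂ}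
    (hinv : ∀ (γ : G2 F) (x : X D), φ (γ • x) = φ x) {μ : ℂ}
    (hT : ∀ x, TX (E.plc π hπ) φ x = μ * φ x) {R : Finset EO} (hR : IsRes π R)
    (P : H3) (g : G2 F) :
    ∑ b ∈ R, Psi M φ (matC (rM π b) (det_rM_ne hπ.ne_zero b) • P)
        (E.toG (rM π b) (det_rM_ne hπ.ne_zero b) * g) +
      Psi M φ (matC (rI π) (det_rI_ne hπ.ne_zero) • P) (E.toG (rI π) (det_rI_ne hπ.ne_zero) * g) =
    μ * Psi M φ P g := by
  classical
  set w := E.plc π hπ with hwd
  have hn : D.toLevel.n w = 0 := hU.good w (not_mem_pm.mp hw)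
  have h1 := hT (fun _ => P, ins M g)
  have hTX : TX w φ (fun _ => P, ins M g) =
      ∑ o, φ (fun _ => P, upd (ins M g) w (nb w 1 o)) := by
    unfold TX TY
    simp only
    rw [ins_of_notMem _ hw]
    exact Tl_one hn (fun z => φ (fun _ => P, upd (ins M g) w z)) 1
  rw [hTX, Fintype.sum_option] at h1
  have hnb : ∀ o, nb (U := D.toLevel) w 1 o = ((nu w o : G2 F) : Yl D.toLevel w) := by
    intro o; rw [nb, one_mul]
  have hcl : ∀ {A : G2 F} {o}, A * nu w o ∈ stdH w →
      nb (U := D.toLevel) w 1 o = ((A⁻¹ : G2 F) : Yl D.toLevel w) := by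
    intro A o hA
    rw [hnb, QuotientGroup.eq, D.toLevel.H_eq hn]
    have : (nu w o)⁻¹ * A⁻¹ = (A * nu w o)⁻¹ := by group
    rw [this]
    exact inv_mem hA
  have e0 : φ (fun _ => P, upd (ins M g) w (nb w 1 none)) =
      Psi M φ (matC (rI π) (det_rI_ne hπ.ne_zero) • P)
        (E.toG (rI π) (det_rI_ne hπ.ne_zero) * g) := by
    rw [E.move hπ hU hw hinv (rI π) (det_rI_ne hπ.ne_zero) (det_rI π) P g
      (hcl (E.mul_nu_none hπ)), E.gC_toG]
  have e1 : ∀ (b : EO), φ (fun _ => P, upd (ins M g) w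
      (nb w 1 (some (Ideal.Quotient.mk _ (-(E.eO b)))))) =
      Psi M φ (matC (rM π b) (det_rM_ne hπ.ne_zero b) • P)
        (E.toG (rM π b) (det_rM_ne hπ.ne_zero b) * g) := by
    intro b
    rw [E.move hπ hU hw hinv (rM π b) (det_rM_ne hπ.ne_zero b) (det_rM π b) P g
      (hcl (E.mul_nu_some hπ b rfl)), E.gC_toG]
  rw [e0] at h1
  have e2 : ∑ c : 𝓞 F ⧸ w.asIdeal, φ (fun _ => P, upd (ins M g) w (nb w 1 (some c))) =
      ∑ b ∈ R, Psi M φ (matC (rM π b) (det_rM_ne hπ.ne_zero b) • P)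
        (E.toG (rM π b) (det_rM_ne hπ.ne_zero b) * g) := by
    symm
    refine Finset.sum_bij (fun b _ => Ideal.Quotient.mk w.asIdeal (-(E.eO b)))
      (fun b _ => Finset.mem_univ _) ?_ ?_ (fun b _ => (e1 b).symm)
    · intro b hb b' hb' h
      rw [Ideal.Quotient.eq, E.plc_asIdeal, Ideal.mem_span_singleton, neg_sub_neg, ← map_sub,
        map_dvd_iff] at h
      obtain ⟨c, _, hc⟩ := hR b'
      rw [hc b ⟨hb, h⟩, hc b' ⟨hb', by rw [sub_self]; exact dvd_zero _⟩]
    · intro c _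
      obtain ⟨x, rfl⟩ := Ideal.Quotient.mk_surjective c
      obtain ⟨y, hy⟩ := E.eO.surjective (-x)
      obtain ⟨b, ⟨hb, hd⟩, _⟩ := hR y
      refine ⟨b, hb, ?_⟩
      rw [Ideal.Quotient.eq, E.plc_asIdeal, Ideal.mem_span_singleton]
      have : -(E.eO b) - x = E.eO (y - b) := by rw [map_sub, hy]; ring
      rw [this, map_dvd_iff]
      exact hd
  rw [e2] at h1
  have h2 : Psi M φ P g = φ (fun _ => P, ins M g) := rfl
  rw [h2, ← h1]
  ring

end move

end Eis3

end Fermat.Agent.LT.J
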