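import Mathlib
import Fermat.Agent.LT.B.Cusp
import Fermat.Agent.LT.J.PhiSys
import Fermat.Agent.LT.B.BoxMean

/-!
# J9, the bridge from `φ : X D → ℂ` to classical functions: definitions

`F = ℚ(ω)`, `D : Datum F`.
* `Eis3 D` : the element `w3 : F` (a cube root of unity, mapped to `om` by the unique embedding).
* `pm M` : the places dividing `M`; `intM`, `outM`, `congM` : subgroups of `GL₂(F)`.
* `ins M g : Y U` : the component `g` at the places dividing `M`, and `1` at the other places.
* `Psi M φ P g = φ (P, ins M g)`.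
* `CC f β` : the `β`-th Fourier coefficient of a `ℤ[ω]`-periodic function.
-/

set_option autoImplicit false

open NumberField IsDedekindDomain Matrix MeasureTheory
open Fermat.LT

namespace Fermat.Agent.LT.J

variable {F : Type} [Field F] [NumberField F]

/-- The field `F = ℚ(ω)`, with its unique complex place. -/
structure Eis3 (D : Datum F) where
  /-- a primitive cube root of unity -/
  w3 : F
  sq : w3 * w3 = -1 - w3
  /-- the complex place -/
  i0 : D.I
  uniq : ∀ i : D.I, i = i0
  emb_w3 : D.emb i0 w3 = om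
  surj : ∀ x : 𝓞 F, ∃ a b : ℤ, algebraMap (𝓞 F) F x = a + b * w3

namespace Eis3

variable {D : Datum F} (E : Eis3 D)

/-- the embedding of `ℤ[ω]` -/
noncomputable def toF : EO →+* F where
  toFun x := x.re + x.im * E.w3
  map_one' := by simp
  map_zero' := by simp
  map_add' x y := by
    simp only [QuadraticAlgebra.re_add, QuadraticAlgebra.im_add]
    push_cast; ring
  map_mul' x y := by
    simp only [QE.mul_re, QE.mul_im]
    push_cast
    linear_combination (-(x.im : F) * y.im) * E.sq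

theorem toF_apply (x : EO) : E.toF x = x.re + x.im * E.w3 := rfl

theorem emb_toF (x : EO) : D.emb E.i0 (E.toF x) = toC x := by
  rw [toF_apply, map_add, map_mul, map_intCast, map_intCast, E.emb_w3, toC_apply]

theorem toF_injective : Function.Injective E.toF := by
  intro x y h
  apply toC_injective
  rw [← E.emb_toF, ← E.emb_toF, h]

theorem isIntegral_w3 : IsIntegral ℤ E.w3 := by
  refine ⟨Polynomial.X ^ 2 + Polynomial.X + 1, by monicity!, ?_⟩
  simp only [Polynomial.eval₂_add, Polynomial.eval₂_pow, Polynomial.eval₂_X, Polynomial.eval₂_one]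
  linear_combination E.sq

/-- the cube root of unity as an integer -/
noncomputable def w3O : 𝓞 F := ⟨E.w3, E.isIntegral_w3⟩

theorem coe_w3O : algebraMap (𝓞 F) F E.w3O = E.w3 := rfl

/-- the embedding of `ℤ[ω]` in the ring of integers -/
noncomputable def toO : EO →+* 𝓞 F where
  toFun x := x.re + x.im * E.w3O
  map_one' := by simp
  map_zero' := by simp
  map_add' x y := by
    simp only [QuadraticAlgebra.re_add, QuadraticAlgebra.im_add]
    push_cast; ring
  map_mul' x y := by
    have h : E.w3O * E.w3O = -1 - E.w3O := by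
      apply FaithfulSMul.algebraMap_injective (𝓞 F) F
      rw [map_mul, map_sub, map_neg, map_one, E.coe_w3O]
      exact E.sq
    simp only [QE.mul_re, QE.mul_im]
    push_cast
    linear_combination (-(x.im : 𝓞 F) * y.im) * h

theorem coe_toO (x : EO) : algebraMap (𝓞 F) F (E.toO x) = E.toF x := by
  show algebraMap (𝓞 F) F (x.re + x.im * E.w3O) = _
  rw [map_add, map_mul, map_intCast, map_intCast, E.coe_w3O, toF_apply]

theorem toO_bijective : Function.Bijective E.toO := by
  constructor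
  · intro x y h
    apply E.toF_injective
    rw [← E.coe_toO, ← E.coe_toO, h]
  · intro x
    obtain ⟨a, b, h⟩ := E.surj x
    refine ⟨⟨a, b⟩, FaithfulSMul.algebraMap_injective (𝓞 F) F ?_⟩
    rw [E.coe_toO, E.toF_apply, h]

/-- `ℤ[ω] ≃ 𝓞 F` -/
noncomputable def eO : EO ≃+* 𝓞 F := RingEquiv.ofBijective E.toO E.toO_bijective

theorem coe_eO (x : EO) : algebraMap (𝓞 F) F (E.eO x) = E.toF x := E.coe_toO x

/-- the embedding on `GL₂` of an integral matrix with nonzero determinant -/
noncomputable def toG (A : Matrix (Fin 2) (Fin 2) EO) (hA : A.det ≠ 0) : G2 F :=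
  Matrix.GeneralLinearGroup.mkOfDetNeZero (A.map E.toF) (by
    have h : (A.map E.toF).det = E.toF A.det := (RingHom.map_det E.toF A).symm
    rw [h]
    exact (map_ne_zero_iff E.toF E.toF_injective).2 hA)

theorem toG_val (A : Matrix (Fin 2) (Fin 2) EO) (hA : A.det ≠ 0) :
    (E.toG A hA).1 = A.map E.toF := rfl

/-- The image of `g : GL₂(F)` in `GL₂(ℂ)`. -/
noncomputable def gC (g : G2 F) : GL (Fin 2) ℂ :=
  Matrix.GeneralLinearGroup.map (n := Fin 2) (D.emb E.i0) g

theorem gC_toG (A : Matrix (Fin 2) (Fin 2) EO) (hA : A.det ≠ 0) : E.gC (E.toG A hA) = matC A hA := by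
  apply Units.ext
  show (A.map E.toF).map (D.emb E.i0) = A.map toC
  ext i j
  simp [E.emb_toF]

end Eis3

/-- the places dividing `M` -/
def pm (M : ℕ) : Set (Pl F) := {w | av w (M : F) < 1}

theorem av_natCast_le_one (w : Pl F) (M : ℕ) : av w (M : F) ≤ 1 := by
  have := CTree.av_algebraMap_le_one w (M : 𝓞 F)
  simpa using this

theorem not_mem_pm {M : ℕ} {w : Pl F} : w ∉ pm (F := F) M ↔ av w (M : F) = 1 := by
  rw [pm, Set.mem_ofPred_eq, not_lt]
  exact ⟨fun h => le_antisymm (av_natCast_le_one w M) h, fun h => h.ge⟩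

theorem finite_pm (M : ℕ) [NeZero M] : (pm (F := F) M).Finite := by
  have h : (M : F) ≠ 0 := Nat.cast_ne_zero.mpr (NeZero.ne M)
  exact (av_finite h).subset fun w hw => ne_of_lt hw

/-- matrices which are invertible at all places dividing `M` -/
def intM (F : Type) [Field F] [NumberField F] (M : ℕ) : Subgroup (G2 F) := ⨅ w ∈ pm M, intGL w

/-- matrices which stabilise the base point at all places not dividing `M` -/
def outM (F : Type) [Field F] [NumberField F] (M : ℕ) : Subgroup (G2 F) :=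
  ⨅ w ∈ (pm M)ᶜ, stdH w

theorem mem_intM {M : ℕ} {g : G2 F} : g ∈ intM F M ↔ ∀ w ∈ pm (F := F) M, g ∈ intGL w := by
  simp [intM, Subgroup.mem_iInf]

theorem mem_outM {M : ℕ} {g : G2 F} : g ∈ outM F M ↔ ∀ w ∉ pm (F := F) M, g ∈ stdH w := by
  simp [outM, Subgroup.mem_iInf]

/-- the congruence condition at `w` -/
def CongAt (M : ℕ) (w : Pl F) (h : G2 F) : Prop := h ∈ intGL w ∧ nm w (h.1 - 1) ≤ av w (M : F)

/-- the congruence condition -/
def Cong (M : ℕ) (h : G2 F) : Prop := ∀ w ∈ pm (F := F) M, CongAt M w h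

theorem CongAt.conj {M : ℕ} {w : Pl F} {h g : G2 F} (hh : CongAt M w h) (hg : g ∈ intGL w) :
    CongAt M w (g⁻¹ * h * g) := by
  refine ⟨mul_mem (mul_mem (inv_mem hg) hh.1) hg, ?_⟩
  have e : (g⁻¹ * h * g).1 - 1 = (g⁻¹).1 * (h.1 - 1) * g.1 := by
    rw [mul_sub, sub_mul, mul_one, Units.val_mul, Units.val_mul]
    congr 1
    rw [← Units.val_mul, inv_mul_cancel, Units.val_one]
  rw [e]
  refine (nm_mul_le w _ _).trans ?_
  calc nm w ((g⁻¹).1 * (h.1 - 1)) * nm w g.1 ≤ nm w ((g⁻¹).1 * (h.1 - 1)) * 1 :=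
        mul_le_mul_of_nonneg_left hg.1 (Fermat.LT.nm_nonneg w _)
    _ ≤ nm w (g⁻¹).1 * nm w (h.1 - 1) := by rw [mul_one]; exact nm_mul_le w _ _
    _ ≤ 1 * nm w (h.1 - 1) := mul_le_mul_of_nonneg_right hg.2 (Fermat.LT.nm_nonneg w _)
    _ ≤ av w (M : F) := by rw [one_mul]; exact hh.2

/-- `Cong` is stable under conjugation by `intM`. -/
theorem Cong.conj {M : ℕ} {h g : G2 F} (hh : Cong M h) (hg : g ∈ intM F M) :
    Cong M (g⁻¹ * h * g) := fun w hw => (hh w hw).conj (mem_intM.mp hg w hw)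

/-- The level divides `M` (`LevelDvd` of `Top/Iface`). -/
structure LevM (U : Level F) (M : ℕ) : Prop where
  good : ∀ w : Pl F, av w (M : F) = 1 → U.n w = 0
  le : ∀ (w : Pl F) (g : G2 F), g ∈ intGL w → nm w (g.1 - 1) ≤ av w (M : F) → g ∈ U.H w

open Classical in
/-- The point with component `g` at the places dividing `M`. -/
noncomputable def ins {U : Level F} (M : ℕ) [NeZero M] (g : G2 F) : Y U where
  val w := if w ∈ pm M then ((g : G2 F) : Yl U w) else ((1 : G2 F) : Yl U w)
  fin := (finite_pm M).subset fun w hw => by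
    by_contra h
    exact hw (if_neg h)

section ins

variable {U : Level F} {M : ℕ} [NeZero M]

theorem ins_of_mem (g : G2 F) {w : Pl F} (hw : w ∈ pm M) :
    (ins M g : Y U) w = ((g : G2 F) : Yl U w) := if_pos hw

theorem ins_of_notMem (g : G2 F) {w : Pl F} (hw : w ∉ pm M) :
    (ins M g : Y U) w = ((1 : G2 F) : Yl U w) := if_neg hw

theorem ins_mul_of_mem (g : G2 F) {h : G2 F} (hh : ∀ w ∈ pm M, h ∈ U.H w) :
    (ins M (g * h) : Y U) = ins M g := by
  refine Y.ext' fun w => ?_
  by_cases hw : w ∈ pm M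
  · rw [ins_of_mem _ hw, ins_of_mem _ hw, QuotientGroup.eq]
    have : (g * h)⁻¹ * g = h⁻¹ := by group
    rw [this]
    exact inv_mem (hh w hw)
  · rw [ins_of_notMem _ hw, ins_of_notMem _ hw]

theorem ins_mul_cong (hU : LevM U M) (g : G2 F) {h : G2 F} (hh : Cong M h) :
    (ins M (g * h) : Y U) = ins M g :=
  ins_mul_of_mem g fun w hw => hU.le w h (hh w hw).1 (hh w hw).2

theorem ins_mul_sc (g : G2 F) (c : Fˣ) : (ins M (g * sc c) : Y U) = ins M g :=
  ins_mul_of_mem g fun w _ => U.scal_le w (sc_mem c)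

theorem smul_ins (hU : LevM U M) {γ : G2 F} (hγ : γ ∈ outM F M) (g : G2 F) :
    γ • (ins M g : Y U) = ins M (γ * g) := by
  refine Y.ext' fun w => ?_
  rw [G2_smul_apply]
  by_cases hw : w ∈ pm M
  · rw [ins_of_mem _ hw, ins_of_mem _ hw]
    rfl
  · rw [ins_of_notMem _ hw, ins_of_notMem _ hw]
    change ((γ * 1 : G2 F) : Yl U w) = _
    rw [QuotientGroup.eq, mul_one, mul_one, U.H_eq (hU.good w (not_mem_pm.mp hw))]
    exact inv_mem (mem_outM.mp hγ w hw)

end ins

/-- The function `(P, g) ↦ φ (P, ins M g)`. -/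
noncomputable def Psi {D : Datum F} (M : ℕ) [NeZero M] (φ : X D → ℂ) (P : H3) (g : G2 F) : ℂ :=
  φ (fun _ => P, ins M g)

/-- `exp (-2πi Tr (β z / √-3))` -/
noncomputable def chF (β : EO) (z : ℂ) : ℂ :=
  Complex.exp (-(2 * Real.pi * Complex.I * (2 * (toC β * z / (Real.sqrt 3 * Complex.I)).re : ℝ)))

/-- The `β`-th Fourier coefficient of a `ℤ[ω]`-periodic function. -/
noncomputable def CC (f : ℂ → ℂ) (β : EO) : ℂ :=
  B.boxMean ![(1 : ℂ), om] (fun z => f z * chF β z) 0

/-- the point `(z, t)` of `H3` for `t > 0` (and `(z, 1)` otherwise) -/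
noncomputable def hp (z : ℂ) (t : ℝ) : H3 := by
  classical exact if h : 0 < t then H3.mk z t h else H3.mk z 1 one_pos

theorem hp_of_pos (z : ℂ) {t : ℝ} (h : 0 < t) : hp z t = H3.mk z t h := dif_pos h

end Fermat.Agent.LT.J
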