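import Mathlib
import Fermat.Agent.LT.J.BridgeDefs
import Fermat.Agent.LT.A.Height
import Fermat.Agent.LT.H.Coef

/-!
# J9, the bridge: basic properties of `Psi M φ P g = φ (P, ins M g)`

* (P1) `Eis3.Psi_smul`, (P2) `Psi_mul_cong`, `Psi_mul_sc`, (P3) `continuous_Psi`, `Psi_bdd`,
  `Eis3.Psi_decay`, (P5) `Eis3.kopH_Psi`.
-/

set_option autoImplicit false

open NumberField IsDedekindDomain Matrix MeasureTheory
open Fermat.LT

namespace Fermat.Agent.LT.J

variable {F : Type} [Field F] [NumberField F] {D : Datum F} {M : ℕ} [NeZero M] {φ : X D → ℂ}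

/-- the constant point -/
def cst (D : Datum F) (P : H3) : XI D.toArch := fun _ => P

theorem Psi_eq (P : H3) (g : G2 F) : Psi M φ P g = φ (cst D P, ins M g) := rfl

theorem continuous_cst (y : Y D.toLevel) : Continuous fun P : H3 => ((cst D P, y) : X D) :=
  Continuous.prodMk (continuous_pi fun _ => continuous_id) continuous_const

theorem continuous_Psi (hφ : Continuous φ) (g : G2 F) : Continuous fun P => Psi M φ P g :=
  hφ.comp (continuous_cst _)

theorem Psi_mul_cong (hU : LevM D.toLevel M) (P : H3) (g : G2 F) {h : G2 F} (hh : Cong M h) :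
    Psi M φ P (g * h) = Psi M φ P g := by
  rw [Psi, ins_mul_cong hU g hh, Psi]

theorem Psi_mul_sc (P : H3) (g : G2 F) (c : Fˣ) : Psi M φ P (g * sc c) = Psi M φ P g := by
  rw [Psi, ins_mul_sc, Psi]

theorem Psi_bdd (h : B.IsCusp φ) : ∃ C : ℝ, ∀ P g, ‖Psi M φ P g‖ ≤ C := by
  obtain ⟨C, hC⟩ := h.bounded
  exact ⟨C, fun P g => hC _⟩

namespace Eis3

variable (E : Eis3 D)

include E in
theorem subsingleton_I : Subsingleton D.I := ⟨fun i j => by rw [E.uniq i, E.uniq j]⟩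

theorem gC_smul_cst (γ : G2 F) (P : H3) : γ • cst D P = cst D (E.gC γ • P) := by
  funext i
  rw [XI_smul_apply, E.uniq i]
  rfl

/-- (P1) -/
theorem Psi_smul (hinv : ∀ (γ : PG F) x, φ (γ • x) = φ x) (hU : LevM D.toLevel M) {γ : G2 F}
    (hγ : γ ∈ outM F M) (P : H3) (g : G2 F) :
    Psi M φ (E.gC γ • P) (γ * g) = Psi M φ P g := by
  rw [Psi_eq, Psi_eq, ← smul_ins hU hγ, ← E.gC_smul_cst, ← hinv (pmk γ) (cst D P, ins M g)]
  rfl

include E in
theorem card_I : Fintype.card D.I = 1 := by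
  have := E.subsingleton_I
  exact Fintype.card_eq_one_iff.2 ⟨E.i0, E.uniq⟩

include E in
theorem ht_cst (P : H3) (y : Y D.toLevel) :
    ht e1 ((cst D P, y) : X D) = P.t ^ 2 * hfin e1 y := by
  have h : H3.Q P 1 0 = P.t⁻¹ := by
    unfold H3.Q
    simp
  unfold ht hinf
  congr 1
  rw [Finset.prod_congr rfl (g := fun _ => P.t ^ 2)]
  · rw [Finset.prod_const, Finset.card_univ, E.card_I, pow_one]
  · intro i _
    show ((H3.Q P (D.emb i 1) (D.emb i 0)) ^ 2)⁻¹ = P.t ^ 2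
    rw [map_one, map_zero, h, inv_pow, inv_inv]

include E in
/-- (P3) rapid decay -/
theorem Psi_decay (h : B.IsCusp φ) (g : G2 F) (N : ℕ) :
    ∃ C : ℝ, ∀ P : H3, P.t ^ N * ‖Psi M φ P g‖ ≤ C := by
  obtain ⟨C0, hC0⟩ := Psi_bdd (M := M) h
  obtain ⟨C, hC⟩ := h.decay N
  have he : (e1 : Fin 2 → F) ≠ 0 := fun h0 => by
    have := congrFun h0 0
    simp [e1] at this
  have hpos : 0 < hfin e1 (ins M g : Y D.toLevel) := hfin_pos he _
  refine ⟨C0 + C * (hfin e1 (ins M g : Y D.toLevel) ^ N)⁻¹, fun P => ?_⟩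
  have h1 := hC (cst D P, ins M g) e1 he
  rw [E.ht_cst, mul_pow] at h1
  have h2 : ‖Psi M φ P g‖ * (P.t ^ 2) ^ N ≤ C * (hfin e1 (ins M g : Y D.toLevel) ^ N)⁻¹ := by
    rw [← div_eq_mul_inv, le_div_iff₀ (by positivity)]
    calc _ = ‖φ (cst D P, ins M g)‖ * ((P.t ^ 2) ^ N * hfin e1 (ins M g : Y D.toLevel) ^ N) := by
          rw [Psi_eq]; ring
      _ ≤ C := h1
  have h3 : P.t ^ N ≤ 1 + (P.t ^ 2) ^ N := by
    rcases le_total P.t 1 with ht | ht
    · have : P.t ^ N ≤ 1 := pow_le_one₀ P.t_pos.le ht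
      have h0 : 0 ≤ (P.t ^ 2) ^ N := by positivity
      linarith
    · have : P.t ^ N ≤ (P.t ^ 2) ^ N := by
        apply pow_le_pow_left₀ P.t_pos.le
        nlinarith
      linarith
  calc P.t ^ N * ‖Psi M φ P g‖ ≤ (1 + (P.t ^ 2) ^ N) * ‖Psi M φ P g‖ :=
        mul_le_mul_of_nonneg_right h3 (norm_nonneg _)
    _ = ‖Psi M φ P g‖ + ‖Psi M φ P g‖ * (P.t ^ 2) ^ N := by ring
    _ ≤ _ := add_le_add (hC0 P g) h2

include E in
/-- (P5) -/
theorem kopH_Psi {P : Set (Pl F)} {lam : Pl F → ℂ} (h : B.IsEig P lam 0 φ) {g : ℝ → ℂ}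
    (hg : CArch.IsTest g) (k : G2 F) (w : H3) :
    CArch.kopH g (fun w => Psi M φ w k) w = CArch.hat g 0 * Psi M φ w k := by
  have h1 := h.arch E.i0 g hg (cst D w, ins M k)
  unfold B.RX at h1
  have h2 : ∀ R : H3, B.updI ((cst D w, ins M k) : X D) E.i0 R = (cst D R, ins M k) := by
    intro R
    refine Prod.ext (funext fun i => ?_) rfl
    have hi := E.uniq i
    subst hi
    exact Function.update_self _ _ _
  simp only [h2] at h1
  exact h1

end Eis3

end Fermat.Agent.LT.J
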