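import Mathlib
import Fermat.Agent.LT.J.Bridge
import Fermat.Agent.LT.J.CoefHecke
import Fermat.Agent.LT.H5.FC

/-!
# J9, the bridge: Fourier coefficients of finite combinations and `fc`

* `boxMean_sum_eq` : for `f z = ∑ a i * φ (pt z x (y i))` periodic under some lattice, the mean of
  `eC (-ν) * f` is `∑ a i * cW φ ν x (y i)`.
* `Eis3.bM` : the basis `M, M ω` of `D.I → ℂ`; `Eis3.fc_eq_boxMean`.
* `Eis3.nuF M μ = μ / (M √-3)`.
* `Eis3.fc_sum_Psi` : `fc M (fun z => ∑ a i * Psi M φ ⟨z, e^x⟩ (g i)) μ = ∑ a i * cW φ ν x (ins M (g i))`.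
-/

set_option autoImplicit false

open NumberField IsDedekindDomain Matrix MeasureTheory
open Fermat.LT Fermat.Agent.LT.H Fermat.Agent.LT.I

namespace Fermat.Agent.LT.J

variable {F : Type} [Field F] [NumberField F] {D : Datum F} {φ : X D → ℂ}

theorem boxMean_sum_eq (hc : Continuous φ) (hinv : ∀ (g : G2 F) x, φ (g • x) = φ x) (ν : F)
    (x : D.I → ℝ) {ι : Type*} [Fintype ι] (y : ι → Y D.toLevel) (a : ι → ℂ) {n : ℕ}
    (b0 : Module.Basis (Fin n) ℝ (D.I → ℂ))
    (hper : ∀ l v, ∑ i, a i * φ (pt (v + b0 l) x (y i)) = ∑ i, a i * φ (pt v x (y i)))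
    (hν : ∀ l, eC D.toArch (-ν) (b0 l) = 1) :
    B.boxMean b0 (fun z => eC D.toArch (-ν) z * ∑ i, a i * φ (pt z x (y i))) 0 =
      ∑ i, a i * cW φ ν x (y i) := by
  obtain ⟨n', b, β, hb, hβ, hν'⟩ := CH.exists_common_basis D.toArch (fun i => bY (y i))
    (fun i => isLat_bY (y i)) ν
  set f : (D.I → ℂ) → ℂ := fun z => eC D.toArch (-ν) z * ∑ i, a i * φ (pt z x (y i)) with hf
  have hfc : Continuous f := by
    refine (continuous_eC _ _).mul (continuous_finsetSum _ fun i _ => ?_)
    exact continuous_const.mul (hc.comp (continuous_pt_z x (y i)))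
  have h1 : ∀ l v, f (v + b0 l) = f v := by
    intro l v
    simp only [hf]
    rw [eC_add, hν, mul_one, hper]
  have h2 : ∀ l v, f (v + b l) = f v := by
    intro l v
    simp only [hf]
    rw [eC_add, hν', mul_one]
    congr 1
    refine Finset.sum_congr rfl fun i _ => ?_
    rw [add_comm v, periodic_pt hinv x (y i) (b l) ⟨β l, hβ i l, (hb l).symm⟩]
  rw [B.boxMean_indep b0 b hfc h1 h2]
  have h3 : ∀ i, a i * cW φ ν x (y i) =
      B.boxMean b (fun z => a i * (eC D.toArch (-ν) z * φ (pt z x (y i)))) 0 := by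
    intro i
    rw [CH.cW_eq_boxMean hc hinv ν x (y i) b hb (fun l => hβ i l) hν']
    unfold B.boxMean
    rw [← integral_const_mul]
  rw [Finset.sum_congr rfl fun i _ => h3 i]
  unfold B.boxMean
  rw [← integral_finsetSum]
  · refine integral_congr_ae (Filter.Eventually.of_forall fun s => ?_)
    simp only [hf]
    rw [Finset.mul_sum]
    refine Finset.sum_congr rfl fun i _ => ?_
    ring
  · intro i _
    refine ContinuousOn.integrableOn_compact isCompact_Icc ?_
    apply Continuous.continuousOn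
    have hcont : Continuous fun z : D.I → ℂ => eC D.toArch (-ν) z * φ (pt z x (y i)) :=
      (continuous_eC D.toArch (-ν)).mul (hc.comp (continuous_pt_z x (y i)))
    exact continuous_const.mul (hcont.comp (by fun_prop))

/-- the basis `M, M ω` of `ℂ` -/
theorem linearIndependent_M_om (M : ℕ) [NeZero M] :
    LinearIndependent ℝ ![(M : ℂ), (M : ℂ) * om] := by
  rw [LinearIndependent.pair_iff]
  intro s t h
  have hM : (M : ℝ) ≠ 0 := Nat.cast_ne_zero.mpr (NeZero.ne M)
  have h3 := sqrt3_pos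
  have e1 : t * (M * (Real.sqrt 3 / 2)) = 0 := by
    have := congrArg Complex.im h
    simpa using this
  have e2 : s * M + t * (M * (-1 / 2)) = 0 := by
    have := congrArg Complex.re h
    simpa using this
  have ht : t = 0 := by
    rcases mul_eq_zero.1 e1 with e1 | e1
    · exact e1
    · exact absurd e1 (by positivity)
  subst ht
  rw [zero_mul, add_zero] at e2
  exact ⟨(mul_eq_zero.1 e2).resolve_right hM, rfl⟩

namespace Eis3

variable (E : Eis3 D)

/-- `(D.I → ℂ) ≃ ℂ` -/
noncomputable def eqI : (D.I → ℂ) ≃ₗ[ℝ] ℂ where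
  toFun u := u E.i0
  invFun z := fun _ => z
  map_add' _ _ := rfl
  map_smul' _ _ := rfl
  left_inv u := funext fun i => by rw [E.uniq i]
  right_inv _ := rfl

theorem eqI_symm_apply (z : ℂ) : E.eqI.symm z = fun _ => z := rfl

/-- the basis `M, M ω` of `D.I → ℂ` -/
noncomputable def bM (M : ℕ) [NeZero M] : Module.Basis (Fin 2) ℝ (D.I → ℂ) :=
  (basisOfLinearIndependentOfCardEqFinrank (linearIndependent_M_om M)
    (by rw [Complex.finrank_real_complex, Fintype.card_fin])).map E.eqI.symm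

theorem bM_zero (M : ℕ) [NeZero M] : E.bM M 0 = fun _ => (M : ℂ) := by
  rw [bM, Module.Basis.map_apply, coe_basisOfLinearIndependentOfCardEqFinrank]
  rfl

theorem bM_one (M : ℕ) [NeZero M] : E.bM M 1 = fun _ => (M : ℂ) * om := by
  rw [bM, Module.Basis.map_apply, coe_basisOfLinearIndependentOfCardEqFinrank]
  rfl

/-- `μ / (M √-3)` -/
noncomputable def nuF (M : ℕ) (μ : EO) : F := E.toF μ / (M * (1 + 2 * E.w3))

theorem emb_nuF (M : ℕ) (μ : EO) : D.emb E.i0 (E.nuF M μ) = H5.nu M μ := by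
  rw [nuF, map_div₀, map_mul, map_natCast, E.emb_toF, map_add, map_one, map_mul, map_ofNat,
    E.emb_w3, H5.nu]
  congr 2
  apply Complex.ext
  · simp
    norm_num
  · simp
    ring

theorem trC_eq (u : D.I → ℂ) : trC D.toArch u = 2 * (u E.i0).re := by
  rw [trC]
  have := E.subsingleton_I
  rw [Fintype.sum_eq_single E.i0]
  intro i hi
  exact absurd (E.uniq i) hi

theorem eC_nuF (M : ℕ) (μ : EO) (z : ℂ) :
    eC D.toArch (-(E.nuF M μ)) (fun _ => z) =
      Complex.exp (-(2 * Real.pi * Complex.I * ((2 * (H5.nu M μ * z).re : ℝ) : ℂ))) := by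
  rw [eC, E.trC_eq]
  congr 1
  have h : (embI D.toArch (-(E.nuF M μ)) * fun _ => z : D.I → ℂ) E.i0 = -(H5.nu M μ * z) := by
    show D.emb E.i0 (-(E.nuF M μ)) * z = _
    rw [map_neg, E.emb_nuF, neg_mul]
  rw [h, Complex.neg_re]
  push_cast
  ring

/-- `fc` as a box mean -/
theorem fc_eq_boxMean (M : ℕ) [NeZero M] {H : ℂ → ℂ} (hH : Continuous H) (μ : EO) :
    H5.fc M H μ = B.boxMean (E.bM M)
      (fun z => eC D.toArch (-(E.nuF M μ)) z * H (z E.i0)) 0 := by
  have hc : Continuous fun z : D.I → ℂ => eC D.toArch (-(E.nuF M μ)) z * H (z E.i0) :=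
    (continuous_eC _ _).mul (hH.comp (continuous_apply _))
  rw [B.boxMean_succ _ hc, B.boxMean_succ _ (B.continuous_mean_one hc _), B.boxMean_zero_dim]
  unfold H5.fc
  refine intervalIntegral.integral_congr fun b _ => ?_
  refine intervalIntegral.integral_congr fun a _ => ?_
  have h1 : (0 + b • E.bM M (Fin.succ 0) + a • E.bM M 0 : D.I → ℂ) =
      fun _ => (M : ℂ) * (a + b * om) := by
    funext i
    have e1 : E.bM M (Fin.succ 0) = fun _ => (M : ℂ) * om := E.bM_one M
    rw [e1, E.bM_zero]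
    simp only [Pi.add_apply, Pi.smul_apply, Pi.zero_apply, Complex.real_smul]
    ring
  rw [h1, E.eC_nuF]

variable {M : ℕ} [NeZero M]

theorem Psi_mk (z : ℂ) (t : ℝ) (ht : 0 < t) (g : G2 F) :
    Psi M φ (H3.mk z t ht) g = φ (pt (fun _ => z) (fun _ => Real.log t) (ins M g)) := by
  rw [Psi_eq, pt]
  congr 1
  refine Prod.ext (funext fun i => H3.ext rfl ?_) rfl
  exact (Real.exp_log ht).symm

theorem toC_om : toC (⟨0, 1⟩ : EO) = om := by
  rw [toC_apply]
  simp

theorem eC_bM (μ : EO) (l : Fin 2) : eC D.toArch (-(E.nuF M μ)) (E.bM M l) = 1 := by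
  have key : ∀ β : EO, eC D.toArch (-(E.nuF M μ)) (fun _ => (M : ℂ) * toC β) = 1 := by
    intro β
    rw [E.eC_nuF, Complex.exp_neg]
    have := H5.ech_M_mul M μ β
    unfold H5.ech at this
    rw [this, inv_one]
  fin_cases l
  · have := key 1
    rw [map_one, mul_one] at this
    show eC D.toArch (-(E.nuF M μ)) (E.bM M 0) = 1
    rw [E.bM_zero, this]
  · have := key ⟨0, 1⟩
    rw [toC_om] at this
    show eC D.toArch (-(E.nuF M μ)) (E.bM M 1) = 1
    rw [E.bM_one, this]

/-- Fourier coefficients of finite combinations -/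
theorem fc_sum_Psi (hc : Continuous φ) (hinv : ∀ (g : G2 F) x, φ (g • x) = φ x) {ι : Type*}
    [Fintype ι] (a : ι → ℂ) (g : ι → G2 F) {t : ℝ} (ht : 0 < t)
    (hper : ∀ (β : EO) (z : ℂ), ∑ i, a i * Psi M φ (H3.mk (z + M * toC β) t ht) (g i) =
      ∑ i, a i * Psi M φ (H3.mk z t ht) (g i)) (μ : EO) :
    H5.fc M (fun z => ∑ i, a i * Psi M φ (H3.mk z t ht) (g i)) μ =
      ∑ i, a i * cW φ (E.nuF M μ) (fun _ => Real.log t) (ins M (g i)) := by
  have hH : Continuous fun z : ℂ => ∑ i, a i * Psi M φ (H3.mk z t ht) (g i) := by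
    refine continuous_finsetSum _ fun i _ => continuous_const.mul ?_
    refine (continuous_Psi hc (g i)).comp ?_
    rw [H3.continuous_iff]
    exact ⟨continuous_id, continuous_const⟩
  rw [E.fc_eq_boxMean M hH μ, ← boxMean_sum_eq hc hinv (E.nuF M μ) (fun _ => Real.log t)
    (fun i => ins M (g i)) a (E.bM M)]
  · congr 1
    funext z
    congr 1
    refine Finset.sum_congr rfl fun i _ => ?_
    rw [Psi_mk]
    congr 3
    funext j
    rw [E.uniq j]
  · have key : ∀ (β : EO) (v : D.I → ℂ),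
        ∑ i, a i * φ (pt (v + fun _ => (M : ℂ) * toC β) (fun _ => Real.log t) (ins M (g i))) =
        ∑ i, a i * φ (pt v (fun _ => Real.log t) (ins M (g i))) := by
      intro β v
      have h1 := hper β (v E.i0)
      simp only [Psi_mk] at h1
      have e1 : (fun _ => v E.i0 + (M : ℂ) * toC β : D.I → ℂ) = v + fun _ => (M : ℂ) * toC β := by
        funext j
        rw [E.uniq j]
        rfl
      have e2 : (fun _ => v E.i0 : D.I → ℂ) = v := by
        funext j
        rw [E.uniq j]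
      rw [e1, e2] at h1
      exact h1
    intro l v
    fin_cases l
    · have := key 1 v
      rw [map_one, mul_one] at this
      show ∑ i, a i * φ (pt (v + E.bM M 0) _ _) = _
      rw [E.bM_zero, this]
    · have := key ⟨0, 1⟩ v
      rw [toC_om] at this
      show ∑ i, a i * φ (pt (v + E.bM M 1) _ _) = _
      rw [E.bM_one, this]
  · exact fun l => E.eC_bM μ l

omit [NeZero M] in
theorem nuF_zero : E.nuF M 0 = 0 := by
  rw [nuF, map_zero, zero_div]

include E in
/-- The constant term of a finite combination vanishes. -/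
theorem fc_sum_Psi_zero (h : B.IsCusp φ) {ι : Type*}
    [Fintype ι] (a : ι → ℂ) (g : ι → G2 F) {t : ℝ} (ht : 0 < t)
    (hper : ∀ (β : EO) (z : ℂ), ∑ i, a i * Psi M φ (H3.mk (z + M * toC β) t ht) (g i) =
      ∑ i, a i * Psi M φ (H3.mk z t ht) (g i)) :
    H5.fc M (fun z => ∑ i, a i * Psi M φ (H3.mk z t ht) (g i)) 0 = 0 := by
  have hinv : ∀ (g : G2 F) x, φ (g • x) = φ x := fun g x => h.inv (pmk g) x
  rw [E.fc_sum_Psi h.cont hinv a g ht hper, E.nuF_zero]
  refine Finset.sum_eq_zero fun i _ => ?_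
  rw [cW_zero_eq_zero h.mean hinv, mul_zero]

end Eis3

end Fermat.Agent.LT.J
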