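import Mathlib
import Fermat.Agent.LT.J.BridgeMean
import Fermat.Agent.LT.J.BridgeHecke

/-!
# J9, the bridge: finite combinations of right translates

`Xi M φ a h P g = ∑ i, a i * Psi M φ P (g * h i)`.
-/

set_option autoImplicit false

open NumberField IsDedekindDomain Matrix MeasureTheory
open Fermat.LT Fermat.Agent.LT.H Fermat.Agent.LT.I

namespace Fermat.Agent.LT.J

variable {F : Type} [Field F] [NumberField F] {D : Datum F}

/-- Finite combination of right translates of `Psi`. -/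
noncomputable def Xi (M : ℕ) [NeZero M] (φ : X D → ℂ) {ι : Type*} [Fintype ι] (a : ι → ℂ)
    (h : ι → G2 F) (P : H3) (g : G2 F) : ℂ := ∑ i, a i * Psi M φ P (g * h i)

/-- the invariance condition -/
def XiInv (M : ℕ) [NeZero M] (φ : X D → ℂ) {ι : Type*} [Fintype ι] (a : ι → ℂ)
    (h : ι → G2 F) : Prop :=
  ∀ (P : H3) (g κ : G2 F), g ∈ intM F M → Cong M κ → Xi M φ a h P (g * κ) = Xi M φ a h P g

variable {M : ℕ} [NeZero M] {φ : X D → ℂ} {ι : Type*} [Fintype ι] {a : ι → ℂ} {h : ι → G2 F}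

theorem Xi_mul_sc (P : H3) (g : G2 F) (c : Fˣ) : Xi M φ a h P (g * sc c) = Xi M φ a h P g := by
  unfold Xi
  refine Finset.sum_congr rfl fun i _ => ?_
  rw [mul_assoc, sc_comm, ← mul_assoc, Psi_mul_sc]

theorem continuous_Xi (hφ : Continuous φ) (g : G2 F) : Continuous fun P => Xi M φ a h P g :=
  continuous_finsetSum _ fun _ _ => continuous_const.mul (continuous_Psi hφ _)

theorem Xi_bdd (hc : B.IsCusp φ) : ∃ C : ℝ, ∀ P g, ‖Xi M φ a h P g‖ ≤ C := by
  obtain ⟨C, hC⟩ := Psi_bdd (M := M) hc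
  refine ⟨∑ i, ‖a i‖ * C, fun P g => ?_⟩
  refine (norm_sum_le _ _).trans (Finset.sum_le_sum fun i _ => ?_)
  rw [norm_mul]
  exact mul_le_mul_of_nonneg_left (hC _ _) (norm_nonneg _)

omit [NeZero M] in
theorem Cong.inv {κ : G2 F} (hκ : Cong M κ) : Cong M κ⁻¹ := by
  intro w hw
  refine ⟨inv_mem (hκ w hw).1, ?_⟩
  have e : (κ⁻¹).1 - 1 = (κ⁻¹).1 * (-(κ.1 - 1)) := by
    have h : (κ⁻¹).1 * κ.1 = 1 := by rw [← Units.val_mul]; simp
    rw [neg_sub, mul_sub, mul_one, h]
  rw [e]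
  refine (nm_mul_le w _ _).trans ?_
  rw [nm_neg]
  refine (mul_le_mul (inv_mem (hκ w hw).1).1 (hκ w hw).2 (Fermat.LT.nm_nonneg w _) zero_le_one).trans ?_
  rw [one_mul]

omit [NeZero M] in
/-- translations by `M 𝓞` are congruence matrices -/
theorem cong_un {b : F} (hb : ∀ w : Pl F, av w b ≤ av w (M : F)) : Cong M (un b) := by
  have hint : ∀ (w : Pl F) (b : F), av w b ≤ 1 → nm w (un b).1 ≤ 1 := by
    intro w b hb
    rw [nm_le_iff]
    intro i j
    fin_cases i <;> fin_cases j <;> simp [un_val, hb]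
  intro w _
  have h1 : av w b ≤ 1 := (hb w).trans (av_natCast_le_one w M)
  refine ⟨⟨hint w b h1, ?_⟩, ?_⟩
  · rw [← un_neg]
    exact hint w (-b) (by rwa [(av w).map_neg])
  · rw [nm_le_iff]
    intro i j
    fin_cases i <;> fin_cases j <;> simp [un_val, hb]

theorem un_mem_intGL {w : Pl F} {b : F} (hb : av w b ≤ 1) : un b ∈ intGL w := by
  have hint : ∀ b : F, av w b ≤ 1 → nm w (un b).1 ≤ 1 := by
    intro b hb
    rw [nm_le_iff]
    intro i j
    fin_cases i <;> fin_cases j <;> simp [un_val, hb]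
  refine ⟨hint b hb, ?_⟩
  rw [← un_neg]
  exact hint (-b) (by rwa [(av w).map_neg])

namespace Eis3

variable (E : Eis3 D)

theorem Xi_smul (hinv : ∀ (γ : PG F) x, φ (γ • x) = φ x) (hU : LevM D.toLevel M) {γ : G2 F}
    (hγ : γ ∈ outM F M) (P : H3) (g : G2 F) :
    Xi M φ a h (E.gC γ • P) (γ * g) = Xi M φ a h P g := by
  unfold Xi
  refine Finset.sum_congr rfl fun i _ => ?_
  rw [mul_assoc, E.Psi_smul hinv hU hγ]

include E in
theorem Xi_decay (hc : B.IsCusp φ) (g : G2 F) (N : ℕ) :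
    ∃ C : ℝ, ∀ P : H3, P.t ^ N * ‖Xi M φ a h P g‖ ≤ C := by
  choose C hC using fun i => E.Psi_decay (M := M) hc (g * h i) N
  refine ⟨∑ i, ‖a i‖ * C i, fun P => ?_⟩
  have ht := P.t_pos
  calc P.t ^ N * ‖Xi M φ a h P g‖ ≤ P.t ^ N * ∑ i, ‖a i‖ * ‖Psi M φ P (g * h i)‖ := by
        refine mul_le_mul_of_nonneg_left ?_ (by positivity)
        refine (norm_sum_le _ _).trans (Finset.sum_le_sum fun i _ => ?_)
        rw [norm_mul]
    _ = ∑ i, ‖a i‖ * (P.t ^ N * ‖Psi M φ P (g * h i)‖) := by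
        rw [Finset.mul_sum]
        refine Finset.sum_congr rfl fun i _ => ?_
        ring
    _ ≤ _ := Finset.sum_le_sum fun i _ => mul_le_mul_of_nonneg_left (hC i P) (norm_nonneg _)

include E in
theorem kopH_Xi {P : Set (Pl F)} {lam : Pl F → ℂ} (hc : Continuous φ) (he : B.IsEig P lam 0 φ)
    {g : ℝ → ℂ} (hg : CArch.IsTest g) (k : G2 F) (w : H3) :
    CArch.kopH g (fun w => Xi M φ a h w k) w = CArch.hat g 0 * Xi M φ a h w k := by
  unfold Xi CArch.kopH
  simp only [Finset.mul_sum]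
  rw [integral_finsetSum]
  · refine Finset.sum_congr rfl fun i _ => ?_
    have h1 := E.kopH_Psi (M := M) he hg (k * h i) w
    unfold CArch.kopH at h1
    have h2 : ∀ R : H3, CArch.kfun g (H3.ch w R) * (a i * Psi M φ R (k * h i)) =
        a i * (CArch.kfun g (H3.ch w R) * Psi M φ R (k * h i)) := fun R => by ring
    simp only [h2]
    rw [integral_const_mul, h1]
    ring
  · intro i _
    have h1 := (CArch.integrable_kopH hg (continuous_Psi (M := M) hc (k * h i)) w).const_mul (a i)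
    refine h1.congr (Filter.Eventually.of_forall fun R => ?_)
    simp only
    ring

/-- the Hecke relation -/
theorem hecke_Xi {π : EO} (hπ : Prime π) (hU : LevM D.toLevel M) (hw : E.plc π hπ ∉ pm M)
    (hinv : ∀ (γ : PG F) x, φ (γ • x) = φ x) {μ : ℂ}
    (hT : ∀ x, B.TX (E.plc π hπ) φ x = μ * φ x) {R : Finset EO} (hR : IsRes π R)
    (P : H3) (g : G2 F) :
    ∑ b ∈ R, Xi M φ a h (matC (rM π b) (det_rM_ne hπ.ne_zero b) • P)
        (E.toG (rM π b) (det_rM_ne hπ.ne_zero b) * g) +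
      Xi M φ a h (matC (rI π) (det_rI_ne hπ.ne_zero) • P)
        (E.toG (rI π) (det_rI_ne hπ.ne_zero) * g) =
    μ * Xi M φ a h P g := by
  unfold Xi
  rw [Finset.sum_comm, ← Finset.sum_add_distrib, Finset.mul_sum]
  refine Finset.sum_congr rfl fun i _ => ?_
  rw [← Finset.mul_sum, ← mul_add]
  have h1 := E.hecke_Psi hπ hU hw (fun γ x => hinv (pmk γ) x) hT hR P (g * h i)
  simp only [mul_assoc] at h1 ⊢
  rw [h1]
  ring

include E in
/-- translation by `M ℤ[ω]` -/
theorem Xi_periodic (hinv : ∀ (γ : PG F) x, φ (γ • x) = φ x) (hU : LevM D.toLevel M)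
    (hW : XiInv M φ a h) {g : G2 F} (hg : g ∈ intM F M) (β : EO) (z : ℂ) {t : ℝ} (ht : 0 < t) :
    Xi M φ a h (H3.mk (z + M * toC β) t ht) g = Xi M φ a h (H3.mk z t ht) g := by
  set b : F := M * E.toF β with hb
  have hb1 : ∀ w : Pl F, av w b ≤ av w (M : F) := by
    intro w
    rw [hb, map_mul]
    exact mul_le_of_le_one_right ((av w).nonneg _) (E.av_toF_le_one w β)
  have hcong : Cong M (un b) := cong_un hb1
  have hout : un b ∈ outM F M := by
    rw [mem_outM]
    intro w _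
    exact intGL_le_stdH w (un_mem_intGL ((hb1 w).trans (av_natCast_le_one w M)))
  have h1 : E.gC (un b) • H3.mk z t ht = H3.mk (z + M * toC β) t ht := by
    have e := E.gC_smul_cst (un b) (H3.mk z t ht)
    have e1 := congrFun e E.i0
    have e2 : (un b • cst D (H3.mk z t ht)) E.i0 = E.gC (un b) • H3.mk z t ht := e1
    rw [← e2]
    refine H3.ext ?_ ?_
    · refine (un_smul_z b _ E.i0).trans ?_
      show z + D.emb E.i0 b = z + M * toC β
      rw [hb, map_mul, map_natCast, E.emb_toF]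
    · exact un_smul_t b _ E.i0
  have h2 := E.Xi_smul (a := a) (h := h) hinv hU hout (H3.mk z t ht) ((un b)⁻¹ * g)
  rw [h1, mul_inv_cancel_left] at h2
  rw [h2]
  have h3 : (un b)⁻¹ * g = g * (g⁻¹ * (un b)⁻¹ * g) := by group
  rw [h3]
  exact hW _ _ _ hg (hcong.inv.conj hg)

theorem fc_Xi (hc : B.IsCusp φ) (hU : LevM D.toLevel M) (hW : XiInv M φ a h) {g : G2 F}
    (hg : g ∈ intM F M) {t : ℝ} (ht : 0 < t) (μ : EO) :
    H5.fc M (fun z => Xi M φ a h (H3.mk z t ht) g) μ =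
      ∑ i, a i * cW φ (E.nuF M μ) (fun _ => Real.log t) (ins M (g * h i)) := by
  unfold Xi
  exact E.fc_sum_Psi hc.cont (fun g x => hc.inv (pmk g) x) a (fun i => g * h i) ht
    (fun β z => E.Xi_periodic hc.inv hU hW hg β z ht) μ

include E in
theorem fc_Xi_zero (hc : B.IsCusp φ) (hU : LevM D.toLevel M) (hW : XiInv M φ a h) {g : G2 F}
    (hg : g ∈ intM F M) {t : ℝ} (ht : 0 < t) :
    H5.fc M (fun z => Xi M φ a h (H3.mk z t ht) g) 0 = 0 := by
  unfold Xi
  exact E.fc_sum_Psi_zero hc a (fun i => g * h i) ht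
    (fun β z => E.Xi_periodic hc.inv hU hW hg β z ht)

end Eis3

end Fermat.Agent.LT.J
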