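import Mathlib
import Fermat.Agent.LT.J.BridgeDefs
import Fermat.Agent.LT.A.Borel
import Fermat.Agent.LT.H.Coef

/-!
# J9: the bump

For `x` an integer with support in the places dividing `M`, and `k ∈ intM`, put
`hb b = un b * dg x * k`.  If `c` is a function on the integers which is periodic modulo `M`, then
`∑ b mod M x, c b f (ins (g κ hb b)) = ∑ b mod M x, c b f (ins (g hb b))` for `κ ≡ 1 mod M`.
-/

set_option autoImplicit false

open NumberField IsDedekindDomain Matrix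
open Fermat.LT

namespace Fermat.Agent.LT.J

variable {F : Type} [Field F] [NumberField F]

/-- complete residue system modulo `I` -/
def IsResI (I : Ideal (𝓞 F)) (R : Finset (𝓞 F)) : Prop := ∀ b : 𝓞 F, ∃! r, r ∈ R ∧ b - r ∈ I

theorem exists_isResI {I : Ideal (𝓞 F)} (hI : I ≠ ⊥) : ∃ R : Finset (𝓞 F), IsResI I R := by
  classical
  haveI : Finite (𝓞 F ⧸ I) := Ideal.finiteQuotientOfFreeOfNeBot I hI
  haveI := Fintype.ofFinite (𝓞 F ⧸ I)
  refine ⟨Finset.univ.image (fun q : 𝓞 F ⧸ I => Quotient.out q), fun b => ?_⟩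
  refine ⟨Quotient.out (Ideal.Quotient.mk I b), ⟨Finset.mem_image_of_mem _ (Finset.mem_univ _), ?_⟩,
    ?_⟩
  · rw [← Ideal.Quotient.eq]
    exact (Quotient.out_eq (Ideal.Quotient.mk I b)).symm
  · rintro r ⟨hr, hb⟩
    obtain ⟨q, -, rfl⟩ := Finset.mem_image.mp hr
    have h1 : Ideal.Quotient.mk I b = q := by
      rw [Ideal.Quotient.eq.mpr hb]
      exact Quotient.out_eq q
    rw [h1]

/-- the matrices `un b * dg x * k` -/
def hb (x : Fˣ) (k : G2 F) (b : F) : G2 F := un b * dg x * k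

theorem un_coe (b : F) : (un b).1 = !![1, b; 0, 1] := rfl
theorem dg_coe (a : Fˣ) : (dg a).1 = !![(a : F), 0; 0, 1] := rfl

theorem av_sub_le' (w : Pl F) (x y : F) : av w (x - y) ≤ max (av w x) (av w y) := by
  rw [sub_eq_add_neg, ← (av w).map_neg y]; exact av_add_le w _ _

theorem av_eq_one_of_sub {w : Pl F} {x : F} (h : av w (x - 1) < 1) : av w x = 1 := by
  have h1 : av w x ≤ 1 := by
    have := av_add_le w (x - 1) 1
    rw [sub_add_cancel, map_one] at this
    exact this.trans (max_le h.le le_rfl)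
  refine le_antisymm h1 ?_
  by_contra hlt
  push Not at hlt
  have h2 := av_sub_le' w x (x - 1)
  rw [sub_sub_cancel, map_one] at h2
  exact absurd h2 (not_le.mpr (max_lt hlt h))

theorem mem_intGL_of (w : Pl F) {m : G2 F} (h1 : nm w m.1 ≤ 1) (h2 : av w m.1.det = 1) :
    m ∈ intGL w := by
  refine ⟨h1, ?_⟩
  have h3 : (m⁻¹).1 = (m.1.det)⁻¹ • m.1.adjugate := by
    rw [Matrix.coe_units_inv, Matrix.inv_def, Ring.inverse_eq_inv]
  rw [h3, nm_smul, map_inv₀, h2, inv_one, one_mul, nm_adjugate]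
  exact h1

section tau

variable {M : ℕ} {w : Pl F} {κ : G2 F}

/-- the Möbius action -/
def tau (κ : G2 F) (b : F) : F := (κ.1 0 0 * b + κ.1 0 1) / (κ.1 1 0 * b + κ.1 1 1)

/-- entries of an element of `CongAt` -/
theorem CongAt.entries (h : CongAt M w κ) : av w (κ.1 0 0 - 1) ≤ av w (M : F) ∧
    av w (κ.1 0 1) ≤ av w (M : F) ∧ av w (κ.1 1 0) ≤ av w (M : F) ∧
    av w (κ.1 1 1 - 1) ≤ av w (M : F) := by
  have h1 := (nm_le_iff w _ _).mp h.2
  refine ⟨?_, ?_, ?_, ?_⟩
  · simpa using h1 0 0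
  · simpa using h1 0 1
  · simpa using h1 1 0
  · simpa using h1 1 1

theorem CongAt.den (h : CongAt M w κ) {b : F} (hb : av w b ≤ 1) :
    av w (κ.1 1 0 * b + κ.1 1 1 - 1) ≤ av w (M : F) := by
  obtain ⟨-, -, h3, h4⟩ := h.entries
  rw [add_sub_assoc]
  refine (av_add_le w _ _).trans (max_le ?_ h4)
  rw [map_mul]
  exact (mul_le_mul h3 hb ((av w).nonneg _) ((av w).nonneg _)).trans_eq (mul_one _)

theorem CongAt.den_one (h : CongAt M w κ) (hM : av w (M : F) < 1) {b : F} (hb : av w b ≤ 1) :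
    av w (κ.1 1 0 * b + κ.1 1 1) = 1 :=
  av_eq_one_of_sub ((h.den hb).trans_lt hM)

theorem CongAt.den_ne (h : CongAt M w κ) (hM : av w (M : F) < 1) {b : F} (hb : av w b ≤ 1) :
    κ.1 1 0 * b + κ.1 1 1 ≠ 0 := by
  intro h0
  have := h.den_one hM hb
  rw [h0, map_zero] at this
  exact zero_ne_one this

theorem av_det_intGL {g : G2 F} (hg : g ∈ intGL w) : av w g.1.det = 1 := by
  have h1 := intGL_le_stdH w hg
  rw [av_det_of_mem w h1]
  have h2 := nm_inv_of_mem w h1
  have h3 : nm w (g⁻¹).1 ≤ 1 := hg.2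
  rw [h2] at h3
  have h4 := nm_pos w g
  have h5 : 1 ≤ nm w g.1 := (inv_le_one₀ h4).mp h3
  rw [le_antisymm hg.1 h5, one_pow]

theorem CongAt.det_one (h : CongAt M w κ) : av w κ.1.det = 1 := av_det_intGL h.1

theorem CongAt.tau_sub (h : CongAt M w κ) (hM : av w (M : F) < 1) {b : F} (hb : av w b ≤ 1) :
    av w (tau κ b - b) ≤ av w (M : F) := by
  obtain ⟨h1, h2, h3, h4⟩ := h.entries
  have hne := h.den_ne hM hb
  have e : tau κ b - b = ((κ.1 0 0 - 1) * b + κ.1 0 1 - b * (κ.1 1 0 * b + κ.1 1 1 - 1)) /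
      (κ.1 1 0 * b + κ.1 1 1) := by
    rw [tau, div_sub' hne]; congr 1; ring
  rw [e, map_div₀, h.den_one hM hb, div_one]
  refine (av_sub_le' w _ _).trans (max_le ((av_add_le w _ _).trans (max_le ?_ h2)) ?_)
  · rw [map_mul]
    exact (mul_le_mul h1 hb ((av w).nonneg _) ((av w).nonneg _)).trans_eq (mul_one _)
  · rw [map_mul, mul_comm]
    exact (mul_le_mul (h.den hb) hb ((av w).nonneg _) ((av w).nonneg _)).trans_eq (mul_one _)

theorem CongAt.tau_le (h : CongAt M w κ) (hM : av w (M : F) < 1) {b : F} (hb : av w b ≤ 1) :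
    av w (tau κ b) ≤ 1 := by
  have := av_add_le w (tau κ b - b) b
  rw [sub_add_cancel] at this
  exact this.trans (max_le ((h.tau_sub hM hb).trans hM.le) hb)

theorem CongAt.av_tau_sub_tau (h : CongAt M w κ) (hM : av w (M : F) < 1) {b b' : F}
    (hb : av w b ≤ 1) (hb' : av w b' ≤ 1) : av w (tau κ b - tau κ b') = av w (b - b') := by
  have hne := h.den_ne hM hb
  have hne' := h.den_ne hM hb'
  have e : tau κ b - tau κ b' = κ.1.det * (b - b') /
      ((κ.1 1 0 * b + κ.1 1 1) * (κ.1 1 0 * b' + κ.1 1 1)) := by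
    rw [tau, tau, Matrix.det_fin_two, div_sub_div _ _ hne hne']; congr 1; ring
  rw [e, map_div₀, map_mul, map_mul, h.den_one hM hb, h.den_one hM hb', h.det_one, one_mul, mul_one,
    div_one]

/-- the factorisation `κ un(b) dg(x) = un(τ) dg(x) κ'` -/
theorem CongAt.factor (h : CongAt M w κ) (hM : av w (M : F) < 1) {b : F} (hb : av w b ≤ 1)
    {x : Fˣ} (hx : av w (x : F) ≤ 1) :
    CongAt M w ((un (tau κ b) * dg x)⁻¹ * (κ * (un b * dg x))) := by
  have hne := h.den_ne hM hb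
  have hd : κ.1.det ≠ 0 := ((Matrix.isUnit_iff_isUnit_det _).mp κ.isUnit).ne_zero
  set u := κ.1 1 0 * b + κ.1 1 1 with hu
  let k : G2 F := Matrix.GeneralLinearGroup.mkOfDetNeZero
    !![κ.1.det / u, 0; κ.1 1 0 * x, u] (by
      rw [Matrix.det_fin_two_of, zero_mul, sub_zero, div_mul_cancel₀ _ hne]; exact hd)
  have hk : k.1 = !![κ.1.det / u, 0; κ.1 1 0 * x, u] := rfl
  have e : κ * (un b * dg x) = (un (tau κ b) * dg x) * k := by
    apply Units.ext
    rw [Units.val_mul, Units.val_mul, Units.val_mul, Units.val_mul, hk, un_coe, un_coe, dg_coe]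
    ext i j
    fin_cases i <;> fin_cases j
    · simp [Matrix.mul_apply, Fin.sum_univ_two]
      rw [tau, ← hu, Matrix.det_fin_two]
      field_simp
      rw [hu]; ring
    · simp [Matrix.mul_apply, Fin.sum_univ_two]
      rw [tau, ← hu]
      field_simp
    · simp [Matrix.mul_apply, Fin.sum_univ_two]
    · simp [Matrix.mul_apply, Fin.sum_univ_two, hu]
  rw [e, inv_mul_cancel_left]
  obtain ⟨h1, h2, h3, h4⟩ := h.entries
  have hdet1 : av w (κ.1.det - 1) ≤ av w (M : F) := by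
    have e : κ.1.det - 1 = (κ.1 0 0 - 1) * κ.1 1 1 + (κ.1 1 1 - 1) - κ.1 0 1 * κ.1 1 0 := by
      rw [Matrix.det_fin_two]; ring
    have h11 : av w (κ.1 1 1) ≤ 1 := (av_le_nm w κ.1 1 1).trans h.1.1
    have h10 : av w (κ.1 1 0) ≤ 1 := (av_le_nm w κ.1 1 0).trans h.1.1
    rw [e]
    refine (av_sub_le' w _ _).trans (max_le ((av_add_le w _ _).trans (max_le ?_ h4)) ?_)
    · rw [map_mul]
      exact (mul_le_mul h1 h11 ((av w).nonneg _) ((av w).nonneg _)).trans_eq (mul_one _)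
    · rw [map_mul]
      exact (mul_le_mul h2 h10 ((av w).nonneg _) ((av w).nonneg _)).trans_eq (mul_one _)
  have hcong : nm w (k.1 - 1) ≤ av w (M : F) := by
    rw [hk, nm_le_iff]
    intro i j
    fin_cases i <;> fin_cases j
    · simp only [Fin.zero_eta, Fin.isValue, Matrix.sub_apply, Matrix.of_apply, Matrix.cons_val',
        Matrix.cons_val_zero, Matrix.cons_val_fin_one, Matrix.one_apply_eq]
      have e : κ.1.det / u - 1 = ((κ.1.det - 1) - (u - 1)) / u := by field_simp; ring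
      rw [e, map_div₀, h.den_one hM hb, div_one]
      exact (av_sub_le' w _ _).trans (max_le hdet1 (h.den hb))
    · simp
    · simp only [Fin.mk_one, Fin.isValue, Fin.zero_eta, Matrix.sub_apply, Matrix.of_apply,
        Matrix.cons_val', Matrix.cons_val_zero, Matrix.cons_val_one, Matrix.cons_val_fin_one]
      have e : κ.1 1 0 * (x : F) - (1 : Matrix (Fin 2) (Fin 2) F) 1 0 = κ.1 1 0 * x := by simp
      rw [e, map_mul]
      exact (mul_le_mul h3 hx ((av w).nonneg _) ((av w).nonneg _)).trans_eq (mul_one _)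
    · simp only [Fin.mk_one, Fin.isValue, Matrix.sub_apply, Matrix.of_apply,
        Matrix.cons_val', Matrix.cons_val_one, Matrix.cons_val_fin_one, Matrix.one_apply_eq]
      exact h.den hb
  refine ⟨mem_intGL_of w ?_ ?_, hcong⟩
  · exact nm_le_of_sub w _ (hcong.trans hM.le)
  · rw [hk, Matrix.det_fin_two_of, zero_mul, sub_zero, div_mul_cancel₀ _ hne]
    exact h.det_one

end tau

section bump

variable {U : Level F} {M : ℕ} [NeZero M]

theorem av_int_le (w : Pl F) (b : 𝓞 F) : av w (b : F) ≤ 1 := CTree.av_algebraMap_le_one w b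

/-- `hb` only depends on `b` modulo `M x` -/
theorem ins_hb_congr (hU : LevM U M) (g : G2 F) {x : Fˣ} {k : G2 F} (hk : k ∈ intM F M) {b b' : F}
    (h : ∀ w ∈ pm (F := F) M, av w (b' - b) ≤ av w ((M : F) * x)) :
    (ins M (g * hb x k b) : Y U) = ins M (g * hb x k b') := by
  have e : g * hb x k b' = (g * hb x k b) * (k⁻¹ * un ((x : F)⁻¹ * (b' - b)) * k) := by
    have e1 : un b' = un b * un (b' - b) := by rw [← un_add]; congr 1; ring
    have e2 : un (b' - b) * dg x = dg x * un ((x : F)⁻¹ * (b' - b)) := by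
      rw [dg_mul_un, mul_inv_cancel_left₀ x.ne_zero]
    calc g * hb x k b' = g * (un b * (un (b' - b) * dg x) * k) := by
          rw [hb, e1]; group
      _ = _ := by rw [e2, hb]; group
  rw [e]
  refine (ins_mul_cong hU _ ?_).symm
  refine Cong.conj (fun w hw => ?_) hk
  have h1 : av w ((x : F)⁻¹ * (b' - b)) ≤ av w (M : F) := by
    rw [map_mul, map_inv₀]
    have hp : 0 < av w (x : F) := (av w).pos x.ne_zero
    have h2 := h w hw
    rw [map_mul] at h2
    calc (av w (x : F))⁻¹ * av w (b' - b) ≤ (av w (x : F))⁻¹ * (av w (M : F) * av w (x : F)) := by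
          exact mul_le_mul_of_nonneg_left h2 (inv_nonneg.mpr hp.le)
      _ = av w (M : F) := by field_simp
  have hcong : nm w ((un ((x : F)⁻¹ * (b' - b))).1 - 1) ≤ av w (M : F) := by
    rw [nm_un_sub]; exact h1
  refine ⟨mem_intGL_of w (nm_le_of_sub w _ (hcong.trans (av_natCast_le_one w M))) ?_, hcong⟩
  rw [un_coe, Matrix.det_fin_two_of]
  simp

/-- the effect of `κ ∈ Cong M` -/
theorem ins_cong_hb (hU : LevM U M) (g : G2 F) {κ : G2 F} (hκ : Cong M κ) {x : Fˣ}
    (hx : ∀ w ∈ pm (F := F) M, av w (x : F) ≤ 1) {k : G2 F} (hk : k ∈ intM F M) {b : F}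
    (hb1 : ∀ w ∈ pm (F := F) M, av w b ≤ 1) {r : F}
    (hr : ∀ w ∈ pm (F := F) M, av w (r - tau κ b) ≤ av w ((M : F) * x)) :
    (ins M (g * κ * hb x k b) : Y U) = ins M (g * hb x k r) := by
  rw [← ins_hb_congr hU g hk hr]
  have e : g * κ * hb x k b = (g * hb x k (tau κ b)) *
      (k⁻¹ * ((un (tau κ b) * dg x)⁻¹ * (κ * (un b * dg x))) * k) := by
    rw [hb, hb]; group
  rw [e]
  refine ins_mul_cong hU _ (Cong.conj (fun w hw => ?_) hk)
  exact (hκ w hw).factor hw (hb1 w hw) (hx w hw)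

/-- membership in the ideal `(M x)` -/
theorem mem_span_iff {x : 𝓞 F} (hx : x ≠ 0)
    (hxM : ∀ w ∉ pm (F := F) M, av w (x : F) = 1) {y : 𝓞 F} :
    y ∈ Ideal.span {(M : 𝓞 F) * x} ↔ ∀ w ∈ pm (F := F) M, av w (y : F) ≤ av w ((M : F) * x) := by
  have hM : (M : F) ≠ 0 := Nat.cast_ne_zero.mpr (NeZero.ne M)
  have hx' : (x : F) ≠ 0 := by simpa using hx
  rw [Ideal.mem_span_singleton]
  constructor
  · rintro ⟨z, rfl⟩ w -
    have : (((M : 𝓞 F) * x * z : 𝓞 F) : F) = ((M : F) * x) * z := by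
      simp
    rw [this, map_mul]
    exact mul_le_of_le_one_right ((av w).nonneg _) (av_int_le w z)
  · intro h
    obtain ⟨z, hz⟩ := exists_int_of_av_le (x := (y : F) / ((M : F) * x)) (by
      intro w
      rw [map_div₀]
      by_cases hw : w ∈ pm (F := F) M
      · exact div_le_one_of_le₀ (h w hw) ((av w).nonneg _)
      · rw [map_mul, not_mem_pm.mp hw, hxM w hw, one_mul, div_one]
        exact av_int_le w y)
    refine ⟨z, ?_⟩
    apply FaithfulSMul.algebraMap_injective (𝓞 F) F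
    rw [map_mul, map_mul, map_natCast]
    have : (z : F) = (y : F) / ((M : F) * x) := hz
    change (y : F) = (M : F) * x * (z : F)
    rw [this]; field_simp

/-- **The bump is invariant under `Cong M`.** -/
theorem bump_cong (hU : LevM U M) {x : 𝓞 F} (hx : x ≠ 0) {x' : Fˣ} (hx' : (x' : F) = x)
    (hxM : ∀ w ∉ pm (F := F) M, av w (x : F) = 1) {k : G2 F} (hk : k ∈ intM F M)
    {R : Finset (𝓞 F)} (hR : IsResI (Ideal.span {(M : 𝓞 F) * x}) R) {c : 𝓞 F → ℂ}
    (hc : ∀ b r : 𝓞 F, c (b + M * r) = c b) (f : Y U → ℂ) (g : G2 F) {κ : G2 F} (hκ : Cong M κ) :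
    ∑ b ∈ R, c b * f (ins M (g * κ * hb x' k (b : F))) =
      ∑ b ∈ R, c b * f (ins M (g * hb x' k (b : F))) := by
  classical
  have hM : (M : F) ≠ 0 := Nat.cast_ne_zero.mpr (NeZero.ne M)
  have hx0 : (x : F) ≠ 0 := by simpa using hx
  have hone : ((1 : 𝓞 F) : F) = 1 := by simp
  -- the permutation
  have hex : ∀ b : R, ∃ r : R, ∀ w ∈ pm (F := F) M,
      av w (((r : 𝓞 F) : F) - tau κ ((b : 𝓞 F) : F)) ≤ av w ((M : F) * x) := by
    intro b
    obtain ⟨y, hy1, hy2⟩ := strong_approx (finite_pm (F := F) M).toFinset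
      (fun _ => tau κ ((b : 𝓞 F) : F)) (fun w => av w ((M : F) * x))
      (fun w => (av w).pos (mul_ne_zero hM hx0))
    have hyint : ∀ w : Pl F, av w y ≤ 1 := by
      intro w
      by_cases hw : w ∈ pm (F := F) M
      · have h1 := hy1 w ((finite_pm M).mem_toFinset.mpr hw)
        have h2 := (hκ w hw).tau_le hw (av_int_le w b)
        have h3 := av_add_le w (y - tau κ ((b : 𝓞 F) : F)) (tau κ ((b : 𝓞 F) : F))
        rw [sub_add_cancel] at h3
        refine h3.trans (max_le (h1.trans ?_) h2)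
        rw [map_mul]
        exact mul_le_one₀ (av_natCast_le_one w M) ((av w).nonneg _) (av_int_le w x)
      · exact hy2 w (fun h => hw ((finite_pm M).mem_toFinset.mp h))
    obtain ⟨z, hz⟩ := exists_int_of_av_le hyint
    obtain ⟨r, ⟨hr, hzr⟩, -⟩ := hR z
    refine ⟨⟨r, hr⟩, fun w hw => ?_⟩
    have h1 := (mem_span_iff hx hxM).mp hzr w hw
    have h2 := hy1 w ((finite_pm M).mem_toFinset.mpr hw)
    rw [← hz] at h2
    have e : ((r : 𝓞 F) : F) - tau κ ((b : 𝓞 F) : F) =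
        ((z : F) - tau κ ((b : 𝓞 F) : F)) - ((z - r : 𝓞 F) : F) := by
      have : ((z - r : 𝓞 F) : F) = (z : F) - (r : F) := map_sub _ _ _
      rw [this]; ring
    change av w ((r : F) - tau κ ((b : 𝓞 F) : F)) ≤ _
    rw [e]
    exact (av_sub_le' w _ _).trans (max_le h2 h1)
  choose σ hσ using hex
  have hinj : Function.Injective σ := by
    intro b b' hbb
    have key : ∀ w ∈ pm (F := F) M, av w (((b : 𝓞 F) - (b' : 𝓞 F) : 𝓞 F) : F) ≤
        av w ((M : F) * x) := by
      intro w hw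
      have e0 : (((b : 𝓞 F) - (b' : 𝓞 F) : 𝓞 F) : F) = ((b : 𝓞 F) : F) - ((b' : 𝓞 F) : F) :=
        map_sub _ _ _
      rw [e0, ← (hκ w hw).av_tau_sub_tau hw (av_int_le w b) (av_int_le w b')]
      have h1 := hσ b w hw
      have h2 := hσ b' w hw
      rw [← hbb] at h2
      have e : tau κ ((b : 𝓞 F) : F) - tau κ ((b' : 𝓞 F) : F) =
        (((σ b : 𝓞 F) : F) - tau κ ((b' : 𝓞 F) : F)) -
          (((σ b : 𝓞 F) : F) - tau κ ((b : 𝓞 F) : F)) := by ring
      rw [e]
      exact (av_sub_le' w _ _).trans (max_le h2 h1)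
    have h1 := (mem_span_iff hx hxM).mpr key
    obtain ⟨r, -, hu⟩ := hR b
    have h2 := hu b ⟨b.2, by rw [sub_self]; exact Ideal.zero_mem _⟩
    have h3 := hu b' ⟨b'.2, h1⟩
    exact Subtype.ext (h2.trans h3.symm)
  have hbij : Function.Bijective σ := Finite.injective_iff_bijective.mp hinj
  rw [← Finset.sum_coe_sort R, ← Finset.sum_coe_sort R
    (fun b : 𝓞 F => c b * f (ins M (g * hb x' k (b : F)))),
    ← (Equiv.ofBijective σ hbij).sum_comp (fun b : R => c b * f (ins M (g * hb x' k ((b : 𝓞 F) : F))))]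
  refine Finset.sum_congr rfl fun b _ => ?_
  rw [Equiv.ofBijective_apply]
  congr 1
  · -- `c b = c (σ b)`
    have h1 : ∀ w ∈ pm (F := F) M, av w (((σ b : 𝓞 F) - (b : 𝓞 F) : 𝓞 F) : F) ≤
        av w ((M : F) * ((1 : 𝓞 F) : F)) := by
      intro w hw
      have e0 : (((σ b : 𝓞 F) - (b : 𝓞 F) : 𝓞 F) : F) =
          (((σ b : 𝓞 F) : F) - tau κ ((b : 𝓞 F) : F)) + (tau κ ((b : 𝓞 F) : F) - ((b : 𝓞 F) : F)) := by
        have e1 : (((σ b : 𝓞 F) - (b : 𝓞 F) : 𝓞 F) : F) = ((σ b : 𝓞 F) : F) - ((b : 𝓞 F) : F) :=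
          map_sub _ _ _
        rw [e1]; ring
      rw [e0, hone, mul_one]
      refine (av_add_le w _ _).trans (max_le ((hσ b w hw).trans ?_)
        ((hκ w hw).tau_sub hw (av_int_le w b)))
      rw [map_mul]
      exact mul_le_of_le_one_right ((av w).nonneg _) (av_int_le w x)
    have h2 := (mem_span_iff (M := M) (x := (1 : 𝓞 F)) one_ne_zero (by
      intro w _; rw [hone, map_one])).mpr h1
    rw [mul_one, Ideal.mem_span_singleton] at h2
    obtain ⟨r, hr⟩ := h2
    rw [← hc b r, ← hr]; congr 1; ring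
  · congr 1
    exact ins_cong_hb hU g hκ (fun w hw => by rw [hx']; exact av_int_le w x) hk
      (fun w hw => av_int_le w b) (fun w hw => by rw [hx']; exact hσ b w hw)

end bump

end Fermat.Agent.LT.J
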