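import Mathlib
import Fermat.Agent.LT.J.Bump
import Fermat.Agent.LT.J.BridgeXi
import Fermat.Agent.LT.J.BridgeLift

/-!
# J9: the bump as a combination `Xi`
-/

set_option autoImplicit false

open NumberField IsDedekindDomain Matrix MeasureTheory
open Fermat.LT Fermat.Agent.LT.H

namespace Fermat.Agent.LT.J

variable {F : Type} [Field F] [NumberField F] {D : Datum F}

theorem eC_mul_neg (A : Arch F) (ν : F) (u : A.I → ℂ) : eC A ν u * eC A (-ν) u = 1 := by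
  rw [eC, eC, ← Complex.exp_add, map_neg, neg_mul, trC_neg]
  have : (2 * Real.pi * Complex.I * (trC A (embI A ν * u) : ℝ) +
      2 * Real.pi * Complex.I * ((-trC A (embI A ν * u) : ℝ) : ℂ) : ℂ) = 0 := by
    push_cast; ring
  rw [this, Complex.exp_zero]

namespace Eis3

variable (E : Eis3 D) {M : ℕ} [NeZero M] {φ : X D → ℂ}

theorem eC_neg_nuF_int (β : EO) :
    eC D.toArch (-(E.nuF M 1)) (embI D.toArch ((M : F) * (E.eO β : 𝓞 F))) = 1 := by
  have h1 : embI D.toArch ((M : F) * (E.eO β : 𝓞 F)) = fun _ => (M : ℂ) * toC β := by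
    funext i
    rw [E.uniq i]
    change D.emb E.i0 ((M : F) * algebraMap (𝓞 F) F (E.eO β)) = _
    rw [E.coe_eO, map_mul, map_natCast, E.emb_toF]
  rw [h1, E.eC_nuF, Complex.exp_neg]
  have := H5.ech_M_mul M 1 β
  unfold H5.ech at this
  rw [this, inv_one]

/-- the coefficients of the bump -/
noncomputable def cb (M : ℕ) (b : 𝓞 F) : ℂ := eC D.toArch (E.nuF M 1) (embI D.toArch (b : F))

theorem cb_add (b r : 𝓞 F) : E.cb M (b + M * r) = E.cb M b := by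
  have e : ((b + M * r : 𝓞 F) : F) = (b : F) + (M : F) * r := by simp
  obtain ⟨β, rfl⟩ := E.eO.surjective r
  have h1 := eC_mul_neg D.toArch (E.nuF M 1) (embI D.toArch ((M : F) * (E.eO β : 𝓞 F)))
  rw [E.eC_neg_nuF_int, mul_one] at h1
  rw [cb, cb, e, map_add, eC_add, h1, mul_one]

theorem xiInv_bump (hU : LevM D.toLevel M) {x : 𝓞 F} (hx : x ≠ 0) {x' : Fˣ} (hx' : (x' : F) = x)
    (hxM : ∀ w ∉ pm (F := F) M, av w (x : F) = 1) {k : G2 F} (hk : k ∈ intM F M)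
    {R : Finset (𝓞 F)} (hR : IsResI (Ideal.span {(M : 𝓞 F) * x}) R) :
    XiInv M φ (fun b : R => E.cb M (b : 𝓞 F)) (fun b : R => hb x' k ((b : 𝓞 F) : F)) := by
  intro P g κ _ hκ
  unfold Xi
  have h := bump_cong hU hx hx' hxM hk hR (c := E.cb M) (fun b r => E.cb_add b r)
    (fun y => φ (cst D P, y)) g hκ
  rw [← Finset.sum_coe_sort R, ← Finset.sum_coe_sort R] at h
  exact h

theorem un_int_mem_outM (b : 𝓞 F) : un (b : F) ∈ outM F M := by
  rw [mem_outM]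
  intro w _
  exact intGL_le_stdH w (un_mem_intGL (av_int_le w b))

theorem coef_bump (hinv : ∀ (g : G2 F) x, φ (g • x) = φ x) (hU : LevM D.toLevel M) {x' : Fˣ}
    {k : G2 F} (R : Finset (𝓞 F)) (t : D.I → ℝ) :
    ∑ b : R, E.cb M (b : 𝓞 F) *
      cW φ (E.nuF M 1) t (ins M (1 * hb x' k ((b : 𝓞 F) : F))) =
      R.card * cW φ (E.nuF M 1) t (ins M (dg x' * k)) := by
  have h : ∀ b : R, E.cb M (b : 𝓞 F) *
      cW φ (E.nuF M 1) t (ins M (1 * hb x' k ((b : 𝓞 F) : F))) =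
      cW φ (E.nuF M 1) t (ins M (dg x' * k)) := by
    intro b
    have e1 : 1 * hb x' k ((b : 𝓞 F) : F) = un ((b : 𝓞 F) : F) * (dg x' * k) := by
      rw [hb, mul_assoc, one_mul]
    rw [e1, ← smul_ins hU (un_int_mem_outM (b : 𝓞 F)), cW_un hinv, ← mul_assoc, Eis3.cb,
      eC_mul_neg, one_mul]
  rw [Finset.sum_congr rfl fun b _ => h b, Finset.sum_const, nsmul_eq_mul]
  simp

/-- **The bump.** -/
theorem exists_bump (hφ : B.IsCusp φ) (hU : LevM D.toLevel M) {x : 𝓞 F} (hx : x ≠ 0) {x' : Fˣ}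
    (hx' : (x' : F) = x) (hxM : ∀ w ∉ pm (F := F) M, av w (x : F) = 1) {k : G2 F}
    (hk : k ∈ intM F M) {t : D.I → ℝ}
    (hne : cW φ (E.nuF M 1) t (ins M (dg x' * k)) ≠ 0) :
    ∃ (ι : Type) (_ : Fintype ι) (a : ι → ℂ) (h : ι → G2 F), XiInv M φ a h ∧
      ∃ (t : ℝ) (ht : 0 < t), H5.fc M (fun z => Xi M φ a h (H3.mk z t ht) 1) 1 ≠ 0 := by
  have hinv : ∀ (g : G2 F) x, φ (g • x) = φ x := fun g x => hφ.inv (pmk g) x
  have hMx : (M : 𝓞 F) * x ≠ 0 := mul_ne_zero (Nat.cast_ne_zero.mpr (NeZero.ne M)) hx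
  obtain ⟨R, hR⟩ := exists_isResI (I := Ideal.span {(M : 𝓞 F) * x}) (by
    rwa [Ne, Ideal.span_singleton_eq_bot])
  have hW := E.xiInv_bump (φ := φ) hU hx hx' hxM hk hR
  refine ⟨R, inferInstance, _, _, hW, Real.exp (t E.i0), Real.exp_pos _, ?_⟩
  rw [E.fc_Xi hφ hU hW (one_mem _)]
  have ht : (fun _ => Real.log (Real.exp (t E.i0)) : D.I → ℝ) = t := by
    funext i
    rw [Real.log_exp, E.uniq i]
  rw [ht, E.coef_bump hinv hU R t]
  refine mul_ne_zero ?_ hne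
  have hcard : R.card ≠ 0 := by
    obtain ⟨r, ⟨hr, -⟩, -⟩ := hR 0
    exact Finset.card_ne_zero_of_mem hr
  exact_mod_cast hcard

end Eis3

end Fermat.Agent.LT.J
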