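import Fermat.Agent.LT.J.CoefHecke
import Fermat.Agent.LT.J.EisField
import Fermat.Agent.LT.J.Bump
import Fermat.Agent.LT.H.WhitY

/-!
# Reduction of the nonzero Fourier coefficient to the places dividing `M`

`F = ℚ(ω)`, level dividing `M`, `ν₀ = (M √-3)⁻¹`. If `φ ≠ 0` is a cuspidal eigenfunction of the
Hecke operators at the places not dividing `M`, there are `t`, `x ∈ ℤ[ω]` divisible only by primes
dividing `M`, and `k'` integral at `M` with `cW φ ν₀ t (ins M (dg x * k')) ≠ 0`.
-/

set_option autoImplicit false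
set_option linter.unusedSectionVars false

open NumberField IsDedekindDomain Matrix MeasureTheory Module Set
open scoped ComplexConjugate ENNReal Real

namespace Fermat.Agent.LT.J.CH

open Fermat.LT Fermat.Agent.LT.H Fermat.Agent.LT.I
open Fermat.Agent.LT.B (TX TY upd upd_same upd_ne upd_self exists_un_eq)
open Fermat.Agent.LT.CTree (unif lv av_unif qn)

variable {F : Type} [Field F] [NumberField F]

/-! ### the different of `ℚ(ω)` -/

section different

variable {D : Datum F} (E : Eis3 D)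

/-- `√-3` -/
noncomputable def s3 : F := 1 + 2 * E.w3

theorem s3_sq : s3 E * s3 E = -3 := by
  unfold s3
  linear_combination 4 * E.sq

theorem s3_ne_zero : s3 E ≠ 0 := by
  intro h
  have := s3_sq E
  rw [h, mul_zero] at this
  norm_num at this

theorem emb_s3 : D.emb E.i0 (s3 E) = Real.sqrt 3 * Complex.I := by
  unfold s3
  rw [map_add, map_mul, map_one, map_ofNat, E.emb_w3]
  apply Complex.ext
  · simp
    norm_num
  · simp; ring

theorem trC_eq (u : D.I → ℂ) : trC D.toArch u = 2 * (u E.i0).re := by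
  unfold trC
  exact Fintype.sum_eq_single E.i0 fun i hi => absurd (E.uniq i) hi

theorem av_toInt (w : Pl F) (a b : ℤ) : av w ((a : F) + b * E.w3) ≤ 1 := by
  have := E.av_toF_le_one w ⟨a, b⟩
  rwa [E.toF_apply] at this

/-- elements with integral traces -/
theorem av_le_of_tr {z : F} (h : ∀ o : 𝓞 F, ∃ m : ℤ, trC D.toArch (embI D.toArch (z * o)) = m)
    (w : Pl F) : av w (z * s3 E) ≤ 1 := by
  obtain ⟨m1, h1⟩ := h 1
  obtain ⟨m2, h2⟩ := h E.w3O
  rw [trC_eq E] at h1 h2
  have h1' : 2 * (D.emb E.i0 z).re = m1 := by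
    rw [← h1]
    change _ = 2 * (D.emb E.i0 (z * algebraMap (𝓞 F) F 1)).re
    rw [map_one, mul_one]
  have h2' : 2 * (D.emb E.i0 z * om).re = m2 := by
    rw [← h2]
    change _ = 2 * (D.emb E.i0 (z * (E.w3O : F))).re
    rw [map_mul]
    change _ = 2 * (_ * D.emb E.i0 E.w3).re
    rw [E.emb_w3]
  have hs : Real.sqrt 3 * Real.sqrt 3 = 3 := Real.mul_self_sqrt (by norm_num)
  have key : z * s3 E = ((m1 + m2 : ℤ) : F) + m1 * E.w3 := by
    apply (D.emb E.i0).injective
    rw [map_mul, emb_s3, map_add, map_mul, map_intCast, map_intCast, E.emb_w3]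
    generalize D.emb E.i0 z = Z at h1' h2'
    rw [Complex.mul_re, om_re, om_im] at h2'
    apply Complex.ext
    · simp only [Complex.mul_re, Complex.ofReal_re, Complex.I_re, mul_zero, Complex.ofReal_im,
        Complex.I_im, mul_one, sub_self, zero_sub, Complex.mul_im, zero_mul, add_zero,
        Complex.add_re, Complex.intCast_re, Complex.intCast_im, om_re, sub_zero]
      push_cast
      linarith
    · simp only [Complex.mul_im, Complex.mul_re, Complex.ofReal_re, Complex.I_im, mul_one,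
        Complex.ofReal_im, Complex.I_re, mul_zero, add_zero, Complex.add_im, Complex.intCast_im,
        Complex.intCast_re, om_im, zero_mul, zero_add, sub_self]
      rw [← h1']; ring
  rw [key]
  exact av_toInt E w (m1 + m2) m1

/-- the inverse different has integral traces -/
theorem tr_of_av_le {z : F} (h : ∀ w : Pl F, av w (z * s3 E) ≤ 1) :
    ∃ m : ℤ, trC D.toArch (embI D.toArch z) = m := by
  have h1 : ∀ w : Pl F, w.valuation F (z * s3 E) ≤ 1 := fun w =>
    (CTree.av_le_one_iff_valuation (F := F) w).mp (h w)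
  obtain ⟨o, ho⟩ := HeightOneSpectrum.mem_integers_of_valuation_le_one F _ h1
  obtain ⟨a, b, hab⟩ := E.surj o
  refine ⟨b, ?_⟩
  rw [trC_eq E]
  change 2 * (D.emb E.i0 z).re = b
  have h2 : D.emb E.i0 z * (Real.sqrt 3 * Complex.I) = a + b * om := by
    rw [← emb_s3 E, ← map_mul, ← ho, hab, map_add, map_mul, map_intCast, map_intCast, E.emb_w3]
  have h3 := congrArg Complex.im h2
  simp only [Complex.mul_im, Complex.mul_re, Complex.ofReal_re, Complex.I_im, mul_one,
    Complex.ofReal_im, Complex.I_re, mul_zero, add_zero, Complex.add_im, Complex.intCast_im,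
    Complex.intCast_re, om_im, zero_mul, zero_add, sub_self] at h3
  have hs : 0 < Real.sqrt 3 := Real.sqrt_pos.mpr (by norm_num)
  have h4 : Real.sqrt 3 * (2 * (D.emb E.i0 z).re - b) = 0 := by nlinarith
  rcases mul_eq_zero.mp h4 with h5 | h5
  · exact absurd h5 hs.ne'
  · linarith

end different

/-! ### points in Iwasawa form -/

section form

variable {U : Level F} {M : ℕ}

/-- the components of `y` are `dg (α w)` at the good places and `dg (α w) * k w` at the places
dividing `M` -/
structure Form (M : ℕ) (y : Y U) (α : Pl F → Fˣ) (k : Pl F → G2 F) : Prop where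
  out : ∀ w ∉ pm (F := F) M, y w = ((dg (α w) : G2 F) : Yl U w)
  inn : ∀ w ∈ pm (F := F) M, k w ∈ intGL w ∧ y w = ((dg (α w) * k w : G2 F) : Yl U w)

theorem congAt_un (w : Pl F) {c : F} (hc : av w c ≤ av w (M : F)) : CongAt M w (un c) := by
  have h1 : av w c ≤ 1 := hc.trans (av_natCast_le_one w M)
  refine ⟨⟨?_, ?_⟩, ?_⟩
  · rw [nm_un]; exact max_le le_rfl h1
  · rw [← un_neg, nm_un, (av w).map_neg]; exact max_le le_rfl h1
  · rw [nm_le_iff]
    intro i j
    fin_cases i <;> fin_cases j <;> simp [un_val, hc]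

/-- unipotent elements fixing a point in Iwasawa form -/
theorem Form.fix (hU : LevM U M) {y : Y U} {α : Pl F → Fˣ} {k : Pl F → G2 F} (h : Form M y α k)
    {w : Pl F} {b : F} (hb : av w b ≤ av w ((α w : F) * M)) : un b • y w = y w := by
  by_cases hw : w ∈ pm (F := F) M
  · obtain ⟨hk, hy⟩ := h.inn w hw
    rw [hy]
    change ((un b * (dg (α w) * k w) : G2 F) : Yl U w) = _
    rw [eq_comm, QuotientGroup.eq]
    have e : (dg (α w) * k w)⁻¹ * (un b * (dg (α w) * k w)) =
        (k w)⁻¹ * un ((((α w)⁻¹ : Fˣ) : F) * b) * k w := by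
      rw [← dg_inv_un_dg]; group
    rw [e]
    have hc : CongAt M w (un ((((α w)⁻¹ : Fˣ) : F) * b)) := by
      apply congAt_un
      rw [map_mul, Units.val_inv_eq_inv_val, map_inv₀, inv_mul_le_iff₀ ((av w).pos (α w).ne_zero),
        ← map_mul]
      exact hb
    have := hc.conj hk
    exact hU.le w _ this.1 this.2
  · rw [h.out w hw]
    rw [un_smul_dg_iff' (hU.good w (not_mem_pm.mp hw))]
    rwa [map_mul, not_mem_pm.mp hw, mul_one] at hb

theorem Form.finite [NeZero M] (hU : LevM U M) {y : Y U} {α : Pl F → Fˣ} {k : Pl F → G2 F}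
    (h : Form M y α k) : {w | av w ((α w : F) * M) ≠ 1}.Finite := by
  refine (y.fin.union (finite_pm M)).subset ?_
  intro w hw
  by_contra hc
  rw [Set.mem_union, not_or] at hc
  obtain ⟨h1, h2⟩ := hc
  apply hw
  have h3 : y w = ((1 : G2 F) : Yl U w) := by
    by_contra h4; exact h1 h4
  have h4 := h.out w h2
  have hg := hU.good w (not_mem_pm.mp h2)
  rw [map_mul, not_mem_pm.mp h2, mul_one]
  have h5 : ∀ b : F, av w b ≤ av w (α w : F) ↔ av w b ≤ 1 := by
    intro b
    rw [← un_smul_dg_iff' hg (α w) b, ← h4, h3]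
    have := un_smul_dg_iff' (U := U) hg 1 b
    rw [H.dg_one, Units.val_one, map_one] at this
    exact this
  apply le_antisymm
  · exact (h5 _).mp le_rfl
  · have := (h5 1).mpr (by rw [map_one])
    rwa [map_one] at this

/-- existence of Iwasawa forms -/
theorem exists_form [NeZero M] (hU : LevM U M) (y : Y U) : ∃ (b : F) (y' : Y U) (α : Pl F → Fˣ)
    (k : Pl F → G2 F), y = un b • y' ∧ Form M y' α k := by
  classical
  have hloc : ∀ w : Pl F, ∃ (b : F) (α : Fˣ) (k : G2 F), k ∈ intGL w ∧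
      y w = ((un b * dg α * k : G2 F) : Yl U w) ∧ (w ∉ pm M → y w = ((1 : G2 F) : Yl U w) → α = 1)
      ∧ (w ∉ pm M → y w = ((un b * dg α : G2 F) : Yl U w)) := by
    intro w
    by_cases h1 : w ∉ pm (F := F) M ∧ y w = ((1 : G2 F) : Yl U w)
    · refine ⟨0, 1, 1, one_mem _, ?_, fun _ _ => rfl, fun _ => ?_⟩
      · rw [h1.2, un_zero, H.dg_one, one_mul, one_mul]
      · rw [h1.2, un_zero, H.dg_one, one_mul]
    · obtain ⟨g, hg⟩ := QuotientGroup.mk_surjective (y w)
      obtain ⟨c, α, b, k, hk, he⟩ := iwasawa w g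
      have h2 : y w = ((un b * dg α * k : G2 F) : Yl U w) := by
        rw [← hg, he, sc_comm]
        change ((un b * dg α * k * sc c : G2 F) : Yl U w) = _
        rw [eq_comm, QuotientGroup.eq, inv_mul_cancel_left]
        exact U.scal_le w (sc_mem c)
      refine ⟨b, α, k, hk, h2, fun h3 h4 => absurd ⟨h3, h4⟩ h1, fun h3 => ?_⟩
      rw [h2, eq_comm, QuotientGroup.eq, inv_mul_cancel_left, U.H_eq (hU.good w (not_mem_pm.mp h3))]
      exact intGL_le_stdH w hk
  choose b α k hk hy h1 h2 using hloc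
  let y' : Y U := ⟨fun w => if w ∈ pm M then ((dg (α w) * k w : G2 F) : Yl U w) else
    ((dg (α w) : G2 F) : Yl U w), by
      refine (y.fin.union (finite_pm M)).subset ?_
      intro w hw
      by_contra hc
      rw [Set.mem_union, not_or] at hc
      obtain ⟨h3, h4⟩ := hc
      apply hw
      have h5 : y w = ((1 : G2 F) : Yl U w) := by
        by_contra h6; exact h3 h6
      change (if w ∈ pm M then ((dg (α w) * k w : G2 F) : Yl U w) else
        ((dg (α w) : G2 F) : Yl U w)) = _
      rw [if_neg h4, h1 w h4 h5, H.dg_one]⟩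
  have hy'1 : ∀ w ∈ pm M, y' w = ((dg (α w) * k w : G2 F) : Yl U w) := fun w hw => if_pos hw
  have hy'2 : ∀ w ∉ pm M, y' w = ((dg (α w) : G2 F) : Yl U w) := fun w hw => if_neg hw
  obtain ⟨β, hβ⟩ := exists_un_eq y' y (fun w => ⟨b w, by
    by_cases hw : w ∈ pm M
    · rw [hy'1 w hw, hy w]
      change _ = ((un (b w) * (dg (α w) * k w) : G2 F) : Yl U w)
      rw [mul_assoc]
    · rw [hy'2 w hw, h2 w hw]
      rfl⟩)
  exact ⟨β, y', α, k, hβ, ⟨hy'2, fun w hw => ⟨hk w, hy'1 w hw⟩⟩⟩

end form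

/-! ### the support of a Whittaker function, and the Hecke step -/

section whit

variable {D : Datum F} (E : Eis3 D) {M : ℕ} [NeZero M]

theorem M_ne_zero : (M : F) ≠ 0 := Nat.cast_ne_zero.mpr (NeZero.ne M)

variable (M) in
/-- `ν₀ = (M √-3)⁻¹` -/
noncomputable def nu0 : Fˣ := (Units.mk0 ((M : F) * s3 E) (mul_ne_zero M_ne_zero (s3_ne_zero E)))⁻¹

theorem nu0_val : (nu0 E M : F) = ((M : F) * s3 E)⁻¹ := by
  rw [nu0, Units.val_inv_eq_inv_val]; rfl

theorem nu0_eq : (nu0 E M : F) = ((M : F) * (1 + 2 * E.w3))⁻¹ := nu0_val E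

theorem av_nu0_mul (w : Pl F) : av w (nu0 E M : F) * av w (M : F) * av w (s3 E) = 1 := by
  rw [← map_mul, ← map_mul, nu0_val, mul_assoc, inv_mul_cancel₀ (mul_ne_zero M_ne_zero
    (s3_ne_zero E)), map_one]

variable {a : Y D.toLevel → ℂ}

/-- an element concentrated at `w₀` -/
theorem exists_conc (γ : Pl F → Fˣ) (hγ : {w | av w (γ w : F) ≠ 1}.Finite) (w₀ : Pl F) :
    ∃ x : F, av w₀ x = av w₀ (γ w₀ : F) ∧ ∀ w, av w x ≤ av w (γ w : F) := by
  classical
  have hpos : ∀ w, 0 < av w (γ w : F) := fun w => (av w).pos (γ w).ne_zero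
  obtain ⟨x, hx1, hx2⟩ := strong_approx (insert w₀ hγ.toFinset)
    (fun w => if w = w₀ then (γ w₀ : F) else 0)
    (fun w => if w = w₀ then av w₀ (γ w₀ : F) / 2 else av w (γ w : F)) (by
      intro w
      split_ifs
      · have := hpos w₀
        positivity
      · exact hpos w)
  have h0 : av w₀ x = av w₀ (γ w₀ : F) := by
    have h1 := hx1 w₀ (Finset.mem_insert_self _ _)
    simp only [if_true] at h1
    have hp := hpos w₀
    have h2 : av w₀ (x - (γ w₀ : F)) < av w₀ (γ w₀ : F) := by linarith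
    apply le_antisymm
    · have h3 := av_add_le w₀ (x - (γ w₀ : F)) (γ w₀ : F)
      rw [sub_add_cancel] at h3
      exact h3.trans (max_le h2.le le_rfl)
    · by_contra hc
      push Not at hc
      have h3 := av_add_le w₀ (-(x - (γ w₀ : F))) x
      rw [(av w₀).map_neg] at h3
      have h4 : -(x - (γ w₀ : F)) + x = (γ w₀ : F) := by ring
      rw [h4] at h3
      exact absurd h3 (not_le.mpr (max_lt h2 hc))
  refine ⟨x, h0, fun w => ?_⟩
  by_cases hw : w = w₀
  · subst hw; exact h0.le
  · by_cases hw' : av w (γ w : F) = 1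
    · rw [hw']
      by_cases hT : w ∈ insert w₀ hγ.toFinset
      · have h1 := hx1 w hT
        simp only [if_neg hw, sub_zero] at h1
        rwa [hw'] at h1
      · exact hx2 w hT
    · have h1 := hx1 w (Finset.mem_insert_of_mem ((Set.Finite.mem_toFinset _).mpr hw'))
      simpa only [if_neg hw, sub_zero] using h1

/-- `α w * M` as a unit -/
noncomputable def mM (M : ℕ) [NeZero M] (α : Pl F → Fˣ) (w : Pl F) : Fˣ :=
  α w * Units.mk0 (M : F) M_ne_zero

theorem mM_val (α : Pl F → Fˣ) (w : Pl F) : (mM M α w : F) = (α w : F) * M := rfl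

/-- **Support of Whittaker functions.** -/
theorem supp_le (hU : LevM D.toLevel M) (ha : IsWY D.toArch a) {y : Y D.toLevel}
    {α : Pl F → Fˣ} {k : Pl F → G2 F} (h : Form M y α k) (hy : a y ≠ 0) (w : Pl F) :
    av w ((α w : F) * M * s3 E) ≤ 1 := by
  obtain ⟨x, hx1, hx2⟩ := exists_conc (mM M α) (h.finite hU) w
  have hsupp := ha.supp hy
  have key : ∀ o : 𝓞 F, ∃ m : ℤ, trC D.toArch (embI D.toArch (x * o)) = m := by
    intro o
    have hfix : un (x * o) • y = y := by
      refine Y.ext' fun v => ?_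
      rw [G2_smul_apply]
      apply h.fix hU
      rw [map_mul]
      exact (mul_le_of_le_one_right ((av v).nonneg _) (CTree.av_algebraMap_le_one v o)).trans
        (hx2 v)
    have := hsupp (x * o) hfix
    rwa [one_mul] at this
  have h1 := av_le_of_tr E key w
  rw [map_mul, hx1, ← map_mul] at h1
  exact h1

theorem supp_le' (hU : LevM D.toLevel M) (ha : IsWY D.toArch a) {y : Y D.toLevel}
    {α : Pl F → Fˣ} {k : Pl F → G2 F} (h : Form M y α k) (hy : a y ≠ 0) (w : Pl F) :
    av w (α w : F) ≤ av w (nu0 E M : F) := by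
  have h1 := supp_le E hU ha h hy w
  rw [map_mul, map_mul] at h1
  have h2 := av_nu0_mul (M := M) E w
  have hM : 0 < av w (M : F) := (av w).pos M_ne_zero
  have hs : 0 < av w (s3 E) := (av w).pos (s3_ne_zero E)
  have h3 : av w (α w : F) * (av w (M : F) * av w (s3 E)) ≤
      av w (nu0 E M : F) * (av w (M : F) * av w (s3 E)) := by
    rw [← mul_assoc, ← mul_assoc, h2]; exact h1
  exact le_of_mul_le_mul_right h3 (mul_pos hM hs)

open Classical in
/-- replacing a component at a good place -/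
theorem Form.upd {y : Y D.toLevel} {α : Pl F → Fˣ} {k : Pl F → G2 F} (h : Form M y α k)
    {w : Pl F} (hw : w ∉ pm M) (β : Fˣ) :
    Form M (upd y w ((dg β : G2 F) : Yl D.toLevel w)) (Function.update α w β) k where
  out v hv := by
    by_cases hvw : v = w
    · subst hvw
      rw [upd_same, Function.update_self]
    · rw [upd_ne y hvw, Function.update_of_ne hvw]
      exact h.out v hv
  inn v hv := by
    have hvw : v ≠ w := fun e => hw (e ▸ hv)
    rw [upd_ne y hvw, Function.update_of_ne hvw]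
    exact h.inn v hv

theorem dg_class_eq {U : Level F} {w : Pl F} (hw : U.n w = 0) {α β : Fˣ}
    (h : av w (α : F) = av w (β : F)) : ((dg α : G2 F) : Yl U w) = ((dg β : G2 F) : Yl U w) := by
  rw [QuotientGroup.eq, U.H_eq hw]
  have e : (dg α)⁻¹ * dg β = dg (α⁻¹ * β) := by
    rw [H.dg_mul]
    congr 1
    rw [inv_eq_iff_mul_eq_one, ← H.dg_mul, mul_inv_cancel, H.dg_one]
  rw [e]
  apply intGL_le_stdH
  have h1 : av w ((α⁻¹ * β : Fˣ) : F) = 1 := by
    rw [Units.val_mul, map_mul, Units.val_inv_eq_inv_val, map_inv₀, h,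
      inv_mul_cancel₀ ((av w).pos β.ne_zero).ne']
  have h2 : ∀ u : Fˣ, av w (u : F) = 1 → nm w (dg u).1 ≤ 1 := by
    intro u hu
    rw [nm_le_iff]
    intro i j
    fin_cases i <;> fin_cases j <;> simp [dg_val, hu]
  refine ⟨h2 _ h1, ?_⟩
  have e2 : (dg (α⁻¹ * β))⁻¹ = dg ((α⁻¹ * β)⁻¹) := by
    rw [inv_eq_iff_mul_eq_one, ← H.dg_mul, mul_inv_cancel, H.dg_one]
  rw [e2]
  apply h2
  rw [Units.val_inv_eq_inv_val, map_inv₀, h1, inv_one]

/-- duality at points which are close to a point in the support -/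
theorem dual_of_supp (hU : LevM D.toLevel M) (ha : IsWY D.toArch a) {y : Y D.toLevel}
    {α : Pl F → Fˣ} {k : Pl F → G2 F} (h : Form M y α k) (hy : a y ≠ 0) {w : Pl F}
    (hw : w ∉ pm M) {z : Y D.toLevel} (hz : ∀ v ≠ w, z v = y v) {β : Fˣ}
    (hzw : z w = ((dg β : G2 F) : Yl D.toLevel w)) (hβ : av w (β : F) ≤ av w (nu0 E M : F)) :
    (1 : F) ∈ dualOf D.toArch (bY z) := by
  classical
  rw [one_mem_dualOf_iff]
  intro b hb
  have hgw := hU.good w (not_mem_pm.mp hw)
  have hbz : ∀ v, un b • z v = z v := fun v => congrArg (fun z : Y D.toLevel => z v)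
    (show un b • z = z from hb)
  have hbw : av w b ≤ av w (nu0 E M : F) := by
    have := hbz w
    rw [hzw, un_smul_dg_iff' hgw] at this
    exact this.trans hβ
  have hfin := h.finite hU
  obtain ⟨x, hx1, hx2⟩ := strong_approx (insert w hfin.toFinset)
    (fun v => if v = w then b else 0) (fun v => av v (mM M α v : F))
    (fun v => (av v).pos (mM M α v).ne_zero)
  have hxw : av w (x - b) ≤ av w ((α w : F) * M) := by
    have := hx1 w (Finset.mem_insert_self _ _)
    simp only [if_true] at this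
    exact this
  have hxv : ∀ v ≠ w, av v x ≤ av v ((α v : F) * M) := by
    intro v hv
    by_cases hv' : av v ((α v : F) * M) = 1
    · rw [hv']
      by_cases hT : v ∈ insert w hfin.toFinset
      · have h1 := hx1 v hT
        simp only [if_neg hv, sub_zero] at h1
        rw [mM_val, hv'] at h1
        exact h1
      · exact hx2 v hT
    · have h1 := hx1 v (Finset.mem_insert_of_mem ((Set.Finite.mem_toFinset _).mpr hv'))
      simp only [if_neg hv, sub_zero] at h1
      exact h1
  -- the trace of `x` is an integer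
  have hpx : psF D.toArch x = 1 := by
    rw [psF_eq_one_iff]
    apply tr_of_av_le E
    intro v
    by_cases hv : v = w
    · subst hv
      have h1 : av v x ≤ max (av v (x - b)) (av v b) := by
        have := av_add_le v (x - b) b
        rwa [sub_add_cancel] at this
      rw [map_mul]
      refine (mul_le_mul_of_nonneg_right h1 ((av v).nonneg _)).trans ?_
      rw [max_mul_of_nonneg _ _ ((av v).nonneg _)]
      apply max_le
      · refine (mul_le_mul_of_nonneg_right hxw ((av v).nonneg _)).trans ?_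
        rw [← map_mul]
        exact supp_le E hU ha h hy v
      · refine (mul_le_mul_of_nonneg_right hbw ((av v).nonneg _)).trans ?_
        have := av_nu0_mul (M := M) E v
        rw [not_mem_pm.mp hw, mul_one] at this
        exact this.le
    · rw [map_mul]
      refine (mul_le_mul_of_nonneg_right (hxv v hv) ((av v).nonneg _)).trans ?_
      rw [← map_mul]
      exact supp_le E hU ha h hy v
  -- `b - x` fixes `y`
  have hfix : un (b - x) • y = y := by
    refine Y.ext' fun v => ?_
    rw [G2_smul_apply]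
    by_cases hv : v = w
    · subst hv
      apply h.fix hU
      rw [← (av v).map_neg, neg_sub]
      exact hxw
    · have h1 : un x • y v = y v := h.fix hU (hxv v hv)
      have h2 := hbz v
      rw [hz v hv] at h2
      rw [sub_eq_add_neg, un_add, mul_smul, un_neg]
      have h3 : (un x)⁻¹ • y v = y v := by
        nth_rewrite 1 [← h1]
        rw [inv_smul_smul]
      rw [h3, h2]
  have h1 := (one_mem_dualOf_iff _ _).mp (ha.supp hy) (b - x) hfix
  have h2 : b = (b - x) + x := by ring
  rw [h2, psF_add, h1, hpx, one_mul]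

/-- **The Hecke step.** -/
theorem hecke_step (hU : LevM D.toLevel M) (ha : IsWY D.toArch a) {w : Pl F}
    (hw : w ∉ pm M) {μ : ℂ} (hecke : ∀ y, TY w a y = μ * a y) {y : Y D.toLevel}
    {α : Pl F → Fˣ} {k : Pl F → G2 F} (h : Form M y α k) (hy : a y ≠ 0) :
    a (upd y w ((dg (nu0 E M) : G2 F) : Yl D.toLevel w)) ≠ 0 := by
  classical
  intro h0
  have hgw := hU.good w (not_mem_pm.mp hw)
  set y0 := upd y w ((dg (nu0 E M) : G2 F) : Yl D.toLevel w) with hy0
  have hz : ∀ n : ℤ, tg (Finsupp.single w n) • y0 =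
      upd y w ((dg (unif w ^ n * nu0 E M) : G2 F) : Yl D.toLevel w) := by
    intro n
    refine Y.ext' fun v => ?_
    by_cases hv : v = w
    · subst hv
      rw [tg_single_apply, hy0, upd_same, upd_same, H.dg_mul]
      rfl
    · rw [tg_single_apply_ne hv, hy0, upd_ne y hv, upd_ne y hv]
  have hform : ∀ n : ℤ, Form M (tg (Finsupp.single w n) • y0)
      (Function.update α w (unif w ^ n * nu0 E M)) k := by
    intro n
    rw [hz]
    exact h.upd hw _
  have hq : 1 < qv w := one_lt_qv w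
  have hν : 0 < av w (nu0 E M : F) := (av w).pos (nu0 E M).ne_zero
  have hav : ∀ n : ℤ, av w ((unif w ^ n * nu0 E M : Fˣ) : F) = qv w ^ (-n) * av w (nu0 E M : F) := by
    intro n
    rw [Units.val_mul, map_mul, Units.val_zpow_eq_zpow_val, map_zpow₀, av_unif, _root_.inv_zpow,
      ← _root_.zpow_neg]
  have key : ∀ n : ℕ, a (tg (Finsupp.single w ((n : ℤ) - 1)) • y0) = 0 ∧
      a (tg (Finsupp.single w (n : ℤ)) • y0) = 0 := by
    intro n
    induction n with
    | zero =>
      constructor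
      · by_contra hne
        have h1 := supp_le' E hU ha (hform _) hne w
        rw [Function.update_self, hav] at h1
        have h2 : qv w ^ (-(((0 : ℕ) : ℤ) - 1)) = qv w := by norm_num
        rw [h2] at h1
        nlinarith
      · rw [Nat.cast_zero, Finsupp.single_zero, tg_zero, one_smul]
        exact h0
    | succ n ih =>
      obtain ⟨ih1, ih2⟩ := ih
      constructor
      · push_cast
        rw [add_sub_cancel_right]
        exact ih2
      · set z := tg (Finsupp.single w (n : ℤ)) • y0 with hzdef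
        have hzw : z w = ((dg (unif w ^ (n : ℤ) * nu0 E M) : G2 F) : Yl D.toLevel w) := by
          rw [hzdef, hz, upd_same]
        have hd : (1 : F) ∈ dualOf D.toArch (bY z) := by
          refine dual_of_supp E hU ha h hy hw (fun v hv => ?_) hzw ?_
          · rw [hzdef, hz, upd_ne y hv]
          · rw [hav]
            refine mul_le_of_le_one_left hν.le ?_
            rw [_root_.zpow_neg]
            exact inv_le_one_of_one_le₀ (one_le_zpow₀ hq.le (by positivity))
        have h1 := ha.hecke_tor hgw hzw hd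
        rw [hecke, hzdef, tg_single_smul, tg_single_smul, ← hzdef, ih2, mul_zero] at h1
        rw [show (-1 : ℤ) + n = n - 1 by ring, ih1, zero_add] at h1
        have h2 : (qn w : ℂ) ≠ 0 := by
          have : (0 : ℝ) < qn w := by rw [← CTree.qv_eq]; exact qv_pos w
          exact_mod_cast this.ne'
        rcases mul_eq_zero.mp h1.symm with h3 | h3
        · exact absurd h3 h2
        · push_cast
          rwa [add_comm]
  -- `y` is one of these points
  have h1 := supp_le' E hU ha h hy w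
  rw [CTree.av_eq_zpow w (α w).ne_zero, CTree.av_eq_zpow w (nu0 E M).ne_zero] at h1
  have h2 : lv w (α w : F) ≤ lv w (nu0 E M : F) := by
    by_contra hc
    push Not at hc
    exact absurd h1 (not_le.mpr (zpow_lt_zpow_right₀ hq hc))
  obtain ⟨n, hn⟩ : ∃ n : ℕ, (n : ℤ) = lv w (nu0 E M : F) - lv w (α w : F) :=
    ⟨(lv w (nu0 E M : F) - lv w (α w : F)).toNat, Int.toNat_of_nonneg (by linarith)⟩
  have h3 : tg (Finsupp.single w (n : ℤ)) • y0 = y := by
    rw [hz]
    have h4 : ((dg (unif w ^ (n : ℤ) * nu0 E M) : G2 F) : Yl D.toLevel w) = y w := by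
      rw [h.out w hw]
      apply dg_class_eq hgw
      rw [hav, CTree.av_eq_zpow w (α w).ne_zero, CTree.av_eq_zpow w (nu0 E M).ne_zero,
        ← zpow_add₀ (qv_pos w).ne']
      congr 1
      rw [hn]; ring
    rw [h4, upd_self]
  apply hy
  rw [← h3]
  exact (key n).2

/-- all good places -/
theorem reduce_finset (hU : LevM D.toLevel M) (ha : IsWY D.toArch a)
    (hecke : ∀ w ∉ pm (F := F) M, ∃ μ : ℂ, ∀ y, TY w a y = μ * a y) {k : Pl F → G2 F}
    (S : Finset (Pl F)) (hS : ∀ w ∈ S, w ∉ pm (F := F) M) {y : Y D.toLevel}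
    {α : Pl F → Fˣ} (h : Form M y α k) (hy : a y ≠ 0) :
    ∃ (y' : Y D.toLevel) (α' : Pl F → Fˣ), Form M y' α' k ∧ a y' ≠ 0 ∧
      (∀ w ∈ pm (F := F) M, α' w = α w) ∧ (∀ w ∉ S, y' w = y w) ∧
      ∀ w ∈ S, y' w = ((dg (nu0 E M) : G2 F) : Yl D.toLevel w) := by
  classical
  induction S using Finset.induction_on with
  | empty => exact ⟨y, α, h, hy, fun _ _ => rfl, fun _ _ => rfl, by simp⟩
  | insert w S hwS ih =>
    obtain ⟨y', α', h', hy', h1, h2, h3⟩ := ih fun v hv => hS v (Finset.mem_insert_of_mem hv)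
    have hw := hS w (Finset.mem_insert_self _ _)
    obtain ⟨μ, hμ⟩ := hecke w hw
    refine ⟨_, _, h'.upd hw (nu0 E M), hecke_step E hU ha hw hμ h' hy', ?_, ?_, ?_⟩
    · intro v hv
      have hvw : v ≠ w := fun e => hw (e ▸ hv)
      rw [Function.update_of_ne hvw, h1 v hv]
    · intro v hv
      have hvw : v ≠ w := fun e => hv (e ▸ Finset.mem_insert_self _ _)
      rw [upd_ne _ hvw, h2 v fun hc => hv (Finset.mem_insert_of_mem hc)]
    · intro v hv
      by_cases hvw : v = w
      · subst hvw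
        rw [upd_same]
      · rw [upd_ne _ hvw]
        exact h3 v ((Finset.mem_insert.mp hv).resolve_left hvw)

theorem reduce_good (hU : LevM D.toLevel M) (ha : IsWY D.toArch a)
    (hecke : ∀ w ∉ pm (F := F) M, ∃ μ : ℂ, ∀ y, TY w a y = μ * a y) {y : Y D.toLevel}
    (hy : a y ≠ 0) : ∃ (y' : Y D.toLevel) (α : Pl F → Fˣ) (k : Pl F → G2 F), Form M y' α k ∧
      a y' ≠ 0 ∧ ∀ w ∉ pm (F := F) M, y' w = ((dg (nu0 E M) : G2 F) : Yl D.toLevel w) := by
  classical
  obtain ⟨b, y1, α, k, rfl, h⟩ := exists_form (M := M) hU y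
  have hy1 : a y1 ≠ 0 := by
    intro h0
    apply hy
    rw [ha, h0, mul_zero]
  have hfin : {w | w ∉ pm (F := F) M ∧ y1 w ≠ ((dg (nu0 E M) : G2 F) : Yl D.toLevel w)}.Finite := by
    refine (y1.fin.union (av_finite (nu0 E M).ne_zero)).subset ?_
    rintro w ⟨hw1, hw2⟩
    by_contra hc
    rw [Set.mem_union, not_or] at hc
    obtain ⟨h1, h2⟩ := hc
    apply hw2
    have h3 : y1 w = ((1 : G2 F) : Yl D.toLevel w) := by
      by_contra h4; exact h1 h4
    have h4 : av w (nu0 E M : F) = 1 := by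
      by_contra h5; exact h2 h5
    rw [h3, ← H.dg_one]
    apply dg_class_eq (hU.good w (not_mem_pm.mp hw1))
    rw [h4, Units.val_one, map_one]
  obtain ⟨y', α', h', hy', -, h2, h3⟩ := reduce_finset E hU ha hecke hfin.toFinset
    (fun w hw => ((Set.Finite.mem_toFinset _).mp hw).1) h hy1
  refine ⟨y', α', k, h', hy', fun w hw => ?_⟩
  by_cases hw' : w ∈ hfin.toFinset
  · exact h3 w hw'
  · rw [h2 w hw']
    by_contra hne
    exact hw' ((Set.Finite.mem_toFinset _).mpr ⟨hw, hne⟩)

/-! ### the places dividing `M` -/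

include E in
/-- an integer with prescribed valuations at the places dividing `M` -/
theorem exists_int_val (n : Pl F → ℕ) : ∃ x : 𝓞 F, x ≠ 0 ∧
    (∀ w ∈ pm (F := F) M, av w (x : F) = (qv w)⁻¹ ^ n w) ∧
    ∀ w ∉ pm (F := F) M, av w (x : F) = 1 := by
  classical
  have h : ∀ w : Pl F, ∃ p : 𝓞 F, p ≠ 0 ∧ av w (p : F) = (qv w)⁻¹ ∧
      ∀ v ≠ w, av v (p : F) = 1 := by
    intro w
    obtain ⟨p, hp, rfl⟩ := E.exists_plc w
    refine ⟨E.eO p, (map_ne_zero_iff E.eO E.eO.injective).2 hp.ne_zero, ?_, fun v hv => ?_⟩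
    · rw [← E.av_plc_self p hp, ← E.coe_eO]
    · rw [← E.av_toF_eq_one p hp hv, ← E.coe_eO]
  choose p hp0 hp1 hp2 using h
  refine ⟨∏ w ∈ (finite_pm (F := F) M).toFinset, p w ^ n w, ?_, ?_, ?_⟩
  · exact Finset.prod_ne_zero_iff.mpr fun w _ => pow_ne_zero _ (hp0 w)
  · intro v hv
    change av v (algebraMap (𝓞 F) F (∏ w ∈ (finite_pm (F := F) M).toFinset, p w ^ n w)) = _
    rw [map_prod, map_prod, Finset.prod_eq_single v]
    · rw [map_pow, map_pow]
      exact congrArg (· ^ n v) (hp1 v)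
    · intro w _ hw
      rw [map_pow, map_pow]
      change av v (p w : F) ^ n w = 1
      rw [hp2 w v hw.symm, one_pow]
    · intro h
      exact absurd ((Set.Finite.mem_toFinset _).mpr hv) h
  · intro v hv
    change av v (algebraMap (𝓞 F) F (∏ w ∈ (finite_pm (F := F) M).toFinset, p w ^ n w)) = _
    rw [map_prod, map_prod]
    apply Finset.prod_eq_one
    intro w hw
    have hvw : v ≠ w := fun e => hv (e ▸ (Set.Finite.mem_toFinset _).mp hw)
    rw [map_pow, map_pow]
    change av v (p w : F) ^ n w = 1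
    rw [hp2 w v hvw, one_pow]

theorem nm_lt_det (w : Pl F) {g g' : Matrix (Fin 2) (Fin 2) F} (hg : nm w g ≤ 1)
    (hg' : nm w (g' - g) < 1) : av w (g'.det - g.det) < 1 := by
  have h1 := fun i j => (nm_le_iff w _ _).mp hg i j
  have h2 : ∀ i j, av w (g' i j - g i j) < 1 := fun i j =>
    ((nm_le_iff w (g' - g) _).mp le_rfl i j).trans_lt hg'
  have h3 : ∀ i j, av w (g' i j) ≤ 1 := by
    intro i j
    have := av_add_le w (g' i j - g i j) (g i j)
    rw [sub_add_cancel] at this
    exact this.trans (max_le (h2 i j).le (h1 i j))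
  have e : g'.det - g.det = (g' 0 0 * (g' 1 1 - g 1 1) + g 1 1 * (g' 0 0 - g 0 0)) -
      (g' 0 1 * (g' 1 0 - g 1 0) + g 1 0 * (g' 0 1 - g 0 1)) := by
    rw [Matrix.det_fin_two, Matrix.det_fin_two]; ring
  have h4 : ∀ x y : F, av w x ≤ 1 → av w y < 1 → av w (x * y) < 1 := by
    intro x y hx hy
    rw [map_mul]
    calc av w x * av w y ≤ 1 * av w y := mul_le_mul_of_nonneg_right hx ((av w).nonneg _)
      _ < 1 := by rwa [one_mul]
  rw [e]
  refine (av_sub_le' w _ _).trans_lt (max_lt ?_ ?_)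
  · exact (av_add_le w _ _).trans_lt (max_lt (h4 _ _ (h3 _ _) (h2 _ _)) (h4 _ _ (h1 _ _) (h2 _ _)))
  · exact (av_add_le w _ _).trans_lt (max_lt (h4 _ _ (h3 _ _) (h2 _ _)) (h4 _ _ (h1 _ _) (h2 _ _)))

/-- weak approximation of integral matrices at the places dividing `M` -/
theorem exists_approx_intM (g : Pl F → G2 F) (hg : ∀ w ∈ pm (F := F) M, g w ∈ intGL w) :
    ∃ k : G2 F, k ∈ intM F M ∧ ∀ w ∈ pm (F := F) M, CongAt M w (k⁻¹ * g w) := by
  classical
  by_cases hne : (pm (F := F) M).Nonempty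
  · obtain ⟨w₀, hw₀⟩ := hne
    have hM : ∀ w : Pl F, 0 < av w (M : F) := fun w => (av w).pos M_ne_zero
    choose e he1 he2 using fun i j => strong_approx (finite_pm (F := F) M).toFinset
      (fun w => (g w).1 i j) (fun w => av w (M : F)) hM
    set A : Matrix (Fin 2) (Fin 2) F := Matrix.of fun i j => e i j with hA
    have hAw : ∀ w ∈ pm (F := F) M, nm w (A - (g w).1) ≤ av w (M : F) := by
      intro w hw
      rw [nm_le_iff]
      intro i j
      exact he1 i j w ((Set.Finite.mem_toFinset _).mpr hw)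
    have hdet : ∀ w ∈ pm (F := F) M, av w A.det = 1 := by
      intro w hw
      have h1 := nm_lt_det w (hg w hw).1 ((hAw w hw).trans_lt hw)
      have h2 : av w (g w).1.det = 1 := av_det_intGL (hg w hw)
      have h3 : av w A.det ≤ 1 := by
        have := av_add_le w (A.det - (g w).1.det) (g w).1.det
        rw [sub_add_cancel] at this
        exact this.trans (max_le h1.le h2.le)
      refine le_antisymm h3 ?_
      by_contra hc
      push Not at hc
      have h4 := av_sub_le' w A.det (A.det - (g w).1.det)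
      rw [sub_sub_cancel, h2] at h4
      exact absurd h4 (not_le.mpr (max_lt hc h1))
    have hA0 : A.det ≠ 0 := by
      intro h0
      have := hdet w₀ hw₀
      rw [h0, map_zero] at this
      exact zero_ne_one this
    set k : G2 F := Matrix.GeneralLinearGroup.mkOfDetNeZero A hA0 with hk
    have hkv : k.1 = A := rfl
    have hkint : ∀ w ∈ pm (F := F) M, k ∈ intGL w := by
      intro w hw
      apply mem_intGL_of
      · rw [hkv]
        have h1 : A = (A - (g w).1) + (g w).1 := by rw [sub_add_cancel]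
        rw [h1]
        exact (nm_add_le w _ _).trans (max_le ((hAw w hw).trans (av_natCast_le_one w M))
          (hg w hw).1)
      · rw [hkv]; exact hdet w hw
    refine ⟨k, mem_intM.mpr hkint, fun w hw => ⟨mul_mem (inv_mem (hkint w hw)) (hg w hw), ?_⟩⟩
    have e1 : (k⁻¹ * g w).1 - 1 = (k⁻¹).1 * ((g w).1 - k.1) := by
      rw [mul_sub, Units.val_mul, ← Units.val_mul k⁻¹ k, inv_mul_cancel, Units.val_one]
    rw [e1]
    refine (nm_mul_le w _ _).trans ?_
    have h1 : nm w ((g w).1 - k.1) ≤ av w (M : F) := by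
      rw [← nm_neg, neg_sub, hkv]
      exact hAw w hw
    calc nm w (k⁻¹).1 * nm w ((g w).1 - k.1) ≤ 1 * nm w ((g w).1 - k.1) :=
          mul_le_mul_of_nonneg_right (hkint w hw).2 (Fermat.LT.nm_nonneg w _)
      _ ≤ av w (M : F) := by rw [one_mul]; exact h1
  · refine ⟨1, one_mem _, fun w hw => absurd ⟨w, hw⟩ hne⟩

theorem dg_mem_intGL {w : Pl F} {u : Fˣ} (hu : av w (u : F) = 1) : dg u ∈ intGL w := by
  apply mem_intGL_of
  · rw [nm_le_iff]
    intro i j
    fin_cases i <;> fin_cases j <;> simp [dg_val, hu]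
  · rw [dg_val, Matrix.det_fin_two]
    simpa using hu

/-- **The nonzero coefficient**, in terms of Whittaker functions. -/
theorem exists_whit (hU : LevM D.toLevel M) (ha : IsWY D.toArch a)
    (hecke : ∀ w ∉ pm (F := F) M, ∃ μ : ℂ, ∀ y, TY w a y = μ * a y) {y : Y D.toLevel}
    (hy : a y ≠ 0) : ∃ x : 𝓞 F, x ≠ 0 ∧ (∀ w ∉ pm (F := F) M, av w (x : F) = 1) ∧
      ∃ x' : Fˣ, (x' : F) = x ∧ ∃ k ∈ intM F M,
        a (dg (nu0 E M) • (ins M (dg x' * k) : Y D.toLevel)) ≠ 0 := by
  classical
  obtain ⟨y', α, k, h, hy', hout⟩ := reduce_good E hU ha hecke hy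
  -- the exponents
  have hn : ∀ w : Pl F, ∃ n : ℕ, av w (α w : F) = av w (nu0 E M : F) * (qv w)⁻¹ ^ n := by
    intro w
    have h1 := supp_le' E hU ha h hy' w
    rw [CTree.av_eq_zpow w (α w).ne_zero, CTree.av_eq_zpow w (nu0 E M).ne_zero] at h1
    have hq := one_lt_qv w
    have h2 : lv w (α w : F) ≤ lv w (nu0 E M : F) := by
      by_contra hc
      push Not at hc
      exact absurd h1 (not_le.mpr (zpow_lt_zpow_right₀ hq hc))
    refine ⟨(lv w (nu0 E M : F) - lv w (α w : F)).toNat, ?_⟩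
    have h3 : (((lv w (nu0 E M : F) - lv w (α w : F)).toNat : ℕ) : ℤ) =
        lv w (nu0 E M : F) - lv w (α w : F) := Int.toNat_of_nonneg (by linarith)
    rw [CTree.av_eq_zpow w (α w).ne_zero, CTree.av_eq_zpow w (nu0 E M).ne_zero, inv_pow,
      ← zpow_natCast, ← _root_.zpow_neg, ← zpow_add₀ (qv_pos w).ne', h3]
    congr 1; ring
  choose n hn using hn
  obtain ⟨x, hx0, hx1, hx2⟩ := exists_int_val (M := M) E n
  have hxF : (x : F) ≠ 0 := by simpa using hx0
  set x' : Fˣ := Units.mk0 (x : F) hxF with hx'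
  have hx'v : (x' : F) = x := rfl
  -- the units
  set u : Pl F → Fˣ := fun w => α w * (nu0 E M * x')⁻¹ with hu
  have hu1 : ∀ w ∈ pm (F := F) M, av w (u w : F) = 1 := by
    intro w hw
    have h1 : (0 : ℝ) < av w (nu0 E M : F) := (av w).pos (nu0 E M).ne_zero
    have h2 : (0 : ℝ) < av w (x : F) := (av w).pos hxF
    rw [hu]
    change av w ((α w : F) * (((nu0 E M * x')⁻¹ : Fˣ) : F)) = 1
    rw [Units.val_inv_eq_inv_val, Units.val_mul, map_mul, map_inv₀, map_mul, hx'v, hn w,
      ← hx1 w hw]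
    exact mul_inv_cancel₀ (mul_pos h1 h2).ne'
  obtain ⟨k', hk', hk'c⟩ := exists_approx_intM (M := M) (fun w => dg (u w) * k w)
    (fun w hw => mul_mem (dg_mem_intGL (hu1 w hw)) (h.inn w hw).1)
  refine ⟨x, hx0, hx2, x', hx'v, k', hk', ?_⟩
  have hfin : dg (nu0 E M) • (ins M (dg x' * k') : Y D.toLevel) = y' := by
    refine Y.ext' fun w => ?_
    rw [G2_smul_apply]
    by_cases hw : w ∈ pm (F := F) M
    · rw [ins_of_mem _ hw, (h.inn w hw).2]
      change ((dg (nu0 E M) * (dg x' * k') : G2 F) : Yl D.toLevel w) = _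
      rw [QuotientGroup.eq]
      have e1 : dg (α w) = dg (nu0 E M) * dg x' * dg (u w) := by
        rw [← H.dg_mul, ← H.dg_mul, hu]
        congr 1
        change α w = nu0 E M * x' * (α w * (nu0 E M * x')⁻¹)
        rw [mul_comm (α w), mul_inv_cancel_left]
      have e2 : (dg (nu0 E M) * (dg x' * k'))⁻¹ * (dg (α w) * k w) = k'⁻¹ * (dg (u w) * k w) := by
        rw [e1]; group
      rw [e2]
      exact hU.le w _ (hk'c w hw).1 (hk'c w hw).2
    · rw [ins_of_notMem _ hw, hout w hw]
      change ((dg (nu0 E M) * 1 : G2 F) : Yl D.toLevel w) = _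
      rw [mul_one]
  rw [hfin]
  exact hy'

end whit

/-! ### the main theorem -/

section main

variable {D : Datum F} {φ : X D → ℂ}

theorem isWY_cW (hinv : ∀ (g : G2 F) x, φ (g • x) = φ x) (t : D.I → ℝ) :
    IsWY D.toArch (fun y : Y D.toLevel => cW φ 1 t y) := fun b y => cW_un hinv 1 b t y

/-- **The nonzero coefficient.** -/
theorem exists_coef (E : Eis3 D) {M : ℕ} [NeZero M] (hU : LevM D.toLevel M)
    (hφ : B.IsCusp φ) (h0 : φ ≠ 0)
    (hecke : ∀ w ∉ pm (F := F) M, ∃ μ : ℂ, ∀ p, TX w φ p = μ * φ p) :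
    ∃ x : 𝓞 F, x ≠ 0 ∧ (∀ w ∉ pm (F := F) M, av w (x : F) = 1) ∧
      ∃ x' : Fˣ, (x' : F) = x ∧ ∃ k ∈ intM F M, ∃ t : D.I → ℝ,
        cW φ (nu0 E M : F) t (ins M (dg x' * k)) ≠ 0 := by
  have hinv : ∀ (g : G2 F) x, φ (g • x) = φ x := fun g x => hφ.inv (pmk g) x
  obtain ⟨t, y, hy⟩ := exists_cW_ne_zero' hφ h0 1
  rw [Units.val_one] at hy
  obtain ⟨x, hx0, hx1, x', hx', k, hk, h⟩ := exists_whit E hU (isWY_cW hinv t)
    (fun w hw => by
      obtain ⟨μ, hμ⟩ := hecke w hw
      exact ⟨μ, fun y => TY_cW hφ.cont hinv (hU.good w (not_mem_pm.mp hw)) hμ 1 t y⟩) hy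
  refine ⟨x, hx0, hx1, x', hx', k, hk, t - la D.toArch (nu0 E M), ?_⟩
  have h1 := cW_dg hinv 1 (nu0 E M) (t - la D.toArch (nu0 E M)) (ins M (dg x' * k))
  rw [one_mul] at h1
  rw [← h1, add_sub_cancel]
  exact h

end main

end Fermat.Agent.LT.J.CH
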