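import Mathlib
import Fermat.Agent.LT.J.BridgeXi
import Fermat.Agent.LT.J.BridgeLift
import Fermat.Agent.LT.J.BumpXi
import Fermat.Agent.LT.J.CoefRed

/-!
# J9, the bridge: the classical function attached to a cusp form

`exists_bridgeOut` : a nonzero cusp form `φ` on `X D` gives a `PhiSys M` with the properties
`BridgeOut`.
-/

set_option autoImplicit false

open NumberField IsDedekindDomain Matrix MeasureTheory
open Fermat.LT Fermat.Agent.LT.H Fermat.Agent.LT.I Fermat.Agent.LT.CTree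

namespace Fermat.Agent.LT.J

variable {F : Type} [Field F] [NumberField F] {D : Datum F}

/-- Properties of the classical function. -/
structure BridgeOut (E : Eis3 D) (M : ℕ) [NeZero M] (lam : Pl F → ℝ) (P : PhiSys M) : Prop where
  decay : ∀ N : ℕ, ∃ C : ℝ, ∀ (w : H3) (s : GM M), w.t ^ N * ‖P.Φ w s‖ ≤ C
  per : ∀ (β : EO) (z : ℂ) (t : ℝ) (ht : 0 < t) (s : GM M),
    P.Φ (H3.mk (z + M * toC β) t ht) s = P.Φ (H3.mk z t ht) s
  cusp : ∀ (t : ℝ) (ht : 0 < t) (s : GM M), H5.fc M (fun z => P.Φ (H3.mk z t ht) s) 0 = 0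
  hecke : ∀ (π : EO) (hπ : Prime π), ¬ π ∣ (M : EO) → ∀ R : Finset EO, Eis3.IsRes π R →
    ∀ (tb : EO → GM M), (∀ b ∈ R, (tb b).1 = rdM M (rM π b)) → ∀ (tI : GM M),
    tI.1 = rdM M (rI π) → ∀ (w : H3) (s : GM M),
    ∑ b ∈ R, P.Φ (matC (rM π b) (det_rM_ne hπ.ne_zero b) • w) (tb b * s) +
      P.Φ (matC (rI π) (det_rI_ne hπ.ne_zero) • w) (tI * s) =
    (Real.sqrt ((QE.nm π : ℤ) : ℝ) * lam (E.plc π hπ) : ℝ) * P.Φ w s
  heckeAt : ∀ p : ℕ, p.Prime → p ≠ 3 → IsCoprime (p : ℤ) (M : ℤ) → ∀ w : Pl F, qv w = p →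
    P.HeckeAt p (lam w)
  ne : ∃ (t : ℝ) (ht : 0 < t), H5.fc M (fun z => P.Φ (H3.mk z t ht) 1) 1 ≠ 0

variable {M : ℕ} [NeZero M] {φ : X D → ℂ} {ι : Type*} [Fintype ι] {a : ι → ℂ} {h : ι → G2 F}

theorem Eis3.xiSys (E : Eis3 D) (hU : LevM D.toLevel M) (hinv : ∀ (γ : PG F) x, φ (γ • x) = φ x)
    (hW : XiInv M φ a h) : XiSys E M (Xi M φ a h) where
  left _ hγ P g := E.Xi_smul hinv hU hγ P g
  cong P g κ hg hκ := hW P g κ hg hκ
  scal P g c := Xi_mul_sc P g c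

theorem exists_phiSys (E : Eis3 D) (hU : LevM D.toLevel M) (hc : B.IsCusp φ) {S : Set (Pl F)}
    (hS : ∀ w, D.n w = 0 → w ∈ S) {lam : Pl F → ℝ}
    (he : B.IsEig S (fun w => (lam w : ℂ)) 0 φ) (hW : XiInv M φ a h)
    (hne : ∃ (t : ℝ) (ht : 0 < t), H5.fc M (fun z => Xi M φ a h (H3.mk z t ht) 1) 1 ≠ 0) :
    ∃ P : PhiSys M, BridgeOut E M lam P := by
  classical
  have hX : XiSys E M (Xi M φ a h) := E.xiSys hU hc.inv hW
  have hHecke : ∀ (π : EO) (hπ : Prime π), E.plc π hπ ∉ pm M →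
      XiHecke E (Xi M φ a h) hπ ((Real.sqrt ((QE.nm π : ℤ) : ℝ) * lam (E.plc π hπ) : ℝ) : ℂ) := by
    intro π hπ hw R hR P g
    have hn : D.n (E.plc π hπ) = 0 := hU.good _ (not_mem_pm.mp hw)
    refine E.hecke_Xi hπ hU hw hc.inv (fun x => ?_) hR P g
    rw [he.hecke _ (hS _ hn) x, CTree.sq, E.qv_plc]
    push_cast
    rfl
  let P : PhiSys M :=
    { Φ := hX.Phi
      inv := fun γ w s => hX.Phi_inv γ w s
      cent := fun u w s => hX.Phi_cent u w s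
      cont := fun s => continuous_Xi hc.cont (E.lft s)
      bdd := by
        obtain ⟨C, hC⟩ := Xi_bdd (M := M) (a := a) (h := h) hc
        exact ⟨C, fun w s => hC w (E.lft s)⟩
      mean := fun g hg s w => E.kopH_Xi hc.cont he hg (E.lft s) w }
  refine ⟨P, ?_, ?_, ?_, ?_, ?_, ?_⟩
  · intro N
    choose C hC using fun s : GM M => E.Xi_decay (M := M) (a := a) (h := h) hc (E.lft s) N
    refine ⟨∑ s : GM M, |C s|, fun w s => (hC s w).trans ?_⟩
    exact (le_abs_self _).trans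
      (Finset.single_le_sum (f := fun s => |C s|) (fun _ _ => abs_nonneg _) (Finset.mem_univ s))
  · intro β z t ht s
    exact E.Xi_periodic hc.inv hU hW (E.lft_mem_intM s) β z ht
  · intro t ht s
    exact E.fc_Xi_zero hc hU hW (E.lft_mem_intM s) ht
  · intro π hπ hd R hR tb htb tI htI w s
    exact hX.Phi_hecke hπ (hHecke π hπ (fun h => hd ((E.plc_mem_pm π hπ M).1 h))) hR htb htI w s
  · intro p hp h3 hpM w hw
    have : Fact p.Prime := ⟨hp⟩
    obtain ⟨D', hπ, hplc⟩ := E.exists_splitPrime h3 hw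
    have hnm : QE.nm D'.pi = (p : ℤ) := D'.nm_pi
    have hnot : E.plc D'.pi hπ ∉ pm M := E.plc_notMem_pm D'.pi hπ (by rw [hnm]; exact hpM)
    have h1 := hHecke D'.pi hπ hnot
    rw [hnm, hplc] at h1
    refine hX.heckeAt D' hπ hpM (l := lam w) ?_ P (fun _ _ => rfl)
    convert h1 using 1
    push_cast
    rfl
  · obtain ⟨t, ht, hne⟩ := hne
    refine ⟨t, ht, ?_⟩
    have h1 : (fun z : ℂ => P.Φ (H3.mk z t ht) 1) = fun z => Xi M φ a h (H3.mk z t ht) 1 := by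
      funext z
      exact hX.Phi_one _
    rw [h1]
    exact hne

theorem nu0_eq_nuF (E : Eis3 D) (M : ℕ) [NeZero M] : (CH.nu0 E M : F) = E.nuF M 1 := by
  rw [CH.nu0_eq, Eis3.nuF, map_one, one_div]

/-- **The bridge**: a nonzero cusp form gives a `PhiSys`. -/
theorem exists_bridgeOut (E : Eis3 D) (hU : LevM D.toLevel M) (hc : B.IsCusp φ) (h0 : φ ≠ 0)
    {S : Set (Pl F)} (hS : ∀ w, D.n w = 0 → w ∈ S) {lam : Pl F → ℝ}
    (he : B.IsEig S (fun w => (lam w : ℂ)) 0 φ) : ∃ P : PhiSys M, BridgeOut E M lam P := by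
  obtain ⟨x, hx, hxM, x', hx', k, hk, t, ht⟩ := CH.exists_coef E hU hc h0 (fun w hw =>
    ⟨_, fun p => he.hecke w (hS w (hU.good w (not_mem_pm.mp hw))) p⟩)
  rw [nu0_eq_nuF] at ht
  obtain ⟨ι, hι, a, h, hW, hne⟩ := E.exists_bump hc hU hx hx' hxM hk ht
  exact exists_phiSys E hU hc hS he hW hne

end Fermat.Agent.LT.J
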