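import Fermat.Agent.LT.J.Lift

/-!
# Assembly (LT, piece J8): from the coefficient functions to a holomorphic q-series
-/

set_option autoImplicit false
set_option linter.unusedSectionVars false

open Complex Matrix MeasureTheory Set
open UpperHalfPlane hiding I

open scoped ComplexConjugate ENNReal MatrixGroups

noncomputable section

namespace Fermat.Agent.LT.J

open Fermat.LT QE

/-! ### modularity of the lifts -/

theorem coprime_of_Gamma0 {M : ℕ} {γ : SL(2, ℤ)}
    (hγ : γ ∈ CongruenceSubgroup.Gamma0 (3 * M ^ 2)) : IsCoprime (γ 1 1) (M : ℤ) := by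
  rw [CongruenceSubgroup.Gamma0_mem] at hγ
  obtain ⟨k, hk⟩ := (ZMod.intCast_zmod_eq_zero_iff_dvd _ _).1 hγ
  have hdet := Matrix.det_fin_two (γ : Matrix (Fin 2) (Fin 2) ℤ)
  rw [γ.det_coe] at hdet
  refine ⟨γ 0 0, -γ 0 1 * (3 * M * k), ?_⟩
  rw [hk] at hdet
  push_cast at hdet
  linear_combination -hdet

section mod

variable {M : ℕ} [NeZero M] (S : Sys M)

theorem lift_smul (γ : SL(2, ℤ)) (hγ : γ ∈ CongruenceSubgroup.Gamma0 (3 * M ^ 2)) (τ : ℍ) :
    lift rho S.c (γ • τ : ℍ) = (legendreSym 3 (γ 1 1) : ℤ) *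
      ((γ 1 0 : ℤ) * (τ : ℂ) + (γ 1 1 : ℤ)) * lift rho S.c τ := by
  obtain ⟨B, hB⟩ := S.bdd
  rw [lift, lift, ← integral_const_mul]
  refine integral_congr_ae (Filter.Eventually.of_forall fun w => ?_)
  simp only
  rw [Theta_smul (fun X Y h => S.per X Y w h) (fun X => hB X w) γ hγ]
  have e : (fun X => S.c (Lat.smul (γ 1 1) X) w) = fun X => S.c X w :=
    funext fun X => S.scal _ X w (coprime_of_Gamma0 hγ)
  rw [e]
  ring

theorem liftS_smul (γ : SL(2, ℤ)) (hγ : γ ∈ CongruenceSubgroup.Gamma0 (3 * M ^ 2)) (τ : ℍ) :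
    liftS rho S.c (γ • τ : ℍ) = (legendreSym 3 (γ 1 1) : ℤ) *
      conj ((γ 1 0 : ℤ) * (τ : ℂ) + (γ 1 1 : ℤ)) * liftS rho S.c τ := by
  obtain ⟨B, hB⟩ := S.bdd
  rw [liftS, liftS, ← integral_const_mul]
  refine integral_congr_ae (Filter.Eventually.of_forall fun w => ?_)
  simp only
  rw [ThetaS_smul (fun X Y h => S.per X Y w h) (fun X => hB X w) γ hγ]
  have e : (fun X => S.c (Lat.smul (γ 1 1) X) w) = fun X => S.c X w :=
    funext fun X => S.scal _ X w (coprime_of_Gamma0 hγ)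
  rw [e]
  ring

end mod

/-! ### the holomorphic q-series -/

theorem conj_ee (z : ℂ) (n : ℤ) : conj (ee z n) * (Real.exp (4 * Real.pi * n * z.im) : ℂ) = ee z (-n) := by
  rw [ee, ee, ← Complex.exp_conj, Complex.ofReal_exp, ← Complex.exp_add]
  congr 1
  have hz : conj z = z - 2 * z.im * I := by
    apply Complex.ext <;> simp; ring
  simp only [map_mul, conj_I, conj_ofReal, Complex.conj_ofNat, map_intCast]
  rw [hz]
  push_cast
  linear_combination (4 * Real.pi * z.im * n : ℂ) * I_mul_I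

/-- restriction of a sum over `ℤ` to `ℕ` -/
theorem hasSum_nat_of_int {f : ℤ → ℂ} {a : ℂ} (h : HasSum f a) (hf : ∀ n < 0, f n = 0) :
    HasSum (fun n : ℕ => f n) a := by
  have hinj : Function.Injective (fun n : ℕ => (n : ℤ)) := Nat.cast_injective
  refine (hinj.hasSum_iff ?_).2 h
  intro n hn
  apply hf
  by_contra hlt
  push Not at hlt
  exact hn ⟨n.toNat, Int.toNat_of_nonneg hlt⟩

/-- The output of J2: structure of the coefficient functions. -/
structure CoefData (c : Lat ℤ → H3 → ℂ) where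
  /-- coefficients of the starred lift -/
  B : ℤ → ℂ
  hB : ∀ n, ∀ y : ℝ, 0 < y → cfS c n y = B n * (Real.exp (4 * Real.pi * n * y) : ℂ)
  hpos : ∀ n, 0 < n → B n = 0
  /-- coefficients of the lift -/
  A : ℤ → ℂ
  hA : ∀ n, B n = 0 → ∀ y : ℝ, 0 < y → cf c n y = A n
  hneg : ∀ n < 0, B n = 0 → A n = 0

/-- Hecke relation for the coefficient functions. -/
def HeckeRel (u : ℤ → ℝ → ℂ) (p : ℕ) (lam : ℝ) : Prop :=
  ∀ (n : ℤ) (y : ℝ), 0 < y → (lam : ℂ) * u n y =
    u (p * n) (y / p) + (if (p : ℤ) ∣ n then u (n / p) (p * y) else 0)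

/-- The holomorphic output of the theta lift. -/
structure Out (N : ℕ) (P : Set ℕ) (lam : ℕ → ℝ) (G : ℂ → ℂ) (a : ℕ → ℂ) : Prop where
  hasSum : ∀ z : ℂ, 0 < z.im → HasSum (fun n : ℕ => a n * ee z n) (G z)
  smul : ∀ γ : SL(2, ℤ), γ ∈ CongruenceSubgroup.Gamma0 N → ∀ τ : ℍ,
    G (γ • τ : ℍ) = (legendreSym 3 (γ 1 1) : ℤ) * ((γ 1 0 : ℤ) * (τ : ℂ) + (γ 1 1 : ℤ)) * G τ
  growth : ∃ K : ℝ, ∀ z : ℂ, 0 < z.im → ‖G z‖ ≤ K * (z.im + 1 / z.im) ^ 7
  ne : ∃ n, a n ≠ 0
  hecke : ∀ p ∈ P, ∀ n, a (p * n) + (if p ∣ n then a (n / p) else 0) = lam p * a n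

theorem relS {c : Lat ℤ → H3 → ℂ} (D : CoefData c) {p : ℕ} (hp : p ≠ 0) {lam : ℝ}
    (h : HeckeRel (cfS c) p lam) (n : ℤ) :
    D.B (p * n) + (if (p : ℤ) ∣ n then D.B (n / p) else 0) = lam * D.B n := by
  have h1 := h n 1 one_pos
  have hp0 : (0 : ℝ) < p := by exact_mod_cast Nat.pos_of_ne_zero hp
  have e1 : (Real.exp (4 * Real.pi * ((p * n : ℤ) : ℝ) * (1 / p)) : ℂ) =
      (Real.exp (4 * Real.pi * n * 1) : ℂ) := by
    congr 2
    push_cast
    field_simp
  rw [D.hB n 1 one_pos, D.hB (p * n) (1 / p) (by positivity), e1] at h1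
  have hne : (Real.exp (4 * Real.pi * n * 1) : ℂ) ≠ 0 := by
    exact_mod_cast (Real.exp_pos _).ne'
  by_cases hd : (p : ℤ) ∣ n
  · rw [if_pos hd] at h1 ⊢
    obtain ⟨k, rfl⟩ := hd
    have hk : (p : ℤ) * k / p = k := Int.mul_ediv_cancel_left k (by exact_mod_cast hp)
    rw [hk] at h1 ⊢
    have e2 : (Real.exp (4 * Real.pi * (k : ℝ) * (p * 1)) : ℂ) =
        (Real.exp (4 * Real.pi * ((p * k : ℤ) : ℝ) * 1) : ℂ) := by
      congr 2
      push_cast
      ring
    rw [D.hB k (p * 1) (by positivity), e2] at h1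
    apply mul_right_cancel₀ hne
    linear_combination -h1
  · rw [if_neg hd] at h1 ⊢
    apply mul_right_cancel₀ hne
    linear_combination -h1

theorem relA {c : Lat ℤ → H3 → ℂ} (D : CoefData c) (hB : ∀ n, D.B n = 0) {p : ℕ} (hp : p ≠ 0)
    {lam : ℝ} (h : HeckeRel (cf c) p lam) (n : ℤ) :
    D.A (p * n) + (if (p : ℤ) ∣ n then D.A (n / p) else 0) = lam * D.A n := by
  have h1 := h n 1 one_pos
  have hp0 : (0 : ℝ) < p := by exact_mod_cast Nat.pos_of_ne_zero hp
  rw [D.hA n (hB n) 1 one_pos, D.hA (p * n) (hB _) (1 / p) (by positivity)] at h1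
  by_cases hd : (p : ℤ) ∣ n
  · rw [if_pos hd] at h1 ⊢
    rw [D.hA (n / p) (hB _) (p * 1) (by positivity)] at h1
    exact h1.symm
  · rw [if_neg hd] at h1 ⊢
    exact h1.symm

theorem exists_out {M : ℕ} [NeZero M] (S : Sys M) (D : CoefData S.c) (P : Set ℕ) (lam : ℕ → ℝ)
    (hP : ∀ p ∈ P, p ≠ 0)
    (h1 : ∀ p ∈ P, HeckeRel (cf S.c) p (lam p)) (h2 : ∀ p ∈ P, HeckeRel (cfS S.c) p (lam p))
    (hne : ∃ y : ℝ, 0 < y ∧ cf S.c 1 y ≠ 0) :
    ∃ G a, Out (3 * M ^ 2) P lam G a := by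
  classical
  obtain ⟨B, hc⟩ := S.exists_bdd
  obtain ⟨K, hK0, hK⟩ := gr_le hc.nonneg
  by_cases hcase : ∃ n, D.B n ≠ 0
  · -- the starred lift
    refine ⟨fun z => conj (liftS rho S.c z), fun m => conj (D.B (-(m : ℤ))), ?_, ?_, ?_, ?_, ?_⟩
    · intro z hz
      have h := (liftS_fourier hc hz).map (starRingEnd ℂ) Complex.continuous_conj
      have e : (starRingEnd ℂ) ∘ (fun n : ℤ => ee z n * cfS S.c n z.im) =
          fun n : ℤ => conj (D.B n) * ee z (-n) := by
        funext n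
        rw [Function.comp_apply, D.hB n z.im hz, map_mul, map_mul, conj_ofReal, ← conj_ee]
        ring
      rw [e] at h
      have h' := (Equiv.neg ℤ).hasSum_iff.2 h
      have h'' := hasSum_nat_of_int h' (fun n hn => by
        simp only [Function.comp_apply, Equiv.neg_apply]
        rw [D.hpos (-n) (by omega), map_zero, zero_mul])
      simp only [Function.comp_apply, Equiv.neg_apply, neg_neg] at h''
      exact h''
    · intro γ hγ τ
      rw [liftS_smul S γ hγ τ]
      simp only [map_mul, conj_conj, map_intCast]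
    · refine ⟨K, fun z hz => ?_⟩
      rw [Complex.norm_conj]
      exact (norm_liftS_le hc hz).trans (hK z.im hz)
    · obtain ⟨n, hn⟩ := hcase
      have hn0 : n ≤ 0 := by
        by_contra h
        exact hn (D.hpos n (by omega))
      refine ⟨(-n).toNat, ?_⟩
      have : -(((-n).toNat : ℕ) : ℤ) = n := by
        rw [Int.toNat_of_nonneg (by omega)]; ring
      rw [this]
      simpa using hn
    · intro p hp n
      have hr := relS D (hP p hp) (h2 p hp) (-(n : ℤ))
      have e1 : (p : ℤ) * -(n : ℤ) = -((p * n : ℕ) : ℤ) := by push_cast; ring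
      rw [e1] at hr
      have hr' := congrArg (starRingEnd ℂ) hr
      rw [map_add, map_mul, conj_ofReal] at hr'
      rw [← hr']
      congr 1
      by_cases hd : p ∣ n
      · rw [if_pos hd, if_pos (by rw [dvd_neg]; exact_mod_cast hd)]
        congr 2
        obtain ⟨k, rfl⟩ := hd
        rw [Nat.mul_div_cancel_left k (Nat.pos_of_ne_zero (hP p hp))]
        push_cast
        rw [← mul_neg, Int.mul_ediv_cancel_left _ (by exact_mod_cast hP p hp)]
      · rw [if_neg hd, if_neg (by rw [dvd_neg]; exact_mod_cast hd), map_zero]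
  · -- the lift itself
    push Not at hcase
    refine ⟨fun z => lift rho S.c z, fun m => D.A m, ?_, ?_, ?_, ?_, ?_⟩
    · intro z hz
      have h := lift_fourier hc hz
      have e : (fun n : ℤ => ee z n * cf S.c n z.im) = fun n : ℤ => D.A n * ee z n := by
        funext n
        rw [D.hA n (hcase n) z.im hz]; ring
      rw [e] at h
      exact hasSum_nat_of_int h (fun n hn => by rw [D.hneg n hn (hcase n), zero_mul])
    · intro γ hγ τ
      exact lift_smul S γ hγ τ
    · exact ⟨K, fun z hz => (norm_lift_le hc hz).trans (hK z.im hz)⟩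
    · obtain ⟨y, hy, hy1⟩ := hne
      refine ⟨1, ?_⟩
      rw [Nat.cast_one, ← D.hA 1 (hcase 1) y hy]
      exact hy1
    · intro p hp n
      have hr := relA D hcase (hP p hp) (h1 p hp) (n : ℤ)
      rw [← hr]
      push_cast
      congr 1
      by_cases hd : p ∣ n
      · rw [if_pos hd, if_pos (by exact_mod_cast hd)]
      · rw [if_neg hd, if_neg (by exact_mod_cast hd)]

end Fermat.Agent.LT.J
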