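import Fermat.Agent.LT.J.Siegel

/-!
# Bounds for Gaussian sums over the lattice (LT, piece J5)

* `tsum_gauss1_le`: `∑_n exp (-δ (n+x)²) ≤ 6 (1 + 1/√δ)`.
* `tsum_maj_le`: `∑_X exp (-ε Maj X w) ≤ 5184 (1 + 1/√ε)⁴ (1+t) (1+1/t)`.
* `lintegral_rho_le`: `∫ ρ(w) t(w) dw < ∞`.
-/

set_option autoImplicit false

open Complex Matrix MeasureTheory Set

open scoped ComplexConjugate ENNReal

noncomputable section

namespace Fermat.Agent.LT.J

open Fermat.LT QE

/-! ### one-dimensional sums -/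

theorem one_sub_exp_neg_inv_le {u : ℝ} (hu : 0 < u) : (1 - Real.exp (-u))⁻¹ ≤ 1 + 1 / u := by
  have h1 : Real.exp (-u) ≤ 1 / (1 + u) := by
    rw [Real.exp_neg, inv_eq_one_div]
    exact one_div_le_one_div_of_le (by positivity) (by linarith [Real.add_one_le_exp u])
  have h2 : u / (1 + u) ≤ 1 - Real.exp (-u) := by
    have : u / (1 + u) = 1 - 1 / (1 + u) := by field_simp; ring
    linarith
  have h3 : 0 < u / (1 + u) := by positivity
  calc (1 - Real.exp (-u))⁻¹ ≤ (u / (1 + u))⁻¹ := inv_anti₀ h3 h2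
    _ = 1 + 1 / u := by field_simp; ring

/-- half sum -/
theorem tsum_gauss_nat_le {δ : ℝ} (hδ : 0 < δ) :
    ∑' n : ℕ, ENNReal.ofReal (Real.exp (-(δ * (n : ℝ) ^ 2))) ≤
      ENNReal.ofReal (3 * (1 + 1 / Real.sqrt δ)) := by
  have hs : 0 < Real.sqrt δ := Real.sqrt_pos.2 hδ
  set r : ℝ := Real.exp (-(2 * Real.sqrt δ)) with hr
  have hr0 : 0 ≤ r := (Real.exp_pos _).le
  have hr1 : r < 1 := by rw [hr, Real.exp_lt_one_iff]; linarith
  have hterm : ∀ n : ℕ, Real.exp (-(δ * (n : ℝ) ^ 2)) ≤ Real.exp 1 * r ^ n := by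
    intro n
    rw [hr, ← Real.exp_nat_mul, ← Real.exp_add]
    apply Real.exp_le_exp.2
    have h1 : Real.sqrt δ ^ 2 = δ := Real.sq_sqrt hδ.le
    nlinarith [sq_nonneg (Real.sqrt δ * n - 1)]
  calc ∑' n : ℕ, ENNReal.ofReal (Real.exp (-(δ * (n : ℝ) ^ 2)))
      ≤ ∑' n : ℕ, ENNReal.ofReal (Real.exp 1 * r ^ n) :=
        ENNReal.tsum_le_tsum fun n => ENNReal.ofReal_le_ofReal (hterm n)
    _ = ENNReal.ofReal (∑' n : ℕ, Real.exp 1 * r ^ n) := by
        rw [ENNReal.ofReal_tsum_of_nonneg]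
        · intro n; positivity
        · exact (summable_geometric_of_lt_one hr0 hr1).mul_left _
    _ ≤ _ := by
        apply ENNReal.ofReal_le_ofReal
        rw [tsum_mul_left, tsum_geometric_of_lt_one hr0 hr1]
        have h2 := one_sub_exp_neg_inv_le (u := 2 * Real.sqrt δ) (by positivity)
        have h3 : Real.exp 1 ≤ 3 := Real.exp_one_lt_three.le
        have h4 : (1 : ℝ) / (2 * Real.sqrt δ) ≤ 1 / Real.sqrt δ :=
          one_div_le_one_div_of_le hs (by linarith)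
        calc Real.exp 1 * (1 - r)⁻¹ ≤ 3 * (1 + 1 / (2 * Real.sqrt δ)) :=
              mul_le_mul h3 h2 (inv_nonneg.2 (by linarith)) (by norm_num)
          _ ≤ _ := by linarith

/-- the one-dimensional bound, uniformly in the shift -/
theorem tsum_gauss1_le {δ : ℝ} (hδ : 0 < δ) (x : ℝ) :
    ∑' n : ℤ, ENNReal.ofReal (Real.exp (-(δ * ((n : ℝ) + x) ^ 2))) ≤
      ENNReal.ofReal (6 * (1 + 1 / Real.sqrt δ)) := by
  have hshift : ∑' n : ℤ, ENNReal.ofReal (Real.exp (-(δ * ((n : ℝ) + x) ^ 2))) =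
      ∑' n : ℤ, ENNReal.ofReal (Real.exp (-(δ * ((n : ℝ) + Int.fract x) ^ 2))) := by
    rw [← (Equiv.addRight (-⌊x⌋)).tsum_eq]
    refine tsum_congr fun n => ?_
    simp only [Equiv.coe_addRight]
    congr 4
    push_cast
    rw [Int.fract]; ring
  rw [hshift]
  set y := Int.fract x
  have hy0 : 0 ≤ y := Int.fract_nonneg x
  have hy1 : y < 1 := Int.fract_lt_one x
  set f : ℤ → ℝ≥0∞ := fun n => ENNReal.ofReal (Real.exp (-(δ * ((n : ℝ) + y) ^ 2))) with hf
  have hsplit : ∑' n : ℤ, f n = ∑' n : ℕ, f n + ∑' n : ℕ, f (-((n : ℤ) + 1)) := by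
    have := tsum_of_nat_of_neg_add_one (f := f) ENNReal.summable ENNReal.summable
    exact this
  rw [hsplit]
  have h1 : ∑' n : ℕ, f n ≤ ENNReal.ofReal (3 * (1 + 1 / Real.sqrt δ)) := by
    refine le_trans (ENNReal.tsum_le_tsum fun n => ?_) (tsum_gauss_nat_le hδ)
    apply ENNReal.ofReal_le_ofReal
    apply Real.exp_le_exp.2
    have hn : (0 : ℝ) ≤ n := n.cast_nonneg
    have : (n : ℝ) ^ 2 ≤ (((n : ℤ) : ℝ) + y) ^ 2 := by
      push_cast
      nlinarith
    nlinarith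
  have h2 : ∑' n : ℕ, f (-((n : ℤ) + 1)) ≤ ENNReal.ofReal (3 * (1 + 1 / Real.sqrt δ)) := by
    refine le_trans (ENNReal.tsum_le_tsum fun n => ?_) (tsum_gauss_nat_le hδ)
    apply ENNReal.ofReal_le_ofReal
    apply Real.exp_le_exp.2
    have hn : (0 : ℝ) ≤ n := n.cast_nonneg
    have : (n : ℝ) ^ 2 ≤ ((((-((n : ℤ) + 1) : ℤ)) : ℝ) + y) ^ 2 := by
      push_cast
      nlinarith
    nlinarith
  have hs : 0 < Real.sqrt δ := Real.sqrt_pos.2 hδ
  calc _ ≤ ENNReal.ofReal (3 * (1 + 1 / Real.sqrt δ)) + ENNReal.ofReal (3 * (1 + 1 / Real.sqrt δ)) :=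
        add_le_add h1 h2
    _ = ENNReal.ofReal (6 * (1 + 1 / Real.sqrt δ)) := by
        rw [← ENNReal.ofReal_add (by positivity) (by positivity)]
        congr 1; ring

/-! ### the majorant -/

/-- shift in the `a` variable -/
def shA (b : EO) (c : ℤ) (z : ℂ) : ℝ := -(2 / Real.sqrt 3) * (toC b * conj z).im + c * normSq z

theorem Maj_eq (X : Lat ℤ) (w : H3) : Maj X w =
    normSq (toC X.β - Real.sqrt 3 * I * X.c * w.z)
      + 3 / 2 * (((X.a : ℝ) + shA X.β X.c w.z) ^ 2 / w.t ^ 2 + (X.c : ℝ) ^ 2 * w.t ^ 2) := by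
  have h := Herm.majorant_eq X.toHerm w
  rw [Lat.q_toHerm] at h
  have hs : X.toHerm.s w = sL X w := rfl
  rw [hs] at h
  have h3 := sqrt3_sq
  have h3' : Real.sqrt 3 * (2 / Real.sqrt 3) = 2 := mul_div_cancel₀ 2 sqrt3_pos.ne'
  have e1 : X.toHerm.a - 2 * (X.toHerm.b * conj w.z).re + X.toHerm.d * normSq w.z
      = Real.sqrt 3 * ((X.a : ℝ) + shA X.β X.c w.z) := by
    simp only [Lat.toHerm, shA]
    have : (-I * toC X.β * conj w.z).re = (toC X.β * conj w.z).im := by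
      rw [neg_mul, neg_mul, mul_assoc, neg_re, I_mul_re, neg_neg]
    rw [this]
    linear_combination (toC X.β * conj w.z).im * h3'
  have e2 : normSq (X.toHerm.b - X.toHerm.d * w.z) =
      normSq (toC X.β - Real.sqrt 3 * I * X.c * w.z) := by
    have : X.toHerm.b - X.toHerm.d * w.z = -I * (toC X.β - Real.sqrt 3 * I * X.c * w.z) := by
      simp only [Lat.toHerm]
      push_cast
      linear_combination (-(Real.sqrt 3 * X.c * w.z : ℂ)) * I_mul_I
    rw [this, normSq_mul, normSq_neg, normSq_I, one_mul]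
  rw [Maj, add_comm, h, e1, e2]
  simp only [Lat.toHerm]
  rw [mul_pow, mul_pow, Real.sq_sqrt (by norm_num : (0 : ℝ) ≤ 3)]
  ring

theorem Maj_nonneg (X : Lat ℤ) (w : H3) : 0 ≤ Maj X w := by
  rw [Maj_eq]
  have := normSq_nonneg (toC X.β - Real.sqrt 3 * I * X.c * w.z)
  positivity

theorem sq_le_Maj (X : Lat ℤ) (w : H3) : sL X w ^ 2 ≤ Maj X w := by
  have := s_sq_add_q_nonneg X w
  rw [Maj]; linarith

theorem abs_q_le_Maj (X : Lat ℤ) (w : H3) : |(X.q : ℝ)| ≤ Maj X w := by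
  have h1 := s_sq_add_q_nonneg X w
  rw [Maj, abs_le]
  constructor
  · linarith [sq_nonneg (sL X w)]
  · linarith [sq_nonneg (sL X w)]

/-- first `ω`-coordinate of a complex number -/
def c1 (z : ℂ) : ℝ := z.re + z.im / Real.sqrt 3

/-- second `ω`-coordinate of a complex number -/
def c2 (z : ℂ) : ℝ := 2 * z.im / Real.sqrt 3

theorem normSq_toC_sub (x : EO) (z : ℂ) :
    ((x.re : ℝ) - c1 z) ^ 2 / 2 + ((x.im : ℝ) - c2 z) ^ 2 / 2 ≤ normSq (toC x - z) := by
  have hs := sqrt3_pos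
  have h3 := sqrt3_sq
  have e1 : z.im = c2 z * (Real.sqrt 3 / 2) := by rw [c2]; field_simp
  have e2 : z.re = c1 z - c2 z / 2 := by rw [c1, c2]; ring
  rw [normSq_apply, sub_re, sub_im, toC_re, toC_im, e1, e2]
  set X := (x.re : ℝ) - c1 z with hX
  set Y := (x.im : ℝ) - c2 z with hY
  have e : ((x.re : ℝ) - x.im / 2 - (c1 z - c2 z / 2)) * ((x.re : ℝ) - x.im / 2 - (c1 z - c2 z / 2))
      + ((x.im : ℝ) * (Real.sqrt 3 / 2) - c2 z * (Real.sqrt 3 / 2)) *
        ((x.im : ℝ) * (Real.sqrt 3 / 2) - c2 z * (Real.sqrt 3 / 2)) = X ^ 2 - X * Y + Y ^ 2 := by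
    linear_combination (((x.im : ℝ) - c2 z) ^ 2 / 4) * h3
  rw [e]
  nlinarith [sq_nonneg (X - Y)]

/-- the lattice as an iterated product with `a` last -/
def equivCBA : ℤ × (ℤ × ℤ) × ℤ ≃ Lat ℤ where
  toFun p := ⟨p.2.2, ⟨p.2.1.1, p.2.1.2⟩, p.1⟩
  invFun X := (X.c, (X.β.re, X.β.im), X.a)
  left_inv p := rfl
  right_inv X := by cases X; rfl

theorem exp_Maj_le {ε : ℝ} (hε : 0 < ε) (w : H3) (p : ℤ × (ℤ × ℤ) × ℤ) :
    Real.exp (-(ε * Maj (equivCBA p) w)) ≤
      Real.exp (-(3 / 2 * ε * w.t ^ 2 * ((p.1 : ℝ) + 0) ^ 2)) *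
      (Real.exp (-(ε / 2 * ((p.2.1.1 : ℝ) + -c1 (Real.sqrt 3 * I * p.1 * w.z)) ^ 2)) *
       (Real.exp (-(ε / 2 * ((p.2.1.2 : ℝ) + -c2 (Real.sqrt 3 * I * p.1 * w.z)) ^ 2)) *
       Real.exp (-(3 / 2 * ε / w.t ^ 2 * ((p.2.2 : ℝ) + shA ⟨p.2.1.1, p.2.1.2⟩ p.1 w.z) ^ 2)))) := by
  rw [← Real.exp_add, ← Real.exp_add, ← Real.exp_add]
  apply Real.exp_le_exp.2
  rw [Maj_eq]
  have h1 := normSq_toC_sub ⟨p.2.1.1, p.2.1.2⟩ (Real.sqrt 3 * I * p.1 * w.z)
  simp only [equivCBA, Equiv.coe_fn_mk]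
  have h2 := mul_le_mul_of_nonneg_left h1 hε.le
  have ht := w.t_pos
  have e : 3 / 2 * ε / w.t ^ 2 * ((p.2.2 : ℝ) + shA ⟨p.2.1.1, p.2.1.2⟩ p.1 w.z) ^ 2 =
      ε * (3 / 2 * (((p.2.2 : ℝ) + shA ⟨p.2.1.1, p.2.1.2⟩ p.1 w.z) ^ 2 / w.t ^ 2)) := by ring
  rw [e]
  simp only at h2
  nlinarith [h2]

/-- The fundamental bound. -/
theorem tsum_maj_le {ε : ℝ} (hε : 0 < ε) (w : H3) :
    ∑' X : Lat ℤ, ENNReal.ofReal (Real.exp (-(ε * Maj X w))) ≤
      ENNReal.ofReal (5184 * (1 + 1 / Real.sqrt ε) ^ 4 * ((1 + w.t) * (1 + 1 / w.t))) := by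
  have ht := w.t_pos
  have hs : 0 < Real.sqrt ε := Real.sqrt_pos.2 hε
  set KA : ℝ := 6 * (1 + 1 / Real.sqrt (3 / 2 * ε / w.t ^ 2)) with hKA
  set KB : ℝ := 6 * (1 + 1 / Real.sqrt (ε / 2)) with hKB
  set KC : ℝ := 6 * (1 + 1 / Real.sqrt (3 / 2 * ε * w.t ^ 2)) with hKC
  have hA0 : 0 ≤ KA := by positivity
  have hB0 : 0 ≤ KB := by positivity
  have hC0 : 0 ≤ KC := by positivity
  have main : ∑' X : Lat ℤ, ENNReal.ofReal (Real.exp (-(ε * Maj X w))) ≤
      ENNReal.ofReal KC * (ENNReal.ofReal KB * (ENNReal.ofReal KB * ENNReal.ofReal KA)) := by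
    rw [← equivCBA.tsum_eq (fun X => ENNReal.ofReal (Real.exp (-(ε * Maj X w))))]
    refine le_trans (ENNReal.tsum_le_tsum fun p => ENNReal.ofReal_le_ofReal (exp_Maj_le hε w p)) ?_
    rw [ENNReal.tsum_prod']
    have step1 : ∀ c : ℤ, ∑' b : (ℤ × ℤ) × ℤ, ENNReal.ofReal
        (Real.exp (-(3 / 2 * ε * w.t ^ 2 * ((c : ℝ) + 0) ^ 2)) *
        (Real.exp (-(ε / 2 * ((b.1.1 : ℝ) + -c1 (Real.sqrt 3 * I * c * w.z)) ^ 2)) *
        (Real.exp (-(ε / 2 * ((b.1.2 : ℝ) + -c2 (Real.sqrt 3 * I * c * w.z)) ^ 2)) *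
        Real.exp (-(3 / 2 * ε / w.t ^ 2 * ((b.2 : ℝ) + shA ⟨b.1.1, b.1.2⟩ c w.z) ^ 2))))) ≤
        ENNReal.ofReal (Real.exp (-(3 / 2 * ε * w.t ^ 2 * ((c : ℝ) + 0) ^ 2))) *
          (ENNReal.ofReal KB * (ENNReal.ofReal KB * ENNReal.ofReal KA)) := by
      intro c
      simp_rw [ENNReal.ofReal_mul (Real.exp_pos _).le]
      rw [ENNReal.tsum_mul_left]
      refine mul_le_mul_right ?_ _
      rw [ENNReal.tsum_prod']
      have step2 : ∀ b : ℤ × ℤ, ∑' a : ℤ,
          ENNReal.ofReal (Real.exp (-(ε / 2 * ((b.1 : ℝ) + -c1 (Real.sqrt 3 * I * c * w.z)) ^ 2))) *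
          (ENNReal.ofReal (Real.exp (-(ε / 2 * ((b.2 : ℝ) + -c2 (Real.sqrt 3 * I * c * w.z)) ^ 2))) *
          ENNReal.ofReal (Real.exp (-(3 / 2 * ε / w.t ^ 2 * ((a : ℝ) + shA ⟨b.1, b.2⟩ c w.z) ^ 2))))
          ≤ ENNReal.ofReal (Real.exp (-(ε / 2 * ((b.1 : ℝ) + -c1 (Real.sqrt 3 * I * c * w.z)) ^ 2))) *
          (ENNReal.ofReal (Real.exp (-(ε / 2 * ((b.2 : ℝ) + -c2 (Real.sqrt 3 * I * c * w.z)) ^ 2)))
            * ENNReal.ofReal KA) := by
        intro b
        rw [ENNReal.tsum_mul_left, ENNReal.tsum_mul_left]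
        exact mul_le_mul_right (mul_le_mul_right (tsum_gauss1_le (by positivity) _) _) _
      refine le_trans (ENNReal.tsum_le_tsum step2) ?_
      rw [ENNReal.tsum_prod']
      simp_rw [ENNReal.tsum_mul_left]
      simp_rw [ENNReal.tsum_mul_right]
      exact mul_le_mul' (tsum_gauss1_le (by positivity) _)
        (mul_le_mul_left (tsum_gauss1_le (by positivity) _) _)
    refine le_trans (ENNReal.tsum_le_tsum step1) ?_
    rw [ENNReal.tsum_mul_right]
    exact mul_le_mul_left (tsum_gauss1_le (by positivity) _) _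
  refine main.trans ?_
  rw [← ENNReal.ofReal_mul hB0, ← ENNReal.ofReal_mul hB0, ← ENNReal.ofReal_mul hC0]
  apply ENNReal.ofReal_le_ofReal
  set E : ℝ := 1 + 1 / Real.sqrt ε with hE
  have hE1 : 1 ≤ E := by
    have : 0 < 1 / Real.sqrt ε := by positivity
    linarith
  have hA : KA ≤ 6 * (1 + w.t) * E := by
    have h1 : Real.sqrt (3 / 2 * ε / w.t ^ 2) = Real.sqrt (3 / 2 * ε) / w.t := by
      rw [Real.sqrt_div' _ (by positivity), Real.sqrt_sq ht.le]
    have h2 : Real.sqrt ε ≤ Real.sqrt (3 / 2 * ε) := Real.sqrt_le_sqrt (by linarith)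
    have h3 : 1 / (Real.sqrt (3 / 2 * ε) / w.t) ≤ w.t * (1 / Real.sqrt ε) := by
      rw [one_div_div, div_eq_mul_one_div]
      exact mul_le_mul_of_nonneg_left (one_div_le_one_div_of_le hs h2) ht.le
    rw [hKA, h1]
    have h4 : 0 < 1 / Real.sqrt ε := by positivity
    rw [hE]
    nlinarith
  have hB : KB ≤ 12 * E := by
    have h1 : Real.sqrt ε / 2 ≤ Real.sqrt (ε / 2) := by
      apply Real.le_sqrt_of_sq_le
      rw [div_pow, Real.sq_sqrt hε.le]; linarith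
    have h2 : 1 / Real.sqrt (ε / 2) ≤ 2 * (1 / Real.sqrt ε) := by
      calc 1 / Real.sqrt (ε / 2) ≤ 1 / (Real.sqrt ε / 2) :=
            one_div_le_one_div_of_le (by positivity) h1
        _ = _ := by field_simp
    rw [hKB, hE]
    linarith
  have hC : KC ≤ 6 * (1 + 1 / w.t) * E := by
    have h1 : Real.sqrt (3 / 2 * ε * w.t ^ 2) = Real.sqrt (3 / 2 * ε) * w.t := by
      rw [Real.sqrt_mul' _ (by positivity), Real.sqrt_sq ht.le]
    have h2 : Real.sqrt ε ≤ Real.sqrt (3 / 2 * ε) := Real.sqrt_le_sqrt (by linarith)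
    have h3 : 1 / (Real.sqrt (3 / 2 * ε) * w.t) ≤ 1 / w.t * (1 / Real.sqrt ε) := by
      rw [one_div_mul_one_div]
      apply one_div_le_one_div_of_le (by positivity)
      rw [mul_comm]
      exact mul_le_mul_of_nonneg_right h2 ht.le
    rw [hKC, h1]
    have h4 : 0 < 1 / Real.sqrt ε := by positivity
    have h5 : 0 < 1 / w.t := by positivity
    rw [hE]
    nlinarith
  calc KC * (KB * (KB * KA)) ≤ (6 * (1 + 1 / w.t) * E) * ((12 * E) * ((12 * E) * (6 * (1 + w.t) * E))) := by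
        have h5 : 0 < 1 / w.t := by positivity
        gcongr
    _ = _ := by ring

/-! ### integral of the height over the Siegel set -/

theorem volume_disc_lt_top : volume {z : ℂ | normSq z ≤ 3 / 4} < ∞ := by
  have : {z : ℂ | normSq z ≤ 3 / 4} ⊆ Metric.closedBall (0 : ℂ) 1 := by
    intro z hz
    simp only [mem_ofPred_eq] at hz
    rw [mem_closedBall_zero_iff]
    rw [normSq_eq_norm_sq] at hz
    nlinarith [norm_nonneg z]
  exact (measure_mono this).trans_lt measure_closedBall_lt_top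

theorem lintegral_sieg_lt_top : ∫⁻ w : H3, sieg.indicator (fun w => ENNReal.ofReal w.t) w < ∞ := by
  classical
  set f : ℂ × ℝ → ℝ≥0∞ := fun p => ({z : ℂ | normSq z ≤ 3 / 4}.indicator 1 p.1) *
    ((Ici (1 / 2 : ℝ)).indicator (fun t => ENNReal.ofReal t) p.2) with hf
  have hfm : Measurable f := by
    refine Measurable.mul ?_ ?_
    · exact (measurable_one.indicator (measurableSet_le continuous_normSq.measurable
        measurable_const)).comp measurable_fst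
    · exact (ENNReal.measurable_ofReal.indicator measurableSet_Ici).comp measurable_snd
  have he : ∀ w : H3, sieg.indicator (fun w => ENNReal.ofReal w.t) w = f (w.z, w.t) := by
    intro w
    rw [hf]
    simp only
    by_cases h1 : normSq w.z ≤ 3 / 4
    · by_cases h2 : 1 / 2 ≤ w.t
      · rw [indicator_of_mem (show w ∈ sieg from ⟨h1, h2⟩), indicator_of_mem (by exact h1),
          indicator_of_mem (by exact h2), Pi.one_apply, one_mul]
      · rw [indicator_of_notMem (show w ∉ sieg from fun h => h2 h.2),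
          indicator_of_notMem (s := Ici (1 / 2 : ℝ)) (by exact h2), mul_zero]
    · rw [indicator_of_notMem (show w ∉ sieg from fun h => h1 h.1),
        indicator_of_notMem (s := {z : ℂ | normSq z ≤ 3 / 4}) (by exact h1), zero_mul]
  simp_rw [he]
  rw [H3.lintegral_eq f hfm]
  have h1 : ∀ t : ℝ, ENNReal.ofReal (t⁻¹ ^ 3) * ∫⁻ z : ℂ, f (z, t) =
      volume {z : ℂ | normSq z ≤ 3 / 4} *
        (ENNReal.ofReal (t⁻¹ ^ 3) * (Ici (1 / 2 : ℝ)).indicator (fun t => ENNReal.ofReal t) t) := by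
    intro t
    have hm : Measurable ({z : ℂ | normSq z ≤ 3 / 4}.indicator (1 : ℂ → ℝ≥0∞)) :=
      measurable_one.indicator (measurableSet_le continuous_normSq.measurable measurable_const)
    simp only [hf]
    rw [lintegral_mul_const _ hm, lintegral_indicator_one
      (measurableSet_le continuous_normSq.measurable measurable_const)]
    ring
  simp_rw [h1]
  rw [lintegral_const_mul' _ _ volume_disc_lt_top.ne]
  refine ENNReal.mul_lt_top volume_disc_lt_top ?_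
  have hint : IntegrableOn (fun t : ℝ => t ^ (-2 : ℝ)) (Ioi (1 / 4)) :=
    integrableOn_Ioi_rpow_of_lt (by norm_num) (by norm_num)
  have h2 : ∫⁻ t in Ioi (0 : ℝ), ENNReal.ofReal (t⁻¹ ^ 3) *
      (Ici (1 / 2 : ℝ)).indicator (fun t => ENNReal.ofReal t) t ≤
      ∫⁻ t in Ioi (1 / 4 : ℝ), ENNReal.ofReal (t ^ (-2 : ℝ)) := by
    rw [← lintegral_indicator measurableSet_Ioi, ← lintegral_indicator measurableSet_Ioi]
    refine lintegral_mono fun t => ?_
    by_cases h : t ∈ Ici (1 / 2 : ℝ)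
    · have h' : (1 / 2 : ℝ) ≤ t := h
      have h0 : 0 < t := by linarith
      rw [indicator_of_mem (show t ∈ Ioi (0 : ℝ) from h0), indicator_of_mem h,
        indicator_of_mem (show t ∈ Ioi (1 / 4 : ℝ) by simp only [mem_Ioi]; linarith),
        ← ENNReal.ofReal_mul (by positivity)]
      apply ENNReal.ofReal_le_ofReal
      rw [Real.rpow_neg h0.le]
      have : t ^ (2 : ℝ) = t ^ 2 := by norm_cast
      rw [this]
      apply le_of_eq
      field_simp
    · by_cases h0 : t ∈ Ioi (0 : ℝ)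
      · rw [indicator_of_mem h0, indicator_of_notMem h, mul_zero]; exact bot_le
      · rw [indicator_of_notMem h0]; exact bot_le
  refine h2.trans_lt ?_
  have := hint.lintegral_lt_top
  exact this

theorem lintegral_rho_t_lt_top : ∫⁻ w : H3, rho w * ENNReal.ofReal w.t < ∞ := by
  refine lt_of_le_of_lt (lintegral_mono fun w => ?_) lintegral_sieg_lt_top
  by_cases h : w ∈ sieg
  · rw [indicator_of_mem h]
    calc rho w * ENNReal.ofReal w.t ≤ 1 * ENNReal.ofReal w.t :=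
          mul_le_mul_left (isWeight_rho.le_one w) _
      _ = _ := one_mul _
  · rw [rho_eq_zero h, zero_mul]; exact bot_le

end Fermat.Agent.LT.J
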