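import Fermat.Agent.LT.J.BridgePhi
import Fermat.Agent.LT.Top.Iface

/-!
# The bridge: from cuspidal eigenforms on `ℚ(ω)` to `PhiSys`

`exists_bridge` : an `EForm` of level dividing `M` on `X D`, `F = ℚ(ω)`, gives a `PhiSys M` with
all the properties of `BridgeOut`.
-/

set_option autoImplicit false

open NumberField IsDedekindDomain
open Fermat.LT

namespace Fermat.Agent.LT.J

variable {F : Type} [Field F] [NumberField F] {D : Datum F} {φ : X D → ℂ} {lam : Pl F → ℝ}

theorem exists_bridge (E : Eis3 D) {M : ℕ} [NeZero M] (hU : Top.LevelDvd D M)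
    (h : Top.EForm D lam φ) : ∃ P : PhiSys M, BridgeOut E M lam P :=
  exists_bridgeOut E ⟨hU.good, hU.le⟩ h.cusp h.ne (fun _ hw => hw) h.eig

theorem exists_bridge' [IsCyclotomicExtension {3} ℚ F] {M : ℕ} (hM : M ≠ 0)
    (hU : Top.LevelDvd D M) (h : Top.EForm D lam φ) :
    ∃ (E : Eis3 D) (_ : NeZero M) (P : PhiSys M), BridgeOut E M lam P := by
  obtain ⟨E⟩ := nonempty_eis3 D
  have : NeZero M := ⟨hM⟩
  obtain ⟨P, hP⟩ := exists_bridge E hU h
  exact ⟨E, ⟨hM⟩, P, hP⟩

end Fermat.Agent.LT.J
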