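import Fermat.Agent.LT.J.Moment

/-!
# The Fourier coefficients of the theta lift (LT, piece J2)
-/

set_option autoImplicit false

open MeasureTheory Set Filter Topology
open scoped ENNReal NNReal

noncomputable section

namespace Fermat.Agent.LT.J

open Fermat.LT Fermat.Agent.LT.B Fermat.Agent.LT.CArch

/-- Gaussian times `s^{2k}` -/
def gm (k : ℕ) (y s : ℝ) : ℝ := s ^ (2 * k) * Real.exp (-(4 * Real.pi * y * s ^ 2))

theorem gm_nonneg (k : ℕ) (y s : ℝ) : 0 ≤ gm k y s :=
  mul_nonneg (by rw [pow_mul]; positivity) (Real.exp_pos _).le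

theorem gm_zero (y s : ℝ) : gm 0 y s = gss y s := by
  unfold gm gss
  simp

theorem continuous_gm (k : ℕ) (y : ℝ) : Continuous (gm k y) := by
  unfold gm; fun_prop

/-- the constant -/
def gc (k : ℕ) (y0 : ℝ) : ℝ := (k.factorial : ℝ) / (2 * Real.pi * y0) ^ k

theorem gm_le (k : ℕ) {y0 y : ℝ} (hy0 : 0 < y0) (hy : y0 ≤ y) (s : ℝ) :
    gm k y s ≤ gc k y0 * Real.exp (-(2 * Real.pi * y0 * s ^ 2)) := by
  have hpi := Real.pi_pos
  have h0 : 0 < 2 * Real.pi * y0 := by positivity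
  have h1 : (2 * Real.pi * y0 * s ^ 2) ^ k / (k.factorial : ℝ) ≤
      Real.exp (2 * Real.pi * y0 * s ^ 2) :=
    Real.pow_div_factorial_le_exp _ (by positivity) k
  have hk : 0 < (k.factorial : ℝ) := by exact_mod_cast k.factorial_pos
  have h2 : s ^ (2 * k) ≤ gc k y0 * Real.exp (2 * Real.pi * y0 * s ^ 2) := by
    rw [div_le_iff₀ hk, mul_pow] at h1
    unfold gc
    rw [div_mul_eq_mul_div, le_div_iff₀ (by positivity), pow_mul]
    linarith
  unfold gm
  have h3 : Real.exp (-(4 * Real.pi * y * s ^ 2)) ≤ Real.exp (-(4 * Real.pi * y0 * s ^ 2)) := by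
    apply Real.exp_le_exp.2
    have : 4 * Real.pi * y0 * s ^ 2 ≤ 4 * Real.pi * y * s ^ 2 := by gcongr
    linarith
  calc s ^ (2 * k) * Real.exp (-(4 * Real.pi * y * s ^ 2))
      ≤ (gc k y0 * Real.exp (2 * Real.pi * y0 * s ^ 2)) *
          Real.exp (-(4 * Real.pi * y0 * s ^ 2)) := by
        apply mul_le_mul h2 h3 (Real.exp_pos _).le
        unfold gc; positivity
    _ = _ := by
        rw [mul_assoc, ← Real.exp_add]
        congr 2
        ring

theorem GB_gm (k : ℕ) {y0 y : ℝ} (hy0 : 0 < y0) (hy : y0 ≤ y) :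
    GB (gc k y0) (2 * Real.pi * y0) (fun s => (gm k y s : ℂ)) := by
  intro s
  rw [Complex.norm_real, Real.norm_of_nonneg (gm_nonneg k y s)]
  exact gm_le k hy0 hy s

theorem measurable_gm (k : ℕ) (y : ℝ) : Measurable (fun s => (gm k y s : ℂ)) :=
  Complex.measurable_ofReal.comp (continuous_gm k y).measurable

theorem hasDerivAt_gm (k : ℕ) (y s : ℝ) :
    HasDerivAt (fun y => gm k y s) (-(4 * Real.pi) * gm (k + 1) y s) y := by
  unfold gm
  have h1 : HasDerivAt (fun y : ℝ => -(4 * Real.pi * y * s ^ 2)) (-(4 * Real.pi * s ^ 2)) y := by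
    have := (((hasDerivAt_id y).const_mul (4 * Real.pi)).mul_const (s ^ 2)).fun_neg
    simpa using this
  have h2 := (h1.exp).const_mul (s ^ (2 * k))
  refine h2.congr_deriv ?_
  rw [mul_add, pow_add]
  ring

section mom

variable {c : Lat ℤ → H3 → ℂ} (hc : CoefSys c) (n : ℤ)

/-- moments -/
def mom (c : Lat ℤ → H3 → ℂ) (n : ℤ) (k : ℕ) (y : ℝ) : ℂ :=
  LamL rho c n (fun s => (gm k y s : ℂ))

include hc

theorem integrable_mom (k : ℕ) {y : ℝ} (hy : 0 < y) :
    IntegrableOn (fun x : LH => c x.1 x.2 * (gm k y (sL x.1 x.2) : ℂ)) (Qset n) nuL :=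
  integrableOn_ch hc (by have := Real.pi_pos; positivity) n (measurable_gm k y)
    (GB_gm k hy le_rfl)

theorem hasDerivAt_mom (k : ℕ) {y : ℝ} (hy : 0 < y) :
    HasDerivAt (mom c n k) (-(4 * Real.pi) * mom c n (k + 1) y) y := by
  obtain ⟨B, hB⟩ := hc.bdd
  have hpi := Real.pi_pos
  have hy2 : 0 < y / 2 := half_pos hy
  have h := (hasDerivAt_integral_of_dominated_loc_of_deriv_le (μ := nuL.restrict (Qset n))
    (F := fun (y : ℝ) (x : LH) => c x.1 x.2 * (gm k y (sL x.1 x.2) : ℂ))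
    (F' := fun (y : ℝ) (x : LH) => c x.1 x.2 * ((-(4 * Real.pi) * gm (k + 1) y (sL x.1 x.2) : ℝ) : ℂ))
    (x₀ := y) (s := Ioi (y / 2))
    (bound := fun x : LH => B * (4 * Real.pi * (gc (k + 1) (y / 2) *
      Real.exp (-(2 * Real.pi * (y / 2) * sL x.1 x.2 ^ 2)))))
    (Ioi_mem_nhds (by linarith))
    (Eventually.of_forall fun z => (hc.measurable.mul
      ((measurable_gm k z).comp measurable_sL_uncurry)).aestronglyMeasurable)
    (integrable_mom hc n k hy)
    (hc.measurable.mul ((Complex.measurable_ofReal.comp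
      (((continuous_gm (k + 1) y).measurable.const_mul _))).comp
        measurable_sL_uncurry)).aestronglyMeasurable
    (Eventually.of_forall fun x z hz => ?_)
    ((((integrableOn_gauss (by positivity) n).const_mul _).const_mul _).const_mul _)
    (Eventually.of_forall fun x z _ => ?_)).2
  · have h2 : (fun y => ∫ x in Qset n, c x.1 x.2 * (gm k y (sL x.1 x.2) : ℂ) ∂nuL) = mom c n k := by
      funext z
      rw [mom, LamL_eq]
    rw [h2] at h
    refine h.congr_deriv ?_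
    rw [mom, LamL_eq, ← integral_const_mul]
    congr 1
    ext x
    push_cast
    ring
  · rw [norm_mul, Complex.norm_real, norm_mul, norm_neg, Real.norm_of_nonneg (by positivity),
      Real.norm_of_nonneg (gm_nonneg _ _ _)]
    have h1 := gm_le (k + 1) hy2 (le_of_lt hz) (sL x.1 x.2)
    have h3 := hB x.1 x.2
    have h4 := (norm_nonneg _).trans h3
    have h5 := gm_nonneg (k + 1) z (sL x.1 x.2)
    gcongr
  · exact ((hasDerivAt_gm k z _).ofReal_comp).const_mul _

omit hc in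
theorem gm_combo (y s : ℝ) : odeF n (fun s => (gss y s : ℂ))
      (fun s => ((-(8 * Real.pi * y * s) * gss y s : ℝ) : ℂ))
      (fun s => (((64 * Real.pi ^ 2 * y ^ 2 * s ^ 2 - 8 * Real.pi * y) * gss y s : ℝ) : ℂ)) s =
    ((64 * Real.pi ^ 2 * y ^ 2 : ℝ) : ℂ) * gm 2 y s +
    ((64 * Real.pi ^ 2 * y ^ 2 * n - 32 * Real.pi * y : ℝ) : ℂ) * gm 1 y s +
    ((1 - 8 * Real.pi * n * y : ℝ) : ℂ) * gm 0 y s := by
  unfold odeF
  have h0 : gm 0 y s = gss y s := gm_zero y s
  have h1 : gm 1 y s = s ^ 2 * gss y s := rfl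
  have h2 : gm 2 y s = s ^ 4 * gss y s := rfl
  rw [h0, h1, h2]
  push_cast
  ring

omit hc in
theorem hasDerivAt_gss (y s : ℝ) :
    HasDerivAt (gss y) (-(8 * Real.pi * y * s) * gss y s) s := by
  unfold gss
  have h1 : HasDerivAt (fun s : ℝ => -(4 * Real.pi * y * s ^ 2)) (-(8 * Real.pi * y * s)) s := by
    have := ((hasDerivAt_pow 2 s).const_mul (4 * Real.pi * y)).fun_neg
    refine this.congr_deriv ?_
    norm_num
    ring
  refine h1.exp.congr_deriv ?_
  ring

omit hc in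
theorem hasDerivAt_gss' (y s : ℝ) :
    HasDerivAt (fun s => -(8 * Real.pi * y * s) * gss y s)
      ((64 * Real.pi ^ 2 * y ^ 2 * s ^ 2 - 8 * Real.pi * y) * gss y s) s := by
  have h1 : HasDerivAt (fun s : ℝ => -(8 * Real.pi * y * s)) (-(8 * Real.pi * y)) s := by
    have := ((hasDerivAt_id s).const_mul (8 * Real.pi * y)).fun_neg
    simpa using this
  refine (h1.mul (hasDerivAt_gss y s)).congr_deriv ?_
  ring

omit hc in
theorem LamL_lin3 {a b d : ℂ} {h1 h2 h3 : ℝ → ℂ}
    (i1 : IntegrableOn (fun x : LH => c x.1 x.2 * h1 (sL x.1 x.2)) (Qset n) nuL)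
    (i2 : IntegrableOn (fun x : LH => c x.1 x.2 * h2 (sL x.1 x.2)) (Qset n) nuL)
    (i3 : IntegrableOn (fun x : LH => c x.1 x.2 * h3 (sL x.1 x.2)) (Qset n) nuL) :
    LamL rho c n (fun s => a * h1 s + b * h2 s + d * h3 s) =
      a * LamL rho c n h1 + b * LamL rho c n h2 + d * LamL rho c n h3 := by
  simp only [LamL_eq]
  have e : ∀ x : LH, c x.1 x.2 * (a * h1 (sL x.1 x.2) + b * h2 (sL x.1 x.2) + d * h3 (sL x.1 x.2))
      = a * (c x.1 x.2 * h1 (sL x.1 x.2)) + b * (c x.1 x.2 * h2 (sL x.1 x.2)) +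
        d * (c x.1 x.2 * h3 (sL x.1 x.2)) := fun x => by ring
  simp_rw [e]
  rw [integral_add, integral_add, integral_const_mul, integral_const_mul, integral_const_mul]
  · exact i1.const_mul _
  · exact i2.const_mul _
  · exact (i1.const_mul _).add (i2.const_mul _)
  · exact i3.const_mul _

theorem mom_ode {y : ℝ} (hy : 0 < y) :
    ((64 * Real.pi ^ 2 * y ^ 2 : ℝ) : ℂ) * mom c n 2 y +
    ((64 * Real.pi ^ 2 * y ^ 2 * n - 32 * Real.pi * y : ℝ) : ℂ) * mom c n 1 y +
    ((1 - 8 * Real.pi * n * y : ℝ) : ℂ) * mom c n 0 y = 0 := by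
  have hpi := Real.pi_pos
  have hcg2 : ContDiff ℝ 2 (gss y) := by unfold gss; fun_prop
  have hcont : ContDiff ℝ 2 (fun s => (gss y s : ℂ)) := Complex.ofRealCLM.contDiff.comp hcg2
  have hcg : Continuous (gss y) := hcg2.continuous
  set F := odeF n (fun s => (gss y s : ℂ))
      (fun s => ((-(8 * Real.pi * y * s) * gss y s : ℝ) : ℂ))
      (fun s => (((64 * Real.pi ^ 2 * y ^ 2 * s ^ 2 - 8 * Real.pi * y) * gss y s : ℝ) : ℂ)) with hF
  have hFe : F = fun s => ((64 * Real.pi ^ 2 * y ^ 2 : ℝ) : ℂ) * gm 2 y s +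
    ((64 * Real.pi ^ 2 * y ^ 2 * n - 32 * Real.pi * y : ℝ) : ℂ) * gm 1 y s +
    ((1 - 8 * Real.pi * n * y : ℝ) : ℂ) * gm 0 y s := by
    funext s
    rw [hF]
    exact gm_combo n y s
  have hi := fun k => integrable_mom hc n k hy
  have hlin : LamL rho c n F = ((64 * Real.pi ^ 2 * y ^ 2 : ℝ) : ℂ) * mom c n 2 y +
    ((64 * Real.pi ^ 2 * y ^ 2 * n - 32 * Real.pi * y : ℝ) : ℂ) * mom c n 1 y +
    ((1 - 8 * Real.pi * n * y : ℝ) : ℂ) * mom c n 0 y := by
    rw [hFe]
    exact LamL_lin3 n (hi 2) (hi 1) (hi 0)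
  rw [← hlin]
  have hfin : FinL rho n F := by
    have hb : GB (64 * Real.pi ^ 2 * y ^ 2 * gc 2 y +
        |64 * Real.pi ^ 2 * y ^ 2 * n - 32 * Real.pi * y| * gc 1 y +
        |1 - 8 * Real.pi * n * y| * gc 0 y) (2 * Real.pi * y) F := by
      intro s
      rw [hFe]
      simp only
      refine (norm_add₃_le).trans ?_
      rw [norm_mul, norm_mul, norm_mul, Complex.norm_real (64 * Real.pi ^ 2 * y ^ 2),
        Complex.norm_real (64 * Real.pi ^ 2 * y ^ 2 * n - 32 * Real.pi * y),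
        Complex.norm_real (1 - 8 * Real.pi * n * y)]
      have h2 := GB_gm 2 hy le_rfl s
      have h1 := GB_gm 1 hy le_rfl s
      have h0 := GB_gm 0 hy le_rfl s
      rw [Real.norm_of_nonneg (by positivity), Real.norm_eq_abs, Real.norm_eq_abs, add_mul, add_mul]
      rw [mul_assoc _ (gc 2 y), mul_assoc _ (gc 1 y), mul_assoc _ (gc 0 y)]
      exact add_le_add (add_le_add (mul_le_mul_of_nonneg_left h2 (by positivity))
        (mul_le_mul_of_nonneg_left h1 (abs_nonneg _)))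
        (mul_le_mul_of_nonneg_left h0 (abs_nonneg _))
    refine finL (by positivity) n ?_ hb
    rw [hFe]
    exact (((measurable_gm 2 y).const_mul _).add ((measurable_gm 1 y).const_mul _)).add
      ((measurable_gm 0 y).const_mul _)
  refine LamL_ode isWeight_rho hc hcont (fun v => (hasDerivAt_gss y v).ofReal_comp)
    (fun v => (hasDerivAt_gss' y v).ofReal_comp) ?_ ?_ hfin
  · exact Complex.continuous_ofReal.comp (by fun_prop)
  · have := finL (n := n) (by positivity) (measurable_gm 0 y) (GB_gm 0 hy le_rfl)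
    simpa only [gm_zero] using this

end mom

end Fermat.Agent.LT.J
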