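import Fermat.Agent.LT.J.Siegel
import Fermat.Agent.LT.B.Kernel
import Fermat.Agent.LT.CArch.OnH3

/-!
# The space `Lat ℤ × H3` and self-adjointness of radial operators (LT, piece J)
-/

set_option autoImplicit false

open MeasureTheory Set Matrix ProbabilityTheory
open scoped ENNReal NNReal

noncomputable section

namespace Fermat.Agent.LT.J

open Fermat.LT Fermat.Agent.LT.B Fermat.Agent.LT.CArch

/-- `GL₂(ℤ[ω])` -/
abbrev GE : Type := GL (Fin 2) EO

instance : MeasurableSpace (Lat ℤ) := ⊤
instance : DiscreteMeasurableSpace (Lat ℤ) := ⟨fun _ => trivial⟩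

theorem ch_gl (g : GE) (P P' : H3) : H3.ch (g • P) (g • P') = H3.ch P P' := H3.ch_smul (glC g) P P'

/-- pairs (lattice vector, point) -/
abbrev LH : Type := Lat ℤ × H3

/-- counting measure times hyperbolic volume -/
def muLH : Measure LH := Measure.count.prod volume

instance : SigmaFinite muLH := inferInstanceAs (SigmaFinite (Measure.count.prod volume))

instance : MeasurableConstSMul GE LH :=
  ⟨fun g => ((measurable_from_top (f := fun X : Lat ℤ => g • X)).comp measurable_fst).prodMk
    ((measurable_const_smul g).comp measurable_snd)⟩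

theorem measurePreserving_count (g : GE) :
    MeasurePreserving (fun X : Lat ℤ => g • X) Measure.count Measure.count := by
  refine ⟨measurable_from_top, ?_⟩
  ext s _
  rw [Measure.map_apply measurable_from_top (MeasurableSet.of_discrete),
    Measure.count_apply (MeasurableSet.of_discrete),
    Measure.count_apply (MeasurableSet.of_discrete)]
  congr 1
  exact Set.encard_preimage_of_bijective (MulAction.bijective g) s

instance : SMulInvariantMeasure GE LH muLH := by
  refine ⟨fun g s hs => ?_⟩
  have h := (measurePreserving_count g).prod (measurePreserving_smul g (volume : Measure H3))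
  exact h.measure_preimage hs.nullMeasurableSet

/-- the radial kernel as a continuous function -/
theorem continuous_kfun_ch {g : ℝ → ℂ} (hg : IsTest g) :
    Continuous (fun p : H3 × H3 => kfun g (H3.ch p.1 p.2)) :=
  (kfun_continuousOn hg.evenSmooth).comp_continuous H3.continuous_ch
    (fun p => H3.one_le_ch p.1 p.2)

theorem continuous_kfun_ch_right {g : ℝ → ℂ} (hg : IsTest g) (P : H3) :
    Continuous (fun P' : H3 => kfun g (H3.ch P P')) :=
  Continuous.comp (g := fun p : H3 × H3 => kfun g (H3.ch p.1 p.2)) (f := fun P' : H3 => (P, P'))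
    (continuous_kfun_ch hg) (continuous_const.prodMk continuous_id)

/-- the operator `kop` on functions on `H3` -/
theorem kopH_eq_kop (g : ℝ → ℂ) (φ : H3 → ℂ) (ψ : ℂ × ℝ → ℂ) (h : ∀ P : H3, φ P = ψ (P.z, P.t))
    (P : H3) : kopH g φ P = kop g ψ (P.z, P.t) := by
  rw [kopH_eq]
  unfold kop
  refine setIntegral_congr_fun measurableSet_hs fun q hq => ?_
  rw [ext0_of_mem φ hq, h]
  rfl

/-- total mass of the kernel -/
def kmass (g : ℝ → ℂ) : ℝ≥0∞ := ∫⁻ P' : H3, ‖kfun g (H3.ch (pt 1 one_pos) P')‖ₑ

theorem lintegral_kfun_ch (g : ℝ → ℂ) (P : H3) :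
    ∫⁻ P' : H3, ‖kfun g (H3.ch P P')‖ₑ = kmass g := by
  obtain ⟨γ, hγ⟩ := exists_smul_eq_pt_one P
  have h := (H3.measurePreserving_smul' γ).lintegral_comp_emb
    (H3.smulHomeo γ).measurableEmbedding (fun P' => ‖kfun g (H3.ch (pt 1 one_pos) P')‖ₑ)
  unfold kmass
  rw [← h]
  congr 1
  ext P'
  rw [← hγ, H3.ch_smul]

theorem kmass_ne_top {g : ℝ → ℂ} (hg : IsTest g) : kmass g ≠ ∞ := by
  have h := integrable_kopH hg (φ := fun _ => 1) continuous_const (pt 1 one_pos)
  simp only [mul_one] at h
  exact h.2.ne

/-! ### The fibrewise kernel -/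

/-- the kernel `(X, P) ↦ δ_X × vol` -/
def kap : Kernel LH LH :=
  (Kernel.deterministic Prod.fst measurable_fst) ×ₖ (Kernel.const LH (volume : Measure H3))

instance : IsSFiniteKernel kap := by unfold kap; infer_instance

theorem kap_apply (x : LH) : kap x = (volume : Measure H3).map (fun P' => (x.1, P')) := by
  rw [kap, Kernel.prod_apply, Kernel.deterministic_apply, Kernel.const_apply,
    Measure.dirac_prod]

theorem lintegral_kap (x : LH) {f : LH → ℝ≥0∞} (hf : Measurable f) :
    ∫⁻ y, f y ∂kap x = ∫⁻ P' : H3, f (x.1, P') := by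
  rw [kap_apply, lintegral_map hf measurable_prodMk_left]

theorem integral_kap (x : LH) {f : LH → ℂ} :
    ∫ y, f y ∂kap x = ∫ P' : H3, f (x.1, P') := by
  rw [kap_apply]
  exact (MeasurableEmbedding.id.prodMk_left x.1).integral_map f

theorem kap_eqv (g : GE) (x : LH) : kap (g • x) = (kap x).map (g • ·) := by
  rw [kap_apply, kap_apply, Measure.map_map (measurable_const_smul g) measurable_prodMk_left]
  have h := (measurePreserving_smul g (volume : Measure H3)).map_eq
  conv_lhs => rw [← h]
  rw [Measure.map_map measurable_prodMk_left (measurable_const_smul g)]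
  rfl

theorem measurable_iterL {f : LH × LH → ℝ≥0∞} (hf : Measurable f) :
    Measurable fun q : LH × H3 => f (q.1, (q.1.1, q.2)) :=
  hf.comp (measurable_fst.prodMk ((measurable_fst.comp measurable_fst).prodMk measurable_snd))

theorem measurable_iterR {f : LH × LH → ℝ≥0∞} (hf : Measurable f) :
    Measurable fun q : LH × H3 => f ((q.1.1, q.2), q.1) :=
  hf.comp (((measurable_fst.comp measurable_fst).prodMk measurable_snd).prodMk measurable_fst)

theorem isRev_kap : IsRev GE muLH kap where
  eqv := kap_eqv
  rev := by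
    refine Measure.ext_of_lintegral _ fun f hf => ?_
    rw [lintegral_map hf measurable_swap,
      Measure.lintegral_compProd (f := fun a : LH × LH => f a.swap) (hf.comp measurable_swap),
      Measure.lintegral_compProd hf]
    have h1 : ∀ x : LH, ∫⁻ y, f (x, y).swap ∂kap x = ∫⁻ P' : H3, f ((x.1, P'), x) := fun x =>
      lintegral_kap x (f := fun y => f (y, x)) (hf.comp measurable_prodMk_right)
    have h2 : ∀ x : LH, ∫⁻ y, f (x, y) ∂kap x = ∫⁻ P' : H3, f (x, (x.1, P')) := fun x =>
      lintegral_kap x (f := fun y => f (x, y)) (hf.comp measurable_prodMk_left)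
    simp_rw [h1, h2]
    unfold muLH
    rw [lintegral_prod, lintegral_prod]
    · congr 1
      ext X
      rw [lintegral_lintegral_swap]
      refine Measurable.aemeasurable ?_
      exact hf.comp ((measurable_const.prodMk measurable_snd).prodMk
        (measurable_const.prodMk measurable_fst))
    · exact (Measurable.lintegral_prod_right' (measurable_iterL hf)).aemeasurable
    · exact (Measurable.lintegral_prod_right' (measurable_iterR hf)).aemeasurable

/-- weights on `H3` give weights on `LH` -/
theorem isWeight_LH {ρ : H3 → ℝ≥0∞} (hρ : IsWeight GE ρ) :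
    IsWeight GE (fun x : LH => ρ x.2) :=
  ⟨hρ.meas.comp measurable_snd, fun x => hρ.sum_eq x.2⟩

end Fermat.Agent.LT.J
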