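import Mathlib
import Fermat.Agent.LT.I.Poisson

/-!
# Poisson summation for complex Gaussians on `ℤ^n`
-/

set_option autoImplicit false

open MeasureTheory Filter Topology Matrix
open scoped Real

namespace Fermat.Agent.LT.J4

open Fermat.Agent.LT.I

noncomputable section

section Lower

/-- A positive definite diagonal form composed with an invertible matrix is bounded below. -/
theorem exists_lower {n : ℕ} (A B : Matrix (Fin n) (Fin n) ℝ) (hBA : B * A = 1) (r : Fin n → ℝ)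
    (hr : ∀ i, 0 < r i) :
    ∃ δ : ℝ, 0 < δ ∧ ∀ x : Fin n → ℝ, δ * ∑ i, x i ^ 2 ≤ ∑ i, r i * ((A *ᵥ x) i) ^ 2 := by
  obtain ⟨r0, hr0, hr0'⟩ : ∃ r0 : ℝ, 0 < r0 ∧ ∀ i, r0 ≤ r i := by
    rcases isEmpty_or_nonempty (Fin n) with h | h
    · exact ⟨1, one_pos, fun i => h.elim i⟩
    · obtain ⟨j, hj⟩ := Finite.exists_min r
      exact ⟨r j, hr j, hj⟩
  set C := ∑ i, ∑ j, B i j ^ 2 with hC
  have hC0 : 0 ≤ C := Finset.sum_nonneg fun i _ => Finset.sum_nonneg fun j _ => sq_nonneg _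
  refine ⟨r0 / (C + 1), by positivity, fun x => ?_⟩
  set y := A *ᵥ x with hy
  have hx : x = B *ᵥ y := by
    rw [hy, Matrix.mulVec_mulVec, hBA, Matrix.one_mulVec]
  have h1 : ∑ i, x i ^ 2 ≤ C * ∑ j, y j ^ 2 := by
    rw [hC, Finset.sum_mul]
    refine Finset.sum_le_sum fun i _ => ?_
    have h2 : x i = ∑ j, B i j * y j := by
      conv_lhs => rw [hx]
      rfl
    rw [h2]
    exact Finset.sum_mul_sq_le_sq_mul_sq _ _ _
  have h3 : 0 ≤ ∑ j, y j ^ 2 := Finset.sum_nonneg fun j _ => sq_nonneg _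
  calc r0 / (C + 1) * ∑ i, x i ^ 2 ≤ r0 / (C + 1) * (C * ∑ j, y j ^ 2) := by gcongr
    _ ≤ r0 / (C + 1) * ((C + 1) * ∑ j, y j ^ 2) := by
        have : C * ∑ j, y j ^ 2 ≤ (C + 1) * ∑ j, y j ^ 2 := by nlinarith
        gcongr
    _ = r0 * ∑ j, y j ^ 2 := by field_simp
    _ ≤ ∑ i, r i * y i ^ 2 := by
        rw [Finset.mul_sum]
        exact Finset.sum_le_sum fun i _ => mul_le_mul_of_nonneg_right (hr0' i) (sq_nonneg _)

theorem summable_exp_sq {δ : ℝ} (hδ : 0 < δ) : Summable fun k : ℤ => rexp (-δ * (k : ℝ) ^ 2) := by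
  have h : Summable fun k : ℤ => rexp (-π * (δ / π) * (k : ℝ) ^ 2) := by
    have h1 := (summable_pow_mul_jacobiTheta₂_term_bound 0 (div_pos hδ Real.pi_pos) 0)
    refine h1.congr fun k => ?_
    simp
    ring_nf
  refine h.congr fun k => ?_
  congr 1
  field_simp

theorem summable_exp_sum_sq (n : ℕ) {δ : ℝ} (hδ : 0 < δ) :
    Summable fun k : Fin n → ℤ => rexp (-δ * ∑ i, (k i : ℝ) ^ 2) := by
  induction n with
  | zero => exact (Set.finite_univ).summable_compl_iff.mp (by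
      have : IsEmpty ↥((Set.univ : Set (Fin 0 → ℤ))ᶜ) := by
        rw [Set.compl_univ]; infer_instance
      exact summable_empty)
  | succ n ih =>
    rw [← (Fin.consEquiv (fun _ : Fin (n + 1) => ℤ)).summable_iff]
    have h := (summable_exp_sq hδ).mul_of_nonneg ih (fun _ => (Real.exp_pos _).le)
      (fun _ => (Real.exp_pos _).le)
    refine h.congr fun p => ?_
    rw [← Real.exp_add]
    congr 1
    simp only [Fin.consEquiv_apply, Fin.sum_univ_succ, Fin.cons_zero, Fin.cons_succ]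
    ring

end Lower

variable {n : ℕ}

/-- complex Gaussian in the coordinates given by the matrix `R` -/
def gau (R : Matrix (Fin n) (Fin n) ℝ) (c : Fin n → ℂ) (x : Fin n → ℝ) : ℂ :=
  Complex.exp (-π * ∑ i, c i * (((R *ᵥ x) i : ℝ) : ℂ) ^ 2)

theorem continuous_gau (R : Matrix (Fin n) (Fin n) ℝ) (c : Fin n → ℂ) : Continuous (gau R c) := by
  unfold gau
  have : ∀ i, Continuous fun x : Fin n → ℝ => (R *ᵥ x) i := by
    intro i
    unfold Matrix.mulVec dotProduct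
    fun_prop
  fun_prop

theorem norm_gau (R : Matrix (Fin n) (Fin n) ℝ) (c : Fin n → ℂ) (x : Fin n → ℝ) :
    ‖gau R c x‖ = rexp (-π * ∑ i, (c i).re * ((R *ᵥ x) i) ^ 2) := by
  unfold gau
  rw [Complex.norm_exp]
  congr 1
  rw [Finset.mul_sum, Finset.mul_sum, Complex.re_sum]
  refine Finset.sum_congr rfl fun i _ => ?_
  rw [← Complex.ofReal_pow, ← Complex.ofReal_neg, Complex.re_ofReal_mul, Complex.re_mul_ofReal]

theorem exists_norm_gau_le {R T : Matrix (Fin n) (Fin n) ℝ} (hTR : T * R = 1) {c : Fin n → ℂ}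
    (hc : ∀ i, 0 < (c i).re) :
    ∃ δ : ℝ, 0 < δ ∧ ∀ x, ‖gau R c x‖ ≤ rexp (-δ * ∑ i, x i ^ 2) := by
  obtain ⟨δ, hδ, h⟩ := exists_lower R T hTR (fun i => (c i).re) hc
  refine ⟨π * δ, by positivity, fun x => ?_⟩
  rw [norm_gau, Real.exp_le_exp]
  have := mul_le_mul_of_nonneg_left (h x) Real.pi_pos.le
  linarith

theorem locBd_gau {R T : Matrix (Fin n) (Fin n) ℝ} (hTR : T * R = 1) {c : Fin n → ℂ}
    (hc : ∀ i, 0 < (c i).re) : LocBd (gau R c) := by
  obtain ⟨δ, hδ, h⟩ := exists_norm_gau_le hTR hc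
  intro B
  refine ⟨fun k => rexp (δ * (n * B ^ 2)) * rexp (-(δ / 2) * ∑ i, (k i : ℝ) ^ 2),
    (summable_exp_sum_sq n (half_pos hδ)).mul_left _, fun k x hx => (h _).trans ?_⟩
  show rexp (-δ * ∑ i, (x + zv k) i ^ 2) ≤
    rexp (δ * (n * B ^ 2)) * rexp (-(δ / 2) * ∑ i, (k i : ℝ) ^ 2)
  rw [← Real.exp_add, Real.exp_le_exp]
  have h1 : ∀ i, (k i : ℝ) ^ 2 / 2 - B ^ 2 ≤ ((x + zv k) i) ^ 2 := by
    intro i
    have h2 : x i ^ 2 ≤ B ^ 2 := by
      rw [← sq_abs (x i)]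
      have h3 := hx i
      have h4 := abs_nonneg (x i)
      nlinarith
    simp only [Pi.add_apply, zv]
    nlinarith [sq_nonneg ((k i : ℝ) + 2 * x i)]
  have h2 : ∑ i, ((k i : ℝ) ^ 2 / 2 - B ^ 2) ≤ ∑ i, ((x + zv k) i) ^ 2 :=
    Finset.sum_le_sum fun i _ => h1 i
  rw [Finset.sum_sub_distrib, Finset.sum_const, Finset.card_univ, Fintype.card_fin, nsmul_eq_mul,
    ← Finset.sum_div] at h2
  nlinarith

theorem ft_gau {R T : Matrix (Fin n) (Fin n) ℝ} (hRT : R * T = 1) {c : Fin n → ℂ}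
    (hc : ∀ i, 0 < (c i).re) (m : Fin n → ℤ) :
    ft (gau R c) m = |T.det| * (∏ i, (1 / c i) ^ (1 / 2 : ℂ)) *
      Complex.exp (-π * ∑ i, (((Tᵀ *ᵥ zv m) i : ℝ) : ℂ) ^ 2 / c i) := by
  have hdet : T.det ≠ 0 := by
    have h1 := congrArg Matrix.det hRT
    rw [Matrix.det_mul, Matrix.det_one] at h1
    exact right_ne_zero_of_mul_eq_one h1
  have hTR : T * R = 1 := mul_eq_one_comm.mp hRT
  set F : (Fin n → ℝ) → ℂ := fun x => ex (-m) x * gau R c x with hF
  have hFc : Continuous F := (continuous_ex _).mul (continuous_gau _ _)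
  have hTc : Continuous (Matrix.toLin' T : (Fin n → ℝ) → (Fin n → ℝ)) :=
    LinearMap.continuous_on_pi _
  have h1 : ∫ ξ, F (Matrix.toLin' T ξ) = (|T.det|⁻¹ : ℝ) * ∫ x, F x := by
    rw [← integral_map (μ := (volume : Measure (Fin n → ℝ))) hTc.measurable.aemeasurable
      hFc.aestronglyMeasurable, Real.map_matrix_volume_pi_eq_smul_volume_pi hdet,
      integral_smul_measure, ENNReal.toReal_ofReal (abs_nonneg _), abs_inv, Complex.real_smul]
  have h2 : ft (gau R c) m = |T.det| * ∫ ξ, F (Matrix.toLin' T ξ) := by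
    rw [h1, ← mul_assoc, ← Complex.ofReal_mul, mul_inv_cancel₀ (abs_ne_zero.mpr hdet),
      Complex.ofReal_one, one_mul]
    rfl
  rw [h2, mul_assoc]
  congr 1
  have h3 : ∀ ξ, F (Matrix.toLin' T ξ) = ∏ i, (Complex.exp (Complex.I *
      (-(2 * π * (((Tᵀ *ᵥ zv m) i : ℝ) : ℂ))) * (ξ i : ℂ)) *
        Complex.exp (-(π * c i) * (ξ i : ℂ) ^ 2)) := by
    intro ξ
    rw [Finset.prod_mul_distrib, ← Complex.exp_sum, ← Complex.exp_sum]
    simp only [hF]
    congr 1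
    · unfold ex
      congr 1
      have h4 : ∑ i, (((-m) i : ℤ) : ℂ) * (((Matrix.toLin' T ξ) i : ℝ) : ℂ) =
          ((-∑ i, (Tᵀ *ᵥ zv m) i * ξ i : ℝ) : ℂ) := by
        have h5 : ∑ i, (Tᵀ *ᵥ zv m) i * ξ i = ∑ i, (m i : ℝ) * (T *ᵥ ξ) i := by
          have : (Tᵀ *ᵥ zv m) ⬝ᵥ ξ = zv m ⬝ᵥ (T *ᵥ ξ) := by
            rw [Matrix.mulVec_transpose, ← Matrix.dotProduct_mulVec]
          exact this
        rw [h5, Complex.ofReal_neg, Complex.ofReal_sum, ← Finset.sum_neg_distrib]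
        refine Finset.sum_congr rfl fun i _ => ?_
        rw [Matrix.toLin'_apply]
        push_cast
        simp
      rw [h4, Complex.ofReal_neg, Complex.ofReal_sum, mul_neg, Finset.mul_sum,
        ← Finset.sum_neg_distrib]
      refine Finset.sum_congr rfl fun i _ => ?_
      push_cast
      ring
    · unfold gau
      rw [Matrix.toLin'_apply, Matrix.mulVec_mulVec, hRT, Matrix.one_mulVec, Finset.mul_sum]
      congr 1
      exact Finset.sum_congr rfl fun i _ => by ring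
  rw [integral_congr_ae (Eventually.of_forall h3)]
  rw [integral_fintype_prod_volume_eq_prod (fun i (x : ℝ) => Complex.exp (Complex.I *
      (-(2 * π * (((Tᵀ *ᵥ zv m) i : ℝ) : ℂ))) * (x : ℂ)) *
        Complex.exp (-(π * c i) * (x : ℂ) ^ 2))]
  have hπ : (π : ℂ) ≠ 0 := Complex.ofReal_ne_zero.mpr Real.pi_ne_zero
  have h4 : ∀ i, ∫ x : ℝ, Complex.exp (Complex.I * (-(2 * π * (((Tᵀ *ᵥ zv m) i : ℝ) : ℂ))) *
      (x : ℂ)) * Complex.exp (-(π * c i) * (x : ℂ) ^ 2) = (1 / c i) ^ (1 / 2 : ℂ) *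
        Complex.exp (-π * (((Tᵀ *ᵥ zv m) i : ℝ) : ℂ) ^ 2 / c i) := by
    intro i
    have hci : c i ≠ 0 := by
      intro h
      have := hc i
      rw [h] at this
      simp at this
    have h5 : 0 < (π * c i : ℂ).re := by
      rw [Complex.re_ofReal_mul]
      exact mul_pos Real.pi_pos (hc i)
    rw [fourierIntegral_gaussian h5]
    congr 1
    · congr 1
      field_simp
    · congr 1
      field_simp
      ring
  rw [Finset.prod_congr rfl fun i _ => h4 i, Finset.prod_mul_distrib, ← Complex.exp_sum]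
  congr 2
  rw [Finset.mul_sum]
  exact Finset.sum_congr rfl fun i _ => by ring

theorem summable_ft_gau {R T : Matrix (Fin n) (Fin n) ℝ} (hRT : R * T = 1) {c : Fin n → ℂ}
    (hc : ∀ i, 0 < (c i).re) : Summable (ft (gau R c)) := by
  have hTR : T * R = 1 := mul_eq_one_comm.mp hRT
  have hc' : ∀ i, 0 < ((c i)⁻¹).re := by
    intro i
    rw [Complex.inv_re]
    have h0 : c i ≠ 0 := by
      intro h
      have := hc i
      rw [h] at this
      simp at this
    exact div_pos (hc i) (Complex.normSq_pos.mpr h0)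
  have hRT' : Rᵀ * Tᵀ = 1 := by
    rw [← Matrix.transpose_mul, hTR, Matrix.transpose_one]
  obtain ⟨δ, hδ, h⟩ := exists_norm_gau_le (R := Tᵀ) (T := Rᵀ) hRT' hc'
  have h1 : ∀ m : Fin n → ℤ, ft (gau R c) m = (|T.det| * (∏ i, (1 / c i) ^ (1 / 2 : ℂ))) *
      gau Tᵀ (fun i => (c i)⁻¹) (zv m) := by
    intro m
    rw [ft_gau hRT hc, gau]
    congr 4
    funext i
    ring
  have h2 : Summable fun m : Fin n → ℤ => gau Tᵀ (fun i => (c i)⁻¹) (zv m) :=
    Summable.of_norm_bounded (summable_exp_sum_sq n hδ) fun m => h (zv m)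
  exact (h2.mul_left _).congr fun m => (h1 m).symm

/-- **Poisson summation for complex Gaussians.** -/
theorem hasSum_gau {R T : Matrix (Fin n) (Fin n) ℝ} (hRT : R * T = 1) {c : Fin n → ℂ}
    (hc : ∀ i, 0 < (c i).re) (x : Fin n → ℝ) :
    HasSum (fun m : Fin n → ℤ => (|T.det| * ∏ i, (1 / c i) ^ (1 / 2 : ℂ)) *
      (gau Tᵀ (fun i => (c i)⁻¹) (zv m) * ex m x)) (∑' k : Fin n → ℤ, gau R c (x + zv k)) := by
  have hTR : T * R = 1 := mul_eq_one_comm.mp hRT
  have h := hasSum_poisson (continuous_gau R c) (locBd_gau hTR hc) (summable_ft_gau hRT hc) x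
  convert h using 1
  funext m
  rw [ft_gau hRT hc, gau]
  have h1 : ∀ i, (c i)⁻¹ * (((Tᵀ *ᵥ zv m) i : ℝ) : ℂ) ^ 2 =
      (((Tᵀ *ᵥ zv m) i : ℝ) : ℂ) ^ 2 / c i := fun i => by ring
  simp only [h1, mul_assoc]

end

end Fermat.Agent.LT.J4
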