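import Mathlib
import Fermat.Agent.LT.J.GaussPoisson

/-!
# Poisson summation for periodic functions times Gaussians
-/

set_option autoImplicit false

open MeasureTheory Filter Topology Matrix
open scoped Real

namespace Fermat.Agent.LT.J4

open Fermat.Agent.LT.I

noncomputable section

variable {n : ℕ}

/-- integer representative of a residue vector -/
def rv {C : ℕ} (r : Fin n → Fin C) : Fin n → ℤ := fun i => ((r i : ℕ) : ℤ)

/-- `X = r + C k` -/
def resEquiv (n C : ℕ) [NeZero C] : (Fin n → Fin C) × (Fin n → ℤ) ≃ (Fin n → ℤ) :=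
  ((Equiv.prodComm _ _).trans (Equiv.arrowProdEquivProdArrow (Fin n) (fun _ => ℤ)
    (fun _ => Fin C)).symm).trans (Equiv.piCongrRight fun _ => (Int.divModEquiv C).symm)

theorem resEquiv_apply (C : ℕ) [NeZero C] (r : Fin n → Fin C) (k : Fin n → ℤ) :
    resEquiv n C (r, k) = rv r + (C : ℤ) • k := by
  funext i
  simp [resEquiv, rv, Int.divModEquiv, Equiv.arrowProdEquivProdArrow]
  ring

theorem tsum_residues (C : ℕ) [NeZero C] {f : (Fin n → ℤ) → ℂ} (hf : Summable f) :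
    ∑' X, f X = ∑ r : Fin n → Fin C, ∑' k, f (rv r + (C : ℤ) • k) := by
  rw [← (resEquiv n C).tsum_eq]
  have h1 : Summable fun p : (Fin n → Fin C) × (Fin n → ℤ) => f (resEquiv n C p) :=
    (resEquiv n C).summable_iff.mpr hf
  rw [h1.tsum_prod, tsum_fintype]
  refine Finset.sum_congr rfl fun r _ => tsum_congr fun k => ?_
  rw [resEquiv_apply]

theorem gau_scale (R : Matrix (Fin n) (Fin n) ℝ) (c : Fin n → ℂ) {C : ℝ} (hC : C ≠ 0)
    (x : Fin n → ℝ) : gau R (fun i => (C : ℂ) ^ 2 * c i) (C⁻¹ • x) = gau R c x := by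
  unfold gau
  congr 2
  refine Finset.sum_congr rfl fun i _ => ?_
  rw [Matrix.mulVec_smul, Pi.smul_apply, smul_eq_mul]
  have : (C : ℂ) ≠ 0 := by exact_mod_cast hC
  push_cast
  field_simp

/-- **Poisson summation for periodic functions times Gaussians.** -/
theorem poisson_periodic {R T : Matrix (Fin n) (Fin n) ℝ} (hRT : R * T = 1) {c : Fin n → ℂ}
    (hc : ∀ i, 0 < (c i).re) (C : ℕ) [NeZero C] {φ : (Fin n → ℤ) → ℂ}
    (hφ : ∀ X K : Fin n → ℤ, φ (X + (C : ℤ) • K) = φ X) {B : ℝ} (hB : ∀ X, ‖φ X‖ ≤ B) :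
    ∑' X, φ X * gau R c (zv X) = (|T.det| * ∏ i, (1 / ((C : ℂ) ^ 2 * c i)) ^ (1 / 2 : ℂ)) *
      ∑' m : Fin n → ℤ, (∑ r : Fin n → Fin C, φ (rv r) * ex m ((C : ℝ)⁻¹ • zv (rv r))) *
        gau Tᵀ (fun i => ((C : ℂ) ^ 2 * c i)⁻¹) (zv m) := by
  have hTR : T * R = 1 := mul_eq_one_comm.mp hRT
  have hC0 : (C : ℝ) ≠ 0 := Nat.cast_ne_zero.mpr (NeZero.ne C)
  have hC2 : 0 < (C : ℝ) ^ 2 := by positivity
  obtain ⟨δ, hδ, h⟩ := exists_norm_gau_le hTR hc
  have hsum : Summable fun X => φ X * gau R c (zv X) := by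
    refine Summable.of_norm_bounded ((summable_exp_sum_sq n hδ).mul_left B) fun X => ?_
    rw [norm_mul]
    have hB0 : 0 ≤ B := (norm_nonneg _).trans (hB X)
    gcongr
    · exact hB X
    · exact h _
  have hc' : ∀ i, 0 < ((C : ℂ) ^ 2 * c i).re := by
    intro i
    have : ((C : ℂ) ^ 2 * c i).re = (C : ℝ) ^ 2 * (c i).re := by
      rw [← Complex.ofReal_natCast, ← Complex.ofReal_pow, Complex.re_ofReal_mul]
    rw [this]
    exact mul_pos hC2 (hc i)
  rw [tsum_residues C hsum]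
  have h1 : ∀ r : Fin n → Fin C, ∀ k : Fin n → ℤ,
      φ (rv r + (C : ℤ) • k) * gau R c (zv (rv r + (C : ℤ) • k)) =
        φ (rv r) * gau R (fun i => (C : ℂ) ^ 2 * c i) ((C : ℝ)⁻¹ • zv (rv r) + zv k) := by
    intro r k
    rw [hφ]
    congr 1
    rw [← gau_scale R c hC0]
    congr 1
    funext i
    simp only [zv, Pi.smul_apply, Pi.add_apply, smul_eq_mul]
    push_cast
    field_simp
  simp only [h1, tsum_mul_left]
  have h2 : ∀ r : Fin n → Fin C, ∑' k : Fin n → ℤ,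
      gau R (fun i => (C : ℂ) ^ 2 * c i) ((C : ℝ)⁻¹ • zv (rv r) + zv k) = _ := fun r =>
    (hasSum_gau hRT hc' ((C : ℝ)⁻¹ • zv (rv r))).tsum_eq.symm
  simp only [h2, tsum_mul_left]
  have hs3 : ∀ r : Fin n → Fin C, Summable fun m : Fin n → ℤ =>
      φ (rv r) * (gau Tᵀ (fun i => ((C : ℂ) ^ 2 * c i)⁻¹) (zv m) *
        ex m ((C : ℝ)⁻¹ • zv (rv r))) := by
    intro r
    have h4 := (hasSum_gau hRT hc' ((C : ℝ)⁻¹ • zv (rv r))).summable
    refine Summable.mul_left _ ?_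
    have h5 : ((|T.det| : ℝ) : ℂ) * ∏ i, (1 / ((C : ℂ) ^ 2 * c i)) ^ (1 / 2 : ℂ) ≠ 0 := by
      refine mul_ne_zero ?_ (Finset.prod_ne_zero_iff.mpr fun i _ => ?_)
      · have h6 := congrArg Matrix.det hRT
        rw [Matrix.det_mul, Matrix.det_one] at h6
        exact_mod_cast abs_ne_zero.mpr (right_ne_zero_of_mul_eq_one h6)
      · rw [Ne, Complex.cpow_eq_zero_iff]
        rintro ⟨h6, -⟩
        have h7 := hc' i
        rw [one_div, inv_eq_zero] at h6
        rw [h6] at h7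
        simp at h7
    exact (summable_mul_left_iff h5).mp h4
  rw [show ∀ K : ℂ, ∑ r : Fin n → Fin C, φ (rv r) * (K * ∑' m : Fin n → ℤ,
      gau Tᵀ (fun i => ((C : ℂ) ^ 2 * c i)⁻¹) (zv m) * ex m ((C : ℝ)⁻¹ • zv (rv r))) =
      K * ∑ r : Fin n → Fin C, ∑' m : Fin n → ℤ, φ (rv r) *
        (gau Tᵀ (fun i => ((C : ℂ) ^ 2 * c i)⁻¹) (zv m) * ex m ((C : ℝ)⁻¹ • zv (rv r))) from
    fun K => by
      rw [Finset.mul_sum]
      refine Finset.sum_congr rfl fun r _ => ?_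
      rw [tsum_mul_left]
      ring]
  congr 1
  rw [← Summable.tsum_finsetSum fun r _ => hs3 r]
  refine tsum_congr fun m => ?_
  rw [Finset.sum_mul]
  exact Finset.sum_congr rfl fun r _ => by ring

end

end Fermat.Agent.LT.J4
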