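import Mathlib
import Fermat.Agent.LT.J.PeriodicPoisson

/-!
# Finite exponential sums for the quadratic form `|β|² - 3ac`
-/

set_option autoImplicit false

open Matrix
open scoped Real

namespace Fermat.Agent.LT.J4

open Fermat.Agent.LT.I

noncomputable section

/-- `e(k / N)` -/
def eN (N : ℕ) (k : ℤ) : ℂ := Complex.exp (2 * π * Complex.I * k / N)

theorem eN_add (N : ℕ) (k l : ℤ) : eN N (k + l) = eN N k * eN N l := by
  unfold eN
  rw [← Complex.exp_add]
  congr 1
  push_cast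
  ring

@[simp] theorem eN_zero (N : ℕ) : eN N 0 = 1 := by simp [eN]

theorem norm_eN (N : ℕ) (k : ℤ) : ‖eN N k‖ = 1 := by
  unfold eN
  have h : 2 * π * Complex.I * k / N = ((2 * π * k / N : ℝ) : ℂ) * Complex.I := by
    push_cast; ring
  rw [h, Complex.norm_exp_ofReal_mul_I]

theorem eN_ne_zero (N : ℕ) (k : ℤ) : eN N k ≠ 0 := Complex.exp_ne_zero _

theorem eN_neg (N : ℕ) (k : ℤ) : eN N (-k) = (eN N k)⁻¹ := by
  have h := eN_add N k (-k)
  rw [add_neg_cancel, eN_zero] at h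
  exact eq_inv_of_mul_eq_one_right h.symm

theorem eN_mul_left {N : ℕ} (hN : N ≠ 0) (M : ℕ) (k : ℤ) : eN (N * M) (N * k) = eN M k := by
  unfold eN
  have : (N : ℂ) ≠ 0 := Nat.cast_ne_zero.mpr hN
  congr 1
  push_cast
  rw [show (2 * π * Complex.I * (N * k) : ℂ) = N * (2 * π * Complex.I * k) by ring,
    mul_div_mul_left _ _ this]

theorem eN_eq_one_iff {N : ℕ} (hN : N ≠ 0) (k : ℤ) : eN N k = 1 ↔ (N : ℤ) ∣ k := by
  unfold eN
  have hN' : (N : ℂ) ≠ 0 := Nat.cast_ne_zero.mpr hN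
  have hπ : (2 * π * Complex.I : ℂ) ≠ 0 := Complex.two_pi_I_ne_zero
  rw [Complex.exp_eq_one_iff]
  constructor
  · rintro ⟨m, hm⟩
    refine ⟨m, ?_⟩
    have h1 : (k : ℂ) = N * m := by
      rw [div_eq_iff hN'] at hm
      have h2 : 2 * π * Complex.I * (k : ℂ) = 2 * π * Complex.I * (N * m) := by
        rw [hm]; ring
      exact mul_left_cancel₀ hπ h2
    exact_mod_cast h1
  · rintro ⟨m, rfl⟩
    refine ⟨m, ?_⟩
    push_cast
    field_simp

theorem eN_congr {N : ℕ} (hN : N ≠ 0) {k l : ℤ} (h : (N : ℤ) ∣ k - l) : eN N k = eN N l := by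
  have h1 := (eN_eq_one_iff hN _).mpr h
  have h2 := eN_add N (k - l) l
  rw [sub_add_cancel, h1, one_mul] at h2
  exact h2

variable {n : ℕ}

/-- translation on residue vectors -/
def shiftR (C : ℕ) [NeZero C] (v : Fin n → ℤ) (r : Fin n → Fin C) : Fin n → Fin C := fun i =>
  ⟨((rv r i + v i) % (C : ℤ)).toNat, by
    have hC : (0 : ℤ) < C := by exact_mod_cast Nat.pos_of_ne_zero (NeZero.ne C)
    have h1 := Int.emod_nonneg (rv r i + v i) hC.ne'
    have h2 := Int.emod_lt_of_pos (rv r i + v i) hC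
    omega⟩

theorem rv_shiftR (C : ℕ) [NeZero C] (v : Fin n → ℤ) (r : Fin n → Fin C) (i : Fin n) :
    rv (shiftR C v r) i = (rv r i + v i) % (C : ℤ) := by
  have hC : (0 : ℤ) < C := by exact_mod_cast Nat.pos_of_ne_zero (NeZero.ne C)
  have h1 := Int.emod_nonneg (rv r i + v i) hC.ne'
  show (((((rv r i + v i) % (C : ℤ)).toNat : ℕ)) : ℤ) = _
  rw [Int.toNat_of_nonneg h1]

theorem rv_injective (C : ℕ) : Function.Injective (rv : (Fin n → Fin C) → (Fin n → ℤ)) := by
  intro r r' h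
  funext i
  apply Fin.ext
  have := congrFun h i
  simp only [rv] at this
  exact_mod_cast this

theorem shiftR_shiftR (C : ℕ) [NeZero C] (v : Fin n → ℤ) (r : Fin n → Fin C) :
    shiftR C (-v) (shiftR C v r) = r := by
  apply rv_injective
  funext i
  rw [rv_shiftR, rv_shiftR]
  have hC : (0 : ℤ) < C := by exact_mod_cast Nat.pos_of_ne_zero (NeZero.ne C)
  have h1 : rv r i % (C : ℤ) = rv r i := by
    apply Int.emod_eq_of_lt
    · simp [rv]
    · simp only [rv]; exact_mod_cast (r i).2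
  rw [Pi.neg_apply, Int.emod_add_emod]
  rw [show rv r i + v i + -v i = rv r i by ring, h1]

/-- shifting as an equivalence -/
def shiftE (C : ℕ) [NeZero C] (v : Fin n → ℤ) : (Fin n → Fin C) ≃ (Fin n → Fin C) where
  toFun := shiftR C v
  invFun := shiftR C (-v)
  left_inv := shiftR_shiftR C v
  right_inv r := by
    have := shiftR_shiftR C (-v) r
    rwa [neg_neg] at this

theorem exists_rv_shiftR (C : ℕ) [NeZero C] (v : Fin n → ℤ) (r : Fin n → Fin C) :
    ∃ k : Fin n → ℤ, rv r + v = rv (shiftR C v r) + (C : ℤ) • k := by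
  refine ⟨fun i => (rv r i + v i) / (C : ℤ), ?_⟩
  funext i
  simp only [Pi.add_apply, Pi.smul_apply, smul_eq_mul]
  rw [rv_shiftR]
  exact (Int.emod_add_mul_ediv _ _).symm

/-- Sums over residues are shift invariant. -/
theorem sum_shift (C : ℕ) [NeZero C] {f : (Fin n → ℤ) → ℂ}
    (hf : ∀ X K : Fin n → ℤ, f (X + (C : ℤ) • K) = f X) (v : Fin n → ℤ) :
    ∑ r : Fin n → Fin C, f (rv r + v) = ∑ r : Fin n → Fin C, f (rv r) := by
  rw [← (shiftE C v).sum_comp (fun r => f (rv r))]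
  refine Finset.sum_congr rfl fun r _ => ?_
  obtain ⟨k, hk⟩ := exists_rv_shiftR C v r
  rw [hk, hf]
  rfl

end

end Fermat.Agent.LT.J4
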