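import Mathlib
import Fermat.Agent.LT.J.GaussPoisson
import Fermat.Agent.LT.J.Herm

/-!
# The Gaussian on hermitian matrices attached to a point of `H³`

The hermitian matrix `[[a, β/√-3], [conj, c]]`, `β = x + y η`, `η = (1 + √-3)/2`, is written as the
vector `![a, c, x, y]`; `q(X) = |β|² - 3 a c = x² + x y + y² - 3 a c`.
-/

set_option autoImplicit false

open MeasureTheory Filter Topology Matrix
open scoped Real

namespace Fermat.Agent.LT.J4

open Fermat.Agent.LT.I Fermat.Agent.LT.J Fermat.LT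

noncomputable section

/-- The quadratic form `-3 det` on real vectors. -/
def qR (x : Fin 4 → ℝ) : ℝ := x 2 ^ 2 + x 2 * x 3 + x 3 ^ 2 - 3 * x 0 * x 1

/-- The quadratic form `-3 det` on integral vectors. -/
def qZ (x : Fin 4 → ℤ) : ℤ := x 2 ^ 2 + x 2 * x 3 + x 3 ^ 2 - 3 * x 0 * x 1

/-- The bilinear form on integral vectors. -/
def bZ (x y : Fin 4 → ℤ) : ℤ :=
  2 * x 2 * y 2 + x 2 * y 3 + x 3 * y 2 + 2 * x 3 * y 3 - 3 * x 0 * y 1 - 3 * x 1 * y 0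

theorem qR_zv (x : Fin 4 → ℤ) : qR (zv x) = qZ x := by
  simp [qR, qZ, zv]

/-- `β` -/
def bC (x : Fin 4 → ℝ) : ℂ := ⟨x 2 + x 3 / 2, √3 / 2 * x 3⟩

theorem normSq_bC (x : Fin 4 → ℝ) : Complex.normSq (bC x) = x 2 ^ 2 + x 2 * x 3 + x 3 ^ 2 := by
  have h : √3 * √3 = 3 := Real.mul_self_sqrt (by norm_num)
  rw [bC, Complex.normSq_mk]
  linear_combination (x 3 * x 3 / 4) * h

/-- The (normalised) coordinate of `X` along the point `P`. -/
def sR (P : H3) (x : Fin 4 → ℝ) : ℝ :=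
  (√3 * x 0 - 2 * ((bC x).im * P.z.re - (bC x).re * P.z.im) +
    √3 * x 1 * (Complex.normSq P.z + P.t ^ 2)) / (2 * P.t)

/-- the hermitian matrix attached to a vector -/
def toHerm (x : Fin 4 → ℝ) : Herm := ⟨x 0, bC x / (√3 * Complex.I), x 1⟩

theorem sqrt3_ne : √3 ≠ 0 := by positivity

theorem sqrt3_sq : √3 ^ 2 = 3 := Real.sq_sqrt (by norm_num)

theorem qR_eq_herm (x : Fin 4 → ℝ) : qR x = 3 * (toHerm x).q := by
  have h : Complex.normSq ((√3 : ℂ) * Complex.I) = 3 := by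
    rw [Complex.normSq_mul, Complex.normSq_I, mul_one, Complex.normSq_ofReal, ← sq, sqrt3_sq]
  rw [Herm.q, toHerm]
  simp only
  rw [Complex.normSq_div, normSq_bC, h, qR]
  ring

theorem sR_eq_herm (P : H3) (x : Fin 4 → ℝ) : sR P x = √3 * (toHerm x).s P := by
  have h1 : (bC x / (√3 * Complex.I) * (starRingEnd ℂ) P.z).re =
      ((bC x).im * P.z.re - (bC x).re * P.z.im) / √3 := by
    have h2 : bC x / ((√3 : ℂ) * Complex.I) = ⟨(bC x).im / √3, -(bC x).re / √3⟩ := by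
      have h3 : (√3 : ℂ) ≠ 0 := by exact_mod_cast sqrt3_ne
      rw [div_eq_iff (mul_ne_zero h3 Complex.I_ne_zero)]
      have h4 := sqrt3_ne
      apply Complex.ext <;> simp
    rw [h2]
    simp
    ring
  have h3 := sqrt3_ne
  have h3' := sqrt3_sq
  have ht : P.t ≠ 0 := P.t_pos.ne'
  rw [sR, Herm.s, toHerm]
  simp only
  rw [h1]
  field_simp

/-- the matrix of orthonormal coordinates -/
def Rm (P : H3) : Matrix (Fin 4) (Fin 4) ℝ :=
  !![√3 / (2 * P.t), √3 * (Complex.normSq P.z + P.t ^ 2) / (2 * P.t), P.z.im / P.t,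
      -(√3 * P.z.re - P.z.im) / (2 * P.t);
    -√3 / (2 * P.t), -(√3 * (Complex.normSq P.z - P.t ^ 2)) / (2 * P.t), -P.z.im / P.t,
      (√3 * P.z.re - P.z.im) / (2 * P.t);
    0, √3 * P.z.im, 1, 1 / 2;
    0, -(√3 * P.z.re), 0, √3 / 2]

/-- its inverse -/
def Tm (P : H3) : Matrix (Fin 4) (Fin 4) ℝ :=
  !![(Complex.normSq P.z + P.t ^ 2) / (√3 * P.t), (Complex.normSq P.z - P.t ^ 2) / (√3 * P.t),
      -(2 / √3) * P.z.im, 2 / √3 * P.z.re;
    1 / (√3 * P.t), 1 / (√3 * P.t), 0, 0;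
    (-P.z.im - P.z.re / √3) / P.t, (-P.z.im - P.z.re / √3) / P.t, 1, -1 / √3;
    2 / √3 * P.z.re / P.t, 2 / √3 * P.z.re / P.t, 0, 2 / √3]

theorem Rm_mul_Tm (P : H3) : Rm P * Tm P = 1 := by
  have ht : P.t ≠ 0 := P.t_pos.ne'
  have h3 := sqrt3_ne
  have h3' := sqrt3_sq
  have hz : Complex.normSq P.z = P.z.re ^ 2 + P.z.im ^ 2 := by
    rw [Complex.normSq_apply]; ring
  ext i j
  fin_cases i <;> fin_cases j <;>
    simp [Rm, Tm, Matrix.mul_apply, Fin.sum_univ_four, hz] <;> field_simp <;>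
    ring_nf

theorem det_Tm (P : H3) : (Tm P).det = 4 / (3 * √3) := by
  have ht : P.t ≠ 0 := P.t_pos.ne'
  have h3 := sqrt3_ne
  have h3' := sqrt3_sq
  rw [Matrix.det_succ_row_zero]
  simp [Tm, Fin.sum_univ_succ, Matrix.det_fin_three, Matrix.submatrix, Fin.succAbove]
  field_simp
  ring_nf
  simp only [h3']
  ring_nf

theorem Rm_mulVec_zero (P : H3) (x : Fin 4 → ℝ) : (Rm P *ᵥ x) 0 = sR P x := by
  have ht : P.t ≠ 0 := P.t_pos.ne'
  simp [Rm, sR, bC, Matrix.mulVec, dotProduct, Fin.sum_univ_four]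
  field_simp
  ring

/-- `q = -ξ₀² + ξ₁² + ξ₂² + ξ₃²` -/
theorem qR_eq (P : H3) (x : Fin 4 → ℝ) : qR x = -((Rm P *ᵥ x) 0) ^ 2 + ((Rm P *ᵥ x) 1) ^ 2 +
    ((Rm P *ᵥ x) 2) ^ 2 + ((Rm P *ᵥ x) 3) ^ 2 := by
  have ht : P.t ≠ 0 := P.t_pos.ne'
  have h3' : √3 ^ 2 = 3 := sqrt3_sq
  have hz : Complex.normSq P.z = P.z.re ^ 2 + P.z.im ^ 2 := by
    rw [Complex.normSq_apply]; ring
  simp only [Rm, qR, Matrix.mulVec, dotProduct, Fin.sum_univ_four, Matrix.of_apply,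
    Matrix.cons_val', Matrix.cons_val_zero, Matrix.cons_val_one, Matrix.cons_val, hz]
  field_simp
  ring_nf
  simp only [h3']
  ring

/-- The function `e(z q(X)) exp(-4π Im z s(X)²)`. -/
def Gz (z : ℂ) (P : H3) (x : Fin 4 → ℝ) : ℂ :=
  Complex.exp (2 * π * Complex.I * (z * qR x)) * Complex.exp (-(4 * π * z.im * sR P x ^ 2 : ℝ))

/-- coefficients of the Gaussian -/
def cz (z : ℂ) : Fin 4 → ℂ :=
  ![2 * Complex.I * (starRingEnd ℂ) z, -(2 * Complex.I * z), -(2 * Complex.I * z),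
    -(2 * Complex.I * z)]

theorem Gz_eq_gau (z : ℂ) (P : H3) (x : Fin 4 → ℝ) : Gz z P x = gau (Rm P) (cz z) x := by
  unfold Gz gau
  rw [← Complex.exp_add, Fin.sum_univ_four, ← Rm_mulVec_zero, qR_eq P]
  congr 1
  set ξ := Rm P *ᵥ x
  have h1 : (starRingEnd ℂ) z = z - 2 * z.im * Complex.I := by
    apply Complex.ext <;> simp
    ring
  simp only [cz, Matrix.cons_val_zero, Matrix.cons_val_one, Matrix.cons_val, h1]
  push_cast
  linear_combination (-(4 * π * z.im * (ξ 0 : ℂ) ^ 2)) * Complex.I_sq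

theorem re_cz {z : ℂ} (hz : 0 < z.im) (i : Fin 4) : 0 < (cz z i).re := by
  fin_cases i <;> simp [cz] <;> exact hz

end

end Fermat.Agent.LT.J4
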