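import Mathlib
import Fermat.Agent.LT.J.FinSum
import Fermat.Agent.LT.J.ThetaGau

/-!
# The finite Weil representation formula for `Γ₀(3M²)`
-/

set_option autoImplicit false

open Matrix
open scoped Real

namespace Fermat.Agent.LT.J4

open Fermat.Agent.LT.I

noncomputable section

/-- the dual vector `B(Y, ·)` -/
def mvec (Y : Fin 4 → ℤ) : Fin 4 → ℤ := ![-3 * Y 1, -3 * Y 0, 2 * Y 2 + Y 3, Y 2 + 2 * Y 3]

/-- dot product -/
def mdot (m r : Fin 4 → ℤ) : ℤ := m 0 * r 0 + m 1 * r 1 + m 2 * r 2 + m 3 * r 3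

theorem mdot_mvec (Y r : Fin 4 → ℤ) : mdot (mvec Y) r = bZ Y r := by
  simp only [mdot, mvec, bZ, Matrix.cons_val_zero, Matrix.cons_val_one, Matrix.cons_val]
  ring

theorem mdot_add (m r s : Fin 4 → ℤ) : mdot m (r + s) = mdot m r + mdot m s := by
  simp only [mdot, Pi.add_apply]; ring

theorem qZ_add (x y : Fin 4 → ℤ) : qZ (x + y) = qZ x + bZ x y + qZ y := by
  simp only [qZ, bZ, Pi.add_apply]; ring

theorem mvec_injective : Function.Injective mvec := by
  intro Y Y' h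
  have h0 := congrFun h 0
  have h1 := congrFun h 1
  have h2 := congrFun h 2
  have h3 := congrFun h 3
  simp only [mvec, Matrix.cons_val_zero, Matrix.cons_val_one, Matrix.cons_val] at h0 h1 h2 h3
  funext i
  fin_cases i
  · simp only [Fin.zero_eta]; omega
  · simp only [Fin.mk_one]; omega
  · simp only [Fin.reduceFinMk]; omega
  · simp only [Fin.reduceFinMk]; omega

/-- The finite sum. -/
def Asum (c : ℕ) (a : ℤ) (φ : (Fin 4 → ℤ) → ℂ) (m : Fin 4 → ℤ) : ℂ :=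
  ∑ r : Fin 4 → Fin c, φ (rv r) * eN c (a * qZ (rv r) + mdot m (rv r))

/-- The Gauss sum. -/
def gauss4 (c : ℕ) (a : ℤ) : ℂ := ∑ r : Fin 4 → Fin c, eN c (a * qZ (rv r))

/-- `φ` is periodic modulo `M`. -/
def Per (M : ℕ) (φ : (Fin 4 → ℤ) → ℂ) : Prop := ∀ X K : Fin 4 → ℤ, φ (X + (M : ℤ) • K) = φ X

theorem Per.of_dvd {M N : ℕ} {φ : (Fin 4 → ℤ) → ℂ} (h : Per M φ) (hMN : M ∣ N) : Per N φ := by
  intro X K
  obtain ⟨k, rfl⟩ := hMN
  have := h X ((k : ℤ) • K)
  rw [smul_smul] at this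
  rwa [Nat.cast_mul]

theorem Per.eq_of_dvd {M : ℕ} {φ : (Fin 4 → ℤ) → ℂ} (h : Per M φ) {X Y : Fin 4 → ℤ}
    (hXY : ∀ i, (M : ℤ) ∣ X i - Y i) : φ X = φ Y := by
  choose K hK using hXY
  have : X = Y + (M : ℤ) • K := by
    funext i
    have := hK i
    simp only [Pi.add_apply, Pi.smul_apply, smul_eq_mul]
    linarith
  rw [this, h]

/-- indicator of a class -/
def cls (M : ℕ) (h : Fin 4 → ℤ) (X : Fin 4 → ℤ) : ℂ :=
  open Classical in if ∀ i, (M : ℤ) ∣ X i - h i then 1 else 0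

theorem per_cls (M : ℕ) (h : Fin 4 → ℤ) : Per M (cls M h) := by
  intro X K
  unfold cls
  congr 1
  apply propext
  refine forall_congr' fun i => ?_
  simp only [Pi.add_apply, Pi.smul_apply, smul_eq_mul]
  constructor
  · intro h1
    have h2 : (M : ℤ) ∣ (X i + M * K i - h i) - M * K i := dvd_sub h1 (dvd_mul_right _ _)
    have h3 : (X i + M * K i - h i) - M * K i = X i - h i := by ring
    rwa [h3] at h2
  · intro h1
    have h2 : (M : ℤ) ∣ (X i - h i) + M * K i := dvd_add h1 (dvd_mul_right _ _)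
    have h3 : (X i - h i) + M * K i = X i + M * K i - h i := by ring
    rwa [h3] at h2

theorem sum_cls {M : ℕ} [NeZero M] {φ : (Fin 4 → ℤ) → ℂ} (hφ : Per M φ) (X : Fin 4 → ℤ) :
    φ X = ∑ h : Fin 4 → Fin M, φ (rv h) * cls M (rv h) X := by
  classical
  set h0 : Fin 4 → Fin M := shiftR M X (fun _ => 0) with hh0
  have hz : (rv (fun _ => 0 : Fin 4 → Fin M)) = 0 := by
    funext i; simp [rv]
  have h1 : ∀ i, (M : ℤ) ∣ X i - rv h0 i := by
    intro i
    rw [hh0, rv_shiftR, hz]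
    simp only [Pi.zero_apply, zero_add]
    exact Int.dvd_self_sub_emod
  rw [Finset.sum_eq_single h0]
  · rw [cls, if_pos h1, mul_one]
    exact hφ.eq_of_dvd h1
  · intro h _ hne
    rw [cls, if_neg, mul_zero]
    intro h2
    apply hne
    apply rv_injective
    funext i
    have h3 : (M : ℤ) ∣ rv h i - rv h0 i := by
      have := dvd_sub (h1 i) (h2 i)
      have e : X i - rv h0 i - (X i - rv h i) = rv h i - rv h0 i := by ring
      rwa [e] at this
    have b1 : 0 ≤ rv h i := by simp [rv]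
    have b2 : rv h i < M := by simp only [rv]; exact_mod_cast (h i).2
    have b3 : 0 ≤ rv h0 i := by simp [rv]
    have b4 : rv h0 i < M := by simp only [rv]; exact_mod_cast (h0 i).2
    have h4 := Int.eq_zero_of_abs_lt_dvd h3 (by rw [abs_lt]; constructor <;> linarith)
    linarith
  · intro h; exact absurd (Finset.mem_univ _) h

/-- shift vector -/
def shv (N : ℤ) (K : Fin 4 → ℤ) : Fin 4 → ℤ :=
  N • ![K 0, K 1, -K 2 - 2 * K 3, 2 * K 2 + K 3]

/-- phase -/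
def phs (a : ℤ) (m K X : Fin 4 → ℤ) : ℤ :=
  3 * a * (-X 2 * K 3 + X 3 * K 2 - X 0 * K 1 - X 1 * K 0) + m 0 * K 0 + m 1 * K 1 +
    (2 * m 3 - m 2) * K 2 + (m 3 - 2 * m 2) * K 3

section

variable {M c' : ℕ} [NeZero M] [NeZero c']

theorem phase_shift (a : ℤ) (m K X : Fin 4 → ℤ) :
    eN (3 * M ^ 2 * c') (a * qZ (X + shv (M * c') K) + mdot m (X + shv (M * c') K)) =
      eN (3 * M ^ 2 * c') (a * qZ X + mdot m X) * eN (3 * M) (phs a m K X) := by
  have hM : M ≠ 0 := NeZero.ne M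
  have hc : c' ≠ 0 := NeZero.ne c'
  have h1 : eN (3 * M) (phs a m K X) = eN (3 * M ^ 2 * c') (((M * c' : ℕ) : ℤ) * phs a m K X) := by
    rw [← eN_mul_left (mul_ne_zero hM hc) (3 * M)]
    congr 1
    ring
  rw [h1, ← eN_add]
  apply eN_congr (by positivity)
  refine ⟨a * c' * (K 2 ^ 2 + K 2 * K 3 + K 3 ^ 2 - K 0 * K 1), ?_⟩
  simp only [qZ, mdot, phs, shv, Pi.add_apply, Pi.smul_apply, smul_eq_mul, Matrix.cons_val_zero,
    Matrix.cons_val_one, Matrix.cons_val]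
  push_cast
  ring

theorem Asum_cls (a : ℤ) (m h K : Fin 4 → ℤ) :
    Asum (3 * M ^ 2 * c') a (cls M h) m =
      Asum (3 * M ^ 2 * c') a (cls M h) m * eN (3 * M) (phs a m K h) := by
  classical
  have hM : M ≠ 0 := NeZero.ne M
  have hc : c' ≠ 0 := NeZero.ne c'
  have hcne : 3 * M ^ 2 * c' ≠ 0 := by positivity
  have : NeZero (3 * M ^ 2 * c') := ⟨hcne⟩
  have hper : ∀ X K : Fin 4 → ℤ, (fun X => cls M h X *
      eN (3 * M ^ 2 * c') (a * qZ X + mdot m X)) (X + ((3 * M ^ 2 * c' : ℕ) : ℤ) • K) =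
      (fun X => cls M h X * eN (3 * M ^ 2 * c') (a * qZ X + mdot m X)) X := by
    intro X K
    simp only
    congr 1
    · exact (per_cls M h).of_dvd ⟨3 * M * c', by ring⟩ X K
    · apply eN_congr hcne
      refine ⟨a * (bZ X K + ((3 * M ^ 2 * c' : ℕ) : ℤ) * qZ K) + mdot m K, ?_⟩
      simp only [qZ, bZ, mdot, Pi.add_apply, Pi.smul_apply, smul_eq_mul]
      ring
  have hsh := sum_shift (3 * M ^ 2 * c') (f := fun X => cls M h X *
      eN (3 * M ^ 2 * c') (a * qZ X + mdot m X)) hper (shv (M * c') K)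
  refine Eq.trans (b := ∑ r : Fin 4 → Fin (3 * M ^ 2 * c'), (fun X => cls M h X *
      eN (3 * M ^ 2 * c') (a * qZ X + mdot m X)) (rv r)) rfl ?_
  rw [← hsh, Asum, Finset.sum_mul]
  refine Finset.sum_congr rfl fun r _ => ?_
  rw [phase_shift]
  have h1 : cls M h (rv r + shv (M * c') K) = cls M h (rv r) := by
    have : shv (M * c') K = (M : ℤ) • shv c' K := by
      unfold shv
      rw [smul_smul]
    rw [this, per_cls]
  rw [h1]
  by_cases h2 : ∀ i, (M : ℤ) ∣ rv r i - h i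
  · have h3 : eN (3 * M) (phs a m K (rv r)) = eN (3 * M) (phs a m K h) := by
      apply eN_congr (by positivity)
      choose k hk using h2
      refine ⟨a * (-k 2 * K 3 + k 3 * K 2 - k 0 * K 1 - k 1 * K 0), ?_⟩
      have e : ∀ i, rv r i = h i + M * k i := fun i => by have := hk i; linarith
      simp only [phs, e]
      push_cast
      ring
    rw [h3]; ring
  · rw [cls, if_neg h2]; ring

theorem dvd_of_Asum_cls {a : ℤ} {m h : Fin 4 → ℤ}
    (hne : Asum (3 * M ^ 2 * c') a (cls M h) m ≠ 0) (K : Fin 4 → ℤ) :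
    (3 * M : ℤ) ∣ phs a m K h := by
  have h1 := Asum_cls (M := M) (c' := c') a m h K
  have h2 : eN (3 * M) (phs a m K h) = 1 := by
    have h3 : Asum (3 * M ^ 2 * c') a (cls M h) m * (eN (3 * M) (phs a m K h) - 1) = 0 := by
      rw [mul_sub, mul_one, ← h1, sub_self]
    exact sub_eq_zero.mp ((mul_eq_zero.mp h3).resolve_left hne)
  have hM : M ≠ 0 := NeZero.ne M
  have := (eN_eq_one_iff (by positivity) _).mp h2
  exact_mod_cast this

omit [NeZero c'] in
theorem Asum_linear {φ : (Fin 4 → ℤ) → ℂ} (hφ : Per M φ) (a : ℤ) (m : Fin 4 → ℤ) :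
    Asum (3 * M ^ 2 * c') a φ m = ∑ h : Fin 4 → Fin M, φ (rv h) *
      Asum (3 * M ^ 2 * c') a (cls M (rv h)) m := by
  unfold Asum
  simp only [Finset.mul_sum]
  rw [Finset.sum_comm]
  refine Finset.sum_congr rfl fun r _ => ?_
  rw [sum_cls hφ (rv r), Finset.sum_mul]
  exact Finset.sum_congr rfl fun h _ => by ring

/-- The finite sum vanishes away from the lattice. -/
theorem Asum_eq_zero {φ : (Fin 4 → ℤ) → ℂ} (hφ : Per M φ) (a : ℤ) {m : Fin 4 → ℤ}
    (hm : m ∉ Set.range mvec) : Asum (3 * M ^ 2 * c') a φ m = 0 := by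
  rw [Asum_linear hφ]
  refine Finset.sum_eq_zero fun h _ => ?_
  by_contra hne
  apply hm
  have hne' := right_ne_zero_of_mul hne
  have h0 := dvd_of_Asum_cls hne' ![1, 0, 0, 0]
  have h1 := dvd_of_Asum_cls hne' ![0, 1, 0, 0]
  have h2 := dvd_of_Asum_cls hne' ![0, 0, 1, 0]
  have h3 := dvd_of_Asum_cls hne' ![0, 0, 0, 1]
  have hd : ∀ x : ℤ, (3 * M : ℤ) ∣ x → ∃ y, x = 3 * y := fun x ⟨y, hy⟩ => ⟨M * y, by rw [hy]; ring⟩
  obtain ⟨y0, e0⟩ := hd _ h0
  obtain ⟨y1, e1⟩ := hd _ h1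
  obtain ⟨y2, e2⟩ := hd _ h2
  obtain ⟨y3, e3⟩ := hd _ h3
  simp only [phs, Matrix.cons_val_zero, Matrix.cons_val_one, Matrix.cons_val] at e0 e1 e2 e3
  refine ⟨![-(y1 + a * rv h 0), -(y0 + a * rv h 1), -(y3 + a * rv h 2), y2 - a * rv h 3], ?_⟩
  funext i
  fin_cases i
  · simp [mvec]; linarith
  · simp [mvec]; linarith
  · simp [mvec]; linarith
  · simp [mvec]; linarith

/-- On the lattice only one class contributes. -/
theorem Asum_mvec {φ : (Fin 4 → ℤ) → ℂ} (hφ : Per M φ) {a d : ℤ}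
    (had : ((3 * M ^ 2 * c' : ℕ) : ℤ) ∣ a * d - 1) (Y : Fin 4 → ℤ) :
    Asum (3 * M ^ 2 * c') a φ (mvec Y) =
      φ (-d • Y) * Asum (3 * M ^ 2 * c') a (fun _ => 1) (mvec Y) := by
  rw [Asum_linear hφ, Asum_linear (M := M) (φ := fun _ => 1) (fun _ _ => rfl), Finset.mul_sum]
  refine Finset.sum_congr rfl fun h _ => ?_
  rw [one_mul]
  by_cases hne : Asum (3 * M ^ 2 * c') a (cls M (rv h)) (mvec Y) = 0
  · rw [hne, mul_zero, mul_zero]
  congr 1
  have h0 := dvd_of_Asum_cls hne ![1, 0, 0, 0]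
  have h1 := dvd_of_Asum_cls hne ![0, 1, 0, 0]
  have h2 := dvd_of_Asum_cls hne ![0, 0, 1, 0]
  have h3 := dvd_of_Asum_cls hne ![0, 0, 0, 1]
  simp only [phs, mvec, Matrix.cons_val_zero, Matrix.cons_val_one, Matrix.cons_val] at h0 h1 h2 h3
  have hd : ∀ x y : ℤ, (3 * M : ℤ) ∣ x → x = 3 * y → (M : ℤ) ∣ y := by
    rintro x y ⟨z, hz⟩ hxy
    exact ⟨z, by linarith⟩
  have k1 : (M : ℤ) ∣ a * rv h 1 + Y 1 := by
    have := hd _ (-(a * rv h 1 + Y 1)) h0 (by ring)
    exact (dvd_neg).mp this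
  have k0 : (M : ℤ) ∣ a * rv h 0 + Y 0 := by
    have := hd _ (-(a * rv h 0 + Y 0)) h1 (by ring)
    exact (dvd_neg).mp this
  have k3 : (M : ℤ) ∣ a * rv h 3 + Y 3 := hd _ _ h2 (by ring)
  have k2 : (M : ℤ) ∣ a * rv h 2 + Y 2 := by
    have := hd _ (-(a * rv h 2 + Y 2)) h3 (by ring)
    exact (dvd_neg).mp this
  have hM' : (M : ℤ) ∣ a * d - 1 := by
    refine dvd_trans ?_ had
    refine ⟨3 * M * c', ?_⟩
    push_cast; ring
  apply hφ.eq_of_dvd
  have key : ∀ i, (M : ℤ) ∣ a * rv h i + Y i := by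
    intro i
    fin_cases i
    · exact k0
    · exact k1
    · exact k2
    · exact k3
  intro i
  have h5 : rv h i - (-d • Y) i = d * (a * rv h i + Y i) - (a * d - 1) * rv h i := by
    simp only [Pi.smul_apply, smul_eq_mul]
    ring
  rw [h5]
  exact dvd_sub (dvd_mul_of_dvd_right (key i) _) (dvd_mul_of_dvd_left hM' _)

end

/-- Completing the square. -/
theorem Asum_one {c : ℕ} [NeZero c] {a d : ℤ} (had : (c : ℤ) ∣ a * d - 1) (Y : Fin 4 → ℤ) :
    Asum c a (fun _ => 1) (mvec Y) * eN c (d * qZ Y) = gauss4 c a := by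
  have hc : c ≠ 0 := NeZero.ne c
  have hper : ∀ X K : Fin 4 → ℤ, (fun X => eN c (a * qZ X)) (X + (c : ℤ) • K) =
      (fun X => eN c (a * qZ X)) X := by
    intro X K
    apply eN_congr hc
    refine ⟨a * (bZ X K + c * qZ K), ?_⟩
    simp only [qZ, bZ, Pi.add_apply, Pi.smul_apply, smul_eq_mul]
    ring
  have hsh := sum_shift c (f := fun X => eN c (a * qZ X)) hper (d • Y)
  refine Eq.trans ?_ (b := ∑ r : Fin 4 → Fin c, (fun X => eN c (a * qZ X)) (rv r)) rfl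
  rw [← hsh, Asum, Finset.sum_mul]
  refine Finset.sum_congr rfl fun r _ => ?_
  rw [one_mul, ← eN_add, mdot_mvec]
  apply eN_congr hc
  obtain ⟨k, hk⟩ := had
  refine ⟨-k * (bZ (rv r) Y + d * qZ Y), ?_⟩
  have e : a * d = 1 + c * k := by linarith
  have e1 : bZ Y (rv r) = bZ (rv r) Y := by simp only [bZ]; ring
  rw [e1, qZ_add]
  have e2 : bZ (rv r) (d • Y) = d * bZ (rv r) Y := by
    simp only [bZ, Pi.smul_apply, smul_eq_mul]; ring
  have e3 : qZ (d • Y) = d ^ 2 * qZ Y := by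
    simp only [qZ, Pi.smul_apply, smul_eq_mul]; ring
  rw [e2, e3]
  have e4 : a * (qZ (rv r) + d * bZ (rv r) Y + d ^ 2 * qZ Y) =
      a * qZ (rv r) + (a * d) * bZ (rv r) Y + (a * d) * d * qZ Y := by ring
  rw [e4, e]
  ring

end

end Fermat.Agent.LT.J4
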