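import Fermat.Agent.LT.J.Fib

/-!
# Self-adjointness of radial operators over `(ρ, muLH)` (LT, piece J)
-/

set_option autoImplicit false

open MeasureTheory Set Matrix ProbabilityTheory
open scoped ENNReal NNReal

noncomputable section

namespace Fermat.Agent.LT.J

open Fermat.LT Fermat.Agent.LT.B Fermat.Agent.LT.CArch

/-- the kernel on `LH × LH` -/
def KK (g : ℝ → ℂ) (p : LH × LH) : ℂ := kfun g (H3.ch p.1.2 p.2.2)

theorem measurable_KK {g : ℝ → ℂ} (hg : IsTest g) : Measurable (KK g) :=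
  Measurable.comp (g := fun p : H3 × H3 => kfun g (H3.ch p.1 p.2))
    (f := fun p : LH × LH => (p.1.2, p.2.2)) (continuous_kfun_ch hg).measurable
    ((measurable_snd.comp measurable_fst).prodMk (measurable_snd.comp measurable_snd))

theorem KK_smul (g : ℝ → ℂ) (γ : GE) (x y : LH) : KK g (γ • x, γ • y) = KK g (x, y) := by
  unfold KK
  rw [show (γ • x).2 = γ • x.2 from rfl, show (γ • y).2 = γ • y.2 from rfl, ch_gl]

theorem KK_comm (g : ℝ → ℂ) (x y : LH) : KK g (x, y) = KK g (y, x) := by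
  unfold KK
  rw [H3.ch_comm]

theorem lintegral_KK (g : ℝ → ℂ) (hg : IsTest g) (x : LH) : ∫⁻ y, ‖KK g (x, y)‖ₑ ∂kap x = kmass g := by
  rw [lintegral_kap x (f := fun y => ‖KK g (x, y)‖ₑ)
    ((measurable_KK hg).enorm.comp measurable_prodMk_left)]
  exact lintegral_kfun_ch g x.2

section selfadj

variable {ρ : H3 → ℝ≥0∞} (hρ : IsWeight GE ρ) {c f : LH → ℂ} {g : ℝ → ℂ}

include hρ in
/-- finiteness -/
theorem lintegral_kernel_eq (hg : IsTest g) (hf : Measurable f)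
    (hfi : ∀ (γ : GE) x, f (γ • x) = f x) :
    ∫⁻ x, ρ x.2 * ∫⁻ y, ‖KK g (x, y) * f y‖ₑ ∂kap x ∂muLH =
      kmass g * ∫⁻ x, ρ x.2 * ‖f x‖ₑ ∂muLH := by
  have hm : Measurable (Function.uncurry fun x y : LH => ‖KK g (x, y) * f y‖ₑ) :=
    ((measurable_KK hg).mul (hf.comp measurable_snd)).enorm
  have h := isRev_kap.mtp (isWeight_LH hρ) hm (fun γ x y => by rw [KK_smul, hfi])
  rw [h, ← lintegral_const_mul (f := fun x : LH => ρ x.2 * ‖f x‖ₑ) _
    ((hρ.meas.comp measurable_snd).mul hf.enorm)]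
  congr 1
  ext x
  have e2 : ∫⁻ y, ‖KK g (y, x) * f x‖ₑ ∂kap x = kmass g * ‖f x‖ₑ := by
    simp_rw [enorm_mul, KK_comm g _ x]
    rw [lintegral_mul_const'' (f := fun y => ‖KK g (x, y)‖ₑ) _ ((measurable_KK hg).enorm.comp
      measurable_prodMk_left).aemeasurable, lintegral_KK g hg]
  rw [e2, mul_left_comm]

include hρ in
theorem lintegral_kernel_ne_top (hg : IsTest g) (hf : Measurable f)
    (hfi : ∀ (γ : GE) x, f (γ • x) = f x) {B : ℝ} (hcB : ∀ x, ‖c x‖ ≤ B)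
    (hfin : ∫⁻ x, ρ x.2 * ‖f x‖ₑ ∂muLH ≠ ∞) :
    ∫⁻ x, ρ x.2 * ∫⁻ y, ‖c x * (KK g (x, y) * f y)‖ₑ ∂kap x ∂muLH ≠ ∞ := by
  have h2 : ∫⁻ x, ρ x.2 * ∫⁻ y, ‖c x * (KK g (x, y) * f y)‖ₑ ∂kap x ∂muLH
      ≤ ENNReal.ofReal B * (kmass g * ∫⁻ x, ρ x.2 * ‖f x‖ₑ ∂muLH) := by
    rw [← lintegral_kernel_eq hρ hg hf hfi, ← lintegral_const_mul' _ _ ENNReal.ofReal_ne_top]
    refine lintegral_mono fun x => ?_
    simp_rw [enorm_mul (c x)]
    rw [lintegral_const_mul' _ _ enorm_ne_top, mul_left_comm]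
    gcongr
    rw [← ofReal_norm]
    exact ENNReal.ofReal_le_ofReal (hcB x)
  refine ne_top_of_le_ne_top ?_ h2
  exact ENNReal.mul_ne_top ENNReal.ofReal_ne_top (ENNReal.mul_ne_top (kmass_ne_top hg) hfin)

include hρ in
/-- **Self-adjointness** of radial operators. -/
theorem selfadj (hg : IsTest g) (hc : Measurable c) (hf : Measurable f)
    (hci : ∀ (γ : GE) x, c (γ • x) = c x)
    (hfi : ∀ (γ : GE) x, f (γ • x) = f x) {B : ℝ} (hcB : ∀ x, ‖c x‖ ≤ B)
    (hfin : ∫⁻ x, ρ x.2 * ‖f x‖ₑ ∂muLH ≠ ∞) :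
    ∫ x, (ρ x.2).toReal • (c x * kopH g (fun P' => f (x.1, P')) x.2) ∂muLH =
    ∫ x, (ρ x.2).toReal • (f x * kopH g (fun P' => c (x.1, P')) x.2) ∂muLH := by
  have hm : Measurable (Function.uncurry fun x y : LH => c x * (KK g (x, y) * f y)) :=
    (hc.comp measurable_fst).mul ((measurable_KK hg).mul (hf.comp measurable_snd))
  have key := isRev_kap.mtp_integral (isWeight_LH hρ) (Ψ := fun x y : LH =>
      c x * (KK g (x, y) * f y)) hm.stronglyMeasurable
    (fun γ x y => by rw [KK_smul, hfi, hci]) (lintegral_kernel_ne_top hρ hg hf hfi hcB hfin)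
  have e1 : ∀ x : LH, ∫ y, c x * (KK g (x, y) * f y) ∂kap x =
      c x * kopH g (fun P' => f (x.1, P')) x.2 := by
    intro x
    rw [integral_const_mul, integral_kap x]
    rfl
  have e2 : ∀ x : LH, ∫ y, c y * (KK g (y, x) * f x) ∂kap x =
      f x * kopH g (fun P' => c (x.1, P')) x.2 := by
    intro x
    have : ∀ y, c y * (KK g (y, x) * f x) = f x * (KK g (x, y) * c y) := by
      intro y
      rw [KK_comm]
      ring
    simp_rw [this]
    rw [integral_const_mul, integral_kap x]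
    rfl
  simp_rw [e1, e2] at key
  exact key

end selfadj

end Fermat.Agent.LT.J
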