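import Fermat.Agent.LT.J.LapS
import Fermat.Agent.LT.J.SelfAdj

/-!
# The fundamental identity for coefficient systems (LT, piece J)

`CoefSys c`: `c : Lat ℤ → H3 → ℂ` invariant under `GL₂(ℤ[ω])`, continuous, bounded, with the mean
value property `K_g ⋆ c = ĝ(0) c`.  `LamL ρ c n h = ∫_{q = n} ρ c h(s)`, and
`LamL ρ c n (((s²+n)∂² + 3s∂ + 1)h) = 0`.
-/

set_option autoImplicit false

open MeasureTheory Set Matrix ProbabilityTheory
open scoped ENNReal NNReal

noncomputable section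

namespace Fermat.Agent.LT.J

open Fermat.LT Fermat.Agent.LT.B Fermat.Agent.LT.CArch

/-- Coefficient systems: `c(X,w) = ∑_s Φ(w,s) φ(X,s)`. -/
structure CoefSys (c : Lat ℤ → H3 → ℂ) : Prop where
  inv : ∀ (g : GE) (X : Lat ℤ) (P : H3), c (g • X) (g • P) = c X P
  cont : ∀ X, Continuous (c X)
  bdd : ∃ B : ℝ, ∀ X P, ‖c X P‖ ≤ B
  mean : ∀ g, IsTest g → ∀ X P, kopH g (c X) P = hat g 0 * c X P

theorem Sys.coefSys {M : ℕ} (S : Sys M) : CoefSys S.c := ⟨S.inv, S.cont, S.bdd, S.mean⟩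

/-- the uncurried function is measurable -/
theorem measurable_uncurry_cont {E : Type*} [TopologicalSpace E] [MeasurableSpace E] [BorelSpace E]
    {c : Lat ℤ → H3 → E} (hc : ∀ X, Continuous (c X)) :
    Measurable (fun x : LH => c x.1 x.2) :=
  measurable_from_prod_countable_right fun X => (hc X).measurable

theorem CoefSys.measurable {c : Lat ℤ → H3 → ℂ} (hc : CoefSys c) :
    Measurable (fun x : LH => c x.1 x.2) := measurable_uncurry_cont hc.cont

theorem measurable_sL_uncurry : Measurable (fun x : LH => sL x.1 x.2) :=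
  measurable_uncurry_cont (c := sL) fun X => Herm.continuous_s X.toHerm

/-- the part of `LH` with `q = n` -/
def Qset (n : ℤ) : Set LH := {x | x.1.q = n}

theorem measurableSet_Qset (n : ℤ) : MeasurableSet (Qset n) := by
  have : Qset n = Prod.fst ⁻¹' {X : Lat ℤ | X.q = n} := rfl
  rw [this]
  exact measurable_fst trivial

/-- The functional `Λ(h) = ∫ ρ(w) ∑_X c(X,w) h(s(X,w)) dw`. -/
def LamL (ρ : H3 → ℝ≥0∞) (c : Lat ℤ → H3 → ℂ) (n : ℤ) (h : ℝ → ℂ) : ℂ :=
  ∫ x in Qset n, (ρ x.2).toReal • (c x.1 x.2 * h (sL x.1 x.2)) ∂muLH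

/-- finiteness condition for `LamL` -/
def FinL (ρ : H3 → ℝ≥0∞) (n : ℤ) (h : ℝ → ℂ) : Prop :=
  ∫⁻ x in Qset n, ρ x.2 * ‖h (sL x.1 x.2)‖ₑ ∂muLH ≠ ∞

/-- invariant extension of `h(s)` by zero outside of `q = n` -/
def fext (n : ℤ) (h : ℝ → ℂ) (x : LH) : ℂ := (Qset n).indicator (fun x => h (sL x.1 x.2)) x

theorem measurable_fext (n : ℤ) {h : ℝ → ℂ} (hh : Measurable h) : Measurable (fext n h) :=
  (hh.comp measurable_sL_uncurry).indicator (measurableSet_Qset n)

theorem fext_smul (n : ℤ) (h : ℝ → ℂ) (γ : GE) (x : LH) : fext n h (γ • x) = fext n h x := by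
  unfold fext
  have h1 : sL (γ • x).1 (γ • x).2 = sL x.1 x.2 := sL_gl γ x.1 x.2
  by_cases hx : x ∈ Qset n
  · have hx' : γ • x ∈ Qset n := by
      change (γ • x.1).q = n
      rw [q_gl]; exact hx
    rw [indicator_of_mem hx, indicator_of_mem hx', h1]
  · have hx' : γ • x ∉ Qset n := by
      intro h2
      apply hx
      change (γ • x.1).q = n at h2
      rw [q_gl] at h2; exact h2
    rw [indicator_of_notMem hx, indicator_of_notMem hx']

theorem lintegral_fext (ρ : H3 → ℝ≥0∞) (n : ℤ) (h : ℝ → ℂ) :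
    ∫⁻ x : LH, ρ x.2 * ‖fext n h x‖ₑ ∂muLH =
      ∫⁻ x in Qset n, ρ x.2 * ‖h (sL x.1 x.2)‖ₑ ∂muLH := by
  rw [← lintegral_indicator (measurableSet_Qset n)]
  congr 1
  ext x
  unfold fext
  by_cases hx : x ∈ Qset n
  · rw [indicator_of_mem hx, indicator_of_mem hx]
  · rw [indicator_of_notMem hx, indicator_of_notMem hx, enorm_zero, mul_zero]

theorem integral_fext (ρ : H3 → ℝ≥0∞) (c : Lat ℤ → H3 → ℂ) (n : ℤ) (h : ℝ → ℂ) :
    ∫ x : LH, (ρ x.2).toReal • (c x.1 x.2 * fext n h x) ∂muLH = LamL ρ c n h := by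
  unfold LamL
  rw [← integral_indicator (measurableSet_Qset n)]
  congr 1
  ext x
  unfold fext
  by_cases hx : x ∈ Qset n
  · rw [indicator_of_mem hx, indicator_of_mem hx]
  · rw [indicator_of_notMem hx, indicator_of_notMem hx, mul_zero, smul_zero]

/-- the transformed function -/
def odeF (n : ℤ) (K0 K1 K2 : ℝ → ℂ) (s : ℝ) : ℂ :=
  ((s ^ 2 + n : ℝ) : ℂ) * K2 s + ((3 * s : ℝ) : ℂ) * K1 s + K0 s

theorem green {n : ℤ} {X : Lat ℤ} (hX : X.q = n) {g : ℝ → ℂ} (hg : IsTest g)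
    {K0 K1 K2 : ℝ → ℂ} (hC : ContDiff ℝ 2 K0)
    (hK0 : ∀ v, HasDerivAt K0 (K1 v) v) (hK1 : ∀ v, HasDerivAt K1 (K2 v) v) (P : H3) :
    kopH g (fun P' => fext n (odeF n K0 K1 K2) (X, P')) P =
      kopH (deriv (deriv g)) (fun P' => fext n K0 (X, P')) P := by
  have hmem : ∀ P' : H3, ((X, P') : LH) ∈ Qset n := fun _ => hX
  rw [kopH_eq_kop g _ (fun q => ((X.toHerm.S q ^ 2 + X.toHerm.q : ℝ) : ℂ) *
          K2 (X.toHerm.S q) + ((3 * X.toHerm.S q : ℝ) : ℂ) * K1 (X.toHerm.S q)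
          + K0 (X.toHerm.S q)) ?_ P,
    kopH_eq_kop _ _ (fun q => K0 (X.toHerm.S q)) ?_ P]
  · exact (kop_S X.toHerm hg hC hK0 hK1 (p := (P.z, P.t)) P.t_pos).symm
  · intro P'
    rw [fext, indicator_of_mem (hmem P'), ← Herm.s_eq_S]
    rfl
  · intro P'
    rw [fext, indicator_of_mem (hmem P'), ← Herm.s_eq_S, Lat.q_toHerm, hX]
    rfl

/-- The basic identity: `Λ(((s²+n)∂² + 3s∂ + 1)h) = 0`. -/
theorem LamL_ode {ρ : H3 → ℝ≥0∞} (hρ : IsWeight GE ρ) {c : Lat ℤ → H3 → ℂ} (hc : CoefSys c)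
    {n : ℤ} {K0 K1 K2 : ℝ → ℂ} (hC : ContDiff ℝ 2 K0)
    (hK0 : ∀ v, HasDerivAt K0 (K1 v) v) (hK1 : ∀ v, HasDerivAt K1 (K2 v) v)
    (hK2 : Continuous K2)
    (hfin0 : FinL ρ n K0) (hfin1 : FinL ρ n (odeF n K0 K1 K2)) :
    LamL ρ c n (odeF n K0 K1 K2) = 0 := by
  obtain ⟨g, hg, hg0⟩ := exists_hat_ne_zero 0
  obtain ⟨B, hB⟩ := hc.bdd
  have hK1c : Continuous K1 := continuous_iff_continuousAt.2 fun v => (hK1 v).continuousAt
  have hK0c : Continuous K0 := hC.continuous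
  have hFc : Continuous (odeF n K0 K1 K2) := by
    unfold odeF
    exact (((Complex.continuous_ofReal.comp ((continuous_id.pow 2).add continuous_const)).mul
      hK2).add ((Complex.continuous_ofReal.comp (continuous_const.mul continuous_id)).mul
        hK1c)).add hK0c
  have hcm := hc.measurable
  have a1 := selfadj hρ (c := fun x => c x.1 x.2) (f := fext n (odeF n K0 K1 K2)) hg hcm
    (measurable_fext n hFc.measurable) (fun γ x => hc.inv γ x.1 x.2) (fext_smul n _)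
    (fun x => hB x.1 x.2) (by rw [lintegral_fext]; exact hfin1)
  have a0 := selfadj hρ (c := fun x => c x.1 x.2) (f := fext n K0) hg.deriv2 hcm
    (measurable_fext n hK0c.measurable) (fun γ x => hc.inv γ x.1 x.2) (fext_smul n _)
    (fun x => hB x.1 x.2) (by rw [lintegral_fext]; exact hfin0)
  have e1 : ∀ x : LH, fext n (odeF n K0 K1 K2) x * kopH g (fun P' => c x.1 P') x.2 =
      hat g 0 * (c x.1 x.2 * fext n (odeF n K0 K1 K2) x) := by
    intro x
    have := hc.mean g hg x.1 x.2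
    rw [show (fun P' => c x.1 P') = c x.1 from rfl, this]
    ring
  have e0 : ∀ x : LH, fext n K0 x * kopH (deriv (deriv g)) (fun P' => c x.1 P') x.2 = 0 := by
    intro x
    have := hc.mean _ hg.deriv2 x.1 x.2
    rw [show (fun P' => c x.1 P') = c x.1 from rfl, this, hat_deriv2 hg]
    ring
  have hz : ∀ (K : ℝ → ℂ) (X : Lat ℤ), X.q ≠ n → (fun P' : H3 => fext n K (X, P')) = fun _ => (0 : ℂ) := by
    intro K X hX
    funext P'
    exact indicator_of_notMem (s := Qset n) (a := ((X, P') : LH)) hX (fun x => K (sL x.1 x.2))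
  have eg : ∀ x : LH, c x.1 x.2 * kopH g (fun P' => fext n (odeF n K0 K1 K2) (x.1, P')) x.2 =
      c x.1 x.2 * kopH (deriv (deriv g)) (fun P' => fext n K0 (x.1, P')) x.2 := by
    intro x
    by_cases hx : x.1.q = n
    · rw [green hx hg hC hK0 hK1]
    · rw [hz _ _ hx, hz _ _ hx]
      simp [kopH]
  simp_rw [eg, e1] at a1
  simp_rw [e0] at a0
  simp only [smul_zero, integral_zero] at a0
  have hfin : hat g 0 * LamL ρ c n (odeF n K0 K1 K2) = 0 := by
    have h3 := a1.symm.trans a0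
    rw [← integral_fext, ← integral_const_mul]
    refine Eq.trans (integral_congr_ae (Filter.Eventually.of_forall fun x => ?_)) h3
    simp only [Complex.real_smul]
    ring
  exact (mul_eq_zero.1 hfin).resolve_left hg0

end Fermat.Agent.LT.J
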