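import Fermat.Agent.LT.J.HeckeC
import Fermat.Agent.LT.J.CoefODE

/-!
# Hecke relations for the Fourier coefficients of the theta lift (LT, piece J3)
-/

set_option autoImplicit false
set_option linter.unusedSectionVars false

open MeasureTheory Set Matrix
open scoped ENNReal NNReal

noncomputable section

namespace Fermat.Agent.LT.J.HK

open Fermat.LT Fermat.Agent.LT.J Fermat.Agent.LT.B QE

variable {p : ℕ} [hp : Fact p.Prime] (D : SplitPrime p)

/-- the integrand -/
def FF (c : Lat ℤ → H3 → ℂ) (n : ℤ) (h : ℝ → ℂ) (x : LH) : ℂ :=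
  (Qset n).indicator (fun x => c x.1 x.2 * h (sL x.1 x.2)) x

theorem integral_FF (c : Lat ℤ → H3 → ℂ) (n : ℤ) (h : ℝ → ℂ) :
    ∫ x, FF c n h x ∂nuL = LamL rho c n h := by
  rw [LamL_eq, ← integral_indicator (measurableSet_Qset n)]
  rfl

section

variable {c : Lat ℤ → H3 → ℂ} (hc : CoefSys c)

include hc

theorem measurable_FF (n : ℤ) {h : ℝ → ℂ} (hh : Measurable h) : Measurable (FF c n h) :=
  (hc.measurable.mul (hh.comp measurable_sL_uncurry)).indicator (measurableSet_Qset n)

theorem FF_inv (n : ℤ) (h : ℝ → ℂ) (a : GL (Fin 2) EO) (x : LH) : FF c n h (a • x) = FF c n h x := by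
  unfold FF
  by_cases hx : x ∈ Qset n
  · have hx' : a • x ∈ Qset n := by
      change (a • x.1).q = n
      rw [q_gl]; exact hx
    rw [indicator_of_mem hx', indicator_of_mem hx]
    change c (a • x.1) (a • x.2) * h (sL (a • x.1) (a • x.2)) = _
    rw [hc.inv, sL_gl]
  · have hx' : a • x ∉ Qset n := by
      intro h2
      apply hx
      change (a • x.1).q = n at h2
      rw [q_gl] at h2; exact h2
    rw [indicator_of_notMem hx', indicator_of_notMem hx]

theorem integrable_FF (n : ℤ) {h : ℝ → ℂ} (hh : Measurable h) {C ε : ℝ} (hε : 0 < ε)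
    (hb : GB C ε h) : Integrable (FF c n h) nuL := by
  have := integrableOn_ch hc hε n hh hb
  exact this.integrable_indicator (measurableSet_Qset n)

end

theorem sqrt_p_pos : 0 < Real.sqrt p := Real.sqrt_pos.2 (by exact_mod_cast hp.out.pos)

namespace SplitPrime

/-- the rescaled function -/
def hd (p : ℕ) (h : ℝ → ℂ) (s : ℝ) : ℂ := h (s / Real.sqrt p)

/-- the rescaled function -/
def hu (p : ℕ) (h : ℝ → ℂ) (s : ℝ) : ℂ := h (Real.sqrt p * s)

theorem GB_hd {h : ℝ → ℂ} {C ε : ℝ} (hb : GB C ε h) : GB C (ε / p) (hd p h) := by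
  intro s
  refine (hb _).trans (le_of_eq ?_)
  rw [div_pow, Real.sq_sqrt (by positivity)]
  congr 2
  ring

/-- the correspondence -/
def TL (i : Option (ZMod p)) (x : LH) : LH := (Lat.act (D.hr i) x.1, D.rC i • x.2)

theorem measurable_TL (i : Option (ZMod p)) : Measurable (D.TL i) :=
  ((measurable_from_top (f := fun X : Lat ℤ => Lat.act (D.hr i) X)).comp
      measurable_fst).prodMk ((measurable_gl_smul (D.rC i)).comp measurable_snd)

theorem TL_mem_Qset (i : Option (ZMod p)) (n : ℤ) (x : LH) :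
    D.TL i x ∈ Qset (p * n) ↔ x ∈ Qset n := by
  change (Lat.act (D.hr i) x.1).q = p * n ↔ x.1.q = n
  rw [Lat.q_act, D.det_hr, D.nm_pi]
  constructor
  · intro h
    exact mul_left_cancel₀ (by exact_mod_cast hp.out.ne_zero) h
  · intro h; rw [h]

theorem sL_TL (i : Option (ZMod p)) (x : LH) :
    sL (D.TL i x).1 (D.TL i x).2 = Real.sqrt p * sL x.1 x.2 := by
  change sL (Lat.act (D.hr i) x.1) (D.rC i • x.2) = _
  rw [rC, sL_matC, D.det_hr, D.nm_pi]
  norm_cast

theorem FF_TL (c : Lat ℤ → H3 → ℂ) (n : ℤ) (h : ℝ → ℂ) (i : Option (ZMod p)) (x : LH) :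
    FF c (p * n) (hd p h) (D.TL i x) =
      (Qset n).indicator (fun x => c (D.TL i x).1 (D.TL i x).2 * h (sL x.1 x.2)) x := by
  unfold FF
  by_cases hx : x ∈ Qset n
  · rw [indicator_of_mem ((D.TL_mem_Qset i n x).2 hx), indicator_of_mem hx, D.sL_TL]
    unfold hd
    rw [mul_div_cancel_left₀ _ (sqrt_p_pos (p := p)).ne']
  · rw [indicator_of_notMem (fun h2 => hx ((D.TL_mem_Qset i n x).1 h2)), indicator_of_notMem hx]

theorem integrable_FF_TL {c : Lat ℤ → H3 → ℂ} (hc : CoefSys c) (n : ℤ) {h : ℝ → ℂ}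
    (hh : Measurable h) {C ε : ℝ} (hε : 0 < ε) (hb : GB C ε h) (i : Option (ZMod p)) :
    Integrable (fun x => FF c (p * n) (hd p h) (D.TL i x)) nuL := by
  obtain ⟨B, hB⟩ := hc.bdd
  simp_rw [D.FF_TL]
  refine IntegrableOn.integrable_indicator (s := Qset n) ?_ (measurableSet_Qset n)
  refine (integrableOn_h hε n hh hb).bdd_mul (c := B)
    (hc.measurable.comp (D.measurable_TL i)).aestronglyMeasurable ?_
  exact Filter.Eventually.of_forall fun x => hB _ _

theorem sum_indicator (F : LH → ℂ) (x : LH) (hx : F x ≠ 0 → (p : ℤ) ∣ x.1.q) :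
    ∑ j : Option (ZMod p), {x : LH | x.1 ∈ range (Lat.act (D.hr j).adjugate)}.indicator F x =
      F x + p * {x : LH | x.1 ∈ range (Lat.smul (p : ℤ))}.indicator F x := by
  by_cases h0 : F x = 0
  · have : ∀ A : Set LH, A.indicator F x = 0 := fun A => by
      by_cases hA : x ∈ A
      · rw [indicator_of_mem hA, h0]
      · rw [indicator_of_notMem hA]
    simp [this, h0]
  · have hq := hx h0
    have hmem : ∀ j : Option (ZMod p),
        x ∈ {x : LH | x.1 ∈ range (Lat.act (D.hr j).adjugate)} ↔ D.Cond j x.1 :=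
      fun j => D.mem_range_iff j x.1
    have hmem2 : x ∈ {x : LH | x.1 ∈ range (Lat.smul (p : ℤ))} ↔ pdvd p x.1 := by
      unfold pdvd
      constructor
      · rintro ⟨X, hX⟩; exact ⟨X, hX.symm⟩
      · rintro ⟨X, hX⟩; exact ⟨X, hX.symm⟩
    by_cases hd : pdvd p x.1
    · have h1 : ∀ j : Option (ZMod p),
          {x : LH | x.1 ∈ range (Lat.act (D.hr j).adjugate)}.indicator F x = F x := fun j =>
        indicator_of_mem ((hmem j).2 (D.cond_of_pdvd hd j)) F
      simp_rw [h1]
      rw [indicator_of_mem (hmem2.2 hd), Finset.sum_const, Finset.card_univ,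
        Fintype.card_option, ZMod.card, nsmul_eq_mul]
      push_cast
      ring
    · obtain ⟨i, hi, hu⟩ := D.exists_unique_cond hq hd
      rw [indicator_of_notMem (fun h => hd (hmem2.1 h)), mul_zero, add_zero,
        Finset.sum_eq_single i]
      · exact indicator_of_mem ((hmem i).2 hi) F
      · intro j _ hj
        exact indicator_of_notMem (fun h => hj (hu j ((hmem j).1 h))) F
      · intro h; exact absurd (Finset.mem_univ i) h

/-- **Hecke relation** for the functionals `Λ_n`. -/
theorem hecke_LamL {c : Lat ℤ → H3 → ℂ} (hc : CoefSys c)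
    (hs : ∀ X w, c (Lat.smul (p : ℤ) X) w = c X w) {l : ℂ}
    (hH : ∀ X w, ∑ i, c (Lat.act (D.hr i) X) (D.rC i • w) = Real.sqrt p * l * c X w)
    (n : ℤ) {h : ℝ → ℂ} (hh : Measurable h) {C ε : ℝ} (hε : 0 < ε) (hb : GB C ε h) :
    Real.sqrt p * l * LamL rho c n h = LamL rho c (p * n) (hd p h) +
      p * (if (p : ℤ) ∣ n then LamL rho c (n / p) (hu p h) else 0) := by
  have hp0 : (p : ℤ) ≠ 0 := by exact_mod_cast hp.out.ne_zero
  have hpR : (0 : ℝ) < p := by exact_mod_cast hp.out.pos
  have hhd : Measurable (hd p h) := hh.comp (measurable_id.div_const _)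
  set F : LH → ℂ := FF c (p * n) (hd p h) with hF
  have hFm : Measurable F := measurable_FF hc _ hhd
  have hFi : Integrable F nuL := integrable_FF hc _ hhd (div_pos hε hpR) (GB_hd hb)
  have hinv := FF_inv hc (p * n) (hd p h)
  have hkey : ∀ g : LH → ℝ≥0∞, Measurable g → (∀ (a : GL (Fin 2) EO) x, g (a • x) = g x) →
      ∑ i, ∫⁻ x, g (D.TL i x) ∂nuL = ∑ j, ∫⁻ x, g (inj (Lat.act (D.hr j).adjugate) x) ∂nuL :=
    fun g hg hgi => D.key_lintegral hg hgi
  have hT := D.integrable_FF_TL hc n hh hε hb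
  have hS := integrable_transfer hkey hFm hinv (fun j => measurable_inj _) hT
  have main := integral_transfer hkey hFm hinv hT hS
  -- left side
  have hL : ∑ i, ∫ x, F (D.TL i x) ∂nuL = Real.sqrt p * l * LamL rho c n h := by
    rw [← integral_finsetSum _ fun i _ => hT i, LamL_eq, ← integral_const_mul,
      ← integral_indicator (measurableSet_Qset n)]
    congr 1
    ext x
    simp_rw [D.FF_TL]
    by_cases hx : x ∈ Qset n
    · simp_rw [indicator_of_mem hx]
      rw [← Finset.sum_mul]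
      have := hH x.1 x.2
      change (∑ i, c (Lat.act (D.hr i) x.1) (D.rC i • x.2)) * _ = _
      rw [this]
      ring
    · simp_rw [indicator_of_notMem hx]
      simp
  -- right side
  have hR : ∑ j, ∫ x, F (inj (Lat.act (D.hr j).adjugate) x) ∂nuL =
      ∫ x, F x ∂nuL + p * ∫ x in {x : LH | x.1 ∈ range (Lat.smul (p : ℤ))}, F x ∂nuL := by
    simp_rw [fun j => integral_inj (D.act_adj_injective (D.det_hr j)) hFm]
    have e1 : ∀ j, ∫ x in {x : LH | x.1 ∈ range (Lat.act (D.hr j).adjugate)}, F x ∂nuL =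
        ∫ x, {x : LH | x.1 ∈ range (Lat.act (D.hr j).adjugate)}.indicator F x ∂nuL :=
      fun j => (integral_indicator (measurableSet_fst _)).symm
    have e2 : ∫ x in {x : LH | x.1 ∈ range (Lat.smul (p : ℤ))}, F x ∂nuL =
        ∫ x, {x : LH | x.1 ∈ range (Lat.smul (p : ℤ))}.indicator F x ∂nuL :=
      (integral_indicator (measurableSet_fst _)).symm
    simp_rw [e1]
    rw [e2, ← integral_const_mul, ← integral_finsetSum _ fun j _ =>
      hFi.indicator (measurableSet_fst _), ← integral_add hFi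
        ((hFi.indicator (measurableSet_fst _)).const_mul _)]
    congr 1
    ext x
    refine D.sum_indicator F x fun hx => ?_
    by_cases hx2 : x ∈ Qset (p * n)
    · have : x.1.q = p * n := hx2
      rw [this]; exact dvd_mul_right _ _
    · exact absurd (indicator_of_notMem hx2 _) hx
  have hR2 : ∫ x in {x : LH | x.1 ∈ range (Lat.smul (p : ℤ))}, F x ∂nuL =
      if (p : ℤ) ∣ n then LamL rho c (n / p) (hu p h) else 0 := by
    rw [← integral_inj (smul_injective hp.out.ne_zero) hFm]
    have e3 : ∀ x : LH, F (inj (Lat.smul (p : ℤ)) x) =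
        if (p : ℤ) ∣ n then FF c (n / p) (hu p h) x else 0 := by
      intro x
      have hmem : inj (Lat.smul (p : ℤ)) x ∈ Qset (p * n) ↔ p * x.1.q = n := by
        change (Lat.smul (p : ℤ) x.1).q = p * n ↔ _
        rw [Lat.q_smul]
        constructor
        · intro h1
          apply mul_left_cancel₀ hp0
          rw [← h1]; ring
        · intro h1; rw [← h1]; ring
      by_cases hdv : (p : ℤ) ∣ n
      · rw [if_pos hdv]
        obtain ⟨m, hm⟩ := hdv
        have hm' : n / p = m := by rw [hm, Int.mul_ediv_cancel_left _ hp0]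
        rw [hm', hF]
        unfold FF
        by_cases hx : x ∈ Qset m
        · have hq : x.1.q = m := hx
          rw [indicator_of_mem (hmem.2 (by rw [hq, hm])), indicator_of_mem hx]
          change c (Lat.smul (p : ℤ) x.1) x.2 * hd p h (sL (Lat.smul (p : ℤ) x.1) x.2) = _
          rw [hs, sL_smul, hd, hu]
          congr 2
          rw [div_eq_iff (sqrt_p_pos (p := p)).ne']
          have := Real.mul_self_sqrt hpR.le
          push_cast
          linear_combination (-(sL x.1 x.2)) * this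
        · rw [indicator_of_notMem hx, indicator_of_notMem]
          intro h2
          apply hx
          have h3 := hmem.1 h2
          rw [hm] at h3
          exact mul_left_cancel₀ hp0 h3
      · rw [if_neg hdv, hF]
        unfold FF
        rw [indicator_of_notMem]
        intro h2
        exact hdv ⟨x.1.q, (hmem.1 h2).symm⟩
    simp_rw [e3]
    split_ifs with hdv
    · exact integral_FF _ _ _
    · simp
  rw [← hL, main, hR, hR2, hF, integral_FF]

/-! ### The relations for the Fourier coefficients -/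

theorem gss_div (y s : ℝ) : gss y (s / Real.sqrt p) = gss (y / p) s := by
  unfold gss
  rw [div_pow, Real.sq_sqrt (by positivity)]
  congr 2
  ring

theorem gss_mul (y s : ℝ) : gss y (Real.sqrt p * s) = gss (p * y) s := by
  unfold gss
  rw [mul_pow, Real.sq_sqrt (by positivity)]
  congr 2
  ring

/-- the starred Gaussian -/
def gsS (y s : ℝ) : ℝ := (1 / 2 - 4 * Real.pi * y * s ^ 2) * gss y s

theorem gsS_div (y s : ℝ) : gsS y (s / Real.sqrt p) = gsS (y / p) s := by
  unfold gsS
  rw [gss_div, div_pow, Real.sq_sqrt (by positivity)]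
  congr 2
  ring

theorem gsS_mul (y s : ℝ) : gsS y (Real.sqrt p * s) = gsS (p * y) s := by
  unfold gsS
  rw [gss_mul, mul_pow, Real.sq_sqrt (by positivity)]
  congr 2
  ring

theorem hd_gss (y : ℝ) : hd p (fun s => (gss y s : ℂ)) = fun s => (gss (y / p) s : ℂ) :=
  funext fun s => congrArg Complex.ofReal (gss_div y s)

theorem hu_gss (y : ℝ) : hu p (fun s => (gss y s : ℂ)) = fun s => (gss (p * y) s : ℂ) :=
  funext fun s => congrArg Complex.ofReal (gss_mul y s)

theorem hd_gsS (y : ℝ) : hd p (fun s => (gsS y s : ℂ)) = fun s => (gsS (y / p) s : ℂ) :=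
  funext fun s => congrArg Complex.ofReal (gsS_div y s)

theorem hu_gsS (y : ℝ) : hu p (fun s => (gsS y s : ℂ)) = fun s => (gsS (p * y) s : ℂ) :=
  funext fun s => congrArg Complex.ofReal (gsS_mul y s)

/-- bound for the starred Gaussian -/
theorem GB_gsS {y : ℝ} (hy : 0 < y) : GB (1 / 2 * gc 0 y + 4 * Real.pi * y * gc 1 y)
    (2 * Real.pi * y) (fun s => (gsS y s : ℂ)) := by
  have hpi := Real.pi_pos
  intro s
  have he : gsS y s = 1 / 2 * gm 0 y s - 4 * Real.pi * y * gm 1 y s := by
    unfold gsS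
    rw [gm_zero, show gm 1 y s = s ^ 2 * gss y s from rfl]
    ring
  simp only
  rw [he, Complex.norm_real, Real.norm_eq_abs, add_mul]
  have h0 := gm_le 0 hy le_rfl s
  have h1 := gm_le 1 hy le_rfl s
  have g0 := gm_nonneg 0 y s
  have g1 := gm_nonneg 1 y s
  have h2 : |1 / 2 * gm 0 y s - 4 * Real.pi * y * gm 1 y s| ≤
      1 / 2 * gm 0 y s + 4 * Real.pi * y * gm 1 y s := by
    have : 0 ≤ 4 * Real.pi * y * gm 1 y s := by positivity
    rw [abs_le]; constructor <;> linarith
  refine h2.trans ?_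
  rw [mul_assoc _ (gc 0 y), mul_assoc _ (gc 1 y)]
  exact add_le_add (mul_le_mul_of_nonneg_left h0 (by norm_num))
    (mul_le_mul_of_nonneg_left h1 (by positivity))

theorem continuous_gss (y : ℝ) : Continuous (gss y) := by unfold gss; fun_prop

theorem continuous_gsS (y : ℝ) : Continuous (gsS y) := by unfold gsS gss; fun_prop

theorem GB_gss {y : ℝ} (hy : 0 < y) : GB (gc 0 y) (2 * Real.pi * y) (fun s => (gss y s : ℂ)) := by
  have := GB_gm 0 hy le_rfl
  simpa only [gm_zero] using this

/-- a general form of the relation -/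
theorem hecke_general {c : Lat ℤ → H3 → ℂ} (hc : CoefSys c)
    (hs : ∀ X w, c (Lat.smul (p : ℤ) X) w = c X w) {l : ℂ}
    (hH : ∀ X w, ∑ i, c (Lat.act (D.hr i) X) (D.rC i • w) = Real.sqrt p * l * c X w)
    (n : ℤ) {h : ℝ → ℝ → ℝ} (hh : ∀ y, Measurable (h y)) {C ε : ℝ → ℝ}
    (hε : ∀ y, 0 < y → 0 < ε y) (hb : ∀ y, 0 < y → GB (C y) (ε y) (fun s => (h y s : ℂ)))
    (h1 : ∀ y s, h y (s / Real.sqrt p) = h (y / p) s)
    (h2 : ∀ y s, h y (Real.sqrt p * s) = h (p * y) s) {y : ℝ} (hy : 0 < y) :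
    l * (Real.sqrt y * Lam rho c n (h y)) =
      Real.sqrt (y / p) * Lam rho c (p * n) (h (y / p)) +
        if (p : ℤ) ∣ n then Real.sqrt (p * y) * Lam rho c (n / p) (h (p * y)) else 0 := by
  have hpR : (0 : ℝ) < p := by exact_mod_cast hp.out.pos
  have hy1 : 0 < y / p := div_pos hy hpR
  have hy2 : 0 < p * y := mul_pos hpR hy
  have key := D.hecke_LamL hc hs hH n (Complex.measurable_ofReal.comp (hh y)) (hε y hy) (hb y hy)
  have e1 : hd p (Complex.ofReal ∘ h y) = fun s => (h (y / p) s : ℂ) :=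
    funext fun s => congrArg Complex.ofReal (h1 y s)
  have e2 : hu p (Complex.ofReal ∘ h y) = fun s => (h (p * y) s : ℂ) :=
    funext fun s => congrArg Complex.ofReal (h2 y s)
  rw [e1, e2] at key
  rw [Lam_eq hc (hε y hy) n (hh y) (hb y hy), Lam_eq hc (hε _ hy1) (p * n) (hh _) (hb _ hy1),
    Lam_eq hc (hε _ hy2) (n / p) (hh _) (hb _ hy2)]
  have hsp : (Real.sqrt p : ℂ) ≠ 0 := by exact_mod_cast (sqrt_p_pos (p := p)).ne'
  have hsq : (Real.sqrt p : ℂ) * Real.sqrt p = p := by
    rw [← Complex.ofReal_mul, Real.mul_self_sqrt hpR.le]; norm_cast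
  rw [Real.sqrt_div hy.le, Real.sqrt_mul hpR.le]
  push_cast
  apply mul_left_cancel₀ hsp
  have e3 : (Real.sqrt p : ℂ) * (l * (Real.sqrt y * LamL rho c n fun s => (h y s : ℂ))) =
      Real.sqrt y * (Real.sqrt p * l * LamL rho c n (Complex.ofReal ∘ h y)) := by
    change _ = Real.sqrt y * (Real.sqrt p * l * LamL rho c n fun s => (h y s : ℂ))
    ring
  rw [e3, key]
  split_ifs with hdv
  · rw [← hsq]
    field_simp
  · rw [mul_zero, add_zero, add_zero]
    field_simp

end SplitPrime

open SplitPrime in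
/-- **Hecke relation** for `cf` -/
theorem hecke_cf {c : Lat ℤ → H3 → ℂ} (hc : CoefSys c)
    (hs : ∀ X w, c (Lat.smul (p : ℤ) X) w = c X w) {l : ℂ}
    (hH : ∀ X w, ∑ i, c (Lat.act (D.hr i) X) (D.rC i • w) = Real.sqrt p * l * c X w)
    (n : ℤ) {y : ℝ} (hy : 0 < y) :
    l * cf c n y = cf c (p * n) (y / p) + if (p : ℤ) ∣ n then cf c (n / p) (p * y) else 0 := by
  have hpi := Real.pi_pos
  exact D.hecke_general hc hs hH n (h := gss) (fun y => (continuous_gss y).measurable)
    (fun y hy => by positivity) (fun y hy => GB_gss hy) gss_div gss_mul hy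

open SplitPrime in
/-- **Hecke relation** for `cfS` -/
theorem hecke_cfS {c : Lat ℤ → H3 → ℂ} (hc : CoefSys c)
    (hs : ∀ X w, c (Lat.smul (p : ℤ) X) w = c X w) {l : ℂ}
    (hH : ∀ X w, ∑ i, c (Lat.act (D.hr i) X) (D.rC i • w) = Real.sqrt p * l * c X w)
    (n : ℤ) {y : ℝ} (hy : 0 < y) :
    l * cfS c n y = cfS c (p * n) (y / p) + if (p : ℤ) ∣ n then cfS c (n / p) (p * y) else 0 := by
  have hpi := Real.pi_pos
  exact D.hecke_general hc hs hH n (h := gsS) (fun y => (continuous_gsS y).measurable)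
    (fun y hy => by positivity) (fun y hy => GB_gsS hy) gsS_div gsS_mul hy

end Fermat.Agent.LT.J.HK
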