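import Fermat.Agent.LT.J.HeckeInt

/-!
# Mass transport for Hecke correspondences: complex valued functions (LT, piece J3)
-/

set_option autoImplicit false
set_option linter.unusedSectionVars false

open MeasureTheory Set Matrix
open scoped ENNReal NNReal

noncomputable section

namespace Fermat.Agent.LT.J.HK

open Fermat.LT Fermat.Agent.LT.J Fermat.Agent.LT.B QE

section transfer

variable {E ι κ G : Type*} [MeasurableSpace E] [Fintype ι] [Fintype κ] [Group G] [MulAction G E]
  {ν : Measure E} {T : ι → E → E} {S : κ → E → E}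
  (hkey : ∀ g : E → ℝ≥0∞, Measurable g → (∀ (a : G) x, g (a • x) = g x) →
    ∑ i, ∫⁻ x, g (T i x) ∂ν = ∑ j, ∫⁻ x, g (S j x) ∂ν)

include hkey

theorem integrable_transfer {F : E → ℂ} (hF : Measurable F) (hinv : ∀ (a : G) x, F (a • x) = F x)
    (hS : ∀ j, Measurable (S j))
    (hT : ∀ i, Integrable (fun x => F (T i x)) ν) (j : κ) : Integrable (fun x => F (S j x)) ν := by
  refine ⟨(hF.comp (hS j)).aestronglyMeasurable, ?_⟩
  have h := hkey (fun x => ‖F x‖ₑ) hF.enorm (fun a x => by rw [hinv])
  have h1 : ∑ i, ∫⁻ x, ‖F (T i x)‖ₑ ∂ν ≠ ∞ := ENNReal.sum_ne_top.2 fun i _ => (hT i).2.ne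
  rw [h] at h1
  exact (ENNReal.sum_ne_top.1 h1 j (Finset.mem_univ j)).lt_top

theorem integral_transfer_real {f : E → ℝ} (hf : Measurable f)
    (hinv : ∀ (a : G) x, f (a • x) = f x)
    (hT : ∀ i, Integrable (fun x => f (T i x)) ν) (hS : ∀ j, Integrable (fun x => f (S j x)) ν) :
    ∑ i, ∫ x, f (T i x) ∂ν = ∑ j, ∫ x, f (S j x) ∂ν := by
  have h1 := hkey (fun x => ENNReal.ofReal (f x)) hf.ennreal_ofReal (fun a x => by rw [hinv])
  have h2 := hkey (fun x => ENNReal.ofReal (-f x)) hf.neg.ennreal_ofReal
    (fun a x => by rw [hinv])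
  have bd : ∀ {g : E → ℝ}, Integrable g ν → ∫⁻ x, ENNReal.ofReal (g x) ∂ν ≠ ∞ := by
    intro g hg
    refine ne_top_of_le_ne_top hg.2.ne (lintegral_mono fun x => ?_)
    rw [← ofReal_norm]
    exact ENNReal.ofReal_le_ofReal (le_abs_self _)
  simp_rw [fun i => integral_eq_lintegral_pos_part_sub_lintegral_neg_part (hT i),
    fun i => integral_eq_lintegral_pos_part_sub_lintegral_neg_part (hS i)]
  have bT : ∀ i, ∫⁻ x, ENNReal.ofReal (-f (T i x)) ∂ν ≠ ∞ := fun i => bd (hT i).neg
  have bS : ∀ i, ∫⁻ x, ENNReal.ofReal (-f (S i x)) ∂ν ≠ ∞ := fun i => bd (hS i).neg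
  rw [Finset.sum_sub_distrib, Finset.sum_sub_distrib,
    ← ENNReal.toReal_sum fun i _ => bd (hT i), ← ENNReal.toReal_sum fun i _ => bT i,
    ← ENNReal.toReal_sum fun i _ => bd (hS i), ← ENNReal.toReal_sum fun i _ => bS i, h1, h2]

theorem integral_transfer {F : E → ℂ} (hF : Measurable F) (hinv : ∀ (a : G) x, F (a • x) = F x)
    (hT : ∀ i, Integrable (fun x => F (T i x)) ν) (hS : ∀ j, Integrable (fun x => F (S j x)) ν) :
    ∑ i, ∫ x, F (T i x) ∂ν = ∑ j, ∫ x, F (S j x) ∂ν := by
  apply Complex.ext
  · rw [Complex.re_sum, Complex.re_sum]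
    have e : ∀ {g : E → ℂ}, Integrable g ν → (∫ x, g x ∂ν).re = ∫ x, (g x).re ∂ν := by
      intro g hg
      exact (Complex.reCLM.integral_comp_comm hg).symm
    simp_rw [fun i => e (hT i), fun j => e (hS j)]
    exact integral_transfer_real hkey (Complex.measurable_re.comp hF)
      (fun a x => by simp only [Function.comp, hinv]) (fun i => (hT i).re) (fun i => (hS i).re)
  · rw [Complex.im_sum, Complex.im_sum]
    have e : ∀ {g : E → ℂ}, Integrable g ν → (∫ x, g x ∂ν).im = ∫ x, (g x).im ∂ν := by
      intro g hg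
      exact (Complex.imCLM.integral_comp_comm hg).symm
    simp_rw [fun i => e (hT i), fun j => e (hS j)]
    exact integral_transfer_real hkey (Complex.measurable_im.comp hF)
      (fun a x => by simp only [Function.comp, hinv]) (fun i => (hT i).im) (fun i => (hS i).im)

end transfer

/-! ### Injections of the lattice -/

theorem map_count_inj {e : Lat ℤ → Lat ℤ} (he : Function.Injective e) :
    (Measure.count : Measure (Lat ℤ)).map e = Measure.count.restrict (range e) := by
  ext s _
  rw [Measure.map_apply measurable_from_top (MeasurableSet.of_discrete),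
    Measure.restrict_apply (MeasurableSet.of_discrete),
    Measure.count_apply (MeasurableSet.of_discrete),
    Measure.count_apply (MeasurableSet.of_discrete)]
  congr 1
  rw [← Set.image_preimage_eq_inter_range, he.injOn.encard_image]

/-- the action on `LH` of an injection of the lattice -/
def inj (e : Lat ℤ → Lat ℤ) (x : LH) : LH := (e x.1, x.2)

theorem measurable_inj (e : Lat ℤ → Lat ℤ) : Measurable (inj e) :=
  ((measurable_from_top (f := e)).comp measurable_fst).prodMk measurable_snd

theorem map_nuL_inj {e : Lat ℤ → Lat ℤ} (he : Function.Injective e) :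
    nuL.map (inj e) = nuL.restrict {x | x.1 ∈ range e} := by
  unfold nuL
  have h1 : inj e = Prod.map e id := rfl
  rw [h1, ← Measure.map_prod_map _ _ measurable_from_top measurable_id, Measure.map_id,
    map_count_inj he]
  have h2 : {x : LH | x.1 ∈ range e} = (range e) ×ˢ univ := by
    ext x; simp
  rw [h2, ← Measure.prod_restrict, Measure.restrict_univ]

theorem integral_inj {e : Lat ℤ → Lat ℤ} (he : Function.Injective e) {F : LH → ℂ}
    (hF : Measurable F) :
    ∫ x, F (inj e x) ∂nuL = ∫ x in {x : LH | x.1 ∈ range e}, F x ∂nuL := by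
  rw [← map_nuL_inj he, integral_map (measurable_inj e).aemeasurable hF.aestronglyMeasurable]

theorem integrable_inj {e : Lat ℤ → Lat ℤ} (he : Function.Injective e) {F : LH → ℂ}
    (hF : Measurable F) :
    Integrable (fun x => F (inj e x)) nuL ↔
      IntegrableOn F {x : LH | x.1 ∈ range e} nuL := by
  rw [IntegrableOn, ← map_nuL_inj he,
    integrable_map_measure hF.aestronglyMeasurable (measurable_inj e).aemeasurable]
  rfl

theorem measurableSet_fst (A : Set (Lat ℤ)) : MeasurableSet {x : LH | x.1 ∈ A} :=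
  measurable_fst (t := A) trivial

end Fermat.Agent.LT.J.HK
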