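import Fermat.Agent.LT.J.HeckeAlg

/-!
# Counting for Hecke operators at split primes (LT, piece J3)
-/

set_option autoImplicit false

open Matrix

noncomputable section

namespace Fermat.Agent.LT.J.HK

open Fermat.LT Fermat.Agent.LT.J QE

set_option linter.unusedSectionVars false

variable {p : ℕ} [hp : Fact p.Prime] (D : SplitPrime p)

/-- divisibility of a lattice vector -/
def pdvd (p : ℕ) (Y : Lat ℤ) : Prop := ∃ X, Y = Lat.smul (p : ℤ) X

theorem pdvd_iff {p : ℕ} {Y : Lat ℤ} : pdvd p Y ↔ (p : ℤ) ∣ Y.a ∧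
    ((p : ℤ) ∣ Y.β.re ∧ (p : ℤ) ∣ Y.β.im) ∧ (p : ℤ) ∣ Y.c := by
  constructor
  · rintro ⟨X, rfl⟩
    refine ⟨⟨X.a, rfl⟩, ⟨⟨X.β.re, ?_⟩, ⟨X.β.im, ?_⟩⟩, ⟨X.c, rfl⟩⟩
    · simp [Lat.smul]
    · simp [Lat.smul]
  · rintro ⟨⟨a, ha⟩, ⟨⟨b, hb⟩, ⟨b', hb'⟩⟩, ⟨c, hc⟩⟩
    refine ⟨⟨a, ⟨b, b'⟩, c⟩, ?_⟩
    apply Lat.ext
    · exact ha
    · apply QuadraticAlgebra.ext
      · simp [Lat.smul, hb]
      · simp [Lat.smul, hb']
    · exact hc

theorem re_nat (n : ℕ) : (n : EO).re = (n : ℤ) := by simp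

theorem im_nat (n : ℕ) : (n : EO).im = 0 := by simp

theorem smul_injective {p : ℕ} (hp0 : p ≠ 0) : Function.Injective (Lat.smul (p : ℤ)) := by
  intro X Y h
  have hp1 : (p : ℤ) ≠ 0 := by exact_mod_cast hp0
  have h1 := congrArg Lat.a h
  have h2 := congrArg Lat.β h
  have h3 := congrArg Lat.c h
  simp only [Lat.smul] at h1 h2 h3
  apply Lat.ext
  · exact mul_left_cancel₀ hp1 h1
  · apply QuadraticAlgebra.ext
    · have := congrArg QuadraticAlgebra.re h2
      simp only [QuadraticAlgebra.re_smul, smul_eq_mul] at this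
      exact mul_left_cancel₀ hp1 this
    · have := congrArg QuadraticAlgebra.im h2
      simp only [QuadraticAlgebra.im_smul, smul_eq_mul] at this
      exact mul_left_cancel₀ hp1 this
  · exact mul_left_cancel₀ hp1 h3

namespace SplitPrime

theorem act_mul_adj {g : Matrix (Fin 2) (Fin 2) EO} (hg : g.det = D.pi) (X : Lat ℤ) :
    Lat.act g (Lat.act g.adjugate X) = Lat.smul (p : ℤ) X := by
  rw [← Lat.act_mul, Matrix.mul_adjugate, hg, ← D.nm_pi, ← Lat.act_scalar]
  congr 1
  exact (Matrix.smul_one_eq_diagonal _)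

theorem act_adj_mul {g : Matrix (Fin 2) (Fin 2) EO} (hg : g.det = D.pi) (X : Lat ℤ) :
    Lat.act g.adjugate (Lat.act g X) = Lat.smul (p : ℤ) X := by
  rw [← Lat.act_mul, Matrix.adjugate_mul, hg, ← D.nm_pi, ← Lat.act_scalar]
  congr 1
  exact (Matrix.smul_one_eq_diagonal _)

theorem act_adj_injective {g : Matrix (Fin 2) (Fin 2) EO} (hg : g.det = D.pi) :
    Function.Injective (Lat.act g.adjugate) := by
  intro X Y h
  have h1 : Lat.act g (Lat.act g.adjugate X) = Lat.act g (Lat.act g.adjugate Y) := by rw [h]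
  rw [D.act_mul_adj hg, D.act_mul_adj hg] at h1
  exact smul_injective hp.out.ne_zero h1

theorem mem_range_iff_pdvd {g : Matrix (Fin 2) (Fin 2) EO} (hg : g.det = D.pi) (Y : Lat ℤ) :
    Y ∈ Set.range (Lat.act g.adjugate) ↔ pdvd p (Lat.act g Y) := by
  constructor
  · rintro ⟨X, rfl⟩
    exact ⟨X, D.act_mul_adj hg X⟩
  · rintro ⟨X, hX⟩
    refine ⟨X, ?_⟩
    rw [← D.act_mul_adj hg X] at hX
    have h1 : Lat.act g.adjugate (Lat.act g Y) =
      Lat.act g.adjugate (Lat.act g (Lat.act g.adjugate X)) := by rw [hX]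
    rw [D.act_adj_mul hg, D.act_adj_mul hg] at h1
    exact (smul_injective hp.out.ne_zero h1).symm

/-- the explicit condition -/
def Cond : Option (ZMod p) → Lat ℤ → Prop
  | none, Y => (Y.c : ZMod p) = 0 ∧ D.red (star Y.β) = 0
  | some b, Y => D.red Y.β + b * D.ta * Y.c = 0 ∧ D.ta * Y.a = b * D.red (star Y.β)

theorem ta_mul_im (x : EO) : D.ta * (x.im : ZMod p) = D.red x - D.red (star x) := by
  rw [red_apply, red_apply, QE.star_re, QE.star_im, ta]
  push_cast
  ring

theorem mem_range_iff (i : Option (ZMod p)) (Y : Lat ℤ) :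
    Y ∈ Set.range (Lat.act (D.hr i).adjugate) ↔ D.Cond i Y := by
  rw [D.mem_range_iff_pdvd (D.det_hr i), pdvd_iff]
  cases i with
  | none =>
    have h1 : (Lat.act (D.hr none) Y).a = p * Y.a := by
      simp [hr, Lat.act, D.nm_pi]
    have h2 : (Lat.act (D.hr none) Y).β = D.pi * Y.β := by
      simp [hr, Lat.act]
    have h3 : (Lat.act (D.hr none) Y).c = Y.c := by
      simp [hr, Lat.act]
    rw [h1, h2, h3, D.dvd_pi_mul]
    change _ ↔ (Y.c : ZMod p) = 0 ∧ D.red (star Y.β) = 0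
    rw [ZMod.intCast_zmod_eq_zero_iff_dvd]
    constructor
    · rintro ⟨_, h4, h5⟩; exact ⟨h5, h4⟩
    · rintro ⟨h4, h5⟩; exact ⟨⟨Y.a, rfl⟩, h5, h4⟩
  | some b =>
    have h1 : (Lat.act (D.hr (some b)) Y).a = Y.a + b.val * Y.β.im + b.val ^ 2 * Y.c := by
      simp only [hr, Lat.act, Matrix.of_apply, Matrix.cons_val', Matrix.cons_val_zero,
        Matrix.cons_val_one, Matrix.cons_val_fin_one, nm_one, one_mul, star_natCast]
      have e1 : nm ((b.val : ℕ) : EO) = (b.val : ℤ) ^ 2 := by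
        have r0 : ((b.val : ℕ) : EO).re = (b.val : ℤ) := re_nat _
        have i0 : ((b.val : ℕ) : EO).im = 0 := im_nat _
        unfold nm
        rw [r0, i0]; ring
      have e2 : (Y.β * ((b.val : ℕ) : EO)).im = b.val * Y.β.im := by
        have r0 : ((b.val : ℕ) : EO).re = (b.val : ℤ) := re_nat _
        have i0 : ((b.val : ℕ) : EO).im = 0 := im_nat _
        rw [QE.mul_im, r0, i0]; ring
      rw [e1, e2]
    have h2 : (Lat.act (D.hr (some b)) Y).β = star D.pi * (Y.β + (b.val : EO) * th * (Y.c : EO)) := by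
      simp only [hr, Lat.act, Matrix.of_apply, Matrix.cons_val', Matrix.cons_val_zero,
        Matrix.cons_val_one, Matrix.cons_val_fin_one, star_zero, mul_zero, smul_zero, one_mul,
        zero_mul, sub_zero, zero_add, zsmul_eq_mul]
      ring
    have h3 : (Lat.act (D.hr (some b)) Y).c = p * Y.c := by
      simp [hr, Lat.act, D.nm_pi]
    rw [h1, h2, h3, D.dvd_star_pi_mul]
    change _ ↔ D.red Y.β + b * D.ta * Y.c = 0 ∧ D.ta * Y.a = b * D.red (star Y.β)
    have h4 : D.red (Y.β + (b.val : EO) * th * (Y.c : EO)) = D.red Y.β + b * D.ta * Y.c := by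
      rw [map_add, map_mul, map_mul, D.red_natCast_val, D.red_th, D.red_int]
    rw [h4, ← ZMod.intCast_zmod_eq_zero_iff_dvd]
    push_cast
    rw [ZMod.natCast_val, ZMod.cast_id', id]
    have h5 := D.ta_mul_im Y.β
    constructor
    · rintro ⟨h6, h7, _⟩
      refine ⟨h7, ?_⟩
      linear_combination D.ta * h6 - b * h5 - b * h7
    · rintro ⟨h6, h7⟩
      refine ⟨?_, h6, ⟨Y.c, rfl⟩⟩
      have : D.ta * ((Y.a : ZMod p) + b * Y.β.im + b ^ 2 * Y.c) = 0 := by
        linear_combination h7 + b * h5 + b * h6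
      exact (mul_eq_zero.1 this).resolve_left D.ta_ne_zero

theorem rel_of_dvd {Y : Lat ℤ} (h : (p : ℤ) ∣ Y.q) :
    D.red Y.β * D.red (star Y.β) + D.ta ^ 2 * Y.a * Y.c = 0 := by
  rw [← ZMod.intCast_zmod_eq_zero_iff_dvd] at h
  unfold Lat.q at h
  push_cast at h
  have h1 : D.red Y.β * D.red (star Y.β) = ((nm Y.β : ℤ) : ZMod p) := by
    rw [← map_mul, mul_star_eq]
    exact D.red_int _
  rw [h1, D.ta_sq]
  linear_combination h

/-- the count -/
theorem exists_unique_cond {Y : Lat ℤ} (h : (p : ℤ) ∣ Y.q) (h' : ¬ pdvd p Y) :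
    ∃! i, D.Cond i Y := by
  have hrel := D.rel_of_dvd h
  have hta := D.ta_ne_zero
  set u := D.red Y.β with hu
  set v := D.red (star Y.β) with hv
  by_cases hC : (Y.c : ZMod p) = 0
  · by_cases hv0 : v = 0
    · refine ⟨none, ⟨hC, hv0⟩, ?_⟩
      intro j hj
      cases j with
      | none => rfl
      | some b =>
        exfalso
        apply h'
        obtain ⟨h1, h2⟩ := hj
        rw [hC, mul_zero, add_zero] at h1
        rw [← hv, hv0, mul_zero] at h2
        have hA : (Y.a : ZMod p) = 0 := (mul_eq_zero.1 h2).resolve_left hta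
        rw [pdvd_iff, D.dvd_iff, ← ZMod.intCast_zmod_eq_zero_iff_dvd,
          ← ZMod.intCast_zmod_eq_zero_iff_dvd]
        exact ⟨hA, ⟨h1, hv0⟩, hC⟩
    · have hu0 : u = 0 := by
        rw [hC, mul_zero, add_zero] at hrel
        exact (mul_eq_zero.1 hrel).resolve_right hv0
      refine ⟨some (D.ta * Y.a / v), ⟨?_, ?_⟩, ?_⟩
      · rw [← hu, hu0, hC]; ring
      · rw [← hv]; field_simp
      · intro j hj
        cases j with
        | none => exact absurd hj.2 hv0
        | some b =>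
          congr 1
          have := hj.2
          rw [← hv] at this
          field_simp
          exact this.symm
  · refine ⟨some (-u / (D.ta * Y.c)), ⟨?_, ?_⟩, ?_⟩
    · rw [← hu]; field_simp; ring
    · rw [← hv]; field_simp; linear_combination hrel
    · intro j hj
      cases j with
      | none => exact absurd hj.1 hC
      | some b =>
        congr 1
        have := hj.1
        rw [← hu] at this
        field_simp
        linear_combination this

theorem cond_of_pdvd {Y : Lat ℤ} (h' : pdvd p Y) (i : Option (ZMod p)) : D.Cond i Y := by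
  rw [pdvd_iff, D.dvd_iff, ← ZMod.intCast_zmod_eq_zero_iff_dvd,
    ← ZMod.intCast_zmod_eq_zero_iff_dvd] at h'
  obtain ⟨h1, ⟨h2, h3⟩, h4⟩ := h'
  cases i with
  | none => exact ⟨h4, h3⟩
  | some b =>
    refine ⟨?_, ?_⟩
    · rw [h2, h4]; ring
    · rw [h1, h3]; ring

end SplitPrime

end Fermat.Agent.LT.J.HK
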