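import Fermat.Agent.LT.J.Green
import Fermat.Agent.LT.J.Exch

/-!
# Gaussian moments of coefficient systems (LT, piece J2)
-/

set_option autoImplicit false

open MeasureTheory Set Matrix ProbabilityTheory
open scoped ENNReal NNReal

noncomputable section

namespace Fermat.Agent.LT.J

open Fermat.LT Fermat.Agent.LT.B Fermat.Agent.LT.CArch

/-- the measure `count × ρ dw` -/
def nuL : Measure LH := Measure.count.prod muR

theorem nuL_eq : nuL = muLH.withDensity (fun x => rho x.2) :=
  prod_withDensity_right measurable_rho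

theorem lintegral_nuL {F : LH → ℝ≥0∞} (hF : Measurable F) :
    ∫⁻ x, F x ∂nuL = ∫⁻ w, ∑' X, F (X, w) ∂muR := by
  unfold nuL
  rw [lintegral_prod_symm _ hF.aemeasurable]
  simp_rw [lintegral_count]

theorem measurable_Maj_uncurry : Measurable (fun x : LH => Maj x.1 x.2) :=
  measurable_uncurry_cont (c := Maj) continuous_Maj

theorem integrable_exp_maj {ε : ℝ} (hε : 0 < ε) :
    Integrable (fun x : LH => Real.exp (-(ε * Maj x.1 x.2))) nuL := by
  have hm : Measurable (fun x : LH => Real.exp (-(ε * Maj x.1 x.2))) :=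
    Real.measurable_exp.comp (measurable_Maj_uncurry.const_mul ε).neg
  refine ⟨hm.aestronglyMeasurable, ?_⟩
  rw [hasFiniteIntegral_iff_ofReal (Filter.Eventually.of_forall fun x => (Real.exp_pos _).le),
    lintegral_nuL (F := fun x : LH => ENNReal.ofReal (Real.exp (-(ε * Maj x.1 x.2))))
      hm.ennreal_ofReal]
  exact lt_of_le_of_lt (lintegral_tsum_maj_le hε) ENNReal.ofReal_lt_top

theorem integrableOn_gauss {ε : ℝ} (hε : 0 < ε) (n : ℤ) :
    IntegrableOn (fun x : LH => Real.exp (-(ε * sL x.1 x.2 ^ 2))) (Qset n) nuL := by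
  have h1 : IntegrableOn (fun x : LH => Real.exp (ε / 2 * n) *
      Real.exp (-(ε / 2 * Maj x.1 x.2))) (Qset n) nuL :=
    ((integrable_exp_maj (half_pos hε)).const_mul _).integrableOn
  refine h1.congr_fun (fun x hx => ?_) (measurableSet_Qset n)
  have hq : x.1.q = n := hx
  simp only
  rw [← Real.exp_add, Maj, hq]
  congr 1
  ring

/-- functions dominated by a Gaussian -/
def GB (C ε : ℝ) (h : ℝ → ℂ) : Prop := ∀ s, ‖h s‖ ≤ C * Real.exp (-(ε * s ^ 2))

theorem integrableOn_h {C ε : ℝ} (hε : 0 < ε) (n : ℤ) {h : ℝ → ℂ} (hh : Measurable h)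
    (hb : GB C ε h) : IntegrableOn (fun x : LH => h (sL x.1 x.2)) (Qset n) nuL := by
  refine Integrable.mono' ((integrableOn_gauss hε n).const_mul C)
    (hh.comp measurable_sL_uncurry).aestronglyMeasurable ?_
  exact Filter.Eventually.of_forall fun x => hb _

theorem integrableOn_ch {c : Lat ℤ → H3 → ℂ} (hc : CoefSys c) {C ε : ℝ} (hε : 0 < ε) (n : ℤ)
    {h : ℝ → ℂ} (hh : Measurable h) (hb : GB C ε h) :
    IntegrableOn (fun x : LH => c x.1 x.2 * h (sL x.1 x.2)) (Qset n) nuL := by
  obtain ⟨B, hB⟩ := hc.bdd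
  exact (integrableOn_h hε n hh hb).bdd_mul hc.measurable.aestronglyMeasurable
    (Filter.Eventually.of_forall fun x => hB x.1 x.2)

theorem measurable_rho_snd : Measurable (fun x : LH => rho x.2) :=
  measurable_rho.comp measurable_snd

theorem finL {C ε : ℝ} (hε : 0 < ε) (n : ℤ) {h : ℝ → ℂ} (hh : Measurable h)
    (hb : GB C ε h) : FinL rho n h := by
  have h1 := (integrableOn_h hε n hh hb).2.ne
  rw [nuL_eq, restrict_withDensity (measurableSet_Qset n),
    lintegral_withDensity_eq_lintegral_mul (g := fun x : LH => ‖h (sL x.1 x.2)‖ₑ) _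
      measurable_rho_snd (hh.comp measurable_sL_uncurry).enorm] at h1
  exact h1

theorem LamL_eq (c : Lat ℤ → H3 → ℂ) (n : ℤ) (h : ℝ → ℂ) :
    LamL rho c n h = ∫ x in Qset n, c x.1 x.2 * h (sL x.1 x.2) ∂nuL := by
  rw [nuL_eq, restrict_withDensity (measurableSet_Qset n),
    integral_withDensity_eq_integral_toReal_smul measurable_rho_snd
      (Filter.Eventually.of_forall fun x => rho_lt_top x.2)]
  rfl

/-- comparison with the iterated form -/
theorem Lam_eq {c : Lat ℤ → H3 → ℂ} (hc : CoefSys c) {C ε : ℝ} (hε : 0 < ε) (n : ℤ)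
    {h : ℝ → ℝ} (hh : Measurable h) (hb : GB C ε (fun s => (h s : ℂ))) :
    Lam rho c n h = LamL rho c n (fun s => (h s : ℂ)) := by
  have hint : IntegrableOn (fun x : LH => c x.1 x.2 * (h (sL x.1 x.2) : ℂ)) (Qset n) nuL :=
    integrableOn_ch hc hε n (Complex.measurable_ofReal.comp hh) hb
  rw [LamL_eq, ← integral_indicator (measurableSet_Qset n)]
  have hint' := hint.integrable_indicator (measurableSet_Qset n)
  unfold nuL at hint' ⊢
  rw [integral_prod_symm _ hint', Lam, ← integral_muR']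
  refine integral_congr_ae ?_
  have h1 : ∀ᵐ w ∂muR, Integrable (fun X : Lat ℤ => (Qset n).indicator
      (fun x : LH => c x.1 x.2 * (h (sL x.1 x.2) : ℂ)) (X, w)) Measure.count :=
    hint'.prod_left_ae
  refine h1.mono fun w hw => ?_
  simp only
  rw [integral_countable hw]
  have h2 : ∀ X : Lat ℤ, Measure.count.real {X} • (Qset n).indicator
      (fun x : LH => c x.1 x.2 * (h (sL x.1 x.2) : ℂ)) (X, w) =
      ({X : Lat ℤ | X.q = n} : Set (Lat ℤ)).indicator (fun X => c X w * (h (sL X w) : ℂ)) X := by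
    intro X
    rw [Measure.real, Measure.count_singleton, ENNReal.toReal_one, one_smul]
    by_cases hX : X.q = n
    · rw [indicator_of_mem (s := Qset n) (a := ((X, w) : LH)) hX,
        indicator_of_mem (s := {X : Lat ℤ | X.q = n}) (a := X) hX]
    · rw [indicator_of_notMem (s := Qset n) (a := ((X, w) : LH)) hX,
        indicator_of_notMem (s := {X : Lat ℤ | X.q = n}) (a := X) hX]
  simp_rw [h2]
  exact (tsum_subtype {X : Lat ℤ | X.q = n} (fun X => c X w * (h (sL X w) : ℂ))).symm ▸ rfl

end Fermat.Agent.LT.J
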