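import Fermat.Agent.LT.J.HeckeCount
import Fermat.Agent.LT.J.Moment

/-!
# Mass transport for Hecke correspondences (LT, piece J3)
-/

set_option autoImplicit false
set_option linter.unusedSectionVars false

open MeasureTheory Set Matrix
open scoped ENNReal NNReal

noncomputable section

namespace Fermat.Agent.LT.J.HK

open Fermat.LT Fermat.Agent.LT.J Fermat.Agent.LT.B QE

variable {p : ℕ} [hp : Fact p.Prime] (D : SplitPrime p)

theorem matC_gl_mul (a : GL (Fin 2) EO) (r : Matrix (Fin 2) (Fin 2) EO) (h : (a.1 * r).det ≠ 0)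
    (h' : r.det ≠ 0) : matC (a.1 * r) h = glC a * matC r h' := by
  apply Units.ext
  rw [Units.val_mul, matC_val, glC_val, matC_val, Matrix.map_mul]

theorem matC_mul_gl (a : GL (Fin 2) EO) (r : Matrix (Fin 2) (Fin 2) EO) (h : (r * a.1).det ≠ 0)
    (h' : r.det ≠ 0) : matC (r * a.1) h = matC r h' * glC a := by
  apply Units.ext
  rw [Units.val_mul, matC_val, glC_val, matC_val, Matrix.map_mul]

theorem measurable_gl_smul (γ : GL (Fin 2) ℂ) : Measurable (fun w : H3 => γ • w) :=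
  (continuous_const_smul γ).measurable

/-- change of variables on `H3` -/
theorem lintegral_gl (γ : GL (Fin 2) ℂ) (f : H3 → ℝ≥0∞) :
    ∫⁻ w, f (γ • w) = ∫⁻ w, f w :=
  (H3.measurePreserving_smul' γ).lintegral_comp_emb (H3.smulHomeo γ).measurableEmbedding f

theorem lintegral_nuL' {F : LH → ℝ≥0∞} (hF : Measurable F) :
    ∫⁻ x, F x ∂nuL = ∫⁻ w : H3, rho w * ∑' X : Lat ℤ, F (X, w) := by
  rw [lintegral_nuL hF, lintegral_muR]
  exact Measurable.tsum fun X => hF.comp measurable_prodMk_left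

namespace SplitPrime

theorem det_hr_ne (i : Option (ZMod p)) : (D.hr i).det ≠ 0 := by
  rw [D.det_hr]; exact D.pi_ne_zero

theorem det_adj_hr_ne (i : Option (ZMod p)) : (D.hr i).adjugate.det ≠ 0 := by
  rw [det_adj]; exact D.det_hr_ne i

/-- the representatives in `GL₂(ℂ)` -/
def rC (i : Option (ZMod p)) : GL (Fin 2) ℂ := matC (D.hr i) (D.det_hr_ne i)

/-- the adjoint representatives in `GL₂(ℂ)` -/
def rA (i : Option (ZMod p)) : GL (Fin 2) ℂ := matC (D.hr i).adjugate (D.det_adj_hr_ne i)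

/-- elements of `MP` in `GL₂(ℂ)` -/
def mC (g : D.MP) : GL (Fin 2) ℂ := matC g.1 g.det_ne

theorem mC_eL (a : GL (Fin 2) EO) (i : Option (ZMod p)) : D.mC (D.eL (a, i)) = glC a * D.rC i :=
  matC_gl_mul a (D.hr i) _ _

theorem mC_eR (a : GL (Fin 2) EO) (i : Option (ZMod p)) : D.mC (D.eR (a, i)) = D.rA i * glC a := by
  apply Units.ext
  rw [mC, matC_val, D.eR_val, Units.val_mul, rA, matC_val, glC_val, Matrix.map_mul]

section key

variable {F : LH → ℝ≥0∞} (hF : Measurable F) (hinv : ∀ (a : GL (Fin 2) EO) x, F (a • x) = F x)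

include hF in
theorem measurable_F (X : Lat ℤ) : Measurable (fun w : H3 => F (X, w)) :=
  hF.comp measurable_prodMk_left

/-- the doubly weighted integral -/
def II (F : LH → ℝ≥0∞) (g : D.MP) (X : Lat ℤ) : ℝ≥0∞ :=
  ∫⁻ w : H3, rho w * (rho (D.mC g • w) * F (Lat.act g.1 X, D.mC g • w))

include hF in
theorem II_eq (g : D.MP) (X : Lat ℤ) : D.II F g X =
    ∫⁻ v : H3, rho ((D.mC g)⁻¹ • v) * (rho v * F (Lat.act g.1 X, v)) := by
  unfold II
  conv_rhs => rw [← lintegral_gl (D.mC g)]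
  simp only [inv_smul_smul]

include hF hinv in
theorem stepA (i : Option (ZMod p)) :
    ∫⁻ x, F (Lat.act (D.hr i) x.1, D.rC i • x.2) ∂nuL =
      ∑' a : GL (Fin 2) EO, ∑' X, D.II F (D.eL (a, i)) X := by
  have hm : Measurable (fun x : LH => F (Lat.act (D.hr i) x.1, D.rC i • x.2)) :=
    hF.comp (((measurable_from_top (f := fun X : Lat ℤ => Lat.act (D.hr i) X)).comp
      measurable_fst).prodMk ((measurable_gl_smul (D.rC i)).comp measurable_snd))
  rw [lintegral_nuL' hm]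
  have hterm : ∀ (a : GL (Fin 2) EO) (X : Lat ℤ), D.II F (D.eL (a, i)) X =
      ∫⁻ w : H3, rho w * (rho (a • (D.rC i • w)) * F (Lat.act (D.hr i) X, D.rC i • w)) := by
    intro a X
    unfold II
    congr 1
    ext w
    have e1 : D.mC (D.eL (a, i)) • w = a • (D.rC i • w) := by
      rw [D.mC_eL, mul_smul]; rfl
    have e2 : F (Lat.act (D.eL (a, i)).1 X, D.mC (D.eL (a, i)) • w) =
        F (Lat.act (D.hr i) X, D.rC i • w) := by
      rw [e1, D.eL_val, Lat.act_mul]
      exact hinv a (Lat.act (D.hr i) X, D.rC i • w)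
    rw [e2, e1]
  simp_rw [hterm]
  have hmt : ∀ (a : GL (Fin 2) EO) (X : Lat ℤ), Measurable fun w : H3 =>
      rho w * (rho (a • (D.rC i • w)) * F (Lat.act (D.hr i) X, D.rC i • w)) := by
    intro a X
    exact measurable_rho.mul ((measurable_rho.comp ((measurable_const_smul a).comp
      (measurable_gl_smul (D.rC i)))).mul (hm.comp measurable_prodMk_left))
  have h1 : ∀ a : GL (Fin 2) EO, ∑' X : Lat ℤ, ∫⁻ w : H3,
      rho w * (rho (a • (D.rC i • w)) * F (Lat.act (D.hr i) X, D.rC i • w)) =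
      ∫⁻ w : H3, ∑' X : Lat ℤ,
        rho w * (rho (a • (D.rC i • w)) * F (Lat.act (D.hr i) X, D.rC i • w)) :=
    fun a => (lintegral_tsum fun X => (hmt a X).aemeasurable).symm
  simp_rw [h1]
  rw [← lintegral_tsum fun a => (Measurable.tsum fun X => hmt a X).aemeasurable]
  congr 1
  ext w
  simp_rw [ENNReal.tsum_mul_left]
  rw [ENNReal.tsum_mul_right, isWeight_rho.sum_eq, one_mul]

include hF in
theorem stepE (j : Option (ZMod p)) :
    ∑' a : GL (Fin 2) EO, ∑' X, D.II F (D.eR (a, j)) X =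
      ∫⁻ x, F (Lat.act (D.hr j).adjugate x.1, x.2) ∂nuL := by
  have hm : Measurable (fun x : LH => F (Lat.act (D.hr j).adjugate x.1, x.2)) :=
    hF.comp (((measurable_from_top (f := fun X : Lat ℤ => Lat.act (D.hr j).adjugate X)).comp
      measurable_fst).prodMk measurable_snd)
  rw [lintegral_nuL' hm]
  have hterm : ∀ (a : GL (Fin 2) EO), ∑' X : Lat ℤ, D.II F (D.eR (a, j)) X =
      ∑' X : Lat ℤ, ∫⁻ v : H3, rho (a⁻¹ • ((D.rA j)⁻¹ • v)) *
        (rho v * F (Lat.act (D.hr j).adjugate X, v)) := by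
    intro a
    have hX : ∀ X : Lat ℤ, D.II F (D.eR (a, j)) X = ∫⁻ v : H3, rho (a⁻¹ • ((D.rA j)⁻¹ • v)) *
        (rho v * F (Lat.act (D.hr j).adjugate (a • X), v)) := by
      intro X
      rw [D.II_eq hF]
      congr 1
      ext v
      have e1 : (D.mC (D.eR (a, j)))⁻¹ • v = a⁻¹ • ((D.rA j)⁻¹ • v) := by
        rw [D.mC_eR, _root_.mul_inv_rev, mul_smul, ← map_inv]; rfl
      rw [e1, D.eR_val, Lat.act_mul]
      rfl
    simp_rw [hX]
    exact (MulAction.toPerm a : Equiv.Perm (Lat ℤ)).tsum_eq (fun X => ∫⁻ v : H3,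
      rho (a⁻¹ • ((D.rA j)⁻¹ • v)) * (rho v * F (Lat.act (D.hr j).adjugate X, v)))
  simp_rw [hterm]
  have hmt : ∀ (a : GL (Fin 2) EO) (X : Lat ℤ), Measurable fun v : H3 =>
      rho (a⁻¹ • ((D.rA j)⁻¹ • v)) * (rho v * F (Lat.act (D.hr j).adjugate X, v)) := by
    intro a X
    exact (measurable_rho.comp ((measurable_const_smul a⁻¹).comp
      (measurable_gl_smul (D.rA j)⁻¹))).mul (measurable_rho.mul (hm.comp measurable_prodMk_left))
  have h1 : ∀ a : GL (Fin 2) EO, ∑' X : Lat ℤ, ∫⁻ v : H3,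
      rho (a⁻¹ • ((D.rA j)⁻¹ • v)) * (rho v * F (Lat.act (D.hr j).adjugate X, v)) =
      ∫⁻ v : H3, ∑' X : Lat ℤ,
      rho (a⁻¹ • ((D.rA j)⁻¹ • v)) * (rho v * F (Lat.act (D.hr j).adjugate X, v)) :=
    fun a => (lintegral_tsum fun X => (hmt a X).aemeasurable).symm
  simp_rw [h1]
  rw [← lintegral_tsum fun a => (Measurable.tsum fun X => hmt a X).aemeasurable]
  congr 1
  ext v
  simp_rw [ENNReal.tsum_mul_left]
  rw [ENNReal.tsum_mul_right, isWeight_rho.sum_inv, one_mul]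

include hF hinv in
/-- the mass transport identity for nonnegative invariant functions -/
theorem key_lintegral :
    ∑ i, ∫⁻ x, F (Lat.act (D.hr i) x.1, D.rC i • x.2) ∂nuL =
      ∑ j, ∫⁻ x, F (Lat.act (D.hr j).adjugate x.1, x.2) ∂nuL := by
  simp_rw [D.stepA hF hinv, ← D.stepE hF]
  have h : ∀ e : GL (Fin 2) EO × Option (ZMod p) ≃ D.MP,
      ∑ i, ∑' a : GL (Fin 2) EO, ∑' X, D.II F (e (a, i)) X = ∑' g : D.MP, ∑' X, D.II F g X := by
    intro e
    rw [← e.tsum_eq, ENNReal.tsum_prod', ENNReal.tsum_comm, tsum_fintype]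
  rw [h D.eL, h D.eR]

end key

end SplitPrime

end Fermat.Agent.LT.J.HK
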