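import Mathlib
import Fermat.Agent.LT.J.FinSum4

/-!
# Modularity in `z` of the theta kernel
-/

set_option autoImplicit false

open Matrix MeasureTheory Filter
open scoped Real

namespace Fermat.Agent.LT.J4

open Fermat.Agent.LT.I Fermat.LT

noncomputable section

theorem ex_eq_eN (c : ℕ) (m r : Fin 4 → ℤ) : ex m ((c : ℝ)⁻¹ • zv r) = eN c (mdot m r) := by
  unfold ex eN mdot zv
  congr 1
  rw [Fin.sum_univ_four]
  simp only [Pi.smul_apply, smul_eq_mul]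
  push_cast
  ring

theorem Gz_add (z : ℂ) (P : H3) (X : Fin 4 → ℤ) (c : ℕ) (a : ℤ) :
    Gz (z + a / c) P (zv X) = eN c (a * qZ X) * Gz z P (zv X) := by
  unfold Gz eN
  have him : (z + a / c : ℂ).im = z.im := by
    have : ((a : ℂ) / (c : ℂ)) = ((a / c : ℝ) : ℂ) := by push_cast; rfl
    rw [this, Complex.add_im, Complex.ofReal_im, add_zero]
  rw [him, qR_zv, ← Complex.exp_add, ← Complex.exp_add, ← Complex.exp_add]
  congr 1
  push_cast
  ring

/-- coordinates of the dual vector -/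
theorem Tm_transpose_mulVec (P : H3) (Y : Fin 4 → ℤ) :
    (Tm P)ᵀ *ᵥ zv (mvec Y) = (2 : ℝ) • ![-((Rm P *ᵥ zv Y) 0), (Rm P *ᵥ zv Y) 1,
      (Rm P *ᵥ zv Y) 2, (Rm P *ᵥ zv Y) 3] := by
  have ht : P.t ≠ 0 := P.t_pos.ne'
  have h3 := sqrt3_ne
  have h3' := sqrt3_sq
  have hz : Complex.normSq P.z = P.z.re ^ 2 + P.z.im ^ 2 := by
    rw [Complex.normSq_apply]; ring
  ext i
  fin_cases i <;>
    simp [Rm, Tm, mvec, zv, Matrix.mulVec, dotProduct, Fin.sum_univ_four, hz] <;> field_simp <;>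
    ring_nf <;> simp only [h3'] <;> ring_nf

/-- The dual Gaussian. -/
theorem gau_dual (P : H3) {u : ℂ} (hu : u ≠ 0) {C : ℕ} (hC : C ≠ 0) (Y : Fin 4 → ℤ) :
    gau (Tm P)ᵀ (fun i => ((C : ℂ) ^ 2 * cz u i)⁻¹) (zv (mvec Y)) =
      Gz (-1 / ((C : ℂ) ^ 2 * u)) P (zv Y) := by
  have hC' : (C : ℂ) ≠ 0 := Nat.cast_ne_zero.mpr hC
  have hu' : (starRingEnd ℂ) u ≠ 0 := by simpa using hu
  rw [Gz_eq_gau, gau, gau, Tm_transpose_mulVec]
  congr 2
  rw [Fin.sum_univ_four, Fin.sum_univ_four]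
  have hcj : (starRingEnd ℂ) (-1 / ((C : ℂ) ^ 2 * u)) = -1 / ((C : ℂ) ^ 2 * (starRingEnd ℂ) u) := by
    simp
  simp only [cz, hcj, Pi.smul_apply, smul_eq_mul, Matrix.cons_val_zero, Matrix.cons_val_one,
    Matrix.cons_val]
  push_cast
  have hI : Complex.I ^ 2 = -1 := Complex.I_sq
  field_simp
  rw [hI]
  ring

theorem prod_cpow (u : ℂ) (hu : 0 < u.im) {C : ℕ} (hC : C ≠ 0) :
    ∏ i, (1 / ((C : ℂ) ^ 2 * cz u i)) ^ (1 / 2 : ℂ) =
      -Complex.I * (-1 / ((C : ℂ) ^ 2 * u)) * ‖(-1 / ((C : ℂ) ^ 2 * u) : ℂ)‖ / 4 := by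
  have hC' : (C : ℂ) ≠ 0 := Nat.cast_ne_zero.mpr hC
  have hu0 : u ≠ 0 := by
    rintro rfl
    simp at hu
  set w : ℂ := 1 / ((C : ℂ) ^ 2 * -(2 * Complex.I * u)) with hw
  have hwr : 0 < w.re := by
    have h1 : 0 < ((C : ℂ) ^ 2 * -(2 * Complex.I * u)).re := by
      rw [← Complex.ofReal_natCast, ← Complex.ofReal_pow, Complex.re_ofReal_mul]
      have : (-(2 * Complex.I * u)).re = 2 * u.im := by simp
      rw [this]
      positivity
    rw [hw, one_div, Complex.inv_re]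
    exact div_pos h1 (Complex.normSq_pos.mpr fun h => by rw [h] at h1; simp at h1)
  have hw0 : w ≠ 0 := by
    intro h
    rw [h] at hwr
    simp at hwr
  have h0 : 1 / ((C : ℂ) ^ 2 * (2 * Complex.I * (starRingEnd ℂ) u)) = (starRingEnd ℂ) w := by
    have h2 : (starRingEnd ℂ) (2 : ℂ) = 2 := map_ofNat _ 2
    rw [hw]
    simp [h2]
  have harg : w.arg ≠ π := by
    intro h
    rw [Complex.arg_eq_pi_iff] at h
    linarith [h.1]
  have h1 : ((starRingEnd ℂ) w) ^ (1 / 2 : ℂ) = (starRingEnd ℂ) (w ^ (1 / 2 : ℂ)) := by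
    have h2 : (starRingEnd ℂ) (2 : ℂ) = 2 := map_ofNat _ 2
    rw [Complex.conj_cpow _ _ harg]
    simp [h2]
  have h2 : w ^ (1 / 2 : ℂ) * w ^ (1 / 2 : ℂ) = w := by
    rw [← Complex.cpow_add _ _ hw0]
    norm_num
  have h3 : (starRingEnd ℂ) (w ^ (1 / 2 : ℂ)) * w ^ (1 / 2 : ℂ) = ‖w‖ := by
    rw [mul_comm, Complex.mul_conj, Complex.normSq_eq_norm_sq, sq, ← norm_mul, h2]
  rw [Fin.prod_univ_four]
  simp only [cz, Matrix.cons_val_zero, Matrix.cons_val_one, Matrix.cons_val]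
  rw [h0, ← hw, h1, h3, mul_assoc, h2]
  have h4 : w = -Complex.I * (-1 / ((C : ℂ) ^ 2 * u)) / 2 := by
    rw [hw]
    field_simp
    rw [Complex.I_sq]
  have h5 : ‖w‖ = ‖(-1 / ((C : ℂ) ^ 2 * u) : ℂ)‖ / 2 := by
    rw [h4, norm_div, norm_mul, norm_neg, Complex.norm_I, one_mul]
    norm_num
  rw [h5, h4]
  push_cast
  ring

/-- The theta sum. -/
def Sth (φ : (Fin 4 → ℤ) → ℂ) (z : ℂ) (P : H3) : ℂ := ∑' X : Fin 4 → ℤ, φ X * Gz z P (zv X)

theorem summable_Gz {z : ℂ} (hz : 0 < z.im) (P : H3) {φ : (Fin 4 → ℤ) → ℂ} {B : ℝ}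
    (hB : ∀ X, ‖φ X‖ ≤ B) : Summable fun X : Fin 4 → ℤ => φ X * Gz z P (zv X) := by
  obtain ⟨δ, hδ, h⟩ := exists_norm_gau_le (mul_eq_one_comm.mp (Rm_mul_Tm P)) (re_cz hz)
  refine Summable.of_norm_bounded ((summable_exp_sum_sq 4 hδ).mul_left B) fun X => ?_
  rw [norm_mul, Gz_eq_gau]
  have hB0 : 0 ≤ B := (norm_nonneg _).trans (hB X)
  gcongr
  · exact hB X
  · exact h _

/-- General transformation formula. -/
theorem Sth_general {φ : (Fin 4 → ℤ) → ℂ} {B : ℝ} (hB : ∀ X, ‖φ X‖ ≤ B) (C : ℕ) [NeZero C]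
    (hφ : Per C φ) {u : ℂ} (hu : 0 < u.im) (P : H3) :
    Sth φ u P = 1 / (3 * √3) * (-Complex.I * (-1 / ((C : ℂ) ^ 2 * u)) *
      ‖(-1 / ((C : ℂ) ^ 2 * u) : ℂ)‖) *
      ∑' m : Fin 4 → ℤ, Asum C 0 φ m *
        gau (Tm P)ᵀ (fun i => ((C : ℂ) ^ 2 * cz u i)⁻¹) (zv m) := by
  have h := poisson_periodic (Rm_mul_Tm P) (re_cz hu) C hφ hB
  rw [prod_cpow u hu (NeZero.ne C), det_Tm] at h
  have h1 : Sth φ u P = ∑' X, φ X * gau (Rm P) (cz u) (zv X) :=
    tsum_congr fun X => by rw [Gz_eq_gau]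
  rw [h1, h]
  congr 1
  · have h3 : (√3 : ℂ) ≠ 0 := by exact_mod_cast sqrt3_ne
    rw [abs_of_pos (by positivity)]
    push_cast
    field_simp
  · refine tsum_congr fun m => ?_
    congr 1
    unfold Asum
    refine Finset.sum_congr rfl fun r _ => ?_
    rw [ex_eq_eN, zero_mul, zero_add]

/-- change of variables for a rational translation -/
theorem Sth_add (φ : (Fin 4 → ℤ) → ℂ) (u : ℂ) (P : H3) (c : ℕ) (a : ℤ) :
    Sth φ (u + a / c) P = Sth (fun X => φ X * eN c (a * qZ X)) u P :=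
  tsum_congr fun X => by rw [Gz_add]; ring

theorem Per.mul_eN {C : ℕ} (hC : C ≠ 0) {φ : (Fin 4 → ℤ) → ℂ} (hφ : Per C φ) {c : ℕ} (hcC : c ∣ C)
    (a : ℤ) : Per C (fun X => φ X * eN c (a * qZ X)) := by
  intro X K
  obtain ⟨k, rfl⟩ := hcC
  have hc : c ≠ 0 := left_ne_zero_of_mul hC
  simp only
  rw [hφ]
  congr 1
  apply eN_congr hc
  refine ⟨a * (k * bZ X K + (c * k * k : ℤ) * qZ K), ?_⟩
  simp only [qZ, bZ, Pi.add_apply, Pi.smul_apply, smul_eq_mul]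
  push_cast
  ring

/-- `γ z = a/c - 1/(c(cz+d))` -/
theorem moebius_eq {a b c d : ℂ} (h : a * d - b * c = 1) (hc : c ≠ 0) {z : ℂ}
    (hz : c * z + d ≠ 0) : (a * z + b) / (c * z + d) = -1 / (c * (c * z + d)) + a / c := by
  rw [div_eq_iff hz]
  have e : (-1 / (c * (c * z + d)) + a / c) * (c * z + d) = (-1 + a * (c * z + d)) / c := by
    field_simp
  rw [e, eq_div_iff hc]
  linear_combination (-1 : ℂ) * h

theorem im_pos_aux {c d z : ℂ} (hc : c.im = 0) (hc0 : c ≠ 0) (hd : d.im = 0) (hz : 0 < z.im) :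
    0 < (-1 / (c * (c * z + d))).im := by
  have h1 : c * (c * z + d) = (c.re : ℂ) * ((c.re : ℂ) * z + d) := by
    have : c = (c.re : ℂ) := by apply Complex.ext <;> simp [hc]
    rw [← this]
  have hcr : c.re ≠ 0 := by
    intro h
    apply hc0
    apply Complex.ext <;> simp [hc, h]
  rw [h1, Complex.div_im]
  have h2 : ((c.re : ℂ) * ((c.re : ℂ) * z + d)).im = c.re ^ 2 * z.im := by
    simp [hd]
    ring
  have h3 : (c.re : ℂ) * ((c.re : ℂ) * z + d) ≠ 0 := by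
    intro h
    rw [h] at h2
    have : c.re ^ 2 * z.im ≠ 0 := by positivity
    exact this (by simpa using h2.symm)
  have h4 := Complex.normSq_pos.mpr h3
  rw [h2]
  simp only [Complex.neg_im, Complex.one_im, neg_zero, zero_mul, zero_div, Complex.neg_re,
    Complex.one_re, zero_sub, neg_mul, one_mul, neg_div, neg_neg]
  positivity

variable {M c' : ℕ} [NeZero M] [NeZero c']

/-- Transformation under `Γ₀(3M²)`, with a Gauss sum. -/
theorem Sth_Gamma0_gauss {φ : (Fin 4 → ℤ) → ℂ} (hφ : Per M φ) {B : ℝ} (hB : ∀ X, ‖φ X‖ ≤ B)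
    {a b d : ℤ} (hdet : a * d - b * ((3 * M ^ 2 * c' : ℕ) : ℤ) = 1) {z : ℂ} (hz : 0 < z.im)
    (P : H3) :
    Sth φ ((a * z + b) / (((3 * M ^ 2 * c' : ℕ) : ℂ) * z + d)) P =
      1 / (3 * √3) * (-Complex.I * ((((3 * M ^ 2 * c' : ℕ) : ℂ) * z + d) / (3 * M ^ 2 * c' : ℕ)) *
        ‖((((3 * M ^ 2 * c' : ℕ) : ℂ) * z + d) / (3 * M ^ 2 * c' : ℕ) : ℂ)‖) *
        gauss4 (3 * M ^ 2 * c') a * Sth (fun X => φ (d • X)) z P := by
  have hM : M ≠ 0 := NeZero.ne M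
  have hc' : c' ≠ 0 := NeZero.ne c'
  have hcne : 3 * M ^ 2 * c' ≠ 0 := by positivity
  have hNe : NeZero (3 * M ^ 2 * c') := ⟨hcne⟩
  obtain ⟨c, hc⟩ : ∃ c, 3 * M ^ 2 * c' = c := ⟨_, rfl⟩
  have hMc : M ∣ c := ⟨3 * M * c', by rw [← hc]; ring⟩
  have hcC : (c : ℂ) ≠ 0 := by rw [← hc]; exact_mod_cast hcne
  have hczd : (c : ℂ) * z + d ≠ 0 := by
    intro h
    have h1 := congrArg Complex.im h
    simp at h1
    rcases h1 with h1 | h1
    · exact hcC (by rw [h1]; simp)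
    · exact hz.ne' h1
  have had : (c : ℤ) ∣ a * d - 1 := ⟨b, by rw [← hc]; linarith⟩
  set u : ℂ := -1 / ((c : ℂ) * ((c : ℂ) * z + d)) with hu
  have hu0 : 0 < u.im := im_pos_aux (by simp) hcC (by simp) hz
  have hz' : -1 / ((c : ℂ) ^ 2 * u) = ((c : ℂ) * z + d) / c := by
    rw [hu]
    field_simp
  have hune : u ≠ 0 := by
    intro h
    rw [h] at hu0
    simp at hu0
  have hdetC : (a : ℂ) * d - b * (c : ℂ) = 1 := by
    rw [← hc]
    exact_mod_cast hdet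
  have hNe' : NeZero c := ⟨hc ▸ hcne⟩
  rw [hc, moebius_eq hdetC hcC hczd, ← hu, Sth_add]
  have hper : Per c (fun X => φ X * eN c (a * qZ X)) :=
    (hφ.of_dvd hMc).mul_eN (hc ▸ hcne) dvd_rfl a
  rw [Sth_general (B := B) (fun X => by rw [norm_mul, norm_eN, mul_one]; exact hB X) c hper hu0,
    hz', mul_assoc _ (gauss4 c a) _]
  congr 1
  have h1 : ∀ m, Asum c 0 (fun X => φ X * eN c (a * qZ X)) m = Asum c a φ m := by
    intro m
    unfold Asum
    refine Finset.sum_congr rfl fun r _ => ?_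
    rw [zero_mul, zero_add, eN_add, mul_assoc]
  simp only [h1]
  rw [← mvec_injective.tsum_eq (f := fun m => Asum c a φ m *
    gau (Tm P)ᵀ (fun i => ((c : ℂ) ^ 2 * cz u i)⁻¹) (zv m))]
  · have h2 : ∀ Y, Asum c a φ (mvec Y) *
        gau (Tm P)ᵀ (fun i => ((c : ℂ) ^ 2 * cz u i)⁻¹) (zv (mvec Y)) =
        gauss4 c a * (φ (-d • Y) * Gz z P (zv Y)) := by
      intro Y
      have e1 : Asum c a φ (mvec Y) = φ (-d • Y) * Asum c a (fun _ => 1) (mvec Y) := by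
        subst hc
        exact Asum_mvec hφ had Y
      have e2 := Asum_one (c := c) had Y
      rw [e1, gau_dual P hune (hc ▸ hcne), hz']
      have e3 : ((c : ℂ) * z + d) / c = z + d / c := by field_simp
      rw [e3, Gz_add, ← e2]
      ring
    refine (tsum_congr h2).trans ?_
    rw [tsum_mul_left]
    congr 1
    rw [← (Equiv.neg (Fin 4 → ℤ)).tsum_eq]
    refine tsum_congr fun Y => ?_
    simp only [Equiv.neg_apply]
    have e4 : -d • -Y = d • Y := by simp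
    rw [e4]
    congr 1
    unfold Gz
    have e5 : zv (-Y) = -zv Y := by funext i; simp [zv]
    have e6 : qR (-zv Y) = qR (zv Y) := by simp [qR]
    have e7 : sR P (-zv Y) ^ 2 = sR P (zv Y) ^ 2 := by
      have : sR P (-zv Y) = -sR P (zv Y) := by
        simp [sR, bC]
        ring
      rw [this, neg_sq]
    rw [e5, e6, e7]
  · intro m hm
    by_contra hne
    apply hm
    have : Asum c a φ m = 0 := by
      subst hc
      exact Asum_eq_zero hφ a hne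
    show Asum c a φ m * _ = 0
    rw [this, zero_mul]

end

end Fermat.Agent.LT.J4
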