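import Mathlib
import Fermat.Agent.LT.J.ThetaZ
import Fermat.Agent.S16.ThetaK

/-!
# The theta function of the hyperbolic plane and the evaluation of the Gauss sum
-/

set_option autoImplicit false

open Matrix MeasureTheory Filter UpperHalfPlane
open scoped Real MatrixGroups

namespace Fermat.Agent.LT.J4

open Fermat.Agent.LT.I Fermat.LT Fermat.Agent.Eis

noncomputable section

/-- terms of the theta function of the (scaled) hyperbolic plane -/
def hypT (z : ℂ) (u : ℤ × ℤ) : ℂ :=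
  Complex.exp (2 * π * Complex.I * (z * (-3 * u.1 * u.2))) *
    Complex.exp (-(3 * π * z.im * (u.1 + u.2) ^ 2 : ℝ))

/-- theta function of the (scaled) hyperbolic plane -/
def hyp (z : ℂ) : ℂ := ∑' u : ℤ × ℤ, hypT z u

/-- the invariant expression -/
def invT (z : ℂ) (u : ℤ × ℤ) : ℝ := rexp (-(π / (3 * z.im)) * Complex.normSq (3 * u.2 * z + u.1))

theorem inner_hyp {z : ℂ} (hz : 0 < z.im) (c : ℤ) :
    ∑' x : ℤ, hypT z (x, c) = 1 / (3 * z.im : ℂ) ^ (1 / 2 : ℂ) * ∑' n : ℤ, (invT z (n, c) : ℂ) := by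
  have ha : 0 < (3 * z.im : ℂ).re := by
    have : (3 * z.im : ℂ) = ((3 * z.im : ℝ) : ℂ) := by push_cast; rfl
    rw [this, Complex.ofReal_re]; positivity
  have h := Complex.tsum_exp_neg_quadratic ha (-(3 * c * z.re * Complex.I))
  have hz' : z = z.re + z.im * Complex.I := (Complex.re_add_im z).symm
  have h1 : ∀ x : ℤ, hypT z (x, c) = Complex.exp (-(3 * π * z.im * c ^ 2 : ℝ)) *
      Complex.exp (-π * (3 * z.im) * x ^ 2 + 2 * π * (-(3 * c * z.re * Complex.I)) * x) := by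
    intro x
    unfold hypT
    rw [← Complex.exp_add, ← Complex.exp_add]
    congr 1
    conv_lhs => rw [hz']
    simp only [Complex.add_im, Complex.ofReal_im, Complex.mul_im, Complex.ofReal_re,
      Complex.I_im, mul_one, Complex.I_re, mul_zero, add_zero, zero_add]
    push_cast
    linear_combination (-6 * π * z.im * x * c : ℂ) * Complex.I_sq
  simp only [h1]
  rw [tsum_mul_left, h, mul_left_comm, ← tsum_mul_left]
  congr 1
  refine tsum_congr fun n => ?_
  unfold invT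
  rw [Complex.ofReal_exp, ← Complex.exp_add]
  congr 1
  have hy : (z.im : ℂ) ≠ 0 := by exact_mod_cast hz.ne'
  have h2 : Complex.normSq (3 * (c : ℂ) * z + n) = (n + 3 * c * z.re) ^ 2 + 9 * c ^ 2 * z.im ^ 2 := by
    rw [Complex.normSq_apply]
    simp
    ring
  rw [h2]
  push_cast
  field_simp
  linear_combination (6 * n * c * z.re - 9 * c ^ 2 * z.re ^ 2 * Complex.I ^ 2 + 9 * c ^ 2 * z.re ^ 2: ℂ) * Complex.I_sq

theorem summable_invT {z : ℂ} (hz : 0 < z.im) : Summable fun u : ℤ × ℤ => invT z u := by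
  -- lower bound of the form
  have h0 : ∃ δ : ℝ, 0 < δ ∧ ∀ u : ℤ × ℤ, δ * ((u.1 : ℝ) ^ 2 + (u.2 : ℝ) ^ 2) ≤
      π / (3 * z.im) * Complex.normSq (3 * u.2 * z + u.1) := by
    set A : Matrix (Fin 2) (Fin 2) ℝ := !![1, 3 * z.re; 0, 3 * z.im] with hA
    set B : Matrix (Fin 2) (Fin 2) ℝ := !![1, -z.re / z.im; 0, 1 / (3 * z.im)] with hB
    have hBA : B * A = 1 := by
      have := hz.ne'
      ext i j
      fin_cases i <;> fin_cases j <;> simp [hA, hB, Matrix.mul_apply, Fin.sum_univ_two]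
      all_goals (field_simp; try ring)
    obtain ⟨δ, hδ, h⟩ := exists_lower A B hBA (fun _ => π / (3 * z.im)) (fun _ => by positivity)
    refine ⟨δ, hδ, fun u => ?_⟩
    have h1 := h ![(u.1 : ℝ), (u.2 : ℝ)]
    simp only [Fin.sum_univ_two, hA, Matrix.mulVec, dotProduct, Matrix.of_apply,
      Matrix.cons_val', Matrix.cons_val_zero, Matrix.cons_val_one, Matrix.cons_val_fin_one] at h1
    have h2 : Complex.normSq (3 * (u.2 : ℂ) * z + u.1) =
        (1 * u.1 + 3 * z.re * u.2) ^ 2 + (0 * u.1 + 3 * z.im * u.2) ^ 2 := by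
      rw [Complex.normSq_apply]
      simp
      ring
    rw [h2, mul_add (π / (3 * z.im))]
    exact h1
  obtain ⟨δ, hδ, h⟩ := h0
  have h1 := (summable_exp_sq hδ).mul_of_nonneg (summable_exp_sq hδ) (fun _ => (Real.exp_pos _).le)
      (fun _ => (Real.exp_pos _).le)
  refine Summable.of_nonneg_of_le (fun u => (Real.exp_pos _).le) (fun u => ?_) h1
  rw [← Real.exp_add, invT, Real.exp_le_exp]
  have := h u
  linarith

theorem summable_hypT {z : ℂ} (hz : 0 < z.im) : Summable (hypT z) := by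
  have hP := summable_Gz hz (H3.mk 0 1 one_pos) (φ := fun _ => 1) (B := 1) (fun _ => by simp)
  have hinj : Function.Injective (fun u : ℤ × ℤ => (![u.1, u.2, 0, 0] : Fin 4 → ℤ)) := by
    intro u v h
    have h0 := congrFun h 0
    have h1 := congrFun h 1
    exact Prod.ext h0 h1
  refine (hP.comp_injective hinj).congr fun u => ?_
  simp only [Function.comp_apply, one_mul]
  unfold Gz hypT
  rw [qR_zv]
  congr 2
  · simp [qZ]
  · push_cast
    rw [neg_inj]
    have h3 : (√3 : ℂ) ^ 2 = 3 := by exact_mod_cast sqrt3_sq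
    simp [sR, bC, zv]
    linear_combination (π * z.im * (u.1 + u.2) ^ 2 : ℂ) * h3

/-- The partial Poisson summation. -/
theorem hyp_eq {z : ℂ} (hz : 0 < z.im) :
    hyp z = 1 / (3 * z.im : ℂ) ^ (1 / 2 : ℂ) * ∑' u : ℤ × ℤ, (invT z u : ℂ) := by
  have h1 := summable_hypT hz
  have h2 : Summable fun u : ℤ × ℤ => (invT z u : ℂ) := by
    exact_mod_cast summable_invT hz
  have e1 : hyp z = ∑' c : ℤ, ∑' x : ℤ, hypT z (x, c) := by
    rw [hyp, ← (Equiv.prodComm ℤ ℤ).tsum_eq]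
    exact ((Equiv.prodComm ℤ ℤ).summable_iff.mpr h1).tsum_prod
  have e2 : ∑' u : ℤ × ℤ, (invT z u : ℂ) = ∑' c : ℤ, ∑' n : ℤ, (invT z (n, c) : ℂ) := by
    rw [← (Equiv.prodComm ℤ ℤ).tsum_eq]
    exact ((Equiv.prodComm ℤ ℤ).summable_iff.mpr h2).tsum_prod
  rw [e1, e2, ← tsum_mul_left]
  exact tsum_congr fun c => inner_hyp hz c

/-- the reindexing by an element of `Γ₀(3)` -/
def reE (a b k d : ℤ) (h : a * d - 3 * b * k = 1) : ℤ × ℤ ≃ ℤ × ℤ where
  toFun u := (u.1 * d + 3 * u.2 * b, u.1 * k + u.2 * a)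
  invFun u := (u.1 * a - 3 * u.2 * b, -u.1 * k + u.2 * d)
  left_inv u := by
    apply Prod.ext
    · simp only
      linear_combination u.1 * h
    · simp only
      linear_combination u.2 * h
  right_inv u := by
    apply Prod.ext
    · simp only
      linear_combination u.1 * h
    · simp only
      linear_combination u.2 * h

theorem invT_smul {a b k d : ℤ} (h : a * d - 3 * b * k = 1) {z : ℂ} (hz : 0 < z.im) (u : ℤ × ℤ) :
    invT ((a * z + b) / (3 * k * z + d)) u = invT z (reE a b k d h u) := by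
  have hden : (3 * k * z + d : ℂ) ≠ 0 := by
    intro h0
    have h1 := congrArg Complex.im h0
    simp at h1
    rcases h1 with h1 | h1
    · have h2 := congrArg Complex.re h0
      rw [h1] at h2
      simp at h2
      rw [h1, h2] at h
      simp at h
    · exact hz.ne' h1
  have him : ((a * z + b) / (3 * k * z + d) : ℂ).im = z.im / Complex.normSq (3 * k * z + d) := by
    rw [Complex.div_im]
    have hn := Complex.normSq_pos.mpr hden
    rw [div_sub_div_same]
    congr 1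
    have h' : (a : ℝ) * d - 3 * b * k = 1 := by exact_mod_cast h
    simp
    linear_combination z.im * h'
  unfold invT
  rw [him]
  congr 1
  have hn := (Complex.normSq_pos.mpr hden).ne'
  have h3 : (3 * (u.2 : ℂ) * ((a * z + b) / (3 * k * z + d)) + u.1) =
      (3 * ((reE a b k d h u).2 : ℂ) * z + (reE a b k d h u).1) / (3 * k * z + d) := by
    simp only [reE, Equiv.coe_fn_mk]
    rw [eq_div_iff hden]
    have h4 : (3 * (u.2 : ℂ) * ((a * z + b) / (3 * k * z + d)) + u.1) * (3 * k * z + d) =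
        3 * u.2 * (a * z + b) + u.1 * (3 * k * z + d) := by
      rw [add_mul, mul_assoc (3 * (u.2 : ℂ)), div_mul_cancel₀ _ hden]
    rw [h4]
    push_cast
    ring
  rw [h3, Complex.normSq_div]
  have := hz.ne'
  field_simp

theorem tsum_invT_smul {a b k d : ℤ} (h : a * d - 3 * b * k = 1) {z : ℂ} (hz : 0 < z.im) :
    ∑' u : ℤ × ℤ, (invT ((a * z + b) / (3 * k * z + d)) u : ℂ) = ∑' u : ℤ × ℤ, (invT z u : ℂ) := by
  rw [← (reE a b k d h).tsum_eq (fun u => (invT z u : ℂ))]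
  exact tsum_congr fun u => by rw [invT_smul h hz]

/-- coordinates -/
def e22 : (ℤ × ℤ) × (ℤ × ℤ) ≃ (Fin 4 → ℤ) where
  toFun p := ![p.1.1, p.1.2, p.2.1, p.2.2]
  invFun X := ((X 0, X 1), (X 2, X 3))
  left_inv _ := rfl
  right_inv X := by
    funext i
    fin_cases i <;> rfl

/-- base point -/
def P00 : H3 := H3.mk 0 1 one_pos

theorem e22_apply (p : (ℤ × ℤ) × (ℤ × ℤ)) : e22 p = ![p.1.1, p.1.2, p.2.1, p.2.2] := rfl

theorem Gz_P00 (τ : ℍ) (p : (ℤ × ℤ) × (ℤ × ℤ)) : Gz τ P00 (zv (e22 p)) =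
    hypT τ p.1 * Complex.exp (2 * π * Complex.I * (normK 3 p.2) * τ) := by
  unfold Gz hypT
  have h3 : (√3 : ℂ) ^ 2 = 3 := by exact_mod_cast sqrt3_sq
  have hq : (qR (zv (e22 p)) : ℂ) = normK 3 p.2 - 3 * p.1.1 * p.1.2 := by
    rw [qR_zv]
    simp [qZ, e22_apply, normK]
  have hs : (sR P00 (zv (e22 p)) : ℂ) ^ 2 = 3 / 4 * (p.1.1 + p.1.2) ^ 2 := by
    simp [sR, bC, zv, P00, e22_apply]
    linear_combination ((p.1.1 + p.1.2) ^ 2 / 4 : ℂ) * h3
  rw [← Complex.exp_add, ← Complex.exp_add, ← Complex.exp_add]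
  congr 1
  push_cast
  rw [hs, hq]
  ring

theorem Sth_P00 (τ : ℍ) : Sth (fun _ => 1) τ P00 = hyp τ * thetaK 3 τ := by
  have hτ : 0 < (τ : ℂ).im := τ.im_pos
  unfold Sth hyp thetaK
  rw [← e22.tsum_eq]
  have h1 : Summable fun u : ℤ × ℤ => ‖hypT τ u‖ := (summable_hypT hτ).norm
  have h2 : Summable fun u : ℤ × ℤ => ‖Complex.exp (2 * π * Complex.I * (normK 3 u) * τ)‖ :=
    (ThetaK.summable_thetaK (q := 3) (by norm_num) τ).norm
  rw [tsum_mul_tsum_of_summable_norm h1 h2]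
  exact tsum_congr fun p => by rw [one_mul, Gz_P00]

theorem thetaK_I_ne_zero : thetaK 3 UpperHalfPlane.I ≠ 0 := by
  have hs := ThetaK.summable_thetaK (q := 3) (by norm_num) UpperHalfPlane.I
  have h1 : ∀ u : ℤ × ℤ, Complex.exp (2 * π * Complex.I * (normK 3 u) * (UpperHalfPlane.I : ℍ)) =
      ((rexp (-(2 * π * normK 3 u)) : ℝ) : ℂ) := by
    intro u
    rw [Complex.ofReal_exp]
    congr 1
    rw [UpperHalfPlane.coe_I]
    push_cast
    linear_combination (2 * π * normK 3 u : ℂ) * Complex.I_sq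
  unfold thetaK
  simp only [h1] at hs ⊢
  rw [← Complex.ofReal_tsum]
  have hs' : Summable fun u : ℤ × ℤ => rexp (-(2 * π * normK 3 u)) := by exact_mod_cast hs
  have := hs'.tsum_pos (fun _ => (Real.exp_pos _).le) (0, 0) (Real.exp_pos _)
  exact_mod_cast this.ne'

theorem hyp_ne_zero {z : ℂ} (hz : 0 < z.im) : hyp z ≠ 0 := by
  rw [hyp_eq hz]
  refine mul_ne_zero ?_ ?_
  · rw [one_div, Ne, inv_eq_zero, Complex.cpow_eq_zero_iff]
    rintro ⟨h, -⟩
    have : (3 * z.im : ℝ) = 0 := by exact_mod_cast h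
    linarith
  · rw [← Complex.ofReal_tsum]
    have := (summable_invT hz).tsum_pos (fun _ => (Real.exp_pos _).le) (0, 0) (Real.exp_pos _)
    exact_mod_cast this.ne'

theorem Sth_P00_I_ne_zero : Sth (fun _ => 1) (UpperHalfPlane.I : ℍ) P00 ≠ 0 := by
  rw [Sth_P00]
  exact mul_ne_zero (hyp_ne_zero (UpperHalfPlane.I : ℍ).im_pos) thetaK_I_ne_zero

/-- behaviour of `hyp` under `Γ₀(3)` -/
theorem hyp_smul {a b k d : ℤ} (h : a * d - 3 * b * k = 1) {z : ℂ} (hz : 0 < z.im) :
    hyp ((a * z + b) / (3 * k * z + d)) = ‖(3 * k * z + d : ℂ)‖ * hyp z := by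
  have hden : (3 * k * z + d : ℂ) ≠ 0 := by
    intro h0
    have h1 := congrArg Complex.im h0
    simp at h1
    rcases h1 with h1 | h1
    · have h2 := congrArg Complex.re h0
      rw [h1] at h2
      simp at h2
      rw [h1, h2] at h
      simp at h
    · exact hz.ne' h1
  have hn := Complex.normSq_pos.mpr hden
  have him : ((a * z + b) / (3 * k * z + d) : ℂ).im = z.im / Complex.normSq (3 * k * z + d) := by
    rw [Complex.div_im]
    rw [div_sub_div_same]
    congr 1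
    have h' : (a : ℝ) * d - 3 * b * k = 1 := by exact_mod_cast h
    simp
    linear_combination z.im * h'
  have hz2 : 0 < ((a * z + b) / (3 * k * z + d) : ℂ).im := by
    rw [him]; positivity
  rw [hyp_eq hz2, hyp_eq hz, tsum_invT_smul h hz, ← mul_assoc]
  congr 1
  rw [him]
  have e1 : (3 * ((z.im / Complex.normSq (3 * k * z + d) : ℝ) : ℂ)) ^ (1 / 2 : ℂ) =
      ((√(3 * z.im) / ‖(3 * k * z + d : ℂ)‖ : ℝ) : ℂ) := by
    have h5 : (3 * ((z.im / Complex.normSq (3 * k * z + d) : ℝ) : ℂ)) =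
        ((3 * z.im / Complex.normSq (3 * k * z + d) : ℝ) : ℂ) := by push_cast; ring
    have h6 : (1 / 2 : ℂ) = ((1 / 2 : ℝ) : ℂ) := by push_cast; rfl
    rw [h5, h6, ← Complex.ofReal_cpow (by positivity), ← Real.sqrt_eq_rpow, Real.sqrt_div' _ hn.le,
      Complex.normSq_eq_norm_sq, Real.sqrt_sq (norm_nonneg _)]
  have e2 : (3 * (z.im : ℂ)) ^ (1 / 2 : ℂ) = ((√(3 * z.im) : ℝ) : ℂ) := by
    have h5 : (3 * (z.im : ℂ)) = ((3 * z.im : ℝ) : ℂ) := by push_cast; rfl
    have h6 : (1 / 2 : ℂ) = ((1 / 2 : ℝ) : ℂ) := by push_cast; rfl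
    rw [h5, h6, ← Complex.ofReal_cpow (by positivity), ← Real.sqrt_eq_rpow]
  rw [e1, e2]
  have h7 : (√(3 * z.im) : ℂ) ≠ 0 := by
    have : √(3 * z.im) ≠ 0 := (Real.sqrt_pos.mpr (by positivity)).ne'
    exact_mod_cast this
  have h8 : (‖(3 * k * z + d : ℂ)‖ : ℂ) ≠ 0 := by exact_mod_cast (norm_ne_zero_iff.mpr hden)
  push_cast
  field_simp

end

end Fermat.Agent.LT.J4
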