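import Fermat.Agent.LT.J.Herm
import Fermat.Agent.LT.CArch.Radial

/-!
# The Laplacian of functions of the pairing `s(X, ·)`

`lap (h ∘ s_X) = (s² + q) h'' + 3 s h'`.
-/

set_option autoImplicit false

open Set Filter Topology MeasureTheory
open scoped ContDiff

noncomputable section

namespace Fermat.Agent.LT.J

open Fermat.LT Fermat.Agent.LT.CArch

/-- The pairing as a function on `ℂ × ℝ`. -/
def Herm.S (X : Herm) (p : ℂ × ℝ) : ℝ :=
  (X.a - 2 * (X.b.re * p.1.re + X.b.im * p.1.im) +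
    X.d * (p.1.re ^ 2 + p.1.im ^ 2 + p.2 ^ 2)) / (2 * p.2)

theorem Herm.s_eq_S (X : Herm) (P : H3) : X.s P = X.S (P.z, P.t) := by
  rw [Herm.s, Herm.S]
  simp only [Complex.mul_re, Complex.conj_re, Complex.conj_im, Complex.normSq_apply]
  congr 1
  ring

section

variable (X : Herm) {q : ℂ × ℝ}

/-- `∂x` -/
def dS1 (q : ℂ × ℝ) : ℝ := (X.d * q.1.re - X.b.re) / q.2
/-- `∂y` -/
def dS2 (q : ℂ × ℝ) : ℝ := (X.d * q.1.im - X.b.im) / q.2
/-- `∂t` -/
def dS3 (q : ℂ × ℝ) : ℝ := X.d - X.S q / q.2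

theorem hasDerivAt_S1 (hq : q ∈ hs) :
    HasDerivAt (fun t : ℝ => X.S (q + t • e1)) (dS1 X q) 0 := by
  have hq' : 0 < q.2 := hq
  have h : (fun t : ℝ => X.S (q + t • e1)) = fun t =>
      (X.a - 2 * (X.b.re * (q.1.re + t) + X.b.im * q.1.im) +
        X.d * ((q.1.re + t) ^ 2 + q.1.im ^ 2 + q.2 ^ 2)) / (2 * q.2) := by
    funext t
    simp [Herm.S, e1]
  rw [h]
  have h0 := (hasDerivAt_id (0:ℝ)).const_add q.1.re
  have h1 := (((h0.const_mul X.b.re).add_const (X.b.im * q.1.im)).const_mul 2).const_sub X.a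
  have h2 := (((h0.pow 2).add_const (q.1.im ^ 2)).add_const (q.2 ^ 2)).const_mul X.d
  refine ((h1.add h2).div_const (2 * q.2)).congr_deriv ?_
  simp only [dS1, id, add_zero]
  field_simp
  ring

theorem hasDerivAt_S2 (hq : q ∈ hs) :
    HasDerivAt (fun t : ℝ => X.S (q + t • e2)) (dS2 X q) 0 := by
  have hq' : 0 < q.2 := hq
  have h : (fun t : ℝ => X.S (q + t • e2)) = fun t =>
      (X.a - 2 * (X.b.im * (q.1.im + t) + X.b.re * q.1.re) +
        X.d * ((q.1.im + t) ^ 2 + q.1.re ^ 2 + q.2 ^ 2)) / (2 * q.2) := by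
    funext t
    simp only [Herm.S, e2, Prod.fst_add, Prod.smul_fst, Complex.add_re, Complex.real_smul,
      Complex.mul_re, Complex.ofReal_re, Complex.I_re, mul_zero, Complex.ofReal_im, Complex.I_im,
      mul_one, sub_self, add_zero, Complex.add_im, Complex.mul_im, Prod.snd_add, Prod.smul_snd,
      smul_zero]
    ring
  rw [h]
  have h0 := (hasDerivAt_id (0:ℝ)).const_add q.1.im
  have h1 := (((h0.const_mul X.b.im).add_const (X.b.re * q.1.re)).const_mul 2).const_sub X.a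
  have h2 := (((h0.pow 2).add_const (q.1.re ^ 2)).add_const (q.2 ^ 2)).const_mul X.d
  refine ((h1.add h2).div_const (2 * q.2)).congr_deriv ?_
  simp only [dS2, id, add_zero]
  field_simp
  ring

theorem hasDerivAt_S3 (hq : q ∈ hs) :
    HasDerivAt (fun t : ℝ => X.S (q + t • e3)) (dS3 X q) 0 := by
  have hq' : 0 < q.2 := hq
  have h : (fun t : ℝ => X.S (q + t • e3)) = fun t =>
      (X.a - 2 * (X.b.re * q.1.re + X.b.im * q.1.im) +
        X.d * (q.1.re ^ 2 + q.1.im ^ 2 + (q.2 + t) ^ 2)) / (2 * (q.2 + t)) := by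
    funext t
    simp [Herm.S, e3]
  rw [h]
  have h0 := (hasDerivAt_id (0:ℝ)).const_add q.2
  have h1 := (((h0.pow 2).const_add (q.1.re ^ 2 + q.1.im ^ 2)).const_mul X.d).const_add
    (X.a - 2 * (X.b.re * q.1.re + X.b.im * q.1.im))
  have h2 := h0.const_mul 2
  refine (h1.div h2 (by simp only [id, add_zero]; positivity)).congr_deriv ?_
  simp only [dS3, id, add_zero, Herm.S, Pi.pow_apply]
  field_simp
  ring

theorem hasDerivAt_dS1 :
    HasDerivAt (fun t : ℝ => dS1 X (q + t • e1)) (X.d / q.2) 0 := by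
  have h : (fun t : ℝ => dS1 X (q + t • e1)) =
      fun t => (X.d * (q.1.re + t) - X.b.re) / q.2 := by
    funext t
    simp [dS1, e1]
  rw [h]
  have := ((((hasDerivAt_id (0:ℝ)).const_add q.1.re).const_mul X.d).sub_const X.b.re).div_const q.2
  simpa using this

theorem hasDerivAt_dS2 :
    HasDerivAt (fun t : ℝ => dS2 X (q + t • e2)) (X.d / q.2) 0 := by
  have h : (fun t : ℝ => dS2 X (q + t • e2)) =
      fun t => (X.d * (q.1.im + t) - X.b.im) / q.2 := by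
    funext t
    simp [dS2, e2]
  rw [h]
  have := ((((hasDerivAt_id (0:ℝ)).const_add q.1.im).const_mul X.d).sub_const X.b.im).div_const q.2
  simpa using this

theorem hasDerivAt_dS3 (hq : q ∈ hs) :
    HasDerivAt (fun t : ℝ => dS3 X (q + t • e3)) (-(dS3 X q) / q.2 + X.S q / q.2 ^ 2) 0 := by
  have hq' : 0 < q.2 := hq
  have h : (fun t : ℝ => dS3 X (q + t • e3)) =
      fun t => X.d - X.S (q + t • e3) / (q.2 + t) := by
    funext t
    simp [dS3, e3]
  rw [h]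
  have h2 := (hasDerivAt_id (0:ℝ)).const_add q.2
  have h3 := ((hasDerivAt_S3 X hq).div h2 (by simp only [id, add_zero]; positivity)).const_sub X.d
  refine h3.congr_deriv ?_
  simp only [id, add_zero, zero_smul]
  field_simp
  ring

/-- The Laplacian of a function of the pairing. -/
theorem lap_S {K0 K1 K2 : ℝ → ℂ} (hK0 : ∀ v, HasDerivAt K0 (K1 v) v)
    (hK1 : ∀ v, HasDerivAt K1 (K2 v) v) (hq : q ∈ hs) :
    lap (fun q => K0 (X.S q)) q = ((X.S q ^ 2 + X.q : ℝ) : ℂ) * K2 (X.S q) +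
      ((3 * X.S q : ℝ) : ℂ) * K1 (X.S q) := by
  have hq' : 0 < q.2 := hq
  have comp : ∀ {F0 F1 : ℝ → ℂ} (_ : ∀ v, HasDerivAt F0 (F1 v) v) {x v : ℂ × ℝ} {c' : ℝ}
      (_ : HasDerivAt (fun t : ℝ => X.S (x + t • v)) c' 0),
      HasDerivAt (fun t : ℝ => F0 (X.S (x + t • v))) (c' • F1 (X.S x)) 0 := by
    intro F0 F1 hF x v c' hc
    have h0 : X.S (x + (0:ℝ) • v) = X.S x := by simp
    have h1 := hF (X.S (x + (0:ℝ) • v))
    have h2 := h1.scomp (0:ℝ) hc
    rw [h0] at h2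
    exact h2
  have a1 : EqOn (pd e1 fun q => K0 (X.S q)) (fun q => dS1 X q • K1 (X.S q)) hs :=
    fun x hx => (comp hK0 (hasDerivAt_S1 X hx)).deriv
  have a2 : EqOn (pd e2 fun q => K0 (X.S q)) (fun q => dS2 X q • K1 (X.S q)) hs :=
    fun x hx => (comp hK0 (hasDerivAt_S2 X hx)).deriv
  have a3 : EqOn (pd e3 fun q => K0 (X.S q)) (fun q => dS3 X q • K1 (X.S q)) hs :=
    fun x hx => (comp hK0 (hasDerivAt_S3 X hx)).deriv
  have b1 : pd e1 (fun q => dS1 X q • K1 (X.S q)) q =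
      dS1 X q • (dS1 X q • K2 (X.S q)) + (X.d / q.2) • K1 (X.S q) := by
    have := (hasDerivAt_dS1 X (q := q)).smul (comp hK1 (hasDerivAt_S1 X hq))
    have h : pd e1 (fun q => dS1 X q • K1 (X.S q)) q = _ := this.deriv
    rw [h]; simp
  have b2 : pd e2 (fun q => dS2 X q • K1 (X.S q)) q =
      dS2 X q • (dS2 X q • K2 (X.S q)) + (X.d / q.2) • K1 (X.S q) := by
    have := (hasDerivAt_dS2 X (q := q)).smul (comp hK1 (hasDerivAt_S2 X hq))
    have h : pd e2 (fun q => dS2 X q • K1 (X.S q)) q = _ := this.deriv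
    rw [h]; simp
  have b3 : pd e3 (fun q => dS3 X q • K1 (X.S q)) q =
      dS3 X q • (dS3 X q • K2 (X.S q)) +
        (-(dS3 X q) / q.2 + X.S q / q.2 ^ 2) • K1 (X.S q) := by
    have := (hasDerivAt_dS3 X hq).smul (comp hK1 (hasDerivAt_S3 X hq))
    have h : pd e3 (fun q => dS3 X q • K1 (X.S q)) q = _ := this.deriv
    rw [h]; simp
  unfold lap
  rw [pd_congr a1 hq, pd_congr a2 hq, pd_congr a3 hq, b1, b2, b3, a3 hq]
  have hgrad : q.2 ^ 2 * (dS1 X q ^ 2 + dS2 X q ^ 2 + dS3 X q ^ 2) = X.S q ^ 2 + X.q := by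
    unfold dS1 dS2 dS3 Herm.q
    rw [Complex.normSq_apply]
    unfold Herm.S
    field_simp
    ring
  have hlap : q.2 ^ 2 * (X.d / q.2 + X.d / q.2 +
      (-(dS3 X q) / q.2 + X.S q / q.2 ^ 2)) - q.2 * dS3 X q = 3 * X.S q := by
    unfold dS3
    field_simp
    ring
  rw [← hgrad, ← hlap]
  simp only [Complex.real_smul]
  push_cast
  ring

theorem contDiffOn_S : ContDiffOn ℝ ∞ X.S hs := by
  unfold Herm.S
  refine ContDiffOn.div ?_ ?_ ?_
  · refine ContDiff.contDiffOn ?_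
    have h1 : ContDiff ℝ ∞ (fun p : ℂ × ℝ => p.1.re) := Complex.reCLM.contDiff.comp contDiff_fst
    have h2 : ContDiff ℝ ∞ (fun p : ℂ × ℝ => p.1.im) := Complex.imCLM.contDiff.comp contDiff_fst
    have h3 : ContDiff ℝ ∞ (fun p : ℂ × ℝ => p.2) := contDiff_snd
    exact (contDiff_const.sub (contDiff_const.mul ((contDiff_const.mul h1).add
      (contDiff_const.mul h2)))).add (contDiff_const.mul (((h1.pow 2).add (h2.pow 2)).add
        (h3.pow 2)))
  · exact (contDiff_const.mul contDiff_snd).contDiffOn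
  · intro p hp
    have : 0 < p.2 := hp
    positivity

/-- **Moving the Laplacian**: `K_{g''} ⋆ (h∘s) = K_g ⋆ (((s²+q) ∂² + 3 s ∂ + 1) h ∘ s)`. -/
theorem kop_S {g : ℝ → ℂ} (hg : IsTest g) {K0 K1 K2 : ℝ → ℂ} (hc : ContDiff ℝ 2 K0)
    (hK0 : ∀ v, HasDerivAt K0 (K1 v) v)
    (hK1 : ∀ v, HasDerivAt K1 (K2 v) v) {p : ℂ × ℝ} (hp : p ∈ hs) :
    kop (deriv (deriv g)) (fun q => K0 (X.S q)) p =
      kop g (fun q => ((X.S q ^ 2 + X.q : ℝ) : ℂ) * K2 (X.S q) +
        ((3 * X.S q : ℝ) : ℂ) * K1 (X.S q) + K0 (X.S q)) p := by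
  have hφ : ContDiffOn ℝ 2 (fun q => K0 (X.S q)) hs :=
    hc.comp_contDiffOn ((contDiffOn_S X).of_le two_le_infty)
  have h := kop_deriv2 hg hφ hp
  have h2 : kop g (lap fun q => K0 (X.S q)) p = kop g (fun q => ((X.S q ^ 2 + X.q : ℝ) : ℂ) *
      K2 (X.S q) + ((3 * X.S q : ℝ) : ℂ) * K1 (X.S q)) p :=
    kop_congr_right g (fun q hq => lap_S X hK0 hK1 hq) p
  rw [h2, sub_eq_iff_eq_add] at h
  rw [h]
  have hcont : ContinuousOn (fun q => ((X.S q ^ 2 + X.q : ℝ) : ℂ) *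
      K2 (X.S q) + ((3 * X.S q : ℝ) : ℂ) * K1 (X.S q)) hs := by
    refine (continuousOn_lap hφ).congr fun q hq => (lap_S X hK0 hK1 hq).symm
  unfold kop
  rw [← integral_add (integrableOn_kop hg hcont hp) (integrableOn_kop hg hφ.continuousOn hp)]
  refine setIntegral_congr_fun measurableSet_hs fun q hq => ?_
  simp only [← smul_add, ← mul_add]

end

end Fermat.Agent.LT.J
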