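import Mathlib
import Fermat.Agent.LT.J.HypTheta

/-!
# The theta kernel is modular of weight one and character `χ₋₃` on `Γ₀(3M²)`
-/

set_option autoImplicit false

open Matrix MeasureTheory Filter UpperHalfPlane
open scoped Real MatrixGroups

namespace Fermat.Agent.LT.J4

open Fermat.Agent.LT.I Fermat.LT Fermat.Agent.Eis

noncomputable section

theorem coe_smul_SL (γ : SL(2, ℤ)) (τ : ℍ) :
    ((γ • τ : ℍ) : ℂ) = ((γ 0 0 : ℤ) * (τ : ℂ) + (γ 0 1 : ℤ)) / ((γ 1 0 : ℤ) * (τ : ℂ) + (γ 1 1 : ℤ)) := by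
  rw [coe_specialLinearGroup_apply]
  simp

/-- The Gauss sum. -/
theorem gauss4_eq {c' : ℕ} [NeZero c'] {a b d : ℤ} (h : a * d - b * ((3 * c' : ℕ) : ℤ) = 1) :
    gauss4 (3 * c') a = 3 * √3 * Complex.I * ((3 * c' : ℕ) : ℂ) ^ 2 * (legendreSym 3 d : ℤ) := by
  have hc' : c' ≠ 0 := NeZero.ne c'
  set τ : ℍ := UpperHalfPlane.I with hτdef
  have hτ : 0 < (τ : ℂ).im := τ.im_pos
  have h1 : a * d - b * ((3 * 1 ^ 2 * c' : ℕ) : ℤ) = 1 := by rw [← h]; push_cast; ring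
  have key := Sth_Gamma0_gauss (M := 1) (c' := c') (φ := fun _ => 1) (fun _ _ => rfl) (B := 1)
    (fun _ => by simp) h1 hτ P00
  have hone : 3 * 1 ^ 2 * c' = 3 * c' := by ring
  rw [hone] at key
  obtain ⟨c, hc⟩ : ∃ c, 3 * c' = c := ⟨_, rfl⟩
  have hcne : c ≠ 0 := by rw [← hc]; positivity
  have hcC : (c : ℂ) ≠ 0 := Nat.cast_ne_zero.mpr hcne
  -- the matrix
  let γ : SL(2, ℤ) := ⟨!![a, b; (c : ℤ), d], by rw [Matrix.det_fin_two_of, ← hc]; exact h⟩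
  have hγ : γ ∈ CongruenceSubgroup.Gamma0 3 := by
    rw [CongruenceSubgroup.Gamma0_mem]
    show (((c : ℤ) : ℤ) : ZMod 3) = 0
    rw [← hc]
    push_cast
    rw [show (3 : ZMod 3) = 0 from rfl, zero_mul]
  have hcoe : ((γ • τ : ℍ) : ℂ) = (a * τ + b) / ((c : ℂ) * τ + d) := by
    rw [coe_smul_SL]
    simp [γ]
  rw [hc, ← hcoe, Sth_P00, Sth_P00, thetaK_smul (q := 3) (by norm_num) γ hγ τ] at key
  have hγ11 : γ 1 1 = d := rfl
  have hγ10 : γ 1 0 = (c : ℤ) := rfl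
  rw [hγ11, hγ10, hcoe] at key
  have h3k : a * d - 3 * b * (c' : ℤ) = 1 := by rw [← h]; push_cast; ring
  have hh := hyp_smul h3k hτ
  have hcc : (c : ℂ) = 3 * (c' : ℂ) := by rw [← hc]; push_cast; rfl
  have hh' : hyp ((a * τ + b) / ((c : ℂ) * τ + d)) = ‖((c : ℂ) * τ + d : ℂ)‖ * hyp τ := by
    rw [hcc]
    have := hh
    push_cast at this
    exact this
  rw [hh'] at key
  have hczd : (c : ℂ) * τ + d ≠ 0 := by
    intro h
    have h1 := congrArg Complex.im h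
    simp at h1
    rcases h1 with h1 | h1
    · exact hcne h1
    · exact τ.im_pos.ne' h1
  set D : ℂ := (c : ℂ) * τ + d with hD
  have hDn : (‖D‖ : ℂ) ≠ 0 := by exact_mod_cast norm_ne_zero_iff.mpr hczd
  have hne1 : hyp τ ≠ 0 := hyp_ne_zero hτ
  have hne2 : thetaK 3 τ ≠ 0 := thetaK_I_ne_zero
  have hnc : ‖D / (c : ℂ)‖ = ‖D‖ / c := by rw [norm_div, Complex.norm_natCast]
  rw [hnc] at key
  have h3 : (√3 : ℂ) ≠ 0 := by exact_mod_cast sqrt3_ne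
  have h3s : (√3 : ℂ) ^ 2 = 3 := by exact_mod_cast sqrt3_sq
  have key2 : (‖D‖ : ℂ) * hyp τ * ((legendreSym 3 d : ℤ) * D * thetaK 3 τ) =
      1 / (3 * √3) * (-Complex.I * (D / c) * ((‖D‖ / c : ℝ) : ℂ)) * gauss4 c a *
        (hyp τ * thetaK 3 τ) := by
    have := key
    push_cast at this ⊢
    exact this
  have key3 : (D * ‖D‖ * (hyp τ * thetaK 3 τ)) * ((legendreSym 3 d : ℤ) : ℂ) =
      (D * ‖D‖ * (hyp τ * thetaK 3 τ)) * (-Complex.I * gauss4 c a / (3 * √3 * c ^ 2)) := by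
    calc _ = (‖D‖ : ℂ) * hyp τ * ((legendreSym 3 d : ℤ) * D * thetaK 3 τ) := by ring
      _ = _ := key2
      _ = _ := by
        push_cast
        field_simp
  have hne : D * ‖D‖ * (hyp τ * thetaK 3 τ) ≠ 0 :=
    mul_ne_zero (mul_ne_zero hczd hDn) (mul_ne_zero hne1 hne2)
  have key4 := mul_left_cancel₀ hne key3
  rw [hc, key4]
  field_simp
  linear_combination (gauss4 c a) * Complex.I_sq

variable {M : ℕ} [NeZero M]

theorem Sth_neg (φ : (Fin 4 → ℤ) → ℂ) (z : ℂ) (P : H3) : Sth (fun X => φ (-X)) z P = Sth φ z P := by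
  unfold Sth
  rw [← (Equiv.neg (Fin 4 → ℤ)).tsum_eq]
  refine tsum_congr fun Y => ?_
  simp only [Equiv.neg_apply, neg_neg]
  congr 1
  unfold Gz
  have e5 : zv (-Y) = -zv Y := by funext i; simp [zv]
  have e6 : qR (-zv Y) = qR (zv Y) := by simp [qR]
  have e7 : sR P (-zv Y) ^ 2 = sR P (zv Y) ^ 2 := by
    have : sR P (-zv Y) = -sR P (zv Y) := by
      simp [sR, bC]
      ring
    rw [this, neg_sq]
  rw [e5, e6, e7]

/-- translation by integers -/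
theorem Sth_add_int (φ : (Fin 4 → ℤ) → ℂ) (z : ℂ) (P : H3) (b : ℤ) :
    Sth φ (z + b) P = Sth φ z P := by
  have h := Sth_add φ z P 1 b
  rw [Nat.cast_one, div_one] at h
  rw [h]
  unfold Sth
  refine tsum_congr fun X => ?_
  have : eN 1 (b * qZ X) = 1 := (eN_eq_one_iff one_ne_zero _).mpr (by simp)
  simp only [this, mul_one]

theorem Sth_pos {φ : (Fin 4 → ℤ) → ℂ} (hφ : Per M φ) {B : ℝ} (hB : ∀ X, ‖φ X‖ ≤ B)
    {a b c d : ℤ} (hdet : a * d - b * c = 1) (hc0 : 0 < c) (hc : (3 * (M : ℤ) ^ 2) ∣ c)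
    {z : ℂ} (hz : 0 < z.im) (P : H3) :
    Sth φ ((a * z + b) / (c * z + d)) P = (legendreSym 3 d : ℤ) * (c * z + d) *
      ‖(c * z + d : ℂ)‖ * Sth (fun X => φ (d • X)) z P := by
  obtain ⟨k, hk⟩ := hc
  have hM : M ≠ 0 := NeZero.ne M
  have hMpos : (0 : ℤ) < 3 * (M : ℤ) ^ 2 := by positivity
  have hk0 : 0 < k := by
    by_contra h
    have h2 := mul_nonpos_of_nonneg_of_nonpos hMpos.le (not_lt.mp h)
    rw [hk] at hc0
    linarith
  obtain ⟨c', rfl⟩ := Int.eq_ofNat_of_zero_le hk0.le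
  have hc'0 : c' ≠ 0 := by rintro rfl; simp at hk0
  have : NeZero c' := ⟨hc'0⟩
  have : NeZero (M ^ 2 * c') := ⟨by positivity⟩
  have hcc : c = ((3 * M ^ 2 * c' : ℕ) : ℤ) := by rw [hk]; push_cast; ring
  subst hcc
  have hdet' : a * d - b * ((3 * M ^ 2 * c' : ℕ) : ℤ) = 1 := hdet
  have key := Sth_Gamma0_gauss hφ hB hdet' hz P
  have hg : gauss4 (3 * M ^ 2 * c') a = 3 * √3 * Complex.I * ((3 * M ^ 2 * c' : ℕ) : ℂ) ^ 2 *
      (legendreSym 3 d : ℤ) := by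
    have h1 : 3 * M ^ 2 * c' = 3 * (M ^ 2 * c') := by ring
    have h2 : a * d - b * ((3 * (M ^ 2 * c') : ℕ) : ℤ) = 1 := by rw [← h1]; exact hdet
    rw [h1]
    exact gauss4_eq h2
  rw [hg] at key
  rw [Int.cast_natCast, key]
  set c : ℕ := 3 * M ^ 2 * c' with hcdef
  have hcne : (c : ℂ) ≠ 0 := by
    have : c ≠ 0 := by positivity
    exact_mod_cast this
  have h3 : (√3 : ℂ) ≠ 0 := by exact_mod_cast sqrt3_ne
  rw [norm_div, Complex.norm_natCast]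
  push_cast
  field_simp
  linear_combination (- (c * z + d) * ‖(c * z + d : ℂ)‖ * (legendreSym 3 d : ℤ) *
    Sth (fun X => φ (d • X)) z P : ℂ) * Complex.I_sq

/-- The theta kernel, weight one in `τ`. -/
def Th (φ : (Fin 4 → ℤ) → ℂ) (τ : ℍ) (P : H3) : ℂ := (√τ.im : ℝ) * Sth φ τ P

/-- **Modularity of the theta kernel**: weight one, character `χ₋₃`, level `Γ₀(3M²)`. -/
theorem Th_smul {φ : (Fin 4 → ℤ) → ℂ} (hφ : Per M φ) {B : ℝ} (hB : ∀ X, ‖φ X‖ ≤ B)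
    (γ : SL(2, ℤ)) (hγ : γ ∈ CongruenceSubgroup.Gamma0 (3 * M ^ 2)) (τ : ℍ) (P : H3) :
    Th φ (γ • τ) P = (legendreSym 3 (γ 1 1) : ℤ) * ((γ 1 0 : ℤ) * (τ : ℂ) + (γ 1 1 : ℤ)) *
      Th (fun X => φ (γ 1 1 • X)) τ P := by
  have hM : M ≠ 0 := NeZero.ne M
  have hdvd : (3 * (M : ℤ) ^ 2) ∣ γ 1 0 := by
    rw [CongruenceSubgroup.Gamma0_mem] at hγ
    have := (ZMod.intCast_zmod_eq_zero_iff_dvd _ _).1 hγ
    push_cast at this
    exact this
  have hdet := Matrix.det_fin_two (γ : Matrix (Fin 2) (Fin 2) ℤ)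
  rw [γ.det_coe] at hdet
  have hdet' : γ 0 0 * γ 1 1 - γ 0 1 * γ 1 0 = 1 := hdet.symm
  have hτ : 0 < (τ : ℂ).im := τ.im_pos
  have hden : ((γ 1 0 : ℤ) : ℂ) * τ + (γ 1 1 : ℤ) ≠ 0 := by
    intro h
    have h1 := congrArg Complex.im h
    simp at h1
    rcases h1 with h1 | h1
    · rw [h1] at h hdet'
      have h2 := congrArg Complex.re h
      simp at h2
      rw [h2] at hdet'
      simp at hdet'
    · exact τ.im_pos.ne' h1
  have him : (γ • τ).im = τ.im / Complex.normSq (((γ 1 0 : ℤ) : ℂ) * τ + (γ 1 1 : ℤ)) := by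
    rw [ModularGroup.im_smul_eq_div_normSq]
    congr 2
  have hsq : √(γ • τ).im = √τ.im / ‖((γ 1 0 : ℤ) : ℂ) * τ + (γ 1 1 : ℤ)‖ := by
    rw [him, Real.sqrt_div' _ (Complex.normSq_nonneg _), Complex.normSq_eq_norm_sq,
      Real.sqrt_sq (norm_nonneg _)]
  have hn : (‖((γ 1 0 : ℤ) : ℂ) * τ + (γ 1 1 : ℤ)‖ : ℂ) ≠ 0 := by
    exact_mod_cast norm_ne_zero_iff.mpr hden
  -- it suffices to prove the formula for the theta sum
  suffices h : Sth φ ((γ • τ : ℍ) : ℂ) P = (legendreSym 3 (γ 1 1) : ℤ) *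
      ((γ 1 0 : ℤ) * (τ : ℂ) + (γ 1 1 : ℤ)) * ‖((γ 1 0 : ℤ) * (τ : ℂ) + (γ 1 1 : ℤ) : ℂ)‖ *
      Sth (fun X => φ (γ 1 1 • X)) τ P by
    unfold Th
    rw [h, hsq]
    push_cast
    field_simp
  rw [coe_smul_SL]
  rcases lt_trichotomy (γ 1 0) 0 with hneg | hzero | hpos
  · -- negative
    have key := Sth_pos hφ hB (a := -γ 0 0) (b := -γ 0 1) (c := -γ 1 0) (d := -γ 1 1)
      (by linarith) (by linarith) ((dvd_neg).mpr hdvd) hτ P
    have e1 : (((-γ 0 0 : ℤ) : ℂ) * τ + ((-γ 0 1 : ℤ) : ℂ)) / (((-γ 1 0 : ℤ) : ℂ) * τ +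
        ((-γ 1 1 : ℤ) : ℂ)) = ((γ 0 0 : ℤ) * (τ : ℂ) + (γ 0 1 : ℤ)) /
          ((γ 1 0 : ℤ) * (τ : ℂ) + (γ 1 1 : ℤ)) := by
      push_cast
      rw [show (-(γ 0 0 : ℂ) * τ + -(γ 0 1 : ℂ)) = -((γ 0 0 : ℂ) * τ + (γ 0 1 : ℂ)) by ring,
        show (-(γ 1 0 : ℂ) * τ + -(γ 1 1 : ℂ)) = -((γ 1 0 : ℂ) * τ + (γ 1 1 : ℂ)) by ring,
        neg_div_neg_eq]
    have e2 : (((-γ 1 0 : ℤ) : ℂ) * τ + ((-γ 1 1 : ℤ) : ℂ)) =
        -((γ 1 0 : ℤ) * (τ : ℂ) + (γ 1 1 : ℤ)) := by push_cast; ring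
    have e3 : legendreSym 3 (-γ 1 1) = -legendreSym 3 (γ 1 1) := by
      rw [neg_eq_neg_one_mul, legendreSym.mul]
      have : legendreSym 3 (-1) = -1 := by decide
      rw [this, neg_one_mul]
    rw [e1, e2, e3, norm_neg] at key
    rw [key]
    have e4 : Sth (fun X => φ (-γ 1 1 • X)) τ P = Sth (fun X => φ (γ 1 1 • X)) τ P := by
      rw [← Sth_neg (fun X => φ (γ 1 1 • X))]
      congr 1
      funext X
      congr 1
      simp
    rw [e4]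
    push_cast
    ring
  · rw [hzero] at hdet'
    rw [mul_zero, sub_zero] at hdet'
    have hd : γ 1 1 = 1 ∨ γ 1 1 = -1 := Int.isUnit_iff.1 (IsUnit.of_mul_eq_one (γ 0 0) (by
      rw [mul_comm]; exact hdet'))
    rcases hd with hd | hd
    · have ha : γ 0 0 = 1 := by rw [hd, mul_one] at hdet'; exact hdet'
      rw [hzero, hd, ha]
      simp only [Int.cast_one, one_mul, Int.cast_zero, zero_mul, zero_add, div_one, norm_one,
        Complex.ofReal_one, mul_one, one_smul]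
      rw [Sth_add_int]
      have : legendreSym 3 1 = 1 := by decide
      rw [this]
      simp
    · have ha : γ 0 0 = -1 := by rw [hd] at hdet'; linarith
      rw [hzero, hd, ha]
      have e1 : (((-1 : ℤ) : ℂ) * τ + ((γ 0 1 : ℤ) : ℂ)) / (((0 : ℤ) : ℂ) * τ + ((-1 : ℤ) : ℂ)) =
          τ + ((-γ 0 1 : ℤ) : ℂ) := by
        push_cast
        ring
      rw [e1, Sth_add_int]
      have h1 : legendreSym 3 (-1) = -1 := by decide
      rw [h1, ← Sth_neg φ]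
      have e4 : (fun X => φ ((-1 : ℤ) • X)) = fun X => φ (-X) := by
        funext X
        rw [neg_one_zsmul]
      rw [e4]
      simp
  · exact Sth_pos hφ hB hdet' hpos hdvd hτ P

end

end Fermat.Agent.LT.J4
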