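import Mathlib
import Fermat.Agent.LT.J.ThetaMod

/-!
# The theta series with independent holomorphic and antiholomorphic variables, and its derivative
-/

set_option autoImplicit false

open Matrix MeasureTheory Filter UpperHalfPlane
open scoped Real MatrixGroups ComplexConjugate

namespace Fermat.Agent.LT.J4

open Fermat.Agent.LT.I Fermat.LT

noncomputable section

/-- The Gaussian with two variables `z, w` (`w = conj z` for the theta kernel). -/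
def G2 (z w : ℂ) (P : H3) (x : Fin 4 → ℝ) : ℂ :=
  Complex.exp (2 * π * Complex.I * (z * (qR x + sR P x ^ 2) - w * sR P x ^ 2))

theorem G2_conj (z : ℂ) (P : H3) (x : Fin 4 → ℝ) : G2 z (conj z) P x = Gz z P x := by
  unfold G2 Gz
  rw [← Complex.exp_add]
  congr 1
  have h1 : (starRingEnd ℂ) z = z - 2 * z.im * Complex.I := by
    apply Complex.ext <;> simp
    ring
  rw [h1]
  push_cast
  linear_combination (4 * π * z.im * (sR P x : ℂ) ^ 2) * Complex.I_sq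

/-- coefficients of the Gaussian -/
def cz2 (z w : ℂ) : Fin 4 → ℂ :=
  ![2 * Complex.I * w, -(2 * Complex.I * z), -(2 * Complex.I * z), -(2 * Complex.I * z)]

theorem cz2_conj (z : ℂ) : cz2 z (conj z) = cz z := rfl

theorem G2_eq_gau (z w : ℂ) (P : H3) (x : Fin 4 → ℝ) : G2 z w P x = gau (Rm P) (cz2 z w) x := by
  unfold G2 gau
  rw [Fin.sum_univ_four, ← Rm_mulVec_zero, qR_eq P]
  congr 1
  set ξ := Rm P *ᵥ x
  simp only [cz2, Matrix.cons_val_zero, Matrix.cons_val_one, Matrix.cons_val]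
  push_cast
  ring

theorem re_cz2 {z w : ℂ} (hz : 0 < z.im) (hw : w.im < 0) (i : Fin 4) : 0 < (cz2 z w i).re := by
  fin_cases i <;> simp [cz2]
  · linarith
  · exact hz
  · exact hz
  · exact hz

theorem norm_G2 (z w : ℂ) (P : H3) (x : Fin 4 → ℝ) : ‖G2 z w P x‖ =
    rexp (-(2 * π * (z.im * (qR x + sR P x ^ 2) - w.im * sR P x ^ 2))) := by
  unfold G2
  rw [Complex.norm_exp]
  congr 1
  have : (2 * π * Complex.I * (z * (qR x + sR P x ^ 2) - w * sR P x ^ 2) : ℂ) =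
      ((2 * π : ℝ) : ℂ) * (Complex.I * (z * ((qR x + sR P x ^ 2 : ℝ) : ℂ) -
        w * ((sR P x ^ 2 : ℝ) : ℂ))) := by
    push_cast
    ring
  rw [this, Complex.re_ofReal_mul, Complex.I_mul_re, Complex.sub_im, Complex.im_mul_ofReal,
    Complex.im_mul_ofReal]
  ring

theorem norm_G2_le (z : ℂ) {w w' : ℂ} (h : w.im ≤ w'.im) (P : H3) (x : Fin 4 → ℝ) :
    ‖G2 z w P x‖ ≤ ‖G2 z w' P x‖ := by
  rw [norm_G2, norm_G2, Real.exp_le_exp, neg_le_neg_iff]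
  have h1 : w.im * sR P x ^ 2 ≤ w'.im * sR P x ^ 2 := mul_le_mul_of_nonneg_right h (sq_nonneg _)
  have h2 : z.im * (qR x + sR P x ^ 2) - w'.im * sR P x ^ 2 ≤
    z.im * (qR x + sR P x ^ 2) - w.im * sR P x ^ 2 := by linarith
  exact mul_le_mul_of_nonneg_left h2 (by positivity)

/-- The theta sum with two variables. -/
def S2 (φ : (Fin 4 → ℤ) → ℂ) (z w : ℂ) (P : H3) : ℂ := ∑' X : Fin 4 → ℤ, φ X * G2 z w P (zv X)

theorem S2_conj (φ : (Fin 4 → ℤ) → ℂ) (z : ℂ) (P : H3) : S2 φ z (conj z) P = Sth φ z P :=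
  tsum_congr fun X => by rw [G2_conj]

theorem summable_norm_G2 {z w : ℂ} (hz : 0 < z.im) (hw : w.im < 0) (P : H3)
    {φ : (Fin 4 → ℤ) → ℂ} {B : ℝ} (hB : ∀ X, ‖φ X‖ ≤ B) :
    Summable fun X : Fin 4 → ℤ => ‖φ X * G2 z w P (zv X)‖ := by
  obtain ⟨δ, hδ, h⟩ := exists_norm_gau_le (mul_eq_one_comm.mp (Rm_mul_Tm P)) (re_cz2 hz hw)
  refine Summable.of_nonneg_of_le (fun _ => norm_nonneg _) (fun X => ?_)
    ((summable_exp_sum_sq 4 hδ).mul_left B)
  rw [norm_mul, G2_eq_gau]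
  have hB0 : 0 ≤ B := (norm_nonneg _).trans (hB X)
  gcongr
  · exact hB X
  · exact h _

/-- the derivative of the theta sum in the antiholomorphic variable -/
theorem hasDerivAt_S2_aux {z w : ℂ} (hz : 0 < z.im) (hw : w.im < 0) (P : H3)
    {φ : (Fin 4 → ℤ) → ℂ} {B : ℝ} (hB : ∀ X, ‖φ X‖ ≤ B) :
    HasDerivAt (fun w => S2 φ z w P)
      (-(2 * π * Complex.I) * ∑' X : Fin 4 → ℤ, φ X * (sR P (zv X) ^ 2 * G2 z w P (zv X))) w ∧
    Summable fun X : Fin 4 → ℤ => φ X * (sR P (zv X) ^ 2 * G2 z w P (zv X)) := by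
  set U : Set ℂ := {v | v.im < w.im / 2} with hU
  have hUo : IsOpen U := isOpen_lt Complex.continuous_im continuous_const
  have hwU : w ∈ U := by
    show w.im < w.im / 2
    linarith
  have hd : ∀ X : Fin 4 → ℤ, ∀ v : ℂ, HasDerivAt (fun v => φ X * G2 z v P (zv X))
      (-(2 * π * Complex.I) * (φ X * (sR P (zv X) ^ 2 * G2 z v P (zv X)))) v := by
    intro X v
    have h1 : HasDerivAt (fun v : ℂ => 2 * π * Complex.I *
        (z * (qR (zv X) + sR P (zv X) ^ 2) - v * sR P (zv X) ^ 2))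
        (2 * π * Complex.I * (-(1 * sR P (zv X) ^ 2))) v :=
      (((hasDerivAt_id v).mul_const _).const_sub _).const_mul _
    have h2 := (h1.cexp).const_mul (φ X)
    have e : -(2 * π * Complex.I) * (φ X * (sR P (zv X) ^ 2 * G2 z v P (zv X))) =
        φ X * (Complex.exp (2 * π * Complex.I *
        (z * (qR (zv X) + sR P (zv X) ^ 2) - v * sR P (zv X) ^ 2)) *
          (2 * π * Complex.I * (-(1 * sR P (zv X) ^ 2)))) := by
      unfold G2
      ring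
    rw [e]
    exact h2
  have hsum : Summable fun X : Fin 4 → ℤ =>
      ‖φ X * G2 z (((w.im / 2 : ℝ) : ℂ) * Complex.I) P (zv X)‖ :=
    summable_norm_G2 hz (by simp; linarith) P hB
  have hle : ∀ X : Fin 4 → ℤ, ∀ v ∈ U, ‖φ X * G2 z v P (zv X)‖ ≤
      ‖φ X * G2 z (((w.im / 2 : ℝ) : ℂ) * Complex.I) P (zv X)‖ := by
    intro X v hv
    rw [norm_mul, norm_mul]
    refine mul_le_mul_of_nonneg_left (norm_G2_le z ?_ P _) (norm_nonneg _)
    have h3 : v.im < w.im / 2 := hv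
    have h4 : (((w.im / 2 : ℝ) : ℂ) * Complex.I).im = w.im / 2 := by simp
    rw [h4]
    exact h3.le
  have hdiff : ∀ X : Fin 4 → ℤ, DifferentiableOn ℂ (fun v => φ X * G2 z v P (zv X)) U := fun X v _ =>
    (hd X v).differentiableAt.differentiableWithinAt
  have h5 := Complex.hasSum_deriv_of_summable_norm hsum hdiff hUo hle hwU
  have h6 := Complex.differentiableOn_tsum_of_summable_norm hsum hdiff hUo hle
  have h7 : HasDerivAt (fun w => S2 φ z w P) (deriv (fun w => S2 φ z w P) w) w :=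
    (h6.differentiableAt (hUo.mem_nhds hwU)).hasDerivAt
  have h8 : deriv (fun w => S2 φ z w P) w = -(2 * π * Complex.I) *
      ∑' X : Fin 4 → ℤ, φ X * (sR P (zv X) ^ 2 * G2 z w P (zv X)) := by
    rw [← tsum_mul_left]
    exact h5.tsum_eq.symm.trans (tsum_congr fun X => (hd X w).deriv)
  have hpi : (π : ℂ) ≠ 0 := by exact_mod_cast Real.pi_ne_zero
  have h2 : -(2 * π * Complex.I) ≠ 0 := by
    rw [neg_ne_zero]
    exact mul_ne_zero (mul_ne_zero two_ne_zero hpi) Complex.I_ne_zero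
  refine ⟨by rw [← h8]; exact h7, ?_⟩
  refine (summable_mul_left_iff h2).mp ?_
  exact h5.summable.congr fun X => (hd X w).deriv

theorem hasDerivAt_S2 {z w : ℂ} (hz : 0 < z.im) (hw : w.im < 0) (P : H3)
    {φ : (Fin 4 → ℤ) → ℂ} {B : ℝ} (hB : ∀ X, ‖φ X‖ ≤ B) :
    HasDerivAt (fun w => S2 φ z w P)
      (-(2 * π * Complex.I) * ∑' X : Fin 4 → ℤ, φ X * (sR P (zv X) ^ 2 * G2 z w P (zv X))) w :=
  (hasDerivAt_S2_aux hz hw P hB).1

theorem summable_T {z : ℂ} (hz : 0 < z.im) (P : H3) {φ : (Fin 4 → ℤ) → ℂ} {B : ℝ}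
    (hB : ∀ X, ‖φ X‖ ≤ B) :
    Summable fun X : Fin 4 → ℤ => φ X * (sR P (zv X) ^ 2 * Gz z P (zv X)) := by
  have h := (hasDerivAt_S2_aux hz (w := conj z) (by rw [Complex.conj_im]; linarith) P hB).2
  simpa only [G2_conj] using h

theorem G2_add (z w : ℂ) (P : H3) (X : Fin 4 → ℤ) (c : ℕ) (a : ℤ) :
    G2 (z + a / c) (w + a / c) P (zv X) = eN c (a * qZ X) * G2 z w P (zv X) := by
  unfold G2 eN
  rw [qR_zv, ← Complex.exp_add]
  congr 1
  push_cast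
  ring

/-- change of variables for a rational translation -/
theorem S2_add (φ : (Fin 4 → ℤ) → ℂ) (u v : ℂ) (P : H3) (c : ℕ) (a : ℤ) :
    S2 φ (u + a / c) (v + a / c) P = S2 (fun X => φ X * eN c (a * qZ X)) u v P :=
  tsum_congr fun X => by rw [G2_add]; ring

/-- The dual Gaussian. -/
theorem gau_dual2 (P : H3) {u v : ℂ} (hu : u ≠ 0) (hv : v ≠ 0) {C : ℕ} (hC : C ≠ 0)
    (Y : Fin 4 → ℤ) :
    gau (Tm P)ᵀ (fun i => ((C : ℂ) ^ 2 * cz2 u v i)⁻¹) (zv (mvec Y)) =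
      G2 (-1 / ((C : ℂ) ^ 2 * u)) (-1 / ((C : ℂ) ^ 2 * v)) P (zv Y) := by
  have hC' : (C : ℂ) ≠ 0 := Nat.cast_ne_zero.mpr hC
  rw [G2_eq_gau, gau, gau, Tm_transpose_mulVec]
  congr 2
  rw [Fin.sum_univ_four, Fin.sum_univ_four]
  simp only [cz2, Pi.smul_apply, smul_eq_mul, Matrix.cons_val_zero, Matrix.cons_val_one,
    Matrix.cons_val]
  push_cast
  have hI : Complex.I ^ 2 = -1 := Complex.I_sq
  field_simp
  rw [hI]
  ring

/-- General transformation formula. -/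
theorem S2_general {φ : (Fin 4 → ℤ) → ℂ} {B : ℝ} (hB : ∀ X, ‖φ X‖ ≤ B) (C : ℕ) [NeZero C]
    (hφ : Per C φ) {u v : ℂ} (hu : 0 < u.im) (hv : v.im < 0) (P : H3) :
    S2 φ u v P = 4 / (3 * √3) * (∏ i, (1 / ((C : ℂ) ^ 2 * cz2 u v i)) ^ (1 / 2 : ℂ)) *
      ∑' m : Fin 4 → ℤ, Asum C 0 φ m *
        gau (Tm P)ᵀ (fun i => ((C : ℂ) ^ 2 * cz2 u v i)⁻¹) (zv m) := by
  have h := poisson_periodic (Rm_mul_Tm P) (re_cz2 hu hv) C hφ hB
  rw [det_Tm] at h
  have h1 : S2 φ u v P = ∑' X, φ X * gau (Rm P) (cz2 u v) (zv X) :=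
    tsum_congr fun X => by rw [G2_eq_gau]
  rw [h1, h]
  congr 1
  · rw [abs_of_pos (by positivity)]
    push_cast
    ring
  · refine tsum_congr fun m => ?_
    congr 1
    unfold Asum
    refine Finset.sum_congr rfl fun r _ => ?_
    rw [ex_eq_eN, zero_mul, zero_add]

theorem im_neg_aux {c d w : ℂ} (hc : c.im = 0) (hc0 : c ≠ 0) (hd : d.im = 0) (hw : w.im < 0) :
    (-1 / (c * (c * w + d))).im < 0 := by
  have hcj : conj c = c := Complex.conj_eq_iff_im.mpr hc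
  have hdj : conj d = d := Complex.conj_eq_iff_im.mpr hd
  have h := im_pos_aux hc hc0 hd (z := conj w) (by simp; exact hw)
  have h2 : conj (-1 / (c * (c * w + d))) = -1 / (c * (c * conj w + d)) := by
    simp only [map_div₀, map_neg, map_one, map_mul, map_add, hcj, hdj]
  rw [← h2, Complex.conj_im] at h
  linarith

variable {M c' : ℕ} [NeZero M] [NeZero c']

/-- Transformation under `Γ₀(3M²)`, with a Gauss sum, in two variables. -/
theorem S2_Gamma0_gauss {φ : (Fin 4 → ℤ) → ℂ} (hφ : Per M φ) {B : ℝ} (hB : ∀ X, ‖φ X‖ ≤ B)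
    {a b d : ℤ} (hdet : a * d - b * ((3 * M ^ 2 * c' : ℕ) : ℤ) = 1) {z w : ℂ} (hz : 0 < z.im)
    (hw : w.im < 0) (P : H3) :
    S2 φ ((a * z + b) / (((3 * M ^ 2 * c' : ℕ) : ℂ) * z + d))
      ((a * w + b) / (((3 * M ^ 2 * c' : ℕ) : ℂ) * w + d)) P =
      4 / (3 * √3) * (∏ i, (1 / (((3 * M ^ 2 * c' : ℕ) : ℂ) ^ 2 *
        cz2 (-1 / (((3 * M ^ 2 * c' : ℕ) : ℂ) * (((3 * M ^ 2 * c' : ℕ) : ℂ) * z + d)))
          (-1 / (((3 * M ^ 2 * c' : ℕ) : ℂ) * (((3 * M ^ 2 * c' : ℕ) : ℂ) * w + d))) i)) ^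
          (1 / 2 : ℂ)) * gauss4 (3 * M ^ 2 * c') a * S2 (fun X => φ (d • X)) z w P := by
  have hM : M ≠ 0 := NeZero.ne M
  have hc' : c' ≠ 0 := NeZero.ne c'
  have hcne : 3 * M ^ 2 * c' ≠ 0 := by positivity
  have hNe : NeZero (3 * M ^ 2 * c') := ⟨hcne⟩
  obtain ⟨c, hc⟩ : ∃ c, 3 * M ^ 2 * c' = c := ⟨_, rfl⟩
  have hMc : M ∣ c := ⟨3 * M * c', by rw [← hc]; ring⟩
  have hcC : (c : ℂ) ≠ 0 := by rw [← hc]; exact_mod_cast hcne
  have hczd : ∀ {z : ℂ}, z.im ≠ 0 → (c : ℂ) * z + d ≠ 0 := by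
    intro z hz h
    have h1 := congrArg Complex.im h
    simp at h1
    rcases h1 with h1 | h1
    · exact hcC (by rw [h1]; simp)
    · exact hz h1
  have had : (c : ℤ) ∣ a * d - 1 := ⟨b, by rw [← hc]; linarith⟩
  have hz1 := hczd hz.ne'
  have hw1 := hczd hw.ne
  rw [hc]
  set u : ℂ := -1 / ((c : ℂ) * ((c : ℂ) * z + d)) with hu
  set v : ℂ := -1 / ((c : ℂ) * ((c : ℂ) * w + d)) with hv
  have hu0 : 0 < u.im := im_pos_aux (by simp) hcC (by simp) hz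
  have hv0 : v.im < 0 := im_neg_aux (by simp) hcC (by simp) hw
  have hz' : -1 / ((c : ℂ) ^ 2 * u) = z + d / c := by
    rw [hu]
    field_simp
  have hw' : -1 / ((c : ℂ) ^ 2 * v) = w + d / c := by
    rw [hv]
    field_simp
  have hune : u ≠ 0 := by
    intro h
    rw [h] at hu0
    simp at hu0
  have hvne : v ≠ 0 := by
    intro h
    rw [h] at hv0
    simp at hv0
  have hdetC : (a : ℂ) * d - b * (c : ℂ) = 1 := by
    rw [← hc]
    exact_mod_cast hdet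
  have hNe' : NeZero c := ⟨hc ▸ hcne⟩
  rw [moebius_eq hdetC hcC hz1, moebius_eq hdetC hcC hw1, ← hu, ← hv, S2_add]
  have hper : Per c (fun X => φ X * eN c (a * qZ X)) :=
    (hφ.of_dvd hMc).mul_eN (hc ▸ hcne) dvd_rfl a
  rw [S2_general (B := B) (fun X => by rw [norm_mul, norm_eN, mul_one]; exact hB X) c hper hu0 hv0,
    mul_assoc _ (gauss4 c a) _]
  congr 1
  have h1 : ∀ m, Asum c 0 (fun X => φ X * eN c (a * qZ X)) m = Asum c a φ m := by
    intro m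
    unfold Asum
    refine Finset.sum_congr rfl fun r _ => ?_
    rw [zero_mul, zero_add, eN_add, mul_assoc]
  simp only [h1]
  rw [← mvec_injective.tsum_eq (f := fun m => Asum c a φ m *
    gau (Tm P)ᵀ (fun i => ((c : ℂ) ^ 2 * cz2 u v i)⁻¹) (zv m))]
  · have h2 : ∀ Y, Asum c a φ (mvec Y) *
        gau (Tm P)ᵀ (fun i => ((c : ℂ) ^ 2 * cz2 u v i)⁻¹) (zv (mvec Y)) =
        gauss4 c a * (φ (-d • Y) * G2 z w P (zv Y)) := by
      intro Y
      have e1 : Asum c a φ (mvec Y) = φ (-d • Y) * Asum c a (fun _ => 1) (mvec Y) := by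
        subst hc
        exact Asum_mvec hφ had Y
      have e2 := Asum_one (c := c) had Y
      rw [e1, gau_dual2 P hune hvne (hc ▸ hcne), hz', hw']
      rw [G2_add, ← e2]
      ring
    refine (tsum_congr h2).trans ?_
    rw [tsum_mul_left]
    congr 1
    rw [← (Equiv.neg (Fin 4 → ℤ)).tsum_eq]
    refine tsum_congr fun Y => ?_
    simp only [Equiv.neg_apply]
    have e4 : -d • -Y = d • Y := by simp
    rw [e4]
    congr 1
    unfold G2
    have e5 : zv (-Y) = -zv Y := by funext i; simp [zv]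
    have e6 : qR (-zv Y) = qR (zv Y) := by simp [qR]
    have e7 : (sR P (-zv Y) : ℂ) ^ 2 = (sR P (zv Y) : ℂ) ^ 2 := by
      have : sR P (-zv Y) = -sR P (zv Y) := by
        simp [sR, bC]
        ring
      rw [this, Complex.ofReal_neg, neg_sq]
    rw [e5, e6, e7]
  · intro m hm
    by_contra hne
    apply hm
    have : Asum c a φ m = 0 := by
      subst hc
      exact Asum_eq_zero hφ a hne
    show Asum c a φ m * _ = 0
    rw [this, zero_mul]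

/-! ### The derivative -/

/-- the theta sum with `s²` inserted, in two variables -/
def T2 (φ : (Fin 4 → ℤ) → ℂ) (z w : ℂ) (P : H3) : ℂ :=
  ∑' X : Fin 4 → ℤ, φ X * (sR P (zv X) ^ 2 * G2 z w P (zv X))

/-- the theta sum with `s²` inserted -/
def Tth (φ : (Fin 4 → ℤ) → ℂ) (z : ℂ) (P : H3) : ℂ :=
  ∑' X : Fin 4 → ℤ, φ X * (sR P (zv X) ^ 2 * Gz z P (zv X))

theorem T2_conj (φ : (Fin 4 → ℤ) → ℂ) (z : ℂ) (P : H3) : T2 φ z (conj z) P = Tth φ z P :=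
  tsum_congr fun X => by rw [G2_conj]

theorem hasDerivAt_S2' {z w : ℂ} (hz : 0 < z.im) (hw : w.im < 0) (P : H3)
    {φ : (Fin 4 → ℤ) → ℂ} {B : ℝ} (hB : ∀ X, ‖φ X‖ ≤ B) :
    HasDerivAt (fun w => S2 φ z w P) (-(2 * π * Complex.I) * T2 φ z w P) w :=
  hasDerivAt_S2 hz hw P hB

theorem hasDerivAt_moebius {a b c d w : ℂ} (hdet : a * d - b * c = 1) (hw : c * w + d ≠ 0) :
    HasDerivAt (fun w => (a * w + b) / (c * w + d)) (1 / (c * w + d) ^ 2) w := by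
  have h1 : HasDerivAt (fun w : ℂ => a * w + b) (a * 1) w :=
    ((hasDerivAt_id w).const_mul a).add_const b
  have h2 : HasDerivAt (fun w : ℂ => c * w + d) (c * 1) w :=
    ((hasDerivAt_id w).const_mul c).add_const d
  have h3 := h1.div h2 hw
  have e : (1 : ℂ) / (c * w + d) ^ 2 =
      (a * 1 * (c * w + d) - (a * w + b) * (c * 1)) / (c * w + d) ^ 2 := by
    congr 1
    linear_combination -hdet
  rw [e]
  exact h3

/-- the derivative of the automorphy factor -/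
theorem hasDerivAt_prod {c : ℕ} (hc : c ≠ 0) {d : ℤ} (u : ℂ) {w : ℂ} (hw : w.im < 0) :
    HasDerivAt (fun w => ∏ i, (1 / ((c : ℂ) ^ 2 * cz2 u (-1 / ((c : ℂ) * ((c : ℂ) * w + d))) i)) ^
          (1 / 2 : ℂ))
      ((∏ i, (1 / ((c : ℂ) ^ 2 * cz2 u (-1 / ((c : ℂ) * ((c : ℂ) * w + d))) i)) ^
          (1 / 2 : ℂ)) * (c / (2 * ((c : ℂ) * w + d)))) w := by
  have hcC : (c : ℂ) ≠ 0 := Nat.cast_ne_zero.mpr hc
  have hcR : (0 : ℝ) < c := by positivity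
  set R : ℂ := (1 / ((c : ℂ) ^ 2 * -(2 * Complex.I * u))) ^ (1 / 2 : ℂ) with hR
  have e0 : ∀ w : ℂ, ∏ i, (1 / ((c : ℂ) ^ 2 * cz2 u (-1 / ((c : ℂ) * ((c : ℂ) * w + d))) i)) ^
      (1 / 2 : ℂ) = (Complex.I / (2 * c) * ((c : ℂ) * w + d)) ^ (1 / 2 : ℂ) * (R * R * R) := by
    intro w
    rw [Fin.prod_univ_four]
    simp only [cz2, Matrix.cons_val_zero, Matrix.cons_val_one, Matrix.cons_val]
    rw [← hR]
    have e1 : 1 / ((c : ℂ) ^ 2 * (2 * Complex.I * (-1 / ((c : ℂ) * ((c : ℂ) * w + d))))) =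
        Complex.I / (2 * c) * ((c : ℂ) * w + d) := by
      rcases eq_or_ne ((c : ℂ) * w + d) 0 with h | h
      · rw [h]
        simp
      · field_simp
        rw [Complex.I_sq]
    rw [e1]
    ring
  simp only [e0]
  have h1 : HasDerivAt (fun w : ℂ => Complex.I / (2 * c) * ((c : ℂ) * w + d))
      (Complex.I / (2 * c) * ((c : ℂ) * 1)) w :=
    (((hasDerivAt_id w).const_mul (c : ℂ)).add_const (d : ℂ)).const_mul _
  have hre : 0 < (Complex.I / (2 * c) * ((c : ℂ) * w + d)).re := by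
    have e2 : Complex.I / (2 * c) * ((c : ℂ) * w + d) =
        ((1 / 2 : ℝ) : ℂ) * (Complex.I * w) + ((d / (2 * c) : ℝ) : ℂ) * Complex.I := by
      push_cast
      field_simp
    rw [e2, Complex.add_re, Complex.re_ofReal_mul, Complex.re_ofReal_mul, Complex.I_mul_re,
      Complex.I_re]
    linarith
  have hslit : Complex.I / (2 * c) * ((c : ℂ) * w + d) ∈ Complex.slitPlane := Or.inl hre
  have h2 := (h1.cpow_const (c := (1 / 2 : ℂ)) hslit).mul_const (R * R * R)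
  have hne : Complex.I / (2 * c) * ((c : ℂ) * w + d) ≠ 0 := by
    intro h
    rw [h] at hre
    simp at hre
  have hne2 : (c : ℂ) * w + d ≠ 0 := right_ne_zero_of_mul hne
  have e3 : (Complex.I / (2 * c) * ((c : ℂ) * w + d)) ^ (1 / 2 : ℂ) * (R * R * R) *
      (c / (2 * ((c : ℂ) * w + d))) = 1 / 2 * (Complex.I / (2 * c) * ((c : ℂ) * w + d)) ^
        (1 / 2 - 1 : ℂ) * (Complex.I / (2 * c) * ((c : ℂ) * 1)) * (R * R * R) := by
    rw [Complex.cpow_sub _ _ hne, Complex.cpow_one]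
    have hI := Complex.I_ne_zero
    field_simp
  rw [e3]
  exact h2

/-- the transformation of the theta sum with `s²` inserted, in two variables -/
theorem T2_Gamma0_gauss {φ : (Fin 4 → ℤ) → ℂ} (hφ : Per M φ) {B : ℝ} (hB : ∀ X, ‖φ X‖ ≤ B)
    {a b d : ℤ} (hdet : a * d - b * ((3 * M ^ 2 * c' : ℕ) : ℤ) = 1) {z w : ℂ} (hz : 0 < z.im)
    (hw : w.im < 0) (P : H3) :
    T2 φ ((a * z + b) / (((3 * M ^ 2 * c' : ℕ) : ℂ) * z + d))
      ((a * w + b) / (((3 * M ^ 2 * c' : ℕ) : ℂ) * w + d)) P =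
      4 / (3 * √3) * (∏ i, (1 / (((3 * M ^ 2 * c' : ℕ) : ℂ) ^ 2 *
        cz2 (-1 / (((3 * M ^ 2 * c' : ℕ) : ℂ) * (((3 * M ^ 2 * c' : ℕ) : ℂ) * z + d)))
          (-1 / (((3 * M ^ 2 * c' : ℕ) : ℂ) * (((3 * M ^ 2 * c' : ℕ) : ℂ) * w + d))) i)) ^
          (1 / 2 : ℂ)) * gauss4 (3 * M ^ 2 * c') a * (((3 * M ^ 2 * c' : ℕ) : ℂ) * w + d) ^ 2 *
      (-(((3 * M ^ 2 * c' : ℕ) : ℂ) / (4 * π * Complex.I * (((3 * M ^ 2 * c' : ℕ) : ℂ) * w + d))) *
        S2 (fun X => φ (d • X)) z w P + T2 (fun X => φ (d • X)) z w P) := by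
  have hM : M ≠ 0 := NeZero.ne M
  have hc' : c' ≠ 0 := NeZero.ne c'
  have hcne : 3 * M ^ 2 * c' ≠ 0 := by positivity
  have key : ∀ v : ℂ, v.im < 0 → _ := fun v hv => S2_Gamma0_gauss hφ hB hdet hz hv P
  set c : ℕ := 3 * M ^ 2 * c' with hc
  have hcC : (c : ℂ) ≠ 0 := Nat.cast_ne_zero.mpr hcne
  have hdetC : (a : ℂ) * d - b * (c : ℂ) = 1 := by exact_mod_cast hdet
  have hczd : ∀ {z : ℂ}, z.im ≠ 0 → (c : ℂ) * z + d ≠ 0 := by
    intro z hz h
    have h1 := congrArg Complex.im h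
    simp at h1
    rcases h1 with h1 | h1
    · exact hcne h1
    · exact hz h1
  have hz1 := hczd hz.ne'
  have hw1 := hczd hw.ne
  have hmz : 0 < ((a * z + b) / ((c : ℂ) * z + d)).im := by
    rw [moebius_eq hdetC hcC hz1, ← Complex.ofReal_natCast, ← Complex.ofReal_intCast a,
      ← Complex.ofReal_div, Complex.add_im, Complex.ofReal_im, add_zero, Complex.ofReal_natCast]
    exact im_pos_aux (by simp) hcC (by simp) hz
  have hmw : ((a * w + b) / ((c : ℂ) * w + d)).im < 0 := by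
    rw [moebius_eq hdetC hcC hw1, ← Complex.ofReal_natCast, ← Complex.ofReal_intCast a,
      ← Complex.ofReal_div, Complex.add_im, Complex.ofReal_im, add_zero, Complex.ofReal_natCast]
    exact im_neg_aux (by simp) hcC (by simp) hw
  -- derivative of the left hand side
  have hL : HasDerivAt (fun v => S2 φ ((a * z + b) / ((c : ℂ) * z + d))
      ((a * v + b) / ((c : ℂ) * v + d)) P) (-(2 * π * Complex.I) *
        T2 φ ((a * z + b) / ((c : ℂ) * z + d)) ((a * w + b) / ((c : ℂ) * w + d)) P *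
        (1 / ((c : ℂ) * w + d) ^ 2)) w :=
    HasDerivAt.comp (h₂ := fun v => S2 φ ((a * z + b) / ((c : ℂ) * z + d)) v P) w
      (hasDerivAt_S2' hmz hmw P hB) (hasDerivAt_moebius hdetC hw1)
  -- derivative of the right hand side
  set K : ℂ := 4 / (3 * √3) with hK
  have hR := (((hasDerivAt_prod hcne (d := d) (-1 / ((c : ℂ) * ((c : ℂ) * z + d))) hw).const_mul
    K).mul_const (gauss4 c a)).mul (hasDerivAt_S2' hz hw P (φ := fun X => φ (d • X))
      (fun X => hB _))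
  have hEq : (fun v => S2 φ ((a * z + b) / ((c : ℂ) * z + d))
      ((a * v + b) / ((c : ℂ) * v + d)) P) =ᶠ[nhds w] _ :=
    Filter.eventually_of_mem ((isOpen_lt Complex.continuous_im continuous_const).mem_nhds hw)
      (fun v hv => key v hv)
  have hU := hL.unique (hR.congr_of_eventuallyEq hEq)
  have hpi : (π : ℂ) ≠ 0 := by exact_mod_cast Real.pi_ne_zero
  have h2 : -(2 * π * Complex.I) ≠ 0 := by
    rw [neg_ne_zero]
    exact mul_ne_zero (mul_ne_zero two_ne_zero hpi) Complex.I_ne_zero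
  set A : ℂ := ∏ i, (1 / ((c : ℂ) ^ 2 * cz2 (-1 / ((c : ℂ) * ((c : ℂ) * z + d)))
    (-1 / ((c : ℂ) * ((c : ℂ) * w + d))) i)) ^ (1 / 2 : ℂ) with hA
  have h3 : -(2 * π * Complex.I) * T2 φ ((a * z + b) / ((c : ℂ) * z + d))
      ((a * w + b) / ((c : ℂ) * w + d)) P = (-(2 * π * Complex.I)) * (K * A * gauss4 c a *
        ((c : ℂ) * w + d) ^ 2 * (-(c / (4 * π * Complex.I * ((c : ℂ) * w + d))) *
        S2 (fun X => φ (d • X)) z w P + T2 (fun X => φ (d • X)) z w P)) := by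
    rw [mul_one_div, div_eq_iff (pow_ne_zero 2 hw1)] at hU
    rw [hU]
    have hI := Complex.I_ne_zero
    field_simp
    ring
  exact mul_left_cancel₀ h2 h3

theorem Tth_pos {φ : (Fin 4 → ℤ) → ℂ} (hφ : Per M φ) {B : ℝ} (hB : ∀ X, ‖φ X‖ ≤ B)
    {a b c d : ℤ} (hdet : a * d - b * c = 1) (hc0 : 0 < c) (hc : (3 * (M : ℤ) ^ 2) ∣ c)
    {z : ℂ} (hz : 0 < z.im) (P : H3) :
    Tth φ ((a * z + b) / (c * z + d)) P = (legendreSym 3 d : ℤ) * (c * z + d) *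
      ‖(c * z + d : ℂ)‖ * (c * conj z + d) ^ 2 *
      (-(c / (4 * π * Complex.I * (c * conj z + d))) * Sth (fun X => φ (d • X)) z P +
        Tth (fun X => φ (d • X)) z P) := by
  obtain ⟨k, hk⟩ := hc
  have hM : M ≠ 0 := NeZero.ne M
  have hMpos : (0 : ℤ) < 3 * (M : ℤ) ^ 2 := by positivity
  have hk0 : 0 < k := by
    by_contra h
    have h2 := mul_nonpos_of_nonneg_of_nonpos hMpos.le (not_lt.mp h)
    rw [hk] at hc0
    linarith
  obtain ⟨c', rfl⟩ := Int.eq_ofNat_of_zero_le hk0.le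
  have hc'0 : c' ≠ 0 := by rintro rfl; simp at hk0
  have : NeZero c' := ⟨hc'0⟩
  have : NeZero (M ^ 2 * c') := ⟨by positivity⟩
  have hcc : c = ((3 * M ^ 2 * c' : ℕ) : ℤ) := by rw [hk]; push_cast; ring
  subst hcc
  have hdet' : a * d - b * ((3 * M ^ 2 * c' : ℕ) : ℤ) = 1 := hdet
  have hzc : (conj z).im < 0 := by rw [Complex.conj_im]; linarith
  have key := T2_Gamma0_gauss hφ hB hdet' hz hzc P
  have hg : gauss4 (3 * M ^ 2 * c') a = 3 * √3 * Complex.I * ((3 * M ^ 2 * c' : ℕ) : ℂ) ^ 2 *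
      (legendreSym 3 d : ℤ) := by
    have h1 : 3 * M ^ 2 * c' = 3 * (M ^ 2 * c') := by ring
    have h2 : a * d - b * ((3 * (M ^ 2 * c') : ℕ) : ℤ) = 1 := by rw [← h1]; exact hdet
    rw [h1]
    exact gauss4_eq h2
  set c : ℕ := 3 * M ^ 2 * c' with hcdef
  have hcne' : c ≠ 0 := by positivity
  have hcne : (c : ℂ) ≠ 0 := by exact_mod_cast hcne'
  have hczd : ∀ {z : ℂ}, z.im ≠ 0 → (c : ℂ) * z + d ≠ 0 := by
    intro z hz h
    have h1 := congrArg Complex.im h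
    simp at h1
    rcases h1 with h1 | h1
    · exact hcne' h1
    · exact hz h1
  have hz1 := hczd hz.ne'
  have hdetC : (a : ℂ) * d - b * (c : ℂ) = 1 := by exact_mod_cast hdet
  have e1 : ((a * conj z + b) / ((c : ℂ) * conj z + d)) = conj ((a * z + b) / ((c : ℂ) * z + d)) := by
    simp
  have e2 : (-1 / ((c : ℂ) * ((c : ℂ) * conj z + d))) = conj (-1 / ((c : ℂ) * ((c : ℂ) * z + d))) := by
    simp
  have hu0 : 0 < (-1 / ((c : ℂ) * ((c : ℂ) * z + d))).im := im_pos_aux (by simp) hcne (by simp) hz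
  rw [e1, e2, T2_conj, T2_conj, S2_conj] at key
  have e3 := prod_cpow (-1 / ((c : ℂ) * ((c : ℂ) * z + d))) hu0 (C := c) hcne'
  rw [← cz2_conj] at e3
  rw [e3, hg] at key
  have e4 : -1 / ((c : ℂ) ^ 2 * (-1 / ((c : ℂ) * ((c : ℂ) * z + d)))) = ((c : ℂ) * z + d) / c := by
    field_simp
  rw [e4] at key
  rw [Int.cast_natCast, key]
  have h3 : (√3 : ℂ) ≠ 0 := by exact_mod_cast sqrt3_ne
  rw [norm_div, Complex.norm_natCast]
  push_cast
  congr 1
  congr 1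
  field_simp
  linear_combination (- (‖(c * z + d : ℂ)‖ * (legendreSym 3 d : ℤ)) : ℂ) * Complex.I_sq

theorem Tth_neg (φ : (Fin 4 → ℤ) → ℂ) (z : ℂ) (P : H3) : Tth (fun X => φ (-X)) z P = Tth φ z P := by
  unfold Tth
  rw [← (Equiv.neg (Fin 4 → ℤ)).tsum_eq]
  refine tsum_congr fun Y => ?_
  simp only [Equiv.neg_apply, neg_neg]
  congr 1
  unfold Gz
  have e5 : zv (-Y) = -zv Y := by funext i; simp [zv]
  have e6 : qR (-zv Y) = qR (zv Y) := by simp [qR]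
  have e8 : sR P (-zv Y) = -sR P (zv Y) := by
    simp [sR, bC]
    ring
  rw [e5, e6, e8, neg_sq, Complex.ofReal_neg, neg_sq]

/-- translation by integers -/
theorem Tth_add_int (φ : (Fin 4 → ℤ) → ℂ) (z : ℂ) (P : H3) (b : ℤ) :
    Tth φ (z + b) P = Tth φ z P := by
  unfold Tth
  refine tsum_congr fun X => ?_
  have h := Gz_add z P X 1 b
  rw [Nat.cast_one, div_one] at h
  have : eN 1 (b * qZ X) = 1 := (eN_eq_one_iff one_ne_zero _).mpr (by simp)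
  rw [h, this, one_mul]

theorem Tth_smul {φ : (Fin 4 → ℤ) → ℂ} (hφ : Per M φ) {B : ℝ} (hB : ∀ X, ‖φ X‖ ≤ B)
    (γ : SL(2, ℤ)) (hγ : γ ∈ CongruenceSubgroup.Gamma0 (3 * M ^ 2)) (τ : ℍ) (P : H3) :
    Tth φ (γ • τ : ℍ) P = (legendreSym 3 (γ 1 1) : ℤ) * ((γ 1 0 : ℤ) * (τ : ℂ) + (γ 1 1 : ℤ)) *
      ‖((γ 1 0 : ℤ) * (τ : ℂ) + (γ 1 1 : ℤ) : ℂ)‖ *
      ((γ 1 0 : ℤ) * conj (τ : ℂ) + (γ 1 1 : ℤ)) ^ 2 *
      (-((γ 1 0 : ℤ) / (4 * π * Complex.I * ((γ 1 0 : ℤ) * conj (τ : ℂ) + (γ 1 1 : ℤ)))) *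
        Sth (fun X => φ (γ 1 1 • X)) τ P + Tth (fun X => φ (γ 1 1 • X)) τ P) := by
  have hM : M ≠ 0 := NeZero.ne M
  have hdvd : (3 * (M : ℤ) ^ 2) ∣ γ 1 0 := by
    rw [CongruenceSubgroup.Gamma0_mem] at hγ
    have := (ZMod.intCast_zmod_eq_zero_iff_dvd _ _).1 hγ
    push_cast at this
    exact this
  have hdet := Matrix.det_fin_two (γ : Matrix (Fin 2) (Fin 2) ℤ)
  rw [γ.det_coe] at hdet
  have hdet' : γ 0 0 * γ 1 1 - γ 0 1 * γ 1 0 = 1 := hdet.symm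
  have hτ : 0 < (τ : ℂ).im := τ.im_pos
  rw [coe_smul_SL]
  rcases lt_trichotomy (γ 1 0) 0 with hneg | hzero | hpos
  · -- negative
    have key := Tth_pos hφ hB (a := -γ 0 0) (b := -γ 0 1) (c := -γ 1 0) (d := -γ 1 1)
      (by linarith) (by linarith) ((dvd_neg).mpr hdvd) hτ P
    have e1 : (((-γ 0 0 : ℤ) : ℂ) * τ + ((-γ 0 1 : ℤ) : ℂ)) / (((-γ 1 0 : ℤ) : ℂ) * τ +
        ((-γ 1 1 : ℤ) : ℂ)) = ((γ 0 0 : ℤ) * (τ : ℂ) + (γ 0 1 : ℤ)) /
          ((γ 1 0 : ℤ) * (τ : ℂ) + (γ 1 1 : ℤ)) := by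
      push_cast
      rw [show (-(γ 0 0 : ℂ) * τ + -(γ 0 1 : ℂ)) = -((γ 0 0 : ℂ) * τ + (γ 0 1 : ℂ)) by ring,
        show (-(γ 1 0 : ℂ) * τ + -(γ 1 1 : ℂ)) = -((γ 1 0 : ℂ) * τ + (γ 1 1 : ℂ)) by ring,
        neg_div_neg_eq]
    have e2 : ∀ v : ℂ, (((-γ 1 0 : ℤ) : ℂ) * v + ((-γ 1 1 : ℤ) : ℂ)) =
        -((γ 1 0 : ℤ) * v + (γ 1 1 : ℤ)) := by intro v; push_cast; ring
    have e3 : legendreSym 3 (-γ 1 1) = -legendreSym 3 (γ 1 1) := by
      rw [neg_eq_neg_one_mul, legendreSym.mul]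
      have : legendreSym 3 (-1) = -1 := by decide
      rw [this, neg_one_mul]
    rw [e1, e2, e2, e3, norm_neg] at key
    rw [key]
    have e4 : Sth (fun X => φ (-γ 1 1 • X)) τ P = Sth (fun X => φ (γ 1 1 • X)) τ P := by
      rw [← Sth_neg (fun X => φ (γ 1 1 • X))]
      congr 1
      funext X
      congr 1
      simp
    have e5 : Tth (fun X => φ (-γ 1 1 • X)) τ P = Tth (fun X => φ (γ 1 1 • X)) τ P := by
      rw [← Tth_neg (fun X => φ (γ 1 1 • X))]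
      congr 1
      funext X
      congr 1
      simp
    have e6 : -(((-γ 1 0 : ℤ) : ℂ) / (4 * π * Complex.I *
        -((γ 1 0 : ℤ) * conj (τ : ℂ) + (γ 1 1 : ℤ)))) =
        -((γ 1 0 : ℤ) / (4 * π * Complex.I * ((γ 1 0 : ℤ) * conj (τ : ℂ) + (γ 1 1 : ℤ)))) := by
      push_cast
      rw [mul_neg, neg_div_neg_eq]
    rw [e4, e5, e6]
    push_cast
    ring
  · rw [hzero] at hdet'
    rw [mul_zero, sub_zero] at hdet'
    have hd : γ 1 1 = 1 ∨ γ 1 1 = -1 := Int.isUnit_iff.1 (IsUnit.of_mul_eq_one (γ 0 0) (by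
      rw [mul_comm]; exact hdet'))
    rcases hd with hd | hd
    · have ha : γ 0 0 = 1 := by rw [hd, mul_one] at hdet'; exact hdet'
      rw [hzero, hd, ha]
      simp only [Int.cast_one, one_mul, Int.cast_zero, zero_mul, zero_add, div_one, norm_one,
        Complex.ofReal_one, mul_one, one_smul]
      rw [Tth_add_int]
      have : legendreSym 3 1 = 1 := by decide
      rw [this]
      simp
    · have ha : γ 0 0 = -1 := by rw [hd] at hdet'; linarith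
      rw [hzero, hd, ha]
      have e1 : (((-1 : ℤ) : ℂ) * τ + ((γ 0 1 : ℤ) : ℂ)) / (((0 : ℤ) : ℂ) * τ + ((-1 : ℤ) : ℂ)) =
          τ + ((-γ 0 1 : ℤ) : ℂ) := by
        push_cast
        ring
      rw [e1, Tth_add_int]
      have h1 : legendreSym 3 (-1) = -1 := by decide
      rw [h1, ← Tth_neg φ]
      have e4 : (fun X => φ ((-1 : ℤ) • X)) = fun X => φ (-X) := by
        funext X
        rw [neg_one_zsmul]
      rw [e4]
      simp
  · exact Tth_pos hφ hB hdet' hpos hdvd hτ P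

/-- The lowered theta kernel `-2 i y ∂_z̄ Θ`. -/
def ThS (φ : (Fin 4 → ℤ) → ℂ) (τ : ℍ) (P : H3) : ℂ :=
  1 / 2 * Th φ τ P - 4 * π * τ.im * ((√τ.im : ℝ) * Tth φ τ P)

theorem ThS_smul {φ : (Fin 4 → ℤ) → ℂ} (hφ : Per M φ) {B : ℝ} (hB : ∀ X, ‖φ X‖ ≤ B)
    (γ : SL(2, ℤ)) (hγ : γ ∈ CongruenceSubgroup.Gamma0 (3 * M ^ 2)) (τ : ℍ) (P : H3) :
    ThS φ (γ • τ) P = (legendreSym 3 (γ 1 1) : ℤ) *
      conj ((γ 1 0 : ℤ) * (τ : ℂ) + (γ 1 1 : ℤ)) * ThS (fun X => φ (γ 1 1 • X)) τ P := by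
  unfold ThS
  rw [Th_smul hφ hB γ hγ, Tth_smul hφ hB γ hγ]
  have hden : ((γ 1 0 : ℤ) : ℂ) * τ + (γ 1 1 : ℤ) ≠ 0 := by
    intro h
    have hdet := Matrix.det_fin_two (γ : Matrix (Fin 2) (Fin 2) ℤ)
    rw [γ.det_coe] at hdet
    have hdet' : γ 0 0 * γ 1 1 - γ 0 1 * γ 1 0 = 1 := hdet.symm
    have h1 := congrArg Complex.im h
    simp at h1
    rcases h1 with h1 | h1
    · rw [h1] at h hdet'
      have h2 := congrArg Complex.re h
      simp at h2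
      rw [h2] at hdet'
      simp at hdet'
    · exact τ.im_pos.ne' h1
  have him : (γ • τ).im = τ.im / Complex.normSq (((γ 1 0 : ℤ) : ℂ) * τ + (γ 1 1 : ℤ)) := by
    rw [ModularGroup.im_smul_eq_div_normSq]
    congr 2
  have hsq : √(γ • τ).im = √τ.im / ‖((γ 1 0 : ℤ) : ℂ) * τ + (γ 1 1 : ℤ)‖ := by
    rw [him, Real.sqrt_div' _ (Complex.normSq_nonneg _), Complex.normSq_eq_norm_sq,
      Real.sqrt_sq (norm_nonneg _)]
  have hcj : ((γ 1 0 : ℤ) : ℂ) * conj (τ : ℂ) + (γ 1 1 : ℤ) =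
      conj (((γ 1 0 : ℤ) : ℂ) * τ + (γ 1 1 : ℤ)) := by simp
  have hj : conj (((γ 1 0 : ℤ) : ℂ) * τ + (γ 1 1 : ℤ)) =
      ((γ 1 0 : ℤ) * τ + (γ 1 1 : ℤ)) - 2 * Complex.I * (γ 1 0 : ℤ) * τ.im := by
    apply Complex.ext <;> simp
    ring
  rw [hsq, him, hcj]
  set j : ℂ := ((γ 1 0 : ℤ) : ℂ) * τ + (γ 1 1 : ℤ) with hjdef
  have hjc : conj j ≠ 0 := by simpa using hden
  have hn : (‖j‖ : ℂ) ≠ 0 := by exact_mod_cast norm_ne_zero_iff.mpr hden
  have hnn : ((Complex.normSq j : ℝ) : ℂ) = j * conj j := (Complex.mul_conj j).symm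
  unfold Th
  push_cast
  rw [hnn]
  have hpi : (π : ℂ) ≠ 0 := by exact_mod_cast Real.pi_ne_zero
  have hI := Complex.I_ne_zero
  have hI2 := Complex.I_sq
  have e : 4 * π * ((τ.im : ℂ) / (j * conj j)) * ((√τ.im : ℝ) / ‖j‖ *
      ((legendreSym 3 (γ 1 1) : ℤ) * j * ‖j‖ * conj j ^ 2 *
      (-((γ 1 0 : ℤ) / (4 * π * Complex.I * conj j)) * Sth (fun X => φ (γ 1 1 • X)) τ P +
        Tth (fun X => φ (γ 1 1 • X)) τ P))) =
      (legendreSym 3 (γ 1 1) : ℤ) * (√τ.im : ℝ) * τ.im * (Complex.I * (γ 1 0 : ℤ) *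
        Sth (fun X => φ (γ 1 1 • X)) τ P + 4 * π * conj j *
        Tth (fun X => φ (γ 1 1 • X)) τ P) := by
    field_simp
    linear_combination (-((γ 1 0 : ℤ) : ℂ) * Sth (fun X => φ (γ 1 1 • X)) τ P *
      (legendreSym 3 (γ 1 1) : ℤ) * (√τ.im : ℝ) * τ.im) * hI2
  rw [e, hj]
  ring

end

end Fermat.Agent.LT.J4
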