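import Mathlib
import Fermat.Agent.LT.J.Sys
import Fermat.Agent.LT.J.ThetaTwo

/-!
# Modularity of the theta kernel (in the notation of `Sys`)
-/

set_option autoImplicit false

open Matrix MeasureTheory Filter UpperHalfPlane
open scoped Real MatrixGroups ComplexConjugate

namespace Fermat.Agent.LT.J

open Fermat.LT

noncomputable section

/-- coordinates of a lattice vector, as used in `J4` -/
def coo (X : Lat ℤ) : Fin 4 → ℤ := ![X.a, X.c, X.β.re - X.β.im, X.β.im]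

/-- inverse -/
def coo' (x : Fin 4 → ℤ) : Lat ℤ := ⟨x 0, ⟨x 2 + x 3, x 3⟩, x 1⟩

/-- coordinates as an equivalence -/
def cooE : Lat ℤ ≃ (Fin 4 → ℤ) where
  toFun := coo
  invFun := coo'
  left_inv X := by
    apply Lat.ext
    · simp [coo, coo']
    · apply QuadraticAlgebra.ext <;> simp [coo, coo']
    · simp [coo, coo']
  right_inv x := by
    funext i
    fin_cases i <;> simp [coo, coo']

theorem cooE_apply (X : Lat ℤ) : cooE X = coo X := rfl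

theorem cooE_symm_apply (x : Fin 4 → ℤ) : cooE.symm x = coo' x := rfl

theorem coo'_coo (X : Lat ℤ) : coo' (coo X) = X := cooE.left_inv X

theorem qZ_coo (X : Lat ℤ) : J4.qZ (coo X) = X.q := by
  simp only [J4.qZ, coo, Lat.q, QE.nm, Matrix.cons_val]
  ring

theorem bC_coo (X : Lat ℤ) : J4.bC (I.zv (coo X)) = toC X.β := by
  apply Complex.ext
  · rw [toC_re]
    simp [J4.bC, I.zv, coo]
    ring
  · rw [toC_im]
    simp [J4.bC, I.zv, coo]
    ring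

theorem sR_coo (X : Lat ℤ) (P : H3) : J4.sR P (I.zv (coo X)) = sL X P := by
  rw [sL_eq, J4.sR, bC_coo]
  simp only [I.zv, coo, Matrix.cons_val, Complex.mul_im, Complex.conj_re, Complex.conj_im]
  ring

theorem Gz_coo (z : ℂ) (P : H3) (X : Lat ℤ) :
    J4.Gz z P (I.zv (coo X)) = ee z X.q * gss z.im (sL X P) := by
  rw [J4.Gz, J4.qR_zv, qZ_coo, sR_coo, ee, gss, Complex.ofReal_exp]
  congr 2
  · push_cast
    ring
  · push_cast
    ring

theorem tsum_coo (f : (Fin 4 → ℤ) → ℂ) : ∑' x, f x = ∑' X : Lat ℤ, f (coo X) :=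
  (cooE.tsum_eq f).symm

theorem Theta_eq (φ : Lat ℤ → ℂ) (τ : ℍ) (w : H3) :
    Theta φ τ w = J4.Th (fun x => φ (coo' x)) τ w := by
  unfold Theta J4.Th J4.Sth
  rw [tsum_coo]
  congr 1
  refine tsum_congr fun X => ?_
  rw [Gz_coo]
  simp only [coo'_coo]

theorem redM_eq_iff {M : ℕ} {X Y : Lat ℤ} : redM M X = redM M Y ↔
    (X.a : ZMod M) = Y.a ∧ (X.β.re : ZMod M) = Y.β.re ∧ (X.β.im : ZMod M) = Y.β.im ∧
      (X.c : ZMod M) = Y.c := by
  constructor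
  · intro h
    refine ⟨congrArg Lat.a h, congrArg (fun Z => (Lat.β Z).re) h,
      congrArg (fun Z => (Lat.β Z).im) h, congrArg Lat.c h⟩
  · rintro ⟨h1, h2, h3, h4⟩
    exact Lat.ext h1 (QuadraticAlgebra.ext h2 h3) h4

theorem per_coo {M : ℕ} {φ : Lat ℤ → ℂ} (hφ : ∀ X Y, redM M X = redM M Y → φ X = φ Y) :
    J4.Per M (fun x => φ (coo' x)) := by
  intro X K
  apply hφ
  rw [redM_eq_iff]
  simp [coo']

theorem coo'_smul (d : ℤ) (x : Fin 4 → ℤ) : coo' (d • x) = Lat.smul d (coo' x) := by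
  apply Lat.ext
  · simp [coo', Lat.smul]
  · apply QuadraticAlgebra.ext <;> simp [coo', Lat.smul]
    ring
  · simp [coo', Lat.smul]

variable {M : ℕ} [NeZero M]

/-- **Modularity of the theta kernel**: weight one, character `χ₋₃`, level `Γ₀(3M²)`. -/
theorem Theta_smul {φ : Lat ℤ → ℂ} (hφ : ∀ X Y, redM M X = redM M Y → φ X = φ Y) {B : ℝ}
    (hB : ∀ X, ‖φ X‖ ≤ B) (γ : SL(2, ℤ)) (hγ : γ ∈ CongruenceSubgroup.Gamma0 (3 * M ^ 2))
    (τ : ℍ) (w : H3) :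
    Theta φ (γ • τ : ℍ) w = (legendreSym 3 (γ 1 1) : ℤ) * ((γ 1 0 : ℤ) * (τ : ℂ) + (γ 1 1 : ℤ)) *
      Theta (fun X => φ (Lat.smul (γ 1 1) X)) τ w := by
  rw [Theta_eq, J4.Th_smul (per_coo hφ) (fun x => hB _) γ hγ, Theta_eq]
  congr 2
  funext x
  rw [coo'_smul]

/-- the lowered theta kernel, `-2 i y ∂_z̄ Θ` -/
def ThetaS (φ : Lat ℤ → ℂ) (z : ℂ) (w : H3) : ℂ :=
  Real.sqrt z.im * ∑' X : Lat ℤ, φ X * ((1 / 2 - 4 * π * z.im * sL X w ^ 2 : ℝ) : ℂ) *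
    (ee z X.q * gss z.im (sL X w))

theorem summable_Theta {φ : Lat ℤ → ℂ} {B : ℝ} (hB : ∀ X, ‖φ X‖ ≤ B) {z : ℂ} (hz : 0 < z.im)
    (w : H3) : Summable fun X : Lat ℤ => φ X * (ee z X.q * gss z.im (sL X w)) := by
  have h := J4.summable_Gz hz w (φ := fun x => φ (coo' x)) (fun x => hB _)
  rw [← cooE.summable_iff] at h
  refine h.congr fun X => ?_
  rw [Function.comp_apply, cooE_apply, Gz_coo]
  simp only [coo'_coo]

theorem summable_Theta_sq {φ : Lat ℤ → ℂ} {B : ℝ} (hB : ∀ X, ‖φ X‖ ≤ B) {z : ℂ} (hz : 0 < z.im)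
    (w : H3) : Summable fun X : Lat ℤ => φ X * (((sL X w ^ 2 : ℝ) : ℂ) *
      (ee z X.q * gss z.im (sL X w))) := by
  have h := J4.summable_T hz w (φ := fun x => φ (coo' x)) (fun x => hB _)
  rw [← cooE.summable_iff] at h
  refine h.congr fun X => ?_
  rw [Function.comp_apply, cooE_apply, Gz_coo, sR_coo]
  simp only [coo'_coo]
  push_cast
  rfl

theorem ThetaS_eq {φ : Lat ℤ → ℂ} {B : ℝ} (hB : ∀ X, ‖φ X‖ ≤ B) (τ : ℍ) (w : H3) :
    ThetaS φ τ w = J4.ThS (fun x => φ (coo' x)) τ w := by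
  have hτ : 0 < (τ : ℂ).im := τ.im_pos
  have h1 : Summable fun X : Lat ℤ => φ X * (ee τ X.q * gss τ.im (sL X w)) :=
    summable_Theta hB hτ w
  have h2 : Summable fun X : Lat ℤ => φ X * (((sL X w ^ 2 : ℝ) : ℂ) *
      (ee τ X.q * gss τ.im (sL X w))) := summable_Theta_sq hB hτ w
  have hT : J4.Tth (fun x => φ (coo' x)) τ w =
      ∑' X : Lat ℤ, φ X * (((sL X w ^ 2 : ℝ) : ℂ) * (ee τ X.q * gss (τ : ℂ).im (sL X w))) := by
    unfold J4.Tth
    rw [tsum_coo]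
    refine tsum_congr fun X => ?_
    rw [Gz_coo, sR_coo]
    simp only [coo'_coo]
    push_cast
    rfl
  unfold J4.ThS ThetaS
  rw [← Theta_eq, hT]
  unfold Theta
  have him : (τ : ℂ).im = τ.im := rfl
  rw [him]
  have h3 : ∀ X : Lat ℤ, φ X * ((1 / 2 - 4 * π * τ.im * sL X w ^ 2 : ℝ) : ℂ) *
      (ee τ X.q * gss τ.im (sL X w)) =
      1 / 2 * (φ X * (ee τ X.q * gss τ.im (sL X w))) - 4 * π * τ.im *
        (φ X * (((sL X w ^ 2 : ℝ) : ℂ) * (ee τ X.q * gss τ.im (sL X w)))) := by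
    intro X
    push_cast
    ring
  simp only [h3]
  rw [(h1.mul_left (1 / 2)).tsum_sub (h2.mul_left (4 * (π : ℂ) * (τ.im : ℂ))), tsum_mul_left,
    tsum_mul_left]
  ring

/-- **Modularity of the lowered theta kernel**. -/
theorem ThetaS_smul {φ : Lat ℤ → ℂ} (hφ : ∀ X Y, redM M X = redM M Y → φ X = φ Y) {B : ℝ}
    (hB : ∀ X, ‖φ X‖ ≤ B) (γ : SL(2, ℤ)) (hγ : γ ∈ CongruenceSubgroup.Gamma0 (3 * M ^ 2))
    (τ : ℍ) (w : H3) :
    ThetaS φ (γ • τ : ℍ) w = (legendreSym 3 (γ 1 1) : ℤ) *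
      conj ((γ 1 0 : ℤ) * (τ : ℂ) + (γ 1 1 : ℤ)) *
      ThetaS (fun X => φ (Lat.smul (γ 1 1) X)) τ w := by
  rw [ThetaS_eq hB, J4.ThS_smul (per_coo hφ) (fun x => hB _) γ hγ, ThetaS_eq fun X => hB _]
  congr 2
  funext x
  rw [coo'_smul]

end

end Fermat.Agent.LT.J
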