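import Fermat.Agent.LT.J.Exch
import Fermat.Agent.LT.J.ThetaSys
import Fermat.Agent.LT.J.CoefODE

/-!
# The theta lift: convergence, Fourier expansion, growth (LT, piece J5)

For `h` with `|h s| ≤ C (1 + s²) exp (-4π y s²)` put
`Lft c z h = ∫ ρ(w) ∑_X c X w e(z q X) h (s X w) dw`.  Then `Lft c z h = ∑_n e(z n) Λ_n(h)` and
`‖Lft c z h‖ ≤ ...`.
-/

set_option autoImplicit false
set_option linter.unusedSectionVars false

open Complex Matrix MeasureTheory Set

open scoped ComplexConjugate ENNReal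

noncomputable section

namespace Fermat.Agent.LT.J

open Fermat.LT QE

/-- bounded, continuous families -/
structure Bdd (c : Lat ℤ → H3 → ℂ) (B : ℝ) : Prop where
  cont : ∀ X, Continuous (c X)
  bdd : ∀ X w, ‖c X w‖ ≤ B

theorem Bdd.nonneg {c : Lat ℤ → H3 → ℂ} {B : ℝ} (hc : Bdd c B) : 0 ≤ B :=
  (norm_nonneg _).trans (hc.bdd 0 (H3.mk 0 1 one_pos))

theorem Sys.exists_bdd {M : ℕ} (S : Sys M) : ∃ B, Bdd S.c B := by
  obtain ⟨B, hB⟩ := S.bdd
  exact ⟨B, S.cont, hB⟩

/-- functions with a quadratic times Gaussian bound -/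
structure GBq (y C : ℝ) (h : ℝ → ℝ) : Prop where
  cont : Continuous h
  bd : ∀ s, |h s| ≤ C * (1 + s ^ 2) * gss y s

theorem GBq.nonneg {y C : ℝ} {h : ℝ → ℝ} (hh : GBq y C h) : 0 ≤ C := by
  have h1 := hh.bd 0
  have h2 : gss y 0 = 1 := by simp [gss]
  rw [h2] at h1
  have := abs_nonneg (h 0)
  nlinarith

theorem norm_ee (z : ℂ) (n : ℤ) : ‖ee z n‖ = Real.exp (-(2 * Real.pi * z.im * n)) := by
  rw [ee, Complex.norm_exp]
  congr 1
  simp

theorem mul_exp_neg_le {δ M : ℝ} (hδ : 0 < δ) : M * Real.exp (-(δ * M)) ≤ 1 / δ := by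
  have h := Real.add_one_le_exp (δ * M)
  have h2 : δ * M ≤ Real.exp (δ * M) := by linarith
  rw [Real.exp_neg, ← div_eq_mul_inv, div_le_div_iff₀ (Real.exp_pos _) hδ]
  linarith

/-- the constant in the bound -/
def CB (y : ℝ) : ℝ := 1 + 1 / (Real.pi * y)

theorem CB_pos {y : ℝ} (hy : 0 < y) : 0 < CB y := by
  unfold CB
  have := Real.pi_pos
  positivity

theorem norm_ee_mul_le {y C : ℝ} {h : ℝ → ℝ} (hy : 0 < y) (hh : GBq y C h) {z : ℂ} (hz : z.im = y)
    (X : Lat ℤ) (w : H3) : ‖ee z X.q * (h (sL X w) : ℂ)‖ ≤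
      C * CB y * Real.exp (-(Real.pi * y * Maj X w)) := by
  have hpi := Real.pi_pos
  have hC := hh.nonneg
  rw [norm_mul, norm_ee, hz, Complex.norm_real, Real.norm_eq_abs]
  have hM := Maj_nonneg X w
  have h1 := hh.bd (sL X w)
  have e : Real.exp (-(2 * Real.pi * y * X.q)) * gss y (sL X w) =
      Real.exp (-(Real.pi * y * Maj X w)) * Real.exp (-(Real.pi * y * Maj X w)) := by
    rw [gss, ← Real.exp_add, ← Real.exp_add, Maj]
    congr 1; ring
  have h2 : (1 + sL X w ^ 2) * Real.exp (-(Real.pi * y * Maj X w)) ≤ CB y := by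
    have h3 := sq_le_Maj X w
    have h4 : Real.exp (-(Real.pi * y * Maj X w)) ≤ 1 := by
      rw [Real.exp_le_one_iff]
      have : 0 ≤ Real.pi * y * Maj X w := by positivity
      linarith
    have h5 := mul_exp_neg_le (δ := Real.pi * y) (M := Maj X w) (by positivity)
    have h6 : sL X w ^ 2 * Real.exp (-(Real.pi * y * Maj X w)) ≤
        Maj X w * Real.exp (-(Real.pi * y * Maj X w)) :=
      mul_le_mul_of_nonneg_right h3 (Real.exp_pos _).le
    rw [CB]; linarith
  calc Real.exp (-(2 * Real.pi * y * X.q)) * |h (sL X w)|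
      ≤ Real.exp (-(2 * Real.pi * y * X.q)) * (C * (1 + sL X w ^ 2) * gss y (sL X w)) :=
        mul_le_mul_of_nonneg_left h1 (Real.exp_pos _).le
    _ = C * (1 + sL X w ^ 2) * (Real.exp (-(2 * Real.pi * y * X.q)) * gss y (sL X w)) := by ring
    _ = C * ((1 + sL X w ^ 2) * Real.exp (-(Real.pi * y * Maj X w))) *
        Real.exp (-(Real.pi * y * Maj X w)) := by rw [e]; ring
    _ ≤ C * CB y * Real.exp (-(Real.pi * y * Maj X w)) :=
        mul_le_mul_of_nonneg_right (mul_le_mul_of_nonneg_left h2 hC) (Real.exp_pos _).le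

section

variable {c : Lat ℤ → H3 → ℂ} {B : ℝ} {y C : ℝ} {h : ℝ → ℝ}

/-- the general term -/
def trm (c : Lat ℤ → H3 → ℂ) (z : ℂ) (h : ℝ → ℝ) (X : Lat ℤ) (w : H3) : ℂ :=
  c X w * (ee z X.q * (h (sL X w) : ℂ))

theorem norm_trm_le (hc : Bdd c B) (hy : 0 < y) (hh : GBq y C h) {z : ℂ} (hz : z.im = y)
    (X : Lat ℤ) (w : H3) :
    ‖trm c z h X w‖ ≤ B * (C * CB y) * Real.exp (-(Real.pi * y * Maj X w)) := by
  rw [trm, norm_mul, mul_assoc B]
  exact mul_le_mul (hc.bdd X w) (norm_ee_mul_le hy hh hz X w) (norm_nonneg _) hc.nonneg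

theorem continuous_trm (hc : Bdd c B) (hh : GBq y C h) (z : ℂ) (X : Lat ℤ) :
    Continuous (trm c z h X) := by
  unfold trm
  exact (hc.cont X).mul (continuous_const.mul
    (continuous_ofReal.comp (hh.cont.comp (continuous_sL X))))

/-- the lift with a general function -/
def Lft (c : Lat ℤ → H3 → ℂ) (z : ℂ) (h : ℝ → ℝ) : ℂ := ∫ w, ∑' X : Lat ℤ, trm c z h X w ∂muR

theorem const_nonneg (hc : Bdd c B) (hy : 0 < y) (hh : GBq y C h) : 0 ≤ B * (C * CB y) :=
  mul_nonneg hc.nonneg (mul_nonneg hh.nonneg (CB_pos hy).le)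

theorem Lft_hasSum (hc : Bdd c B) (hy : 0 < y) (hh : GBq y C h) {z : ℂ} (hz : z.im = y) :
    HasSum (fun X => ∫ w, trm c z h X w ∂muR) (Lft c z h) := by
  have hpi := Real.pi_pos
  exact exch_hasSum (e := id) (fun X => (continuous_trm hc hh z X).aestronglyMeasurable)
    Function.injective_id (ε := Real.pi * y) (by positivity) (const_nonneg hc hy hh)
    (fun X w => norm_trm_le hc hy hh hz X w)

theorem Lft_norm_le (hc : Bdd c B) (hy : 0 < y) (hh : GBq y C h) {z : ℂ} (hz : z.im = y) :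
    ‖Lft c z h‖ ≤ B * (C * CB y) * (KE (Real.pi * y) * It) := by
  have hpi := Real.pi_pos
  exact exch_norm_integral_le (e := id)
    (fun X => (continuous_trm hc hh z X).aestronglyMeasurable)
    Function.injective_id (ε := Real.pi * y) (by positivity) (const_nonneg hc hy hh)
    (fun X w => norm_trm_le hc hy hh hz X w)

/-- the integral over a fiber -/
theorem fiber_integral (hc : Bdd c B) (hy : 0 < y) (hh : GBq y C h) {z : ℂ} (hz : z.im = y)
    (n : ℤ) : ∑' X : {X : Lat ℤ // X.q = n}, ∫ w, trm c z h X w ∂muR =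
      ee z n * Lam rho c n h := by
  have hpi := Real.pi_pos
  have h1 := exch_hasSum (ι := {X : Lat ℤ // X.q = n}) (e := Subtype.val)
    (H := fun X w => trm c z h X w)
    (fun X => (continuous_trm hc hh z X).aestronglyMeasurable)
    Subtype.val_injective (ε := Real.pi * y) (by positivity) (const_nonneg hc hy hh)
    (fun X w => norm_trm_le hc hy hh hz X w)
  rw [h1.tsum_eq, integral_muR', Lam, ← integral_const_mul]
  refine integral_congr_ae (Filter.Eventually.of_forall fun w => ?_)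
  have e : ∑' X : {X : Lat ℤ // X.q = n}, trm c z h X w =
      ee z n * ∑' X : {X : Lat ℤ // X.q = n}, c X w * (h (sL X w) : ℂ) := by
    rw [← Summable.tsum_mul_left]
    · refine tsum_congr fun X => ?_
      rw [trm, X.2]; ring
    · have h2 := exch_summable_pt (ι := {X : Lat ℤ // X.q = n}) (e := Subtype.val)
        (H := fun X w => trm c z h X w) Subtype.val_injective (ε := Real.pi * y) (by positivity)
        (fun X w => norm_trm_le hc hy hh hz X w) w
      have hne : ee z n ≠ 0 := Complex.exp_ne_zero _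
      refine (h2.mul_left (ee z n)⁻¹).congr fun X => ?_
      rw [trm, X.2]
      field_simp
  simp only [e]
  ring

theorem Lft_fourier (hc : Bdd c B) (hy : 0 < y) (hh : GBq y C h) {z : ℂ} (hz : z.im = y) :
    HasSum (fun n : ℤ => ee z n * Lam rho c n h) (Lft c z h) := by
  have h1 := (Lft_hasSum hc hy hh hz).tsum_fiberwise (fun X : Lat ℤ => X.q)
  have e : (fun n : ℤ => ee z n * Lam rho c n h) = fun n : ℤ =>
      ∑' X : ((fun X : Lat ℤ => X.q) ⁻¹' {n} : Set (Lat ℤ)), ∫ w, trm c z h X w ∂muR :=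
    funext fun n => (fiber_integral hc hy hh hz n).symm
  rw [e]
  exact h1

theorem norm_Lam_le (hc : Bdd c B) (hy : 0 < y) (hh : GBq y C h) (n : ℤ) :
    ‖Lam rho c n h‖ ≤ Real.exp (2 * Real.pi * y * n) *
      (B * (C * CB y) * (KE (Real.pi * y) * It)) := by
  have hpi := Real.pi_pos
  set z : ℂ := ⟨0, y⟩ with hzd
  have hz : z.im = y := rfl
  have h1 := exch_norm_integral_le (ι := {X : Lat ℤ // X.q = n}) (e := Subtype.val)
    (H := fun X w => trm c z h X w)
    (fun X => (continuous_trm hc hh z X).aestronglyMeasurable)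
    Subtype.val_injective (ε := Real.pi * y) (by positivity) (const_nonneg hc hy hh)
    (fun X w => norm_trm_le hc hy hh hz X w)
  have h2 := exch_hasSum (ι := {X : Lat ℤ // X.q = n}) (e := Subtype.val)
    (H := fun X w => trm c z h X w)
    (fun X => (continuous_trm hc hh z X).aestronglyMeasurable)
    Subtype.val_injective (ε := Real.pi * y) (by positivity) (const_nonneg hc hy hh)
    (fun X w => norm_trm_le hc hy hh hz X w)
  rw [← h2.tsum_eq, fiber_integral hc hy hh hz, norm_mul, norm_ee, hz] at h1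
  calc ‖Lam rho c n h‖ = Real.exp (2 * Real.pi * y * n) *
        (Real.exp (-(2 * Real.pi * y * n)) * ‖Lam rho c n h‖) := by
        rw [← mul_assoc, ← Real.exp_add, add_neg_cancel, Real.exp_zero, one_mul]
    _ ≤ _ := mul_le_mul_of_nonneg_left h1 (Real.exp_pos _).le

end

/-! ### the two lifts -/

/-- the function `(1/2 - 4π y s²) exp (-4π y s²)` -/
def hsS (y s : ℝ) : ℝ := (1 / 2 - 4 * Real.pi * y * s ^ 2) * gss y s

theorem ThetaS_eq_hsS (φ : Lat ℤ → ℂ) (z : ℂ) (w : H3) : ThetaS φ z w =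
    Real.sqrt z.im * ∑' X : Lat ℤ, φ X * (ee z X.q * hsS z.im (sL X w)) := by
  rw [ThetaS]
  congr 1
  refine tsum_congr fun X => ?_
  rw [hsS]
  push_cast
  ring

/-- the starred lift -/
def liftS (ρ : H3 → ℝ≥0∞) (c : Lat ℤ → H3 → ℂ) (z : ℂ) : ℂ :=
  ∫ w : H3, ((ρ w).toReal : ℂ) * ThetaS (fun X => c X w) z w

theorem cfS_eq_hsS (c : Lat ℤ → H3 → ℂ) (n : ℤ) (y : ℝ) :
    cfS c n y = Real.sqrt y * Lam rho c n (hsS y) := rfl

theorem continuous_gss_aux (y : ℝ) : Continuous (gss y) := by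
  unfold gss
  fun_prop

theorem gss_pos_aux (y s : ℝ) : 0 < gss y s := Real.exp_pos _

theorem GBq_gss (y : ℝ) : GBq y 1 (gss y) where
  cont := continuous_gss_aux y
  bd s := by
    rw [abs_of_pos (gss_pos_aux y s), one_mul]
    nlinarith [gss_pos_aux y s, sq_nonneg s]

theorem GBq_hsS {y : ℝ} (hy : 0 < y) : GBq y (1 + 4 * Real.pi * y) (hsS y) where
  cont := by
    unfold hsS
    exact (by fun_prop : Continuous fun s : ℝ => (1 / 2 - 4 * Real.pi * y * s ^ 2)).mul
      (continuous_gss_aux y)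
  bd s := by
    have hpi := Real.pi_pos
    rw [hsS, abs_mul, abs_of_pos (gss_pos_aux y s)]
    apply mul_le_mul_of_nonneg_right _ (gss_pos_aux y s).le
    have h1 : 0 ≤ 4 * Real.pi * y * s ^ 2 := by positivity
    have h2 : 0 ≤ 4 * Real.pi * y := by positivity
    rw [abs_le]
    constructor <;> nlinarith [sq_nonneg s]

theorem integral_Theta_aux (c : Lat ℤ → H3 → ℂ) (z : ℂ) (h : ℝ → ℝ) :
    ∫ w : H3, ((rho w).toReal : ℂ) * (Real.sqrt z.im * ∑' X : Lat ℤ, c X w *
      (ee z X.q * h (sL X w))) = Real.sqrt z.im * Lft c z h := by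
  rw [Lft, integral_muR', ← integral_const_mul]
  refine integral_congr_ae (Filter.Eventually.of_forall fun w => ?_)
  simp only [trm]
  ring

theorem lift_eq (c : Lat ℤ → H3 → ℂ) (z : ℂ) :
    lift rho c z = Real.sqrt z.im * Lft c z (gss z.im) := integral_Theta_aux c z _

theorem liftS_eq (c : Lat ℤ → H3 → ℂ) (z : ℂ) :
    liftS rho c z = Real.sqrt z.im * Lft c z (hsS z.im) := by
  rw [liftS]
  simp only [ThetaS_eq_hsS]
  exact integral_Theta_aux c z _

section

variable {c : Lat ℤ → H3 → ℂ} {B : ℝ}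

theorem lift_fourier (hc : Bdd c B) {z : ℂ} (hz : 0 < z.im) :
    HasSum (fun n : ℤ => ee z n * cf c n z.im) (lift rho c z) := by
  rw [lift_eq]
  have h := (Lft_fourier hc hz (GBq_gss z.im) rfl).mul_left (Real.sqrt z.im : ℂ)
  have e : (fun n : ℤ => ee z n * cf c n z.im) =
      fun n : ℤ => (Real.sqrt z.im : ℂ) * (ee z n * Lam rho c n (gss z.im)) := by
    funext n; rw [cf]; ring
  rw [e]
  exact h

theorem liftS_fourier (hc : Bdd c B) {z : ℂ} (hz : 0 < z.im) :
    HasSum (fun n : ℤ => ee z n * cfS c n z.im) (liftS rho c z) := by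
  rw [liftS_eq]
  have h := (Lft_fourier hc hz (GBq_hsS hz) rfl).mul_left (Real.sqrt z.im : ℂ)
  have e : (fun n : ℤ => ee z n * cfS c n z.im) =
      fun n : ℤ => (Real.sqrt z.im : ℂ) * (ee z n * Lam rho c n (hsS z.im)) := by
    funext n; rw [cfS_eq_hsS]; ring
  rw [e]
  exact h

/-- the growth function -/
def gr (B y : ℝ) : ℝ := Real.sqrt y * (B * ((1 + 4 * Real.pi * y) * CB y) * (KE (Real.pi * y) * It))

theorem norm_cf_le (hc : Bdd c B) (n : ℤ) {y : ℝ} (hy : 0 < y) :
    ‖cf c n y‖ ≤ Real.exp (2 * Real.pi * y * n) * gr B y := by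
  have hpi := Real.pi_pos
  have h1 := norm_Lam_le hc hy (GBq_gss y) n
  have hB := hc.nonneg
  have hCB := CB_pos hy
  have hKE := KE_pos (ε := Real.pi * y)
  have hIt := It_nonneg
  rw [cf, norm_mul, Complex.norm_real, Real.norm_eq_abs, abs_of_nonneg (Real.sqrt_nonneg y), gr]
  calc Real.sqrt y * ‖Lam rho c n (gss y)‖
      ≤ Real.sqrt y * (Real.exp (2 * Real.pi * y * n) *
        (B * (1 * CB y) * (KE (Real.pi * y) * It))) :=
        mul_le_mul_of_nonneg_left h1 (Real.sqrt_nonneg y)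
    _ ≤ Real.sqrt y * (Real.exp (2 * Real.pi * y * n) *
        (B * ((1 + 4 * Real.pi * y) * CB y) * (KE (Real.pi * y) * It))) := by
        have : (1 : ℝ) ≤ 1 + 4 * Real.pi * y := by
          have : 0 ≤ 4 * Real.pi * y := by positivity
          linarith
        gcongr
    _ = _ := by ring

theorem norm_cfS_le (hc : Bdd c B) (n : ℤ) {y : ℝ} (hy : 0 < y) :
    ‖cfS c n y‖ ≤ Real.exp (2 * Real.pi * y * n) * gr B y := by
  have h1 := norm_Lam_le hc hy (GBq_hsS hy) n
  rw [cfS_eq_hsS, norm_mul, Complex.norm_real, Real.norm_eq_abs, abs_of_nonneg (Real.sqrt_nonneg y), gr]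
  calc Real.sqrt y * ‖Lam rho c n (hsS y)‖
      ≤ Real.sqrt y * (Real.exp (2 * Real.pi * y * n) *
        (B * ((1 + 4 * Real.pi * y) * CB y) * (KE (Real.pi * y) * It))) :=
        mul_le_mul_of_nonneg_left h1 (Real.sqrt_nonneg y)
    _ = _ := by ring

theorem norm_lift_le (hc : Bdd c B) {z : ℂ} (hz : 0 < z.im) : ‖lift rho c z‖ ≤ gr B z.im := by
  have hpi := Real.pi_pos
  have h1 := Lft_norm_le hc hz (GBq_gss z.im) rfl
  have hB := hc.nonneg
  have hCB := CB_pos hz
  have hKE := KE_pos (ε := Real.pi * z.im)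
  have hIt := It_nonneg
  rw [lift_eq, norm_mul, Complex.norm_real, Real.norm_eq_abs,
    abs_of_nonneg (Real.sqrt_nonneg z.im), gr]
  calc Real.sqrt z.im * ‖Lft c z (gss z.im)‖
      ≤ Real.sqrt z.im * (B * (1 * CB z.im) * (KE (Real.pi * z.im) * It)) :=
        mul_le_mul_of_nonneg_left h1 (Real.sqrt_nonneg _)
    _ ≤ _ := by
        have : (1 : ℝ) ≤ 1 + 4 * Real.pi * z.im := by
          have : 0 ≤ 4 * Real.pi * z.im := by positivity
          linarith
        gcongr

theorem norm_liftS_le (hc : Bdd c B) {z : ℂ} (hz : 0 < z.im) : ‖liftS rho c z‖ ≤ gr B z.im := by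
  have h1 := Lft_norm_le hc hz (GBq_hsS hz) rfl
  rw [liftS_eq, norm_mul, Complex.norm_real, Real.norm_eq_abs,
    abs_of_nonneg (Real.sqrt_nonneg z.im), gr]
  exact mul_le_mul_of_nonneg_left h1 (Real.sqrt_nonneg _)

/-- polynomial bound for the growth function -/
theorem gr_le {B : ℝ} (hB : 0 ≤ B) : ∃ K : ℝ, 0 ≤ K ∧ ∀ y : ℝ, 0 < y → gr B y ≤ K * (y + 1 / y) ^ 7 := by
  have hpi := Real.pi_gt_three
  have hpi4 := Real.pi_le_four
  have hIt := It_nonneg
  refine ⟨B * (17 * 2) * (46656 * 3 ^ 4 * It), by positivity, fun y hy => ?_⟩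
  set T : ℝ := y + 1 / y with hT
  have hiy : 0 < 1 / y := by positivity
  have hT2 : 1 ≤ T := by
    rw [hT]
    by_cases h : 1 ≤ y
    · linarith
    · have : 1 ≤ 1 / y := by
        rw [le_div_iff₀ hy]; linarith
      linarith
  have h1 : Real.sqrt y ≤ T := by
    rw [Real.sqrt_le_left (by linarith)]
    nlinarith
  have h2 : 1 + 4 * Real.pi * y ≤ 17 * T := by nlinarith
  have h3 : CB y ≤ 2 * T := by
    have : 1 / (Real.pi * y) ≤ 1 / y := by
      apply one_div_le_one_div_of_le hy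
      nlinarith
    rw [CB]; linarith
  have h4 : KE (Real.pi * y) ≤ 46656 * 3 ^ 4 * T ^ 4 := by
    have h5 : 1 / Real.sqrt (Real.pi * y) ≤ 2 * T := by
      have h6 : Real.sqrt y ≤ Real.sqrt (Real.pi * y) := Real.sqrt_le_sqrt (by nlinarith)
      have h7 : 0 < Real.sqrt y := Real.sqrt_pos.2 hy
      have h8 : 1 / Real.sqrt (Real.pi * y) ≤ 1 / Real.sqrt y := one_div_le_one_div_of_le h7 h6
      have h9 : 1 / Real.sqrt y ≤ 1 + 1 / y := by
        rw [div_le_iff₀ h7]
        have h10 := Real.sq_sqrt hy.le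
        have h11 : 1 / y * Real.sqrt y = 1 / Real.sqrt y := by
          rw [one_div_mul_eq_div, Real.sqrt_div_self']
        by_cases h12 : 1 ≤ Real.sqrt y
        · have : 0 < 1 / y * Real.sqrt y := by positivity
          nlinarith
        · have : 1 ≤ 1 / Real.sqrt y := by
            rw [le_div_iff₀ h7]; linarith
          nlinarith
      linarith
    have h6 : 0 ≤ 1 / Real.sqrt (Real.pi * y) := by positivity
    have h7 : 1 + 1 / Real.sqrt (Real.pi * y) ≤ 3 * T := by linarith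
    rw [KE]
    calc 46656 * (1 + 1 / Real.sqrt (Real.pi * y)) ^ 4 ≤ 46656 * (3 * T) ^ 4 := by gcongr
      _ = _ := by ring
  have hCB := CB_pos hy
  have hKE := KE_pos (ε := Real.pi * y)
  rw [gr]
  calc Real.sqrt y * (B * ((1 + 4 * Real.pi * y) * CB y) * (KE (Real.pi * y) * It))
      ≤ T * (B * ((17 * T) * (2 * T)) * ((46656 * 3 ^ 4 * T ^ 4) * It)) := by
        have h10 : 0 ≤ 1 + 4 * Real.pi * y := by positivity
        gcongr
    _ = _ := by ring

end

end Fermat.Agent.LT.J
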