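import Mathlib
import Fermat.Agent.LT.J.Pack
import Fermat.Agent.LT.J.Asm
import Fermat.Agent.LT.J.CuspOfHecke

/-!
# From the output of the theta lift to a cusp form (LT, piece J)
-/

set_option autoImplicit false

open UpperHalfPlane hiding I
open ModularForm CongruenceSubgroup Filter Topology Complex
open scoped MatrixGroups ModularForm Real Manifold

namespace Fermat.Agent.LT.J

noncomputable section

theorem norm_ee_nat (z : ℂ) (n : ℕ) : ‖ee z n‖ = Real.exp (-(2 * π * z.im * n)) := by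
  have h : (2 * π * I * z * ((n : ℤ) : ℂ) : ℂ) = ((2 * π * n : ℝ) : ℂ) * (I * z) := by
    push_cast
    ring
  rw [ee, Complex.norm_exp, h, Complex.re_ofReal_mul, I_mul_re]
  congr 1
  ring

/-- a convergent `q`-series is holomorphic -/
theorem differentiableOn_of_hasSum {a : ℕ → ℂ} {G : ℂ → ℂ}
    (h : ∀ z : ℂ, 0 < z.im → HasSum (fun n : ℕ => a n * ee z n) (G z)) :
    DifferentiableOn ℂ G {z | 0 < z.im} := by
  intro z hz
  have hz0 : 0 < z.im := hz
  set U : Set ℂ := {w | z.im / 2 < w.im} with hU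
  have hUo : IsOpen U := isOpen_lt continuous_const Complex.continuous_im
  have hzU : z ∈ U := by
    show z.im / 2 < z.im
    linarith
  set w0 : ℂ := ((z.im / 2 : ℝ) : ℂ) * I with hw0
  have hw0im : w0.im = z.im / 2 := by simp [hw0]
  have hs : Summable fun n : ℕ => ‖a n * ee w0 n‖ :=
    (h w0 (by rw [hw0im]; linarith)).summable.norm
  have hd : DifferentiableOn ℂ (fun w => ∑' n : ℕ, a n * ee w n) U := by
    refine Complex.differentiableOn_tsum_of_summable_norm hs (fun n => ?_) hUo fun n w hw => ?_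
    · unfold ee
      fun_prop
    · have hw' : z.im / 2 < w.im := hw
      rw [norm_mul, norm_mul, norm_ee_nat, norm_ee_nat, hw0im]
      gcongr
  have heq : Set.EqOn G (fun w => ∑' n : ℕ, a n * ee w n) U := by
    intro w hw
    have hw' : z.im / 2 < w.im := hw
    exact (h w (by linarith)).tsum_eq.symm
  have h1 : DifferentiableAt ℂ G z :=
    ((hd z hzU).congr heq (heq hzU)).differentiableAt (hUo.mem_nhds hzU)
  exact h1.differentiableWithinAt

variable {M : ℕ} [NeZero M] {P : Set ℕ} {lam : ℕ → ℝ} {G : ℂ → ℂ} {a : ℕ → ℂ}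

theorem neZero_three_mul_sq (M : ℕ) [NeZero M] : NeZero (3 * M ^ 2) :=
  ⟨by have := NeZero.ne M; positivity⟩

theorem exists_modularForm_of_out (h : Out (3 * M ^ 2) P lam G a) :
    ∃ g : ModularForm (Gamma1 (3 * M ^ 2)) 1, (∀ τ : ℍ, g τ = G τ) ∧ g ≠ 0 ∧
      (∀ γ ∈ Gamma0 (3 * M ^ 2), (⇑g ∣[(1 : ℤ)] γ) = ((K.chi3 (γ 1 1) : ℤ) : ℂ) • ⇑g) ∧
      ∀ n, ModularFormClass.qCoeff g n = a n := by
  have := neZero_three_mul_sq M
  obtain ⟨K, hK⟩ := h.growth
  obtain ⟨g, hg1, hg2, hg3⟩ := exists_modularForm (N := 3 * M ^ 2) (dvd_mul_right 3 _)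
    (differentiableOn_of_hasSum h.hasSum) h.smul (C := K) (A := 7) (fun τ => hK τ τ.im_pos)
  have hq : ∀ n, ModularFormClass.qCoeff g n = a n := by
    refine hg3 a fun τ => ?_
    refine (h.hasSum τ τ.im_pos).congr_fun fun n => ?_
    rw [ee]
    congr 2
    push_cast
    ring
  refine ⟨g, hg1, ?_, hg2, hq⟩
  rintro rfl
  obtain ⟨n, hn⟩ := h.ne
  apply hn
  rw [← hq n]
  have h0 : (⇑(0 : ModularForm ((Gamma1 (3 * M ^ 2)).map (Matrix.SpecialLinearGroup.mapGL ℝ)) 1) :
      ℍ → ℂ) = 0 := FunLike.coe_zero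
  rw [ModularFormClass.qCoeff, h0, UpperHalfPlane.qExpansion_zero]
  simp

/-- The final output of piece J as a cusp form. -/
theorem exists_cuspForm_of_out (h : Out (3 * M ^ 2) P lam G a) {p : ℕ} (hp : p.Prime) (hpP : p ∈ P)
    (hpN : p ≡ 1 [MOD 3 * M ^ 2]) (hl : lam p ≠ 2) :
    ∃ f : CuspForm (Gamma1 (3 * M ^ 2)) 1, f ≠ 0 ∧
      (∀ γ ∈ Gamma0 (3 * M ^ 2), (⇑f ∣[(1 : ℤ)] γ) = ((K.chi3 (γ 1 1) : ℤ) : ℂ) • ⇑f) ∧
      ∀ p ∈ P, ∀ n : ℕ, ModularFormClass.qCoeff f (p * n) +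
        (if p ∣ n then ModularFormClass.qCoeff f (n / p) else 0) =
          (lam p : ℂ) * ModularFormClass.qCoeff f n := by
  have := neZero_three_mul_sq M
  obtain ⟨g, hg1, hg2, hg3, hg4⟩ := exists_modularForm_of_out h
  obtain ⟨f, hf⟩ := exists_cusp_of_hecke g p hp hpN (lam p) (by exact_mod_cast hl) a (fun z => by
    rw [hg1]
    refine (h.hasSum z z.im_pos).congr_fun fun n => ?_
    rw [ee]
    congr 2
    push_cast
    ring) (h.hecke p hpP)
  refine ⟨f, ?_, ?_, ?_⟩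
  · rintro rfl
    apply hg2
    apply DFunLike.coe_injective
    rw [← hf]
    rfl
  · intro γ hγ
    rw [hf]
    exact hg3 γ hγ
  · intro p hp n
    have e : ∀ n, ModularFormClass.qCoeff f n = a n := by
      intro n
      rw [← hg4 n]
      show ModularFormClass.qCoeff (⇑f) n = ModularFormClass.qCoeff (⇑g) n
      rw [hf]
    rw [e, e, e]
    exact h.hecke p hp n

end

end Fermat.Agent.LT.J
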