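import Mathlib
import Fermat.Agent.LT.A.H3Meas
import Fermat.Agent.LT.J.Herm

/-!
# The joint law of `(cosh d(P,P'), s(X,P'))` under the hyperbolic volume

For `P : H3`, `X : Herm`, `n = q X`, `s = X.s P`, `s² + n > 0`:
the image of `dP'` under `P' ↦ (ch P P', X.s P')` is `2π/√(s²+n)` times Lebesgue measure on
`Dreg n s = {(C, σ) | 0 < C, s² + σ² + n < n C² + 2 s C σ}`.
-/

set_option autoImplicit false

open Complex Matrix MeasureTheory Set

open scoped ComplexConjugate ENNReal

noncomputable section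

namespace Fermat.Agent.LT.J

open Fermat.LT

/-- the region -/
def Dreg (n s : ℝ) : Set (ℝ × ℝ) :=
  {p | 0 < p.1 ∧ s ^ 2 + p.2 ^ 2 + n < n * p.1 ^ 2 + 2 * s * p.1 * p.2}

theorem measurableSet_Dreg (n s : ℝ) : MeasurableSet (Dreg n s) := by
  have h1 : Measurable fun p : ℝ × ℝ => s ^ 2 + p.2 ^ 2 + n := by fun_prop
  have h2 : Measurable fun p : ℝ × ℝ => n * p.1 ^ 2 + 2 * s * p.1 * p.2 := by fun_prop
  exact MeasurableSet.inter (measurableSet_lt measurable_const measurable_fst)
    (measurableSet_lt h1 h2)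

/-- polar coordinates for functions of `|z|²` -/
theorem lintegral_normSq (H : ℝ → ℝ≥0∞) (hH : Measurable H) :
    ∫⁻ z : ℂ, H (normSq z) = ENNReal.ofReal Real.pi * ∫⁻ u in Ioi (0 : ℝ), H u := by
  rw [← Complex.lintegral_comp_polarCoord_symm]
  have h1 : ∀ p : ℝ × ℝ, ENNReal.ofReal p.1 • H (normSq (Complex.polarCoord.symm p)) =
      ENNReal.ofReal p.1 * H (p.1 ^ 2) := by
    intro p
    have : normSq (Complex.polarCoord.symm p) = p.1 ^ 2 := by
      rw [normSq_eq_norm_sq, Complex.norm_polarCoord_symm, sq_abs]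
    rw [this, smul_eq_mul]
  simp_rw [h1]
  have ht : polarCoord.target = Ioi (0 : ℝ) ×ˢ Ioo (-Real.pi) Real.pi := rfl
  have hv : (volume : Measure (ℝ × ℝ)) = (volume : Measure ℝ).prod (volume : Measure ℝ) := rfl
  have hm : Measurable fun r : ℝ => ENNReal.ofReal r * H (r ^ 2) :=
    ENNReal.measurable_ofReal.mul (hH.comp (measurable_id.pow_const 2))
  rw [ht, hv, ← Measure.prod_restrict, lintegral_prod _ (by
    exact ((hm.comp measurable_fst).aemeasurable))]
  simp only [lintegral_const, Measure.restrict_apply, MeasurableSet.univ, univ_inter,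
    Real.volume_Ioo]
  rw [lintegral_mul_const _ hm]
  have h2 : ∫⁻ u in Ioi (0 : ℝ), H u = ∫⁻ r in Ioi (0 : ℝ), ENNReal.ofReal (2 * r) * H (r ^ 2) := by
    have himg : (fun r : ℝ => r ^ 2) '' Ioi (0 : ℝ) = Ioi 0 := by
      ext x
      simp only [mem_image, mem_Ioi]
      constructor
      · rintro ⟨r, hr, rfl⟩; positivity
      · intro hx; exact ⟨Real.sqrt x, Real.sqrt_pos.2 hx, Real.sq_sqrt hx.le⟩
    have hinj : InjOn (fun r : ℝ => r ^ 2) (Ioi 0) := by
      intro x hx y hy h
      exact (pow_left_inj₀ (le_of_lt hx) (le_of_lt hy) two_ne_zero).1 h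
    have := lintegral_image_eq_lintegral_abs_deriv_mul (s := Ioi (0 : ℝ)) measurableSet_Ioi
      (f := fun r : ℝ => r ^ 2) (f' := fun r => 2 * r)
      (fun x _ => by simpa using (hasDerivAt_pow 2 x).hasDerivWithinAt) hinj H
    rw [himg] at this
    rw [this]
    refine setLIntegral_congr_fun measurableSet_Ioi fun r hr => ?_
    have hr : (0 : ℝ) < r := hr
    simp only [abs_of_pos (by positivity : (0 : ℝ) < 2 * r)]
  rw [h2]
  have h3 : ∀ r : ℝ, ENNReal.ofReal (2 * r) * H (r ^ 2) =
      ENNReal.ofReal 2 * (ENNReal.ofReal r * H (r ^ 2)) := by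
    intro r
    rw [ENNReal.ofReal_mul (by norm_num), mul_assoc]
  simp_rw [h3]
  rw [lintegral_const_mul _ hm, ← mul_assoc, ← ENNReal.ofReal_mul Real.pi_pos.le, mul_comm]
  congr 2
  ring

/-- affine substitution on a half line -/
theorem lintegral_affine {c : ℝ} (hc : 0 < c) (e : ℝ) (g : ℝ → ℝ≥0∞) :
    ∫⁻ u in Ioi (0 : ℝ), g ((u + e) / c) = ENNReal.ofReal c * ∫⁻ C in Ioi (e / c), g C := by
  have himg : (fun u : ℝ => (u + e) / c) '' Ioi (0 : ℝ) = Ioi (e / c) := by
    ext x
    simp only [mem_image, mem_Ioi]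
    constructor
    · rintro ⟨r, hr, rfl⟩
      exact div_lt_div_of_pos_right (by linarith) hc
    · intro hx
      rw [div_lt_iff₀ hc] at hx
      exact ⟨x * c - e, by linarith, by field_simp; ring⟩
  have hinj : InjOn (fun u : ℝ => (u + e) / c) (Ioi 0) := by
    intro x _ y _ h
    have h' : (x + e) / c = (y + e) / c := h
    rw [div_left_inj' hc.ne'] at h'
    linarith
  have := lintegral_image_eq_lintegral_abs_deriv_mul (s := Ioi (0 : ℝ)) measurableSet_Ioi
    (f := fun u : ℝ => (u + e) / c) (f' := fun _ => 1 / c)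
    (fun x _ => (((hasDerivAt_id x).add_const e).div_const c).hasDerivWithinAt) hinj g
  rw [himg] at this
  rw [this, ← lintegral_const_mul' _ _ ENNReal.ofReal_ne_top]
  refine setLIntegral_congr_fun measurableSet_Ioi fun u _ => ?_
  rw [← mul_assoc, ← ENNReal.ofReal_mul hc.le, abs_of_pos (by positivity)]
  have : c * (1 / c) = 1 := by field_simp
  rw [this, ENNReal.ofReal_one, one_mul]

/-- the base point -/
def jH : H3 := H3.mk 0 1 one_pos

theorem ch_jH (P : H3) : H3.ch jH P = (normSq P.z + 1 + P.t ^ 2) / (2 * P.t) := by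
  simp [H3.ch, jH]

/-- The case of the base point and a diagonal form. -/
theorem push_diag {a d : ℝ} (had : a ≠ d) (G : ℝ × ℝ → ℝ≥0∞) (hG : Measurable G) :
    ∫⁻ P : H3, G (H3.ch jH P, Herm.s ⟨a, 0, d⟩ P) =
      ENNReal.ofReal (4 * Real.pi / |a - d|) * ∫⁻ p in Dreg (-(a * d)) ((a + d) / 2), G p := by
  -- step 1 : coordinates
  have e1 : ∫⁻ P : H3, G (H3.ch jH P, Herm.s ⟨a, 0, d⟩ P) =
      ∫⁻ P : H3, (fun p : ℂ × ℝ => G ((normSq p.1 + 1 + p.2 ^ 2) / (2 * p.2),
        (a + d * (normSq p.1 + p.2 ^ 2)) / (2 * p.2))) (P.z, P.t) := by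
    congr 1
    ext P
    rw [ch_jH, Herm.s]
    simp
  have hm1 : Measurable (fun p : ℂ × ℝ => G ((normSq p.1 + 1 + p.2 ^ 2) / (2 * p.2),
        (a + d * (normSq p.1 + p.2 ^ 2)) / (2 * p.2))) := by
    apply hG.comp
    have hn : Measurable fun p : ℂ × ℝ => normSq p.1 :=
      continuous_normSq.measurable.comp measurable_fst
    exact (((hn.add_const 1).add (measurable_snd.pow_const 2)).div
      (measurable_snd.const_mul 2)).prodMk
      (((hn.add (measurable_snd.pow_const 2)).const_mul d).const_add a |>.div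
        (measurable_snd.const_mul 2))
  rw [e1, H3.lintegral_eq _ hm1]
  -- step 2 : polar coordinates
  have e2 : ∀ t ∈ Ioi (0 : ℝ), ENNReal.ofReal (t⁻¹ ^ 3) * ∫⁻ z : ℂ,
      G ((normSq z + 1 + t ^ 2) / (2 * t), (a + d * (normSq z + t ^ 2)) / (2 * t)) =
      ENNReal.ofReal (2 * Real.pi) * (ENNReal.ofReal ((t ^ 2)⁻¹) *
        ∫⁻ C : ℝ, (Ioi ((1 + t ^ 2) / (2 * t))).indicator
          (fun C => G (C, d * C + (a - d) / (2 * t))) C) := by
    intro t ht
    have ht : (0 : ℝ) < t := ht
    have hmt : Measurable fun u : ℝ => G ((u + 1 + t ^ 2) / (2 * t),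
        (a + d * (u + t ^ 2)) / (2 * t)) := by
      apply hG.comp
      fun_prop
    rw [lintegral_normSq (fun u => G ((u + 1 + t ^ 2) / (2 * t),
        (a + d * (u + t ^ 2)) / (2 * t))) hmt]
    have h1 : ∀ u : ℝ, G ((u + 1 + t ^ 2) / (2 * t), (a + d * (u + t ^ 2)) / (2 * t)) =
        (fun C => G (C, d * C + (a - d) / (2 * t))) ((u + (1 + t ^ 2)) / (2 * t)) := by
      intro u
      simp only
      congr 2
      · ring
      · field_simp; ring
    simp_rw [h1]
    rw [lintegral_affine (by positivity : (0 : ℝ) < 2 * t) (1 + t ^ 2)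
      (fun C => G (C, d * C + (a - d) / (2 * t))), lintegral_indicator measurableSet_Ioi]
    rw [← mul_assoc, ← mul_assoc, ← mul_assoc, ← ENNReal.ofReal_mul (by positivity),
      ← ENNReal.ofReal_mul (by positivity), ← ENNReal.ofReal_mul (by positivity)]
    congr 2
    field_simp
  rw [setLIntegral_congr_fun measurableSet_Ioi e2]
  -- step 3 : swap
  set K : ℝ → ℝ → ℝ≥0∞ := fun t C => ENNReal.ofReal ((t ^ 2)⁻¹) *
    (Ioi ((1 + t ^ 2) / (2 * t))).indicator (fun C => G (C, d * C + (a - d) / (2 * t))) C with hK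
  have hKm : Measurable (Function.uncurry K) := by
    have hS : MeasurableSet {p : ℝ × ℝ | (1 + p.1 ^ 2) / (2 * p.1) < p.2} :=
      measurableSet_lt (by fun_prop) measurable_snd
    have : Function.uncurry K = fun p : ℝ × ℝ => ENNReal.ofReal ((p.1 ^ 2)⁻¹) *
        {p : ℝ × ℝ | (1 + p.1 ^ 2) / (2 * p.1) < p.2}.indicator
          (fun p => G (p.2, d * p.2 + (a - d) / (2 * p.1))) p := by
      ext ⟨t, C⟩
      simp [K, Function.uncurry, indicator]
    rw [this]
    refine Measurable.mul ?_ (Measurable.indicator ?_ hS)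
    · exact ENNReal.measurable_ofReal.comp ((measurable_fst.pow_const 2).inv)
    · exact hG.comp (by fun_prop)
  have e3 : ∀ t : ℝ, ENNReal.ofReal ((t ^ 2)⁻¹) * ∫⁻ C : ℝ, (Ioi ((1 + t ^ 2) / (2 * t))).indicator
          (fun C => G (C, d * C + (a - d) / (2 * t))) C = ∫⁻ C : ℝ, K t C := by
    intro t
    rw [← lintegral_const_mul' _ _ ENNReal.ofReal_ne_top]
  simp_rw [e3]
  rw [lintegral_const_mul' _ _ ENNReal.ofReal_ne_top, lintegral_lintegral_swap
    (by exact hKm.aemeasurable)]
  -- step 4 : substitution `t ↦ σ`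
  have hδ : 0 < |a - d| := abs_pos.2 (sub_ne_zero.2 had)
  have e4 : ∀ C : ℝ, ∫⁻ t in Ioi (0 : ℝ), K t C = ENNReal.ofReal (2 / |a - d|) *
      ∫⁻ σ : ℝ, (Dreg (-(a * d)) ((a + d) / 2)).indicator G (C, σ) := by
    intro C
    set f : ℝ → ℝ := fun t => d * C + (a - d) / (2 * t) with hf
    have hinj : InjOn f (Ioi 0) := by
      intro x hx y hy h
      have hx : (0 : ℝ) < x := hx
      have hy : (0 : ℝ) < y := hy
      have h1 : (a - d) / (2 * x) = (a - d) / (2 * y) := add_left_cancel h
      rw [div_eq_div_iff (by positivity) (by positivity)] at h1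
      have h2 := mul_left_cancel₀ (sub_ne_zero.2 had) h1
      linarith
    have hder : ∀ x ∈ Ioi (0 : ℝ), HasDerivWithinAt f (-(a - d) / (2 * x ^ 2)) (Ioi 0) x := by
      intro x hx
      have hx : (0 : ℝ) < x := hx
      have h1 : HasDerivAt (fun t : ℝ => 2 * t) 2 x := by
        simpa using (hasDerivAt_id x).const_mul 2
      have h2 := ((hasDerivAt_const x (a - d)).div h1 (by positivity)).const_add (d * C)
      refine h2.hasDerivWithinAt.congr_deriv ?_
      field_simp
      ring
    have key := lintegral_image_eq_lintegral_abs_deriv_mul (s := Ioi (0 : ℝ)) measurableSet_Ioi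
      hder hinj (fun σ => (Dreg (-(a * d)) ((a + d) / 2)).indicator G (C, σ))
    have hzero : ∀ σ ∉ f '' Ioi 0, (Dreg (-(a * d)) ((a + d) / 2)).indicator G (C, σ) = 0 := by
      intro σ hσ
      apply indicator_of_notMem
      rintro ⟨hC, hD⟩
      simp only at hC hD
      apply hσ
      -- v = 2 (σ - d C) / (a - d)
      have had' : a - d ≠ 0 := sub_ne_zero.2 had
      set v := 2 * (σ - d * C) / (a - d) with hv
      have hσv : σ = d * C + (a - d) * v / 2 := by rw [hv]; field_simp; ring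
      have hq : v ^ 2 - 2 * C * v + 1 < 0 := by
        have h1 : (a - d) ^ 2 / 4 * (v ^ 2 - 2 * C * v + 1) < 0 := by
          have : (a - d) ^ 2 / 4 * (v ^ 2 - 2 * C * v + 1) =
              (((a + d) / 2) ^ 2 + σ ^ 2 + -(a * d)) - (-(a * d) * C ^ 2 + 2 * ((a + d) / 2) * C * σ)
              := by rw [hσv]; ring
          rw [this]; linarith
        have h2 : 0 < (a - d) ^ 2 / 4 := by positivity
        by_contra hcon
        push Not at hcon
        nlinarith
      have hvpos : 0 < v := by nlinarith [sq_nonneg v]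
      refine ⟨1 / v, by simpa using hvpos, ?_⟩
      rw [hf]
      simp only
      rw [hσv]
      field_simp
    have e5 : ∫⁻ σ : ℝ, (Dreg (-(a * d)) ((a + d) / 2)).indicator G (C, σ) =
        ∫⁻ σ in f '' Ioi 0, (Dreg (-(a * d)) ((a + d) / 2)).indicator G (C, σ) := by
      have hms : MeasurableSet (f '' Ioi 0) :=
        measurableSet_Ioi.image_of_continuousOn_injOn
          (fun x hx => (hder x hx).continuousWithinAt) hinj
      rw [← lintegral_indicator hms]
      congr 1
      ext σ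
      by_cases h : σ ∈ f '' Ioi 0
      · rw [indicator_of_mem h]
      · rw [indicator_of_notMem h, hzero σ h]
    rw [e5, key, ← lintegral_const_mul' _ _ ENNReal.ofReal_ne_top]
    refine setLIntegral_congr_fun measurableSet_Ioi fun t ht => ?_
    have ht : (0 : ℝ) < t := ht
    simp only [hK]
    rw [← mul_assoc, ← ENNReal.ofReal_mul (by positivity)]
    have h1 : 2 / |a - d| * |-(a - d) / (2 * t ^ 2)| = (t ^ 2)⁻¹ := by
      rw [abs_div, abs_neg, abs_of_pos (by positivity : (0 : ℝ) < 2 * t ^ 2)]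
      field_simp
    rw [h1]
    congr 1
    have had' : a - d ≠ 0 := sub_ne_zero.2 had
    have hiff : (C ∈ Ioi ((1 + t ^ 2) / (2 * t))) ↔ (C, f t) ∈ Dreg (-(a * d)) ((a + d) / 2) := by
      rw [mem_Ioi, div_lt_iff₀ (by positivity)]
      have hid : (((a + d) / 2) ^ 2 + (f t) ^ 2 + -(a * d)) -
          (-(a * d) * C ^ 2 + 2 * ((a + d) / 2) * C * f t) =
          (a - d) ^ 2 / (4 * t ^ 2) * (1 + t ^ 2 - C * (2 * t)) := by
        rw [hf]; field_simp; ring
      have hpos : 0 < (a - d) ^ 2 / (4 * t ^ 2) := by positivity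
      constructor
      · intro h
        refine ⟨?_, ?_⟩
        · simp only; nlinarith [sq_nonneg t]
        · simp only
          have : (a - d) ^ 2 / (4 * t ^ 2) * (1 + t ^ 2 - C * (2 * t)) < 0 :=
            mul_neg_of_pos_of_neg hpos (by linarith)
          linarith
      · rintro ⟨_, h⟩
        simp only at h
        have h2 : (a - d) ^ 2 / (4 * t ^ 2) * (1 + t ^ 2 - C * (2 * t)) < 0 := by linarith
        by_contra hcon
        push Not at hcon
        nlinarith [mul_nonneg hpos.le (sub_nonneg.2 hcon)]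
    by_cases h : C ∈ Ioi ((1 + t ^ 2) / (2 * t))
    · rw [indicator_of_mem h, indicator_of_mem (hiff.1 h)]
    · rw [indicator_of_notMem h, indicator_of_notMem (fun h' => h (hiff.2 h'))]
  simp_rw [e4]
  have hGm : Measurable ((Dreg (-(a * d)) ((a + d) / 2)).indicator G) :=
    hG.indicator (measurableSet_Dreg _ _)
  rw [lintegral_const_mul' _ _ ENNReal.ofReal_ne_top, ← mul_assoc,
    ← ENNReal.ofReal_mul (by positivity)]
  have hv : (volume : Measure (ℝ × ℝ)) = (volume : Measure ℝ).prod (volume : Measure ℝ) := rfl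
  rw [← lintegral_indicator (measurableSet_Dreg _ _), hv, lintegral_prod _ hGm.aemeasurable]
  congr 2
  ring

end Fermat.Agent.LT.J
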